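import Mathlib

/-!
# Strand D of S44: the Čech `H¹` of the two-chart cover of the `j`-line is finite free

Level-free (Mathlib only).  `O` a ring, `L` a field over `O`, `u : L` a unit, and three
`O`-subalgebras `C0, C1 ≤ C01` of `L` (in the application: the integral closures of `O[u]`,
`O[u⁻¹]`, `O[u, u⁻¹]` in `L`, vocabulary of `S30/Model/CechP1.connected_subalgebra`).

* `cech_fg` : `C01 = C0 + C1 + (a finitely generated O-module)`; only needs that `C0` is a finite
  `O[u]`-module and that `C01 = C0[u⁻¹] = C1[u]`.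
* `cech_sat` : if `π C01 ∩ C0 = π C0`, `π C01 ∩ C1 = π C1` and the only elements of
  `C0/π ∩ C1/π` (inside `C01/π`) are the constants, then `π x ∈ C0 + C1` implies `x ∈ C0 + C1`.
* `CechH C0 C1 C01` : the `O`-module `C01 / (C0 + C1)`; `cechH_finite`, `cechH_isTorsionFree`,
  `cechH_free` (over a discrete valuation ring).
* `exists_lift_functional` : functionals with values in a quotient of `O` lift along a free
  module.
-/

set_option autoImplicit false

open Polynomial

namespace Fermat.Agent.S44.D.CechFree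

variable {O L : Type*} [CommRing O] [Field L] [Algebra O L]

/-- The sum `C0 + C1` of the two chart rings, as an `O`-submodule of `L`. -/
def chartSum (C0 C1 : Subalgebra O L) : Submodule O L :=
  Subalgebra.toSubmodule C0 ⊔ Subalgebra.toSubmodule C1

theorem mem_chartSum_of_mem_left {C0 C1 : Subalgebra O L} {x : L} (hx : x ∈ C0) :
    x ∈ chartSum C0 C1 :=
  Submodule.mem_sup_left hx

theorem mem_chartSum_of_mem_right {C0 C1 : Subalgebra O L} {x : L} (hx : x ∈ C1) :
    x ∈ chartSum C0 C1 :=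
  Submodule.mem_sup_right hx

theorem mem_chartSum_iff {C0 C1 : Subalgebra O L} {x : L} :
    x ∈ chartSum C0 C1 ↔ ∃ a ∈ C0, ∃ b ∈ C1, a + b = x := by
  unfold chartSum
  rw [Submodule.mem_sup]
  rfl

/-- **Finite generation of the Čech `H¹`.**  If `C0` is spanned over `O[u]` by a finite set and
`C01 = C0[u⁻¹] = C1[u]`, then `C01` is the sum of `C0`, `C1` and a finitely generated
`O`-module. -/
theorem cech_fg (C0 C1 C01 : Subalgebra O L) (h0le : C0 ≤ C01) (h1le : C1 ≤ C01)
    (u : L) (hu : u ≠ 0) (hu0 : u ∈ C0) (hu1 : u⁻¹ ∈ C1)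
    (hfin : ∃ s : Finset L, (∀ β ∈ s, β ∈ C0) ∧
      ∀ x : L, x ∈ C0 → ∃ f : L → O[X], x = ∑ β ∈ s, aeval u (f β) * β)
    (hloc1 : ∀ w : L, w ∈ C01 → ∃ n : ℕ, u⁻¹ ^ n * w ∈ C1)
    (hloc0 : ∀ w : L, w ∈ C01 → ∃ n : ℕ, u ^ n * w ∈ C0) :
    ∃ t : Finset L, (∀ y ∈ t, y ∈ C01) ∧
      ∀ x : L, x ∈ C01 → x ∈ chartSum C0 C1 ⊔ Submodule.span O (t : Set L) := by
  classical
  obtain ⟨s, hs0, hs⟩ := hfin
  have hex : ∀ β : L, ∃ n : ℕ, β ∈ s → u⁻¹ ^ n * β ∈ C1 := by
    intro β
    by_cases hβ : β ∈ s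
    · obtain ⟨n, hn⟩ := hloc1 β (h0le (hs0 β hβ))
      exact ⟨n, fun _ => hn⟩
    · exact ⟨0, fun h => absurd h hβ⟩
  choose a ha using hex
  refine ⟨s.biUnion fun β => (Finset.range (a β)).image fun d => u⁻¹ ^ d * β, ?_, ?_⟩
  · intro y hy
    obtain ⟨β, hβ, hy⟩ := Finset.mem_biUnion.mp hy
    obtain ⟨d, -, rfl⟩ := Finset.mem_image.mp hy
    exact mul_mem (pow_mem (h1le hu1) d) (h0le (hs0 β hβ))
  · intro x hx
    set t : Finset L := s.biUnion fun β => (Finset.range (a β)).image fun d => u⁻¹ ^ d * β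
      with ht
    set S : Submodule O L := chartSum C0 C1 ⊔ Submodule.span O (t : Set L) with hS
    obtain ⟨m, hm⟩ := hloc0 x hx
    obtain ⟨f, hf⟩ := hs _ hm
    -- the monomial claim
    have hmono : ∀ β ∈ s, ∀ i : ℕ, u⁻¹ ^ m * (u ^ i * β) ∈ S := by
      intro β hβ i
      rcases le_or_gt m i with hmi | hmi
      · -- `u^(i-m) β ∈ C0`
        have e : u⁻¹ ^ m * (u ^ i * β) = u ^ (i - m) * β := by
          have : u ^ i = u ^ m * u ^ (i - m) := by rw [← pow_add]; congr 1; omega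
          rw [this, inv_pow]
          field_simp
        rw [e]
        exact Submodule.mem_sup_left
          (mem_chartSum_of_mem_left (mul_mem (pow_mem hu0 _) (hs0 β hβ)))
      · -- `u^-(m-i) β`
        have e : u⁻¹ ^ m * (u ^ i * β) = u⁻¹ ^ (m - i) * β := by
          have : u⁻¹ ^ m = u⁻¹ ^ (m - i) * u⁻¹ ^ i := by rw [← pow_add]; congr 1; omega
          rw [this, inv_pow, inv_pow]
          field_simp
        rw [e]
        rcases lt_or_ge (m - i) (a β) with hd | hd
        · refine Submodule.mem_sup_right (Submodule.subset_span ?_)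
          rw [ht]
          exact Finset.mem_coe.mpr (Finset.mem_biUnion.mpr
            ⟨β, hβ, Finset.mem_image.mpr ⟨m - i, Finset.mem_range.mpr hd, rfl⟩⟩)
        · have e2 : u⁻¹ ^ (m - i) * β = u⁻¹ ^ (m - i - a β) * (u⁻¹ ^ a β * β) := by
            have : u⁻¹ ^ (m - i) = u⁻¹ ^ (m - i - a β) * u⁻¹ ^ a β := by
              rw [← pow_add]; congr 1; omega
            rw [this, mul_assoc]
          rw [e2]
          exact Submodule.mem_sup_left
            (mem_chartSum_of_mem_right (mul_mem (pow_mem hu1 _) (ha β hβ)))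
    have hpoly : ∀ β ∈ s, ∀ p : O[X], u⁻¹ ^ m * (aeval u p * β) ∈ S := by
      intro β hβ p
      induction p using Polynomial.induction_on' with
      | add p q hp hq =>
        rw [map_add, add_mul, mul_add]
        exact Submodule.add_mem _ hp hq
      | monomial i c =>
        rw [aeval_monomial]
        have e : u⁻¹ ^ m * (algebraMap O L c * u ^ i * β) = c • (u⁻¹ ^ m * (u ^ i * β)) := by
          rw [Algebra.smul_def]; ring
        rw [e]
        exact Submodule.smul_mem _ _ (hmono β hβ i)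
    have hx' : x = ∑ β ∈ s, u⁻¹ ^ m * (aeval u (f β) * β) := by
      rw [← Finset.mul_sum, ← hf, ← mul_assoc, inv_pow, inv_mul_cancel₀ (pow_ne_zero m hu),
        one_mul]
    rw [hx']
    exact Submodule.sum_mem _ fun β hβ => hpoly β hβ (f β)

/-- **Saturation of `C0 + C1` in `C01`.**  If `π C01 ∩ C0 = π C0`, `π C01 ∩ C1 = π C1` and an
element of `C0` which is congruent modulo `π C01` to an element of `C1` is congruent to a
constant, then `π x ∈ C0 + C1` implies `x ∈ C0 + C1` (`x ∈ C01`). -/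
theorem cech_sat (π : O) (C0 C1 C01 : Subalgebra O L)
    (hsat0 : ∀ x : L, x ∈ C01 → algebraMap O L π * x ∈ C0 → x ∈ C0)
    (hsat1 : ∀ x : L, x ∈ C01 → algebraMap O L π * x ∈ C1 → x ∈ C1)
    (hconst : ∀ a : L, a ∈ C0 → ∀ b : L, b ∈ C1 →
      (∃ x : L, x ∈ C01 ∧ a + b = algebraMap O L π * x) →
      ∃ c : O, ∃ y : L, y ∈ C01 ∧ a - algebraMap O L c = algebraMap O L π * y)
    (x : L) (hx : x ∈ C01) (hπx : algebraMap O L π * x ∈ chartSum C0 C1) :
    x ∈ chartSum C0 C1 := by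
  obtain ⟨a, ha, b, hb, hab⟩ := mem_chartSum_iff.mp hπx
  obtain ⟨c, y, hy, hc⟩ := hconst a ha b hb ⟨x, hx, hab⟩
  have hy0 : y ∈ C0 := hsat0 y hy (by rw [← hc]; exact sub_mem ha (C0.algebraMap_mem c))
  have hxy : x - y ∈ C1 := by
    refine hsat1 (x - y) (sub_mem hx hy) ?_
    have e : algebraMap O L π * (x - y) = b + algebraMap O L c := by
      rw [mul_sub, ← hab, ← hc]; ring
    rw [e]
    exact add_mem hb (C1.algebraMap_mem c)
  exact mem_chartSum_iff.mpr ⟨y, hy0, x - y, hxy, by ring⟩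

/-- The Čech `H¹`: the `O`-module `C01 / (C0 + C1)`. -/
abbrev CechH (C0 C1 C01 : Subalgebra O L) : Type _ :=
  (Subalgebra.toSubmodule C01) ⧸
    (chartSum C0 C1).comap (Subalgebra.toSubmodule C01).subtype

/-- The class of an element of `C01` in the Čech `H¹`. -/
def cechClass (C0 C1 C01 : Subalgebra O L) :
    (Subalgebra.toSubmodule C01) →ₗ[O] CechH C0 C1 C01 :=
  Submodule.mkQ _

theorem cechClass_surjective (C0 C1 C01 : Subalgebra O L) :
    Function.Surjective (cechClass C0 C1 C01) :=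
  Submodule.mkQ_surjective _

theorem cechClass_eq_zero_iff (C0 C1 C01 : Subalgebra O L)
    (x : Subalgebra.toSubmodule C01) :
    cechClass C0 C1 C01 x = 0 ↔ (x : L) ∈ chartSum C0 C1 := by
  unfold cechClass
  rw [Submodule.mkQ_apply, Submodule.Quotient.mk_eq_zero]
  rfl

/-- The Čech `H¹` is a finite `O`-module. -/
theorem cechH_finite (C0 C1 C01 : Subalgebra O L) (h0le : C0 ≤ C01) (h1le : C1 ≤ C01)
    (u : L) (hu : u ≠ 0) (hu0 : u ∈ C0) (hu1 : u⁻¹ ∈ C1)
    (hfin : ∃ s : Finset L, (∀ β ∈ s, β ∈ C0) ∧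
      ∀ x : L, x ∈ C0 → ∃ f : L → O[X], x = ∑ β ∈ s, aeval u (f β) * β)
    (hloc1 : ∀ w : L, w ∈ C01 → ∃ n : ℕ, u⁻¹ ^ n * w ∈ C1)
    (hloc0 : ∀ w : L, w ∈ C01 → ∃ n : ℕ, u ^ n * w ∈ C0) :
    Module.Finite O (CechH C0 C1 C01) := by
  classical
  obtain ⟨t, ht, hspan⟩ := cech_fg C0 C1 C01 h0le h1le u hu hu0 hu1 hfin hloc1 hloc0
  -- the span of `t` inside `C01`
  have hle : Submodule.span O (t : Set L) ≤ Subalgebra.toSubmodule C01 :=
    Submodule.span_le.mpr fun y hy => ht y (Finset.mem_coe.mp hy)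
  let g : Submodule.span O (t : Set L) →ₗ[O] CechH C0 C1 C01 :=
    (cechClass C0 C1 C01).comp (Submodule.inclusion hle)
  have hg : Function.Surjective g := by
    intro h
    obtain ⟨x, rfl⟩ := cechClass_surjective C0 C1 C01 h
    obtain ⟨y, hy, z, hz, hyz⟩ := Submodule.mem_sup.mp (hspan x.1 x.2)
    refine ⟨⟨z, hz⟩, ?_⟩
    show cechClass C0 C1 C01 (Submodule.inclusion hle ⟨z, hz⟩) = cechClass C0 C1 C01 x
    rw [← sub_eq_zero, ← map_sub, cechClass_eq_zero_iff]
    have e : ((Submodule.inclusion hle ⟨z, hz⟩ - x : Subalgebra.toSubmodule C01) : L) = -y := by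
      rw [Submodule.coe_sub, Submodule.coe_inclusion, ← hyz]; ring
    rw [e]
    exact Submodule.neg_mem _ hy
  have : Module.Finite O (Submodule.span O (t : Set L)) :=
    Module.Finite.span_of_finite O t.finite_toSet
  exact Module.Finite.of_surjective g hg

/-- The Čech `H¹` is torsion-free over a discrete valuation ring `O` with uniformiser `π`. -/
theorem cechH_isTorsionFree [IsDomain O] [IsDiscreteValuationRing O] (π : O)
    (hπ : Irreducible π) (C0 C1 C01 : Subalgebra O L)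
    (hsat0 : ∀ x : L, x ∈ C01 → algebraMap O L π * x ∈ C0 → x ∈ C0)
    (hsat1 : ∀ x : L, x ∈ C01 → algebraMap O L π * x ∈ C1 → x ∈ C1)
    (hconst : ∀ a : L, a ∈ C0 → ∀ b : L, b ∈ C1 →
      (∃ x : L, x ∈ C01 ∧ a + b = algebraMap O L π * x) →
      ∃ c : O, ∃ y : L, y ∈ C01 ∧ a - algebraMap O L c = algebraMap O L π * y) :
    Module.IsTorsionFree O (CechH C0 C1 C01) := by
  have hstep : ∀ h : CechH C0 C1 C01, π • h = 0 → h = 0 := by
    intro h hh
    obtain ⟨x, rfl⟩ := cechClass_surjective C0 C1 C01 h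
    rw [← map_smul, cechClass_eq_zero_iff] at hh
    rw [cechClass_eq_zero_iff]
    refine cech_sat π C0 C1 C01 hsat0 hsat1 hconst x.1 x.2 ?_
    have e : ((π • x : Subalgebra.toSubmodule C01) : L) = algebraMap O L π * (x : L) := by
      rw [Submodule.coe_smul, Algebra.smul_def]
    rwa [e] at hh
  have hpow : ∀ (n : ℕ) (h : CechH C0 C1 C01), π ^ n • h = 0 → h = 0 := by
    intro n
    induction n with
    | zero => intro h hh; simpa using hh
    | succ n ih =>
      intro h hh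
      rw [pow_succ, mul_smul] at hh
      exact hstep h (ih _ hh)
  refine ⟨fun r hr h₁ h₂ h12 => ?_⟩
  have hr0 : r ≠ 0 := hr.ne_zero
  obtain ⟨n, w, rfl⟩ := IsDiscreteValuationRing.eq_unit_mul_pow_irreducible hr0 hπ
  have h12' : (w : O) • (π ^ n • (h₁ - h₂)) = 0 := by
    rw [← mul_smul, smul_sub, sub_eq_zero]
    exact h12
  have h3 : π ^ n • (h₁ - h₂) = 0 := by
    have := congrArg (fun z => ((w⁻¹ : Oˣ) : O) • z) h12'
    simpa [← mul_smul] using this
  exact sub_eq_zero.mp (hpow n _ h3)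

/-- **The Čech `H¹` is finite free** over a discrete valuation ring. -/
theorem cechH_free [IsDomain O] [IsDiscreteValuationRing O] (π : O)
    (hπ : Irreducible π) (C0 C1 C01 : Subalgebra O L) (h0le : C0 ≤ C01) (h1le : C1 ≤ C01)
    (u : L) (hu : u ≠ 0) (hu0 : u ∈ C0) (hu1 : u⁻¹ ∈ C1)
    (hfin : ∃ s : Finset L, (∀ β ∈ s, β ∈ C0) ∧
      ∀ x : L, x ∈ C0 → ∃ f : L → O[X], x = ∑ β ∈ s, aeval u (f β) * β)
    (hloc1 : ∀ w : L, w ∈ C01 → ∃ n : ℕ, u⁻¹ ^ n * w ∈ C1)
    (hloc0 : ∀ w : L, w ∈ C01 → ∃ n : ℕ, u ^ n * w ∈ C0)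
    (hsat0 : ∀ x : L, x ∈ C01 → algebraMap O L π * x ∈ C0 → x ∈ C0)
    (hsat1 : ∀ x : L, x ∈ C01 → algebraMap O L π * x ∈ C1 → x ∈ C1)
    (hconst : ∀ a : L, a ∈ C0 → ∀ b : L, b ∈ C1 →
      (∃ x : L, x ∈ C01 ∧ a + b = algebraMap O L π * x) →
      ∃ c : O, ∃ y : L, y ∈ C01 ∧ a - algebraMap O L c = algebraMap O L π * y) :
    Module.Finite O (CechH C0 C1 C01) ∧ Module.Free O (CechH C0 C1 C01) := by
  have h1 : Module.Finite O (CechH C0 C1 C01) :=
    cechH_finite C0 C1 C01 h0le h1le u hu hu0 hu1 hfin hloc1 hloc0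
  have h2 : Module.IsTorsionFree O (CechH C0 C1 C01) :=
    cechH_isTorsionFree π hπ C0 C1 C01 hsat0 hsat1 hconst
  exact ⟨h1, Module.free_of_finite_type_torsion_free'⟩

/-- **Lifting functionals along a free module.**  `H` a free `O`-module, `k` a ring which is a
quotient of `O` (`algebraMap O k` surjective): every `O`-linear `H → k` lifts to `H → O`. -/
theorem exists_lift_functional {H k : Type*} [AddCommGroup H] [Module O H] [Module.Free O H]
    [CommRing k] [Algebra O k] (hsurj : Function.Surjective (algebraMap O k))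
    (lam : H →ₗ[O] k) :
    ∃ Lam : H →ₗ[O] O, ∀ h : H, algebraMap O k (Lam h) = lam h := by
  obtain ⟨Lam, hLam⟩ := Module.projective_lifting_property (Algebra.linearMap O k) lam hsurj
  exact ⟨Lam, fun h => by
    have := LinearMap.congr_fun hLam h
    simpa using this⟩

end Fermat.Agent.S44.D.CechFree
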