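import Mathlib
import Fermat.Prelude.Def_ModularCurve_LaurentCoeff
import Fermat.Agent.S44.D.CechFree
import Fermat.Agent.S30.Model.CechP1
import Fermat.Agent.S30.Model.GlueChart
import Fermat.Agent.S30.Model.ChartProv
import Fermat.Agent.S30.Model.LaurentConst
import Fermat.Agent.S30.GaussDVR
import Fermat.Agent.S30.GaussBridge
import Fermat.Agent.S30.GaussOne
import Fermat.Agent.S48.G1.K1.GaussInt

/-!
# Strand D of S44: the Čech `H¹` of the three concrete charts is finite free (adapter)

Level-free.  `O` a discrete valuation ring with fraction field `E`, `L / E` a field with a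
`q`-expansion `emb : L →ₐ[E] E((q))`, `u : L` with integral expansion having a pole modulo the
maximal ideal (`u = j` in the application).  The three chart rings are the integral closures of
`O[u]`, `O[u⁻¹]`, `O[u, u⁻¹]` in `L` (`S30/Model/CechP1.chart`).

This file discharges the hypotheses of `CechFree.cechH_free` for these charts:

* `hsat0`, `hsat1` : `π C01 ∩ C0 = π C0`, `π C01 ∩ C1 = π C1` (no model theorem: `O[u]` is
  normal and `π ∤ u`).
* `hconst` : an element of `C0` congruent modulo `π C01` to an element of `C1` is congruent to a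
  constant.  This is the only place where the model theorem (`π` prime in `C0`) enters.
* `cechH_free_charts` : `C01 / (C0 + C1)` is a finite free `O`-module.

On the way: the subring `gaussSub` of elements with Gauss-integral expansion, the reduction
homomorphism `redHom` to `k((q))` (`k` the residue field), and the transfer of integrality along
it (`redHom_isIntegral`).
-/

set_option autoImplicit false
set_option linter.unusedSectionVars false

open Polynomial ModularCurve

noncomputable section

namespace Fermat.Agent.S44.D.CechAdapter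

open Fermat.Agent.S30 Fermat.Agent.S30.Model Fermat.Agent.S48.G1.K1

/-! ### An explicit integral equation gives integrality -/

/-- Converse of `CechP1.exists_eqn_of_isIntegral`: an explicit monic equation with coefficients
polynomial in `t` shows integrality over `R[t]`. -/
theorem isIntegral_of_eqn {R A : Type*} [CommRing R] [CommRing A] [Algebra R A] (t x : A) (d : ℕ)
    (a : ℕ → R[X]) (h : x ^ d = ∑ i ∈ Finset.range d, aeval t (a i) * x ^ i) :
    IsIntegral (Algebra.adjoin R {t}) x := by
  classical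
  have hmem : ∀ i, aeval t (a i) ∈ Algebra.adjoin R {t} := fun i => by
    rw [Algebra.adjoin_singleton_eq_range_aeval]; exact ⟨a i, rfl⟩
  set q : (Algebra.adjoin R {t})[X] :=
    ∑ i ∈ Finset.range d, C (⟨aeval t (a i), hmem i⟩ : Algebra.adjoin R {t}) * X ^ i with hq
  have hdeg : q.degree < d := by
    refine lt_of_le_of_lt (degree_sum_le _ _) ?_
    refine (Finset.sup_lt_iff (WithBot.bot_lt_coe d)).mpr fun i hi => ?_
    exact lt_of_le_of_lt (degree_C_mul_X_pow_le i _)
      (WithBot.coe_lt_coe.mpr (Finset.mem_range.mp hi))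
  refine ⟨X ^ d - q, monic_X_pow_sub hdeg, ?_⟩
  rw [eval₂_sub, eval₂_X_pow, hq, eval₂_finsetSum, h, sub_eq_zero]
  refine Finset.sum_congr rfl fun i _ => ?_
  rw [eval₂_mul, eval₂_C, eval₂_X_pow]
  rfl

variable {O E : Type*} [CommRing O] [IsDomain O] [IsDiscreteValuationRing O] [Field E]
  [Algebra O E] [IsFractionRing O E]
variable {L : Type*} [Field L] [Algebra E L] [Algebra O L] [IsScalarTower O E L]

/-! ### The three charts -/

/-- The chart ring at `u`: the integral closure of `O[u]` in `L`. -/
abbrev C0 (u : L) : Subalgebra O L := CechP1.chart O ({u} : Set L)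

/-- The chart ring at `u⁻¹`: the integral closure of `O[u⁻¹]` in `L`. -/
abbrev C1 (u : L) : Subalgebra O L := CechP1.chart O ({u⁻¹} : Set L)

/-- The overlap ring: the integral closure of `O[u, u⁻¹]` in `L`. -/
abbrev C01 (u : L) : Subalgebra O L := CechP1.chart O ({u, u⁻¹} : Set L)

theorem C0_le_C01 (u : L) : C0 (O := O) u ≤ C01 u := CechP1.chart_mono (by simp)

theorem C1_le_C01 (u : L) : C1 (O := O) u ≤ C01 u := CechP1.chart_mono (by simp)

theorem self_mem_C0 (u : L) : u ∈ C0 (O := O) u :=
  CechP1.isIntegral_adjoin_of_mem (Algebra.subset_adjoin (Set.mem_singleton u))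

theorem inv_mem_C1 (u : L) : u⁻¹ ∈ C1 (O := O) u :=
  CechP1.isIntegral_adjoin_of_mem (Algebra.subset_adjoin (Set.mem_singleton u⁻¹))

/-- `C01 = C0[u⁻¹]`. -/
theorem hloc0 (u : L) (hu0 : u ≠ 0) :
    ∀ w : L, w ∈ C01 (O := O) u → ∃ n : ℕ, u ^ n * w ∈ C0 (O := O) u :=
  fun w hw => CechP1.exists_pow_mul_isIntegral u hu0 w hw

/-- `C01 = C1[u]`. -/
theorem hloc1 (u : L) (hu0 : u ≠ 0) :
    ∀ w : L, w ∈ C01 (O := O) u → ∃ n : ℕ, u⁻¹ ^ n * w ∈ C1 (O := O) u := by
  intro w hw
  have hw' : IsIntegral (Algebra.adjoin O {u⁻¹, u⁻¹⁻¹}) w := by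
    rw [inv_inv, Set.pair_comm]; exact hw
  exact CechP1.exists_pow_mul_isIntegral u⁻¹ (inv_ne_zero hu0) w hw'

/-! ### Saturation: no model theorem needed -/

/-- `t` transcendental over `E`: if `t ^ n * x` and `π * x` are integral over `O[t]`, so is
`x`. -/
theorem isIntegral_of_pow_mul_of_unif_mul (π : O) (hπ : Irreducible π) (t : L)
    (ht : Transcendental E t) (x : L) (n : ℕ)
    (hn : IsIntegral (Algebra.adjoin O {t}) (t ^ n * x))
    (hπx : IsIntegral (Algebra.adjoin O {t}) (algebraMap O L π * x)) :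
    IsIntegral (Algebra.adjoin O {t}) x := by
  have hπL : algebraMap O L π ≠ 0 := fun h0 =>
    hπ.ne_zero (ChartProv.algebraMap_injective_base O E L (h0.trans (map_zero _).symm))
  have ht_int : IsIntegral (Algebra.adjoin O {t}) t :=
    CechP1.isIntegral_adjoin_of_mem (Algebra.subset_adjoin (Set.mem_singleton t))
  have h := GlueChart.isIntegral_div_of_pow_mul (S := Algebra.adjoin O {t}) t
    (algebraMap O L π) ht_int (fun y hy h => ChartProv.chart_nzd π hπ t ht y hy h) n
    (algebraMap O L π * x) hπx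
    (by
      have e : t ^ n * (algebraMap O L π * x) / algebraMap O L π = t ^ n * x := by
        field_simp
      rw [e]; exact hn)
  rwa [mul_div_cancel_left₀ _ hπL] at h

theorem ne_zero_of_transcendental (u : L) (htr : Transcendental E u) : u ≠ 0 := by
  rintro rfl
  exact htr isAlgebraic_zero

theorem transcendental_inv (u : L) (htr : Transcendental E u) : Transcendental E u⁻¹ := by
  intro h
  apply htr
  have := h.inv
  rwa [inv_inv] at this

/-- **Saturation at the chart `u`**: `π C01 ∩ C0 = π C0`. -/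
theorem hsat0 (π : O) (hπ : Irreducible π) (u : L) (htr : Transcendental E u) :
    ∀ x : L, x ∈ C01 (O := O) u → algebraMap O L π * x ∈ C0 (O := O) u →
      x ∈ C0 (O := O) u := by
  intro x hx hπx
  obtain ⟨n, hn⟩ := hloc0 u (ne_zero_of_transcendental u htr) x hx
  exact isIntegral_of_pow_mul_of_unif_mul π hπ u htr x n hn hπx

/-- **Saturation at the chart `u⁻¹`**: `π C01 ∩ C1 = π C1`. -/
theorem hsat1 (π : O) (hπ : Irreducible π) (u : L) (htr : Transcendental E u) :
    ∀ x : L, x ∈ C01 (O := O) u → algebraMap O L π * x ∈ C1 (O := O) u →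
      x ∈ C1 (O := O) u := by
  intro x hx hπx
  obtain ⟨n, hn⟩ := hloc1 u (ne_zero_of_transcendental u htr) x hx
  exact isIntegral_of_pow_mul_of_unif_mul π hπ u⁻¹ (transcendental_inv u htr) x n hn hπx

/-! ### The reduction homomorphism -/

variable (O) in
/-- The subring of `L` of the elements whose `q`-expansion lies in the Gauss ring. -/
def gaussSub (emb : L →ₐ[E] LaurentSeries E) : Subring L :=
  (GaussDVR.V O E).comap (emb : L →+* LaurentSeries E)

theorem mem_gaussSub {emb : L →ₐ[E] LaurentSeries E} {x : L} :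
    x ∈ gaussSub O emb ↔ emb x ∈ GaussDVR.V O E := Iff.rfl

variable (O) in
/-- The reduction homomorphism `{x : L | emb x ∈ V} → k((q))`. -/
def redHom (emb : L →ₐ[E] LaurentSeries E) :
    gaussSub O emb →+* LaurentSeries (IsLocalRing.ResidueField O) :=
  (GaussDVR.red O E).comp
    ((emb : L →+* LaurentSeries E).restrict (gaussSub O emb) (GaussDVR.V O E) fun _ hx => hx)

theorem redHom_apply (emb : L →ₐ[E] LaurentSeries E) (x : gaussSub O emb) :
    redHom O emb x = GaussDVR.red O E ⟨emb (x : L), x.2⟩ := rfl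

/-- Constants lie in `gaussSub`. -/
theorem algebraMap_mem_gaussSub (emb : L →ₐ[E] LaurentSeries E) (r : O) :
    algebraMap O L r ∈ gaussSub O emb := by
  show emb (algebraMap O L r) ∈ GaussDVR.V O E
  rw [GaussOne.emb_algebraMap, ← GaussDVR.iota_C]
  exact GaussDVR.mem_of_int O E _

/-- The reduction of a constant. -/
theorem redHom_algebraMap (emb : L →ₐ[E] LaurentSeries E) (r : O) :
    redHom O emb ⟨algebraMap O L r, algebraMap_mem_gaussSub emb r⟩ =
      HahnSeries.C (IsLocalRing.residue O r) := by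
  have h : (⟨emb (algebraMap O L r), algebraMap_mem_gaussSub emb r⟩ : GaussDVR.V O E) =
      GaussDVR.ofInt O E (HahnSeries.C r) := by
    apply Subtype.ext
    show emb (algebraMap O L r) = GaussDVR.iota O E (HahnSeries.C r)
    rw [GaussDVR.iota_C, GaussOne.emb_algebraMap]
  rw [redHom_apply]
  show GaussDVR.red O E ⟨emb (algebraMap O L r), _⟩ = _
  rw [h, GaussDVR.red_ofInt, GaussDVR.rho_C]

/-- Elements with integral expansion lie in `gaussSub`. -/
theorem mem_gaussSub_of_int (emb : L →ₐ[E] LaurentSeries E) (w : L) (wO : LaurentSeries O)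
    (hw : emb w = GaussDVR.iota O E wO) : w ∈ gaussSub O emb := by
  show emb w ∈ GaussDVR.V O E
  rw [hw]
  exact GaussDVR.mem_of_int O E _

/-- The reduction of an element with integral expansion is the coefficientwise reduction. -/
theorem redHom_of_int (emb : L →ₐ[E] LaurentSeries E) (w : L) (wO : LaurentSeries O)
    (hw : emb w = GaussDVR.iota O E wO) :
    redHom O emb ⟨w, mem_gaussSub_of_int emb w wO hw⟩ = GaussDVR.rho O wO := by
  have h : (⟨emb w, mem_gaussSub_of_int emb w wO hw⟩ : GaussDVR.V O E) =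
      GaussDVR.ofInt O E wO := by
    apply Subtype.ext
    show emb w = GaussDVR.iota O E wO
    exact hw
  rw [redHom_apply]
  show GaussDVR.red O E ⟨emb w, _⟩ = _
  rw [h, GaussDVR.red_ofInt]

/-- The inverse of an element with integral expansion of nonzero reduction lies in
`gaussSub`. -/
theorem inv_mem_gaussSub (emb : L →ₐ[E] LaurentSeries E) (w : L) (wO : LaurentSeries O)
    (hw : emb w = GaussDVR.iota O E wO) (hρ : GaussDVR.rho O wO ≠ 0) :
    w⁻¹ ∈ gaussSub O emb := by
  show emb w⁻¹ ∈ GaussDVR.V O E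
  rw [map_inv₀, hw]
  exact GaussDVR.inv_mem O E (GaussDVR.ofInt O E wO) (by rw [GaussDVR.red_ofInt]; exact hρ)

/-- The reduction of the inverse. -/
theorem redHom_inv (emb : L →ₐ[E] LaurentSeries E) (w : L) (hw0 : w ≠ 0)
    (hw : w ∈ gaussSub O emb) (hwi : w⁻¹ ∈ gaussSub O emb) :
    redHom O emb ⟨w⁻¹, hwi⟩ = (redHom O emb ⟨w, hw⟩)⁻¹ := by
  have h1 : (⟨w⁻¹, hwi⟩ : gaussSub O emb) * ⟨w, hw⟩ = 1 := by
    apply Subtype.ext
    show w⁻¹ * w = 1
    exact inv_mul_cancel₀ hw0
  have h2 := congrArg (redHom O emb) h1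
  rw [map_mul, map_one] at h2
  exact eq_inv_of_mul_eq_one_left h2

/-- **Transfer of integrality along the reduction.**  If `a` is integral over `O[w]` (and both
have Gauss-integral expansions), the reduction of `a` is integral over `k[w̄]`. -/
theorem redHom_isIntegral (emb : L →ₐ[E] LaurentSeries E) (w : L) (hw : w ∈ gaussSub O emb)
    (a : L) (ha : a ∈ gaussSub O emb) (hint : IsIntegral (Algebra.adjoin O {w}) a) :
    IsIntegral (Algebra.adjoin (IsLocalRing.ResidueField O) {redHom O emb ⟨w, hw⟩})
      (redHom O emb ⟨a, ha⟩) := by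
  classical
  obtain ⟨d, r, c, -, hc⟩ := CechP1.exists_eqn_of_isIntegral w a hint
  refine isIntegral_of_eqn _ _ d (fun i => (c i).map (IsLocalRing.residue O)) ?_
  set f : O →+* gaussSub O emb :=
    (algebraMap O L).codRestrict (gaussSub O emb) (algebraMap_mem_gaussSub emb) with hf
  have hsub : ∀ P : O[X], ((P.eval₂ f ⟨w, hw⟩ : gaussSub O emb) : L) = aeval w P := by
    intro P
    have h := Polynomial.hom_eval₂ P f (gaussSub O emb).subtype ⟨w, hw⟩
    rw [aeval_def]
    exact h
  have hred : ∀ P : O[X], redHom O emb (P.eval₂ f ⟨w, hw⟩) =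
      aeval (redHom O emb ⟨w, hw⟩) (P.map (IsLocalRing.residue O)) := by
    intro P
    rw [Polynomial.hom_eval₂, aeval_def, eval₂_map]
    congr 1
    refine RingHom.ext fun r => ?_
    simp only [RingHom.comp_apply]
    rw [show f r = ⟨algebraMap O L r, algebraMap_mem_gaussSub emb r⟩ from rfl,
      redHom_algebraMap, algebraMap_laurentSeries_eq_single, HahnSeries.C_apply]
  have hA : (⟨a, ha⟩ : gaussSub O emb) ^ d =
      ∑ i ∈ Finset.range d, (c i).eval₂ f ⟨w, hw⟩ * (⟨a, ha⟩ : gaussSub O emb) ^ i := by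
    apply Subtype.ext
    push_cast
    simp only [hsub]
    exact hc
  have h := congrArg (redHom O emb) hA
  rw [map_pow, map_sum] at h
  rw [h]
  refine Finset.sum_congr rfl fun i _ => ?_
  rw [map_mul, map_pow, hred]

/-! ### The chart rings have Gauss-integral expansions -/

theorem rho_ne_zero_of_pole (uO : LaurentSeries O) (hpole : (GaussDVR.rho O uO).order < 0) :
    GaussDVR.rho O uO ≠ 0 := by
  intro h
  rw [h, HahnSeries.order_zero] at hpole
  exact lt_irrefl _ hpole

/-- A series with a pole modulo the maximal ideal is transcendental over `E`. -/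
theorem transcendental_of_pole (emb : L →ₐ[E] LaurentSeries E) (u : L) (uO : LaurentSeries O)
    (hu : emb u = GaussDVR.iota O E uO) (hpole : (GaussDVR.rho O uO).order < 0) :
    Transcendental E u := by
  intro halg
  have halg' : IsAlgebraic E (emb u) := (isAlgebraic_algHom_iff emb emb.injective).2 halg
  obtain ⟨c, hc⟩ := LaurentConst.exists_eq_algebraMap_of_isAlgebraic (emb u) halg'
  have hρ := rho_ne_zero_of_pole uO hpole
  have h1 : (GaussDVR.rho O uO).coeff (GaussDVR.rho O uO).order ≠ 0 :=
    fun h0 => hρ (HahnSeries.coeff_order_eq_zero.mp h0)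
  rw [coeffMap_coeff] at h1
  have h2 : uO.coeff (GaussDVR.rho O uO).order ≠ 0 := fun h0 => h1 (by rw [h0, map_zero])
  have h3 : (GaussDVR.iota O E uO).coeff (GaussDVR.rho O uO).order ≠ 0 := by
    rw [coeffMap_coeff]
    exact fun h0 => h2 (IsFractionRing.injective O E (h0.trans (map_zero _).symm))
  rw [← hu, hc, algebraMap_laurentSeries_eq_single,
    HahnSeries.coeff_single_of_ne (ne_of_lt hpole)] at h3
  exact h3 rfl

/-- Elements of the chart ring `C0` have Gauss-integral expansions. -/
theorem mem_gaussSub_of_mem_C0 (emb : L →ₐ[E] LaurentSeries E)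
    (hfrac : ∀ x : L, emb x ∈ GaussDVR.fracField O E) (π : O) (hπ : Irreducible π) (u : L)
    (uO : LaurentSeries O) (hu : emb u = GaussDVR.iota O E uO) (x : L)
    (hx : x ∈ C0 (O := O) u) : x ∈ gaussSub O emb :=
  GaussInt.emb_mem_V_of_isIntegral emb hfrac π hπ u uO hu x hx

/-- Elements of the overlap ring `C01` have Gauss-integral expansions. -/
theorem mem_gaussSub_of_mem_C01 (emb : L →ₐ[E] LaurentSeries E)
    (hfrac : ∀ x : L, emb x ∈ GaussDVR.fracField O E) (π : O) (hπ : Irreducible π) (u : L)
    (uO : LaurentSeries O) (hu : emb u = GaussDVR.iota O E uO)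
    (hpole : (GaussDVR.rho O uO).order < 0) (x : L)
    (hx : x ∈ C01 (O := O) u) : x ∈ gaussSub O emb := by
  have hu0 : u ≠ 0 :=
    ne_zero_of_transcendental u (transcendental_of_pole emb u uO hu hpole)
  obtain ⟨n, hn⟩ := hloc0 u hu0 x hx
  have h1 : u ^ n * x ∈ gaussSub O emb :=
    mem_gaussSub_of_mem_C0 emb hfrac π hπ u uO hu _ hn
  have h2 : u⁻¹ ∈ gaussSub O emb :=
    inv_mem_gaussSub emb u uO hu (rho_ne_zero_of_pole uO hpole)
  have e : x = u⁻¹ ^ n * (u ^ n * x) := by
    rw [← mul_assoc, inv_pow, inv_mul_cancel₀ (pow_ne_zero n hu0), one_mul]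
  rw [e]
  exact mul_mem (pow_mem h2 n) h1

/-- `emb` form of `mem_gaussSub_of_mem_C01`. -/
theorem emb_mem_V_of_mem_C01 (emb : L →ₐ[E] LaurentSeries E)
    (hfrac : ∀ x : L, emb x ∈ GaussDVR.fracField O E) (π : O) (hπ : Irreducible π) (u : L)
    (uO : LaurentSeries O) (hu : emb u = GaussDVR.iota O E uO)
    (hpole : (GaussDVR.rho O uO).order < 0) (x : L)
    (hx : x ∈ C01 (O := O) u) : emb x ∈ GaussDVR.V O E :=
  mem_gaussSub_of_mem_C01 emb hfrac π hπ u uO hu hpole x hx

/-! ### The constants -/

/-- **`H⁰` of the special fibre is the residue field.**  An element of `C0` which is congruent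
modulo `π C01` to (minus) an element of `C1` is congruent modulo `π C0` to a constant. -/
theorem hconst (emb : L →ₐ[E] LaurentSeries E)
    (hfrac : ∀ x : L, emb x ∈ GaussDVR.fracField O E) (π : O) (hπ : Irreducible π) (u : L)
    (uO : LaurentSeries O) (hu : emb u = GaussDVR.iota O E uO)
    (hpole : (GaussDVR.rho O uO).order < 0)
    (hprime : Prime (algebraMap (Algebra.adjoin O {u})
      (integralClosure (Algebra.adjoin O {u}) L) (algebraMap O (Algebra.adjoin O {u}) π))) :
    ∀ a : L, a ∈ C0 (O := O) u → ∀ b : L, b ∈ C1 (O := O) u →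
      (∃ x : L, x ∈ C01 (O := O) u ∧ a + b = algebraMap O L π * x) →
      ∃ c : O, ∃ y : L, y ∈ C01 (O := O) u ∧
        a - algebraMap O L c = algebraMap O L π * y := by
  rintro a ha b hb ⟨x, hx, hab⟩
  have hρ := rho_ne_zero_of_pole uO hpole
  have hu0 : u ≠ 0 :=
    ne_zero_of_transcendental u (transcendental_of_pole emb u uO hu hpole)
  have huG : u ∈ gaussSub O emb := mem_gaussSub_of_int emb u uO hu
  have huiG : u⁻¹ ∈ gaussSub O emb := inv_mem_gaussSub emb u uO hu hρ
  have haG : a ∈ gaussSub O emb := mem_gaussSub_of_mem_C0 emb hfrac π hπ u uO hu a ha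
  have hxG : x ∈ gaussSub O emb := mem_gaussSub_of_mem_C01 emb hfrac π hπ u uO hu hpole x hx
  have hπG : algebraMap O L π ∈ gaussSub O emb := algebraMap_mem_gaussSub emb π
  have hbG : b ∈ gaussSub O emb := by
    have e : b = algebraMap O L π * x - a := by rw [← hab]; ring
    rw [e]
    exact sub_mem (mul_mem hπG hxG) haG
  -- the reduction of `a` is minus the reduction of `b`
  have hφb : redHom O emb ⟨a, haG⟩ = - redHom O emb ⟨b, hbG⟩ := by
    have h1 : (⟨a, haG⟩ : gaussSub O emb) + ⟨b, hbG⟩ = ⟨algebraMap O L π, hπG⟩ * ⟨x, hxG⟩ :=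
      Subtype.ext hab
    have h2 := congrArg (redHom O emb) h1
    rw [map_add, map_mul, redHom_algebraMap, GaussDVR.residue_unif π hπ, map_zero,
      zero_mul] at h2
    exact eq_neg_of_add_eq_zero_left h2
  have hū : redHom O emb ⟨u, huG⟩ ≠ 0 := by
    rw [redHom_of_int emb u uO hu]
    exact hρ
  -- integrality over `k[ū]` and `k[ū⁻¹]`
  have h0 : IsIntegral (Algebra.adjoin (IsLocalRing.ResidueField O) {redHom O emb ⟨u, huG⟩})
      (redHom O emb ⟨a, haG⟩) := redHom_isIntegral emb u huG a haG ha
  have h1 : IsIntegral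
      (Algebra.adjoin (IsLocalRing.ResidueField O) {(redHom O emb ⟨u, huG⟩)⁻¹})
      (redHom O emb ⟨a, haG⟩) := by
    rw [hφb, ← redHom_inv emb u hu0 huG huiG]
    exact (redHom_isIntegral emb u⁻¹ huiG b hbG hb).neg
  have hk : IsIntegral (IsLocalRing.ResidueField O) (redHom O emb ⟨a, haG⟩) :=
    CechP1.isIntegral_of_two_charts _ hū _ h0 h1
  obtain ⟨cbar, hcbar⟩ :=
    LaurentConst.exists_eq_algebraMap_of_isAlgebraic _ hk.isAlgebraic
  obtain ⟨c, rfl⟩ := IsLocalRing.residue_surjective cbar
  -- `a - c` has zero reduction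
  have hcG : algebraMap O L c ∈ gaussSub O emb := algebraMap_mem_gaussSub emb c
  have hacG : a - algebraMap O L c ∈ gaussSub O emb := sub_mem haG hcG
  have hzero : GaussDVR.red O E ⟨emb (a - algebraMap O L c), hacG⟩ = 0 := by
    have h2 : redHom O emb (⟨a, haG⟩ - ⟨algebraMap O L c, hcG⟩) = 0 := by
      rw [map_sub, redHom_algebraMap, hcbar, algebraMap_laurentSeries_eq_single,
        HahnSeries.C_apply, sub_self]
    exact h2
  obtain ⟨Y, hY⟩ := GaussDVR.ker' E π hπ _ hzero
  have hY' : emb (a - algebraMap O L c) =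
      HahnSeries.C (algebraMap O E π) * (Y : LaurentSeries E) := hY
  have hπL : algebraMap O L π ≠ 0 := fun h0 =>
    hπ.ne_zero (ChartProv.algebraMap_injective_base O E L (h0.trans (map_zero _).symm))
  have hCπ : (HahnSeries.C (algebraMap O E π) : LaurentSeries E) ≠ 0 := by
    rw [← GaussOne.emb_algebraMap emb π]
    exact fun h0 => hπL (emb.injective (h0.trans (map_zero _).symm))
  have hyV : emb ((a - algebraMap O L c) / algebraMap O L π) ∈ GaussDVR.V O E := by
    rw [map_div₀, hY', GaussOne.emb_algebraMap, mul_div_cancel_left₀ _ hCπ]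
    exact Y.2
  have hcint : IsIntegral (Algebra.adjoin O {u}) (algebraMap O L c) :=
    CechP1.isIntegral_adjoin_of_mem (Subalgebra.algebraMap_mem _ c)
  have hint : IsIntegral (Algebra.adjoin O {u}) ((a - algebraMap O L c) / algebraMap O L π) :=
    GaussInt.isIntegral_of_mul_of_mem_V emb hfrac π hπ u uO hu hpole hprime _ hyV π hπ.ne_zero
      (by
        rw [mul_div_cancel₀ _ hπL]
        exact IsIntegral.sub ha hcint)
  exact ⟨c, (a - algebraMap O L c) / algebraMap O L π, C0_le_C01 u hint,
    (mul_div_cancel₀ _ hπL).symm⟩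

/-! ### The exit -/

/-- **The Čech `H¹` of the three concrete charts is a finite free `O`-module.** -/
theorem cechH_free_charts [CharZero E] (emb : L →ₐ[E] LaurentSeries E)
    (hfrac : ∀ x : L, emb x ∈ GaussDVR.fracField O E) (π : O) (hπ : Irreducible π) (u : L)
    (uO : LaurentSeries O) (hu : emb u = GaussDVR.iota O E uO)
    (hpole : (GaussDVR.rho O uO).order < 0)
    (hprime : Prime (algebraMap (Algebra.adjoin O {u})
      (integralClosure (Algebra.adjoin O {u}) L) (algebraMap O (Algebra.adjoin O {u}) π)))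
    (htr : Transcendental E u) [FiniteDimensional (IntermediateField.adjoin E {u}) L] :
    Module.Finite O (CechFree.CechH (C0 (O := O) u) (C1 u) (C01 u)) ∧
      Module.Free O (CechFree.CechH (C0 (O := O) u) (C1 u) (C01 u)) := by
  have hu0 : u ≠ 0 := ne_zero_of_transcendental u htr
  have := ChartProv.chart_finite (O := O) (E := E) u htr
  exact CechFree.cechH_free π hπ (C0 u) (C1 u) (C01 u) (C0_le_C01 u) (C1_le_C01 u) u hu0
    (self_mem_C0 u) (inv_mem_C1 u) (CechP1.hfin_of_finite u) (hloc1 u hu0) (hloc0 u hu0)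
    (hsat0 π hπ u htr) (hsat1 π hπ u htr) (hconst emb hfrac π hπ u uO hu hpole hprime)

/-- `cechH_free_charts` without the transcendence hypothesis (it follows from the pole). -/
theorem cechH_free_charts' [CharZero E] (emb : L →ₐ[E] LaurentSeries E)
    (hfrac : ∀ x : L, emb x ∈ GaussDVR.fracField O E) (π : O) (hπ : Irreducible π) (u : L)
    (uO : LaurentSeries O) (hu : emb u = GaussDVR.iota O E uO)
    (hpole : (GaussDVR.rho O uO).order < 0)
    (hprime : Prime (algebraMap (Algebra.adjoin O {u})
      (integralClosure (Algebra.adjoin O {u}) L) (algebraMap O (Algebra.adjoin O {u}) π)))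
    [FiniteDimensional (IntermediateField.adjoin E {u}) L] :
    Module.Finite O (CechFree.CechH (C0 (O := O) u) (C1 u) (C01 u)) ∧
      Module.Free O (CechFree.CechH (C0 (O := O) u) (C1 u) (C01 u)) :=
  cechH_free_charts emb hfrac π hπ u uO hu hpole hprime
    (transcendental_of_pole emb u uO hu hpole)

end Fermat.Agent.S44.D.CechAdapter
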