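/-
PROGRAM MR (S44), strand D (helper279, ask (B) of helper273): the bridge between the `ℚ̄`-level
reduction predicate `S37.Fn.IsRed` and the `E`-level Gauss ring `GaussDVR.V` at `O = OE A E`.

* `isRed_mem_V` (B1) : if `IsRed N' A (upHom x) y` for `x : LE N' E`, then `x` lies in the Gauss
  ring of `O` and `kmap (red x) = y`.
* `isRed_of_mem_V` (B2) : conversely a Gauss-integral `x : LE N' E` has
  `IsRed N' A (upHom x) (kmap (red x))`.
* `isRed_iff` : the two together.
* `kmap_rho_jqModC` (B3) : the reduction of `j` is `j`; `order_rho_jqModC` : its order is `-1`.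
-/
import Mathlib
import Fermat.Agent.S44.L.RedTransfer
import Fermat.Agent.S37.Fn.Defs
import Fermat.Agent.S18.K1Descent
import Fermat.Agent.S30.E2.G1

set_option autoImplicit false
set_option linter.unusedSectionVars false

open ModularCurve HahnSeries

noncomputable section

namespace Fermat.Agent.S44.D.LiftCoreBridge

open Fermat.Agent.S30 Fermat.Agent.S18 Fermat.Agent.S18.K1Defs Fermat.Agent.S18.K1Top
open Fermat.Agent.S37.Fn Fermat.Agent.S44.L

local notation "Qb" => AlgebraicClosure ℚ

variable (A : ValuationSubring Qb) (E : IntermediateField ℚ Qb)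
  [IsDiscreteValuationRing (OE A E)] (N' : ℕ) [NeZero N']

/-- **(B2)** A Gauss-integral element of `LE N' E` is `IsRed`, with reduction `kmap (red x)`. -/
theorem isRed_of_mem_V (ℓ : ℕ) [Fact ℓ.Prime] (hA : A.LiesOverPrime ℓ) (x : LE N' E)
    (hx : (x : LaurentSeries E) ∈ GaussDVR.V (OE A E) E) :
    IsRed N' A (K1Descent.upHom N' E x)
      (RedTransfer.kmap A E (GaussDVR.red (OE A E) E ⟨(x : LaurentSeries E), hx⟩)) := by
  obtain ⟨P, Q, -, hQ, hQr, h⟩ := RedTransfer.exists_frac_of_mem_V A E N' ℓ hA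
    (x : LaurentSeries E) hx (K1Descent.upHom N' E x).2
  exact ⟨P, Q, hQ, hQr, h, (RedTransfer.kmap_red_mul A E _ hx P Q h).symm⟩

/-- **(B1)** If the image of `x : LE N' E` over `ℚ̄` is `IsRed` with reduction `y`, then `x` is
Gauss-integral over `O = OE A E` and `kmap (red x) = y`. -/
theorem isRed_mem_V (x : LE N' E) (y : LaurentSeries (IsLocalRing.ResidueField A))
    (h : IsRed N' A (K1Descent.upHom N' E x) y) :
    ∃ hx : (x : LaurentSeries E) ∈ GaussDVR.V (OE A E) E,
      RedTransfer.kmap A E (GaussDVR.red (OE A E) E ⟨(x : LaurentSeries E), hx⟩) = y := by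
  obtain ⟨P, Q, -, hQr, hxQ, hPy⟩ := h
  have hxQ' : GaussDescent.up E (x : LaurentSeries E) * Congr.incl A Q = Congr.incl A P := hxQ
  obtain ⟨ϖ, hϖ⟩ := IsDiscreteValuationRing.exists_irreducible (OE A E)
  have hfrac : (x : LaurentSeries E) ∈ GaussDVR.fracField (OE A E) E :=
    E2G1.mem_fracField_of_mem_LE N' A E x.2
  have hxV : (x : LaurentSeries E) ∈ GaussDVR.V (OE A E) E := by
    rcases GaussDVR.mem_or_inv_mem E ϖ hϖ _ hfrac with h1 | h1
    · exact h1
    · by_contra hxV
      have hred0 : GaussDVR.red (OE A E) E ⟨_, h1⟩ = 0 := by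
        by_contra hne
        have h2 := GaussDVR.inv_mem (OE A E) E ⟨_, h1⟩ hne
        rw [inv_inv] at h2
        exact hxV h2
      have hx0 : (x : LaurentSeries E) ≠ 0 := fun h0 => hxV (by rw [h0]; exact zero_mem _)
      have hup : GaussDescent.up E ((x : LaurentSeries E)⁻¹) * Congr.incl A P
          = Congr.incl A Q := by
        rw [← hxQ', ← mul_assoc, ← map_mul, inv_mul_cancel₀ hx0, map_one, one_mul]
      have h3 := RedTransfer.kmap_red_mul A E _ h1 Q P hup
      rw [hred0, map_zero, zero_mul] at h3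
      exact hQr h3.symm
  refine ⟨hxV, ?_⟩
  have h2 := RedTransfer.kmap_red_mul A E _ hxV P Q hxQ'
  apply mul_right_cancel₀ hQr
  rw [h2, hPy]

/-- (B1) + (B2): `IsRed` at the `ℚ̄`-level is Gauss-integrality at the `E`-level. -/
theorem isRed_iff (ℓ : ℕ) [Fact ℓ.Prime] (hA : A.LiesOverPrime ℓ) (x : LE N' E)
    (y : LaurentSeries (IsLocalRing.ResidueField A)) :
    IsRed N' A (K1Descent.upHom N' E x) y ↔
      ∃ hx : (x : LaurentSeries E) ∈ GaussDVR.V (OE A E) E,
        RedTransfer.kmap A E (GaussDVR.red (OE A E) E ⟨(x : LaurentSeries E), hx⟩) = y := by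
  constructor
  · exact isRed_mem_V A E N' x y
  · rintro ⟨hx, rfl⟩
    exact isRed_of_mem_V A E N' ℓ hA x hx

/-- **(B3)** The reduction of `j` is `j`, read in the residue field of `A`. -/
theorem kmap_rho_jqModC :
    RedTransfer.kmap A E (GaussDVR.rho (OE A E) (jqModC (OE A E)))
      = jqModC (IsLocalRing.ResidueField A) := by
  rw [E2G1.rho_jqModC]
  exact coeffMap_jqModC _

/-- The reduction of `j` over `O` has a simple pole. -/
theorem order_rho_jqModC :
    (GaussDVR.rho (OE A E) (jqModC (OE A E))).order = -1 := by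
  rw [E2G1.rho_jqModC]
  have hlt := E2G1.order_jqModC_neg (IsLocalRing.ResidueField (OE A E))
  have h0 : jqModC (IsLocalRing.ResidueField (OE A E)) ≠ 0 := jqModC_ne_zero_of_nontrivial _
  have hge : (-1 : ℤ) ≤ (jqModC (IsLocalRing.ResidueField (OE A E))).order := by
    by_contra hlt'
    rw [not_le] at hlt'
    exact h0 (HahnSeries.coeff_order_eq_zero.mp (coeff_jqModC_of_lt _ hlt'))
  omega

end Fermat.Agent.S44.D.LiftCoreBridge
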