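import Fermat.Agent.S44.D.CechAdapter
import Fermat.Agent.S37.Fn.ModelInst
import Fermat.Agent.S30.E2.G1

/-!
# Strand D of S44: the Čech `H¹` of the `j`-line cover of the level-`M` Model is finite free

The modular instance of `CechAdapter.cechH_free_charts` (MR row 931, instance half).

`A` a valuation subring of `ℚ̄` over a prime `ℓ ∤ M`, `E ⊆ ℚ̄` a number field with
`O_E = A ∩ E` a discrete valuation ring, `L = LE M E ⊆ E((q))` the level-`M` function field.
For a chart function `u ∈ LE M E` carrying the Model-theorem package `ModelInst.ChartModelC`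
(e.g. `u = j` for `ℓ > 3`), with `C0`, `C1`, `C01` the integral closures of `O_E[u]`,
`O_E[u⁻¹]`, `O_E[u, u⁻¹]` in `L` (`CechP1.chart`):

* `sat_zero_E`, `sat_inf_E`, `hconst_E` : the three hypotheses of `CechFree.cech_sat`;
* `cechH_free_of_chartModel` : `CechFree.CechH C0 C1 C01` is a finite free `O_E`-module;
* `cechH_free_jE` : the instance `u = j`, `ℓ > 3`, `ℓ ∤ M`, for all sufficiently large `E`;
* `sat_const_jE` : the three hypotheses of `CechFree.cech_sat` for `u = j`, same shape.
-/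

set_option autoImplicit false
set_option linter.unusedSectionVars false
set_option linter.style.haveILetI false
set_option synthInstance.maxHeartbeats 400000
set_option maxHeartbeats 1000000

open ModularCurve AlgebraicCurve Polynomial

noncomputable section

namespace Fermat.Agent.S44.D.CechInst

open Fermat.Agent.S18.K1Defs Fermat.Agent.S18.K1Main Fermat.Agent.S30 Fermat.Agent.S30.Model
open Fermat.Agent.S30.Model.CechP1 Fermat.Agent.S44.D.CechFree Fermat.Agent.S37.Fn

local notation "Qb" => AlgebraicClosure ℚ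

section One

variable (M : ℕ) [NeZero M] (A : ValuationSubring Qb) (E : IntermediateField ℚ Qb)
  [IsDiscreteValuationRing (OE A E)]

/-- **Saturation on the chart `u`** at `E`-level: `π C01 ∩ C0 = π C0`. -/
theorem sat_zero_E (u : LE M E) (h : ModelInst.ChartModelC M (OE A E) E u) (π : OE A E)
    (hπ : Irreducible π) :
    letI := algebraOL (OE A E) E (LE M E)
    ∀ x : LE M E, x ∈ chart (OE A E) ({u, u⁻¹} : Set (LE M E)) →
      algebraMap (OE A E) (LE M E) π * x ∈ chart (OE A E) ({u} : Set (LE M E)) →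
      x ∈ chart (OE A E) ({u} : Set (LE M E)) := by
  letI := algebraOL (OE A E) E (LE M E)
  haveI := isScalarTower_OL (OE A E) E (LE M E)
  have hCM : ModelInst.ChartModel M (OE A E) E u := h
  exact CechAdapter.hsat0 (E := E) π hπ u hCM.tr

/-- **Saturation on the chart `u⁻¹`** at `E`-level: `π C01 ∩ C1 = π C1`. -/
theorem sat_inf_E (u : LE M E) (h : ModelInst.ChartModelC M (OE A E) E u) (π : OE A E)
    (hπ : Irreducible π) :
    letI := algebraOL (OE A E) E (LE M E)
    ∀ x : LE M E, x ∈ chart (OE A E) ({u, u⁻¹} : Set (LE M E)) →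
      algebraMap (OE A E) (LE M E) π * x ∈ chart (OE A E) ({u⁻¹} : Set (LE M E)) →
      x ∈ chart (OE A E) ({u⁻¹} : Set (LE M E)) := by
  letI := algebraOL (OE A E) E (LE M E)
  haveI := isScalarTower_OL (OE A E) E (LE M E)
  have hCM : ModelInst.ChartModel M (OE A E) E u := h
  exact CechAdapter.hsat1 (E := E) π hπ u hCM.tr

/-- **The "constants" hypothesis** at `E`-level: if `a ∈ C0`, `b ∈ C1` and `a + b ∈ π C01`,
then `a` is congruent to a constant of `O_E` modulo `π C01`. -/
theorem hconst_E (u : LE M E) (h : ModelInst.ChartModelC M (OE A E) E u) (π : OE A E)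
    (hπ : Irreducible π) :
    letI := algebraOL (OE A E) E (LE M E)
    ∀ a : LE M E, a ∈ chart (OE A E) ({u} : Set (LE M E)) →
      ∀ b : LE M E, b ∈ chart (OE A E) ({u⁻¹} : Set (LE M E)) →
      (∃ x : LE M E, x ∈ chart (OE A E) ({u, u⁻¹} : Set (LE M E)) ∧
        a + b = algebraMap (OE A E) (LE M E) π * x) →
      ∃ c : OE A E, ∃ y : LE M E, y ∈ chart (OE A E) ({u, u⁻¹} : Set (LE M E)) ∧
        a - algebraMap (OE A E) (LE M E) c = algebraMap (OE A E) (LE M E) π * y := by
  letI := algebraOL (OE A E) E (LE M E)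
  haveI := isScalarTower_OL (OE A E) E (LE M E)
  have hCM : ModelInst.ChartModel M (OE A E) E u := h
  obtain ⟨uO, hu, hpole⟩ := hCM.model
  exact CechAdapter.hconst (O := OE A E) (E := E) (L := LE M E) (LE M E).val
    (fun x => E2G1.mem_fracField_of_mem_LE M A E x.2) π hπ u uO hu hpole (hCM.prime_zero π hπ)

/-- **The Čech `H¹` of the two charts of a chart function with a Model package is a finite
free `O_E`-module.** -/
theorem cechH_free_of_chartModel (u : LE M E) (h : ModelInst.ChartModelC M (OE A E) E u) :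
    letI := algebraOL (OE A E) E (LE M E)
    Module.Finite (OE A E) (CechH (chart (OE A E) ({u} : Set (LE M E)))
        (chart (OE A E) ({u⁻¹} : Set (LE M E))) (chart (OE A E) ({u, u⁻¹} : Set (LE M E)))) ∧
      Module.Free (OE A E) (CechH (chart (OE A E) ({u} : Set (LE M E)))
        (chart (OE A E) ({u⁻¹} : Set (LE M E))) (chart (OE A E) ({u, u⁻¹} : Set (LE M E)))) := by
  letI := algebraOL (OE A E) E (LE M E)
  haveI := isScalarTower_OL (OE A E) E (LE M E)
  have hCM : ModelInst.ChartModel M (OE A E) E u := h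
  obtain ⟨π, hπ⟩ := IsDiscreteValuationRing.exists_irreducible (OE A E)
  obtain ⟨uO, hu, hpole⟩ := hCM.model
  haveI := hCM.fin
  exact CechAdapter.cechH_free_charts (O := OE A E) (E := E) (L := LE M E) (LE M E).val
    (fun x => E2G1.mem_fracField_of_mem_LE M A E x.2) π hπ u uO hu hpole
    (hCM.prime_zero π hπ) hCM.tr

end One

/-- **The Čech `H¹` of the `j`-line cover of the level-`M` Model is finite free**, residue
characteristic `ℓ > 3`, `ℓ ∤ M`, over every sufficiently large number field `E ⊆ ℚ̄`. -/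
theorem cechH_free_jE (M : ℕ) [NeZero M] (A : ValuationSubring Qb) {ℓ : ℕ} [Fact ℓ.Prime]
    (hℓM : ¬ ℓ ∣ M) (hA : A.LiesOverPrime ℓ) (hℓ : 3 < ℓ) :
    ∃ S₀ : Finset Qb, ∀ (E : IntermediateField ℚ Qb) [FiniteDimensional ℚ E]
      [IsDiscreteValuationRing (OE A E)], (∀ s ∈ S₀, s ∈ E) →
      letI := algebraOL (OE A E) E (LE M E)
      Module.Finite (OE A E) (CechH (chart (OE A E) ({jE M E} : Set (LE M E)))
          (chart (OE A E) ({(jE M E)⁻¹} : Set (LE M E)))
          (chart (OE A E) ({jE M E, (jE M E)⁻¹} : Set (LE M E)))) ∧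
        Module.Free (OE A E) (CechH (chart (OE A E) ({jE M E} : Set (LE M E)))
          (chart (OE A E) ({(jE M E)⁻¹} : Set (LE M E)))
          (chart (OE A E) ({jE M E, (jE M E)⁻¹} : Set (LE M E)))) := by
  obtain ⟨S₀, h⟩ := ModelInst.exists_finset_chartModel_j A M hℓM hA hℓ
  exact ⟨S₀, fun E _ _ hE => cechH_free_of_chartModel M A E (jE M E) (h E hE)⟩

/-- The three hypotheses of `CechFree.cech_sat` for the `j`-line cover, `ℓ > 3`, `ℓ ∤ M`, over
every sufficiently large number field (same `S₀`-shape as `cechH_free_jE`). -/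
theorem sat_const_jE (M : ℕ) [NeZero M] (A : ValuationSubring Qb) {ℓ : ℕ} [Fact ℓ.Prime]
    (hℓM : ¬ ℓ ∣ M) (hA : A.LiesOverPrime ℓ) (hℓ : 3 < ℓ) :
    ∃ S₀ : Finset Qb, ∀ (E : IntermediateField ℚ Qb) [FiniteDimensional ℚ E]
      [IsDiscreteValuationRing (OE A E)], (∀ s ∈ S₀, s ∈ E) →
      ∀ π : OE A E, Irreducible π →
      letI := algebraOL (OE A E) E (LE M E)
      (∀ x : LE M E, x ∈ chart (OE A E) ({jE M E, (jE M E)⁻¹} : Set (LE M E)) →
        algebraMap (OE A E) (LE M E) π * x ∈ chart (OE A E) ({jE M E} : Set (LE M E)) →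
        x ∈ chart (OE A E) ({jE M E} : Set (LE M E))) ∧
      (∀ x : LE M E, x ∈ chart (OE A E) ({jE M E, (jE M E)⁻¹} : Set (LE M E)) →
        algebraMap (OE A E) (LE M E) π * x ∈ chart (OE A E) ({(jE M E)⁻¹} : Set (LE M E)) →
        x ∈ chart (OE A E) ({(jE M E)⁻¹} : Set (LE M E))) ∧
      (∀ a : LE M E, a ∈ chart (OE A E) ({jE M E} : Set (LE M E)) →
        ∀ b : LE M E, b ∈ chart (OE A E) ({(jE M E)⁻¹} : Set (LE M E)) →
        (∃ x : LE M E, x ∈ chart (OE A E) ({jE M E, (jE M E)⁻¹} : Set (LE M E)) ∧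
          a + b = algebraMap (OE A E) (LE M E) π * x) →
        ∃ c : OE A E, ∃ y : LE M E,
          y ∈ chart (OE A E) ({jE M E, (jE M E)⁻¹} : Set (LE M E)) ∧
          a - algebraMap (OE A E) (LE M E) c = algebraMap (OE A E) (LE M E) π * y) := by
  obtain ⟨S₀, h⟩ := ModelInst.exists_finset_chartModel_j A M hℓM hA hℓ
  exact ⟨S₀, fun E _ _ hE π hπ =>
    ⟨sat_zero_E M A E (jE M E) (h E hE) π hπ, sat_inf_E M A E (jE M E) (h E hE) π hπ,
      hconst_E M A E (jE M E) (h E hE) π hπ⟩⟩

end Fermat.Agent.S44.D.CechInst
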