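import Mathlib

/-!
# Strand D of S44, base change of constants: the level-free core

Two "function fields in one variable" `K / k` and `K' / k'` (vocabulary of `S44/D/TraceDual.lean`
and `S44/D/TraceDualConv.lean`: a field `K` over `k`, an element `j : K`, traces over `k⟮j⟯` read
in `K`, integrality over `k[j] = Algebra.adjoin k {j}` and `k[j⁻¹]`), and a pair of ring
homomorphisms `i : k →+* k'`, `r : K →+* K'` over each other ("extension of constants").

Hypotheses, in the form produced by `S30.E2.Degree.Abs` (linear disjointness of constants inside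
Laurent series): `r` maps `k⟮j⟯`-independent families to `k'⟮r j⟯`-independent families and
`r (K)` spans `K'` over `k'⟮r j⟯`.

* `trace_map_of_finite` : four-field trace transfer (twin of `S36.NormUp.norm_map_of_finite`).
* `trace_map` : `Tr_{K'/k'(r j)} (r x) = r (Tr_{K/k(j)} x)`.
* `mem_adjoin_of_map_mem` : `k'[r j] ∩ r (k(j)) = r (k[j])` (`r j` transcendental over `k'`).
* `traceDual_descent_zero`, `traceDual_descent_inf`, `traceDual_descent` : an element `G : K`
  whose image `r G` is trace-dual regular over `k'[r j]` / `k'[(r j)⁻¹]` is trace-dual regular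
  over `k[j]` / `k[j⁻¹]`.
-/

set_option autoImplicit false

open IntermediateField Polynomial

noncomputable section

namespace Fermat.Agent.S44.D.ConstTrace

/-! ### Four-field trace transfer -/

section Four

variable {K F K' F' : Type*} [Field K] [Field F] [Field K'] [Field F']
  [Algebra K F] [Algebra K' F']

/-- The image of a `K`-basis of `F` under `j`, as a `K'`-basis of `F'`. -/
def mapBasis (i : K →+* K') (j : F →+* F')
    (hij : ∀ a : K, j (algebraMap K F a) = algebraMap K' F' (i a))
    (hli : ∀ (n : ℕ) (v : Fin n → F), LinearIndependent K v → LinearIndependent K' (j ∘ v))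
    (hspan : ∀ w : F', w ∈ Submodule.span K' (Set.range j))
    {n : ℕ} (b : Module.Basis (Fin n) K F) : Module.Basis (Fin n) K' F' :=
  Module.Basis.mk (hli n b b.linearIndependent) (by
    intro w _
    have h1 : Submodule.span K' (Set.range j) ≤ Submodule.span K' (Set.range (j ∘ b)) := by
      rw [Submodule.span_le]
      rintro _ ⟨x, rfl⟩
      have hx : x = ∑ l, b.repr x l • b l := (b.sum_repr x).symm
      have hjx : j x = ∑ l, i (b.repr x l) • j (b l) := by
        conv_lhs => rw [hx]
        rw [map_sum]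
        refine Finset.sum_congr rfl fun l _ => ?_
        rw [Algebra.smul_def, map_mul, hij, ← Algebra.smul_def]
      rw [hjx]
      exact Submodule.sum_mem _ fun l _ =>
        Submodule.smul_mem _ _ (Submodule.subset_span ⟨l, rfl⟩)
    exact h1 (hspan w))

theorem mapBasis_apply (i : K →+* K') (j : F →+* F')
    (hij : ∀ a : K, j (algebraMap K F a) = algebraMap K' F' (i a))
    (hli : ∀ (n : ℕ) (v : Fin n → F), LinearIndependent K v → LinearIndependent K' (j ∘ v))
    (hspan : ∀ w : F', w ∈ Submodule.span K' (Set.range j))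
    {n : ℕ} (b : Module.Basis (Fin n) K F) (l : Fin n) :
    mapBasis i j hij hli hspan b l = j (b l) := by
  rw [mapBasis, Module.Basis.mk_apply]
  rfl

theorem mapBasis_repr (i : K →+* K') (j : F →+* F')
    (hij : ∀ a : K, j (algebraMap K F a) = algebraMap K' F' (i a))
    (hli : ∀ (n : ℕ) (v : Fin n → F), LinearIndependent K v → LinearIndependent K' (j ∘ v))
    (hspan : ∀ w : F', w ∈ Submodule.span K' (Set.range j))
    {n : ℕ} (b : Module.Basis (Fin n) K F) (x : F) (l : Fin n) :
    (mapBasis i j hij hli hspan b).repr (j x) l = i (b.repr x l) := by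
  have hjx : j x = ∑ m, i (b.repr x m) • mapBasis i j hij hli hspan b m := by
    conv_lhs => rw [← b.sum_repr x]
    rw [map_sum]
    refine Finset.sum_congr rfl fun m _ => ?_
    rw [Algebra.smul_def, map_mul, hij, ← Algebra.smul_def, mapBasis_apply]
  rw [hjx, Module.Basis.repr_sum_self]

/-- Trace transfer: `F / K`, `F' / K'` field extensions, `i : K → K'`, `j : F → F'` ring
homomorphisms over each other such that `j` maps `K`-independent families to `K'`-independent
families and `j (F)` spans `F'` over `K'`.  Then `Tr_{F'/K'} (j x) = i (Tr_{F/K} x)`. -/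
theorem trace_map_of_finite [FiniteDimensional K F] (i : K →+* K') (j : F →+* F')
    (hij : ∀ a : K, j (algebraMap K F a) = algebraMap K' F' (i a))
    (hli : ∀ (n : ℕ) (v : Fin n → F), LinearIndependent K v → LinearIndependent K' (j ∘ v))
    (hspan : ∀ w : F', w ∈ Submodule.span K' (Set.range j)) (x : F) :
    Algebra.trace K' F' (j x) = i (Algebra.trace K F x) := by
  classical
  set b := Module.finBasis K F with hb
  set b' := mapBasis i j hij hli hspan b with hb'
  rw [Algebra.trace_eq_matrix_trace b' (j x), Algebra.trace_eq_matrix_trace b x,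
    Matrix.trace, Matrix.trace, map_sum]
  refine Finset.sum_congr rfl fun l _ => ?_
  rw [Matrix.diag_apply, Matrix.diag_apply, Algebra.leftMulMatrix_eq_repr_mul,
    Algebra.leftMulMatrix_eq_repr_mul, hb', mapBasis_apply, ← map_mul,
    mapBasis_repr]

/-- Finiteness and degree transfer. -/
theorem finite_and_finrank_map [FiniteDimensional K F] (i : K →+* K') (j : F →+* F')
    (hij : ∀ a : K, j (algebraMap K F a) = algebraMap K' F' (i a))
    (hli : ∀ (n : ℕ) (v : Fin n → F), LinearIndependent K v → LinearIndependent K' (j ∘ v))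
    (hspan : ∀ w : F', w ∈ Submodule.span K' (Set.range j)) :
    Module.Finite K' F' ∧ Module.finrank K' F' = Module.finrank K F := by
  refine ⟨Module.Finite.of_basis (mapBasis i j hij hli hspan (Module.finBasis K F)), ?_⟩
  rw [Module.finrank_eq_card_basis (mapBasis i j hij hli hspan (Module.finBasis K F)),
    Fintype.card_fin]

end Four

/-! ### The one-variable setting -/

section OneVar

variable {k K k' K' : Type*} [Field k] [Field K] [Algebra k K] [Field k'] [Field K']
  [Algebra k' K'] (i : k →+* k') (r : K →+* K')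
  (hir : ∀ a : k, r (algebraMap k K a) = algebraMap k' K' (i a))

include hir

/-- `r` maps `k(j)` into `k'(r j)`. -/
theorem map_mem_adjoin_simple (j : K) {x : K} (hx : x ∈ k⟮j⟯) : r x ∈ k'⟮r j⟯ := by
  induction hx using IntermediateField.adjoin_induction with
  | mem x hx =>
    rw [Set.mem_singleton_iff] at hx
    rw [hx]
    exact mem_adjoin_simple_self k' (r j)
  | algebraMap a =>
    rw [hir]
    exact (k'⟮r j⟯).algebraMap_mem _
  | add x y _ _ hx hy => rw [map_add]; exact add_mem hx hy
  | inv x _ hx => rw [map_inv₀]; exact inv_mem hx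
  | mul x y _ _ hx hy => rw [map_mul]; exact mul_mem hx hy

/-- `r` maps `k[j]` into `k'[r j]`. -/
theorem map_mem_adjoin (j : K) {x : K} (hx : x ∈ Algebra.adjoin k {j}) :
    r x ∈ Algebra.adjoin k' {r j} := by
  induction hx using Algebra.adjoin_induction with
  | mem x hx =>
    rw [Set.mem_singleton_iff] at hx
    rw [hx]
    exact Algebra.subset_adjoin (Set.mem_singleton _)
  | algebraMap a =>
    rw [hir]
    exact Subalgebra.algebraMap_mem _ _
  | add x y _ _ hx hy => rw [map_add]; exact add_mem hx hy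
  | mul x y _ _ hx hy => rw [map_mul]; exact mul_mem hx hy

/-- The restriction of `r` to `k(j) → k'(r j)`. -/
def rK (j : K) : k⟮j⟯ →+* k'⟮r j⟯ :=
  (r.comp (algebraMap k⟮j⟯ K)).codRestrict (k'⟮r j⟯).toSubfield.toSubring
    fun x => map_mem_adjoin_simple i r hir j x.2

theorem coe_rK (j : K) (x : k⟮j⟯) : ((rK i r hir j x : k'⟮r j⟯) : K') = r (x : K) := rfl

/-- The restriction of `r` to `k[j] → k'[r j]`. -/
def rA (j : K) : Algebra.adjoin k {j} →+* Algebra.adjoin k' {r j} :=
  (r.comp (algebraMap (Algebra.adjoin k {j}) K)).codRestrict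
    (Algebra.adjoin k' {r j}).toSubring fun x => map_mem_adjoin i r hir j x.2

theorem coe_rA (j : K) (x : Algebra.adjoin k {j}) :
    ((rA i r hir j x : Algebra.adjoin k' {r j}) : K') = r (x : K) := rfl

/-- `r` maps elements integral over `k[j]` to elements integral over `k'[r j]`. -/
theorem isIntegral_map (j : K) {b : K} (hb : IsIntegral (Algebra.adjoin k {j}) b) :
    IsIntegral (Algebra.adjoin k' {r j}) (r b) :=
  IsIntegral.map_of_comp_eq (rA i r hir j) r (by ext x; rfl) hb

/-- **Trace transfer** along an extension of constants. -/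
theorem trace_map (j : K) [FiniteDimensional k⟮j⟯ K]
    (hli : ∀ (n : ℕ) (v : Fin n → K), LinearIndependent k⟮j⟯ v →
      LinearIndependent k'⟮r j⟯ (r ∘ v))
    (hspan : ∀ w : K', w ∈ Submodule.span k'⟮r j⟯ (Set.range r)) (x : K) :
    ((Algebra.trace k'⟮r j⟯ K' (r x) : k'⟮r j⟯) : K') =
      r ((Algebra.trace k⟮j⟯ K x : k⟮j⟯) : K) := by
  rw [trace_map_of_finite (rK i r hir j) r (fun a => rfl) hli hspan x, coe_rK]

omit hir in
/-- Polynomial form of `k'[r j] ∩ r (k(j)) = r (k[j])`. -/
theorem exists_aeval_of_div {j : K} (hj' : Transcendental k' (r j)) (P Q : k[X])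
    (hQ : aeval j Q ≠ 0) (T : k'[X])
    (h : aeval (r j) (P.map i) = aeval (r j) (Q.map i) * aeval (r j) T) :
    ∃ S : k[X], aeval j P = aeval j Q * aeval j S := by
  have hQ0 : Q ≠ 0 := by
    rintro rfl
    exact hQ (map_zero _)
  have hinj : Function.Injective i := i.injective
  -- `P.map i = Q.map i * T` since `r j` is transcendental
  have h1 : P.map i = Q.map i * T := by
    have h2 : aeval (r j) (P.map i - Q.map i * T) = 0 := by
      rw [map_sub, map_mul, h, sub_self]
    by_contra hne
    exact hj' ⟨P.map i - Q.map i * T, sub_ne_zero.mpr hne, h2⟩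
  -- Euclidean division over `k`
  have h3 : P = Q * (P / Q) + P % Q := (EuclideanDomain.div_add_mod P Q).symm
  have h4 : (P % Q).map i = Q.map i * (T - (P / Q).map i) := by
    have h5 : P.map i = Q.map i * (P / Q).map i + (P % Q).map i := by
      conv_lhs => rw [h3]
      rw [Polynomial.map_add, Polynomial.map_mul]
    rw [mul_sub, ← h1, h5]
    ring
  have h6 : P % Q = 0 := by
    by_contra hne
    have hd : (P % Q).degree < Q.degree := Polynomial.degree_mod_lt P hQ0
    have hd1 : ((P % Q).map i).degree = (P % Q).degree := Polynomial.degree_map _ i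
    have hd2 : (Q.map i).degree = Q.degree := Polynomial.degree_map _ i
    have hT : T - (P / Q).map i ≠ 0 := by
      intro h0
      rw [h0, mul_zero] at h4
      exact hne ((Polynomial.map_eq_zero i).mp h4)
    have hd3 : (Q.map i).degree ≤ ((P % Q).map i).degree := by
      rw [h4, Polynomial.degree_mul]
      have h7 : (0 : WithBot ℕ) ≤ (T - (P / Q).map i).degree :=
        Polynomial.zero_le_degree_iff.mpr hT
      calc (Q.map i).degree = (Q.map i).degree + 0 := (add_zero _).symm
        _ ≤ (Q.map i).degree + (T - (P / Q).map i).degree := by gcongr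
    rw [hd1, hd2] at hd3
    exact absurd hd (not_lt.mpr hd3)
  refine ⟨P / Q, ?_⟩
  conv_lhs => rw [h3, h6, add_zero]
  rw [map_mul]

/-- **`k'[r j] ∩ r (k(j)) = r (k[j])`.**  An element of `k(j)` whose image lies in `k'[r j]`
lies in `k[j]` (`r j` transcendental over `k'`). -/
theorem mem_adjoin_of_map_mem {j : K} (hj' : Transcendental k' (r j)) {a : K}
    (ha : a ∈ k⟮j⟯) (h : r a ∈ Algebra.adjoin k' {r j}) : a ∈ Algebra.adjoin k {j} := by
  obtain ⟨P, Q, rfl⟩ := (IntermediateField.mem_adjoin_simple_iff k a).mp ha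
  by_cases hQ : aeval j Q = 0
  · rw [hQ, div_zero]
    exact zero_mem _
  rw [Algebra.adjoin_singleton_eq_range_aeval] at h
  obtain ⟨T, hT⟩ := h
  have hmap : ∀ R : k[X], r (aeval j R) = aeval (r j) (R.map i) := by
    intro R
    induction R using Polynomial.induction_on with
    | C a =>
      rw [aeval_C, Polynomial.map_C, aeval_C, hir]
    | add p q hp hq => rw [map_add, map_add, Polynomial.map_add, map_add, hp, hq]
    | monomial n a _ =>
      simp only [map_mul, map_pow, aeval_C, aeval_X, Polynomial.map_mul, Polynomial.map_pow,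
        Polynomial.map_C, Polynomial.map_X, hir]
  have hrQ : r (aeval j Q) ≠ 0 := (map_ne_zero_iff r r.injective).mpr hQ
  have hT' : aeval (r j) T = r (aeval j P / aeval j Q) := hT
  have h1 : aeval (r j) (P.map i) = aeval (r j) (Q.map i) * aeval (r j) T := by
    have h2 : aeval (r j) T = r (aeval j P) / r (aeval j Q) := by
      rw [hT', map_div₀]
    rw [h2, ← hmap, ← hmap]
    field_simp
  obtain ⟨S, hS⟩ := exists_aeval_of_div i r hj' P Q hQ T h1
  have h3 : aeval j P / aeval j Q = aeval j S := by
    rw [hS]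
    field_simp
  rw [h3, Algebra.adjoin_singleton_eq_range_aeval]
  exact ⟨S, rfl⟩

omit hir in
/-- `k(j⁻¹) = k(j)`. -/
theorem mem_adjoin_simple_inv {j : K} {a : K} (ha : a ∈ k⟮j⟯) : a ∈ k⟮j⁻¹⟯ := by
  have h1 : k⟮j⟯ ≤ k⟮j⁻¹⟯ := by
    rw [IntermediateField.adjoin_simple_le_iff]
    have h2 : j⁻¹ ∈ k⟮j⁻¹⟯ := mem_adjoin_simple_self k j⁻¹
    have h3 := inv_mem h2
    rwa [inv_inv] at h3
  exact h1 ha

/-- The twin of `mem_adjoin_of_map_mem` at infinity. -/
theorem mem_adjoin_inv_of_map_mem {j : K} (hj' : Transcendental k' (r j)) {a : K}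
    (ha : a ∈ k⟮j⟯) (h : r a ∈ Algebra.adjoin k' {(r j)⁻¹}) : a ∈ Algebra.adjoin k {j⁻¹} := by
  have hj'' : Transcendental k' (r j⁻¹) := by
    rw [map_inv₀]
    intro halg
    exact hj' (by simpa using halg.inv)
  refine mem_adjoin_of_map_mem i r hir hj'' (mem_adjoin_simple_inv (k := k) ha) ?_
  rw [map_inv₀]
  exact h

/-- **Descent of trace-duality on the chart `j`.** -/
theorem traceDual_descent_zero (j : K) [FiniteDimensional k⟮j⟯ K]
    (hj' : Transcendental k' (r j))
    (hli : ∀ (n : ℕ) (v : Fin n → K), LinearIndependent k⟮j⟯ v →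
      LinearIndependent k'⟮r j⟯ (r ∘ v))
    (hspan : ∀ w : K', w ∈ Submodule.span k'⟮r j⟯ (Set.range r)) (G : K)
    (hG0 : ∀ y : K', IsIntegral (Algebra.adjoin k' {r j}) y →
      ((Algebra.trace k'⟮r j⟯ K' (r G * y) : k'⟮r j⟯) : K') ∈ Algebra.adjoin k' {r j}) :
    ∀ b : K, IsIntegral (Algebra.adjoin k {j}) b →
      ((Algebra.trace k⟮j⟯ K (G * b) : k⟮j⟯) : K) ∈ Algebra.adjoin k {j} := by
  intro b hb
  have h1 := hG0 (r b) (isIntegral_map i r hir j hb)
  rw [← map_mul, trace_map i r hir j hli hspan] at h1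
  exact mem_adjoin_of_map_mem i r hir hj' (Algebra.trace k⟮j⟯ K (G * b)).2 h1

/-- **Descent of trace-duality on the chart `j⁻¹`.** -/
theorem traceDual_descent_inf (j : K) [FiniteDimensional k⟮j⟯ K]
    (hj' : Transcendental k' (r j))
    (hli : ∀ (n : ℕ) (v : Fin n → K), LinearIndependent k⟮j⟯ v →
      LinearIndependent k'⟮r j⟯ (r ∘ v))
    (hspan : ∀ w : K', w ∈ Submodule.span k'⟮r j⟯ (Set.range r)) (G : K)
    (hGinf : ∀ y : K', IsIntegral (Algebra.adjoin k' {(r j)⁻¹}) y →
      ((Algebra.trace k'⟮r j⟯ K' (r G * r j ^ 2 * y) : k'⟮r j⟯) : K') ∈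
        Algebra.adjoin k' {(r j)⁻¹}) :
    ∀ c : K, IsIntegral (Algebra.adjoin k {j⁻¹}) c →
      ((Algebra.trace k⟮j⟯ K (G * j ^ 2 * c) : k⟮j⟯) : K) ∈ Algebra.adjoin k {j⁻¹} := by
  intro c hc
  have hc' : IsIntegral (Algebra.adjoin k' {(r j)⁻¹}) (r c) := by
    have h := isIntegral_map i r hir j⁻¹ hc
    rwa [map_inv₀] at h
  have h1 := hGinf (r c) hc'
  rw [← map_pow, ← map_mul, ← map_mul, trace_map i r hir j hli hspan] at h1
  exact mem_adjoin_inv_of_map_mem i r hir hj' (Algebra.trace k⟮j⟯ K (G * j ^ 2 * c)).2 h1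

end OneVar

end Fermat.Agent.S44.D.ConstTrace

end
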