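import Mathlib
import Fermat.Agent.S44.D.ConstTrace

/-!
# Strand D of S44, base change of constants: separability descends

Setting of `S44/D/ConstTrace.lean` (`K / k`, `K' / k'`, `i : k →+* k'`, `r : K →+* K'` over each
other, `j : K`, and `r` maps `k(j)`-independent families to `k'(r j)`-independent families).

* `minpoly_map` : the minimal polynomial of `r x` over `k'(r j)` is the image of the minimal
  polynomial of `x` over `k(j)`.
* `isSeparable_of_map` : if `K' / k'(r j)` is separable then so is `K / k(j)`.
-/

set_option autoImplicit false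

open IntermediateField Polynomial

namespace Fermat.Agent.S44.D.ConstTrace

variable {k K k' K' : Type*} [Field k] [Field K] [Algebra k K] [Field k'] [Field K']
  [Algebra k' K'] (i : k →+* k') (r : K →+* K')
  (hir : ∀ a : k, r (algebraMap k K a) = algebraMap k' K' (i a))

include hir

/-- Evaluation of the image polynomial at `r x`. -/
theorem aeval_map_rK (j : K) (x : K) (P : (k⟮j⟯)[X]) :
    aeval (r x) (P.map (rK i r hir j)) = r (aeval x P) := by
  induction P using Polynomial.induction_on with
  | C a =>
    rw [Polynomial.map_C, aeval_C, aeval_C]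
    rfl
  | add p q hp hq => rw [Polynomial.map_add, map_add, map_add, map_add, hp, hq]
  | monomial n a _ =>
    simp only [map_mul, map_pow, aeval_C, aeval_X, Polynomial.map_mul, Polynomial.map_pow,
      Polynomial.map_C, Polynomial.map_X]
    rfl

/-- **The minimal polynomial is stable under the extension of constants.** -/
theorem minpoly_map (j : K)
    (hli : ∀ (n : ℕ) (v : Fin n → K), LinearIndependent k⟮j⟯ v →
      LinearIndependent k'⟮r j⟯ (r ∘ v))
    (x : K) (hx : IsIntegral k⟮j⟯ x) :
    minpoly k'⟮r j⟯ (r x) = (minpoly k⟮j⟯ x).map (rK i r hir j) := by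
  set m := minpoly k⟮j⟯ x with hm
  have hmon : (m.map (rK i r hir j)).Monic := (minpoly.monic hx).map _
  have hroot : aeval (r x) (m.map (rK i r hir j)) = 0 := by
    rw [aeval_map_rK, hm, minpoly.aeval, map_zero]
  have hint : IsIntegral k'⟮r j⟯ (r x) := ⟨_, hmon, by rw [← aeval_def]; exact hroot⟩
  have hdvd : minpoly k'⟮r j⟯ (r x) ∣ m.map (rK i r hir j) := minpoly.dvd _ _ hroot
  have hdeg : (m.map (rK i r hir j)).natDegree ≤ (minpoly k'⟮r j⟯ (r x)).natDegree := by
    rw [Polynomial.natDegree_map]
    by_contra hlt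
    rw [not_le] at hlt
    have hind : LinearIndependent k⟮j⟯ fun l : Fin m.natDegree => x ^ (l : ℕ) :=
      linearIndependent_pow x
    have hind' := hli _ _ hind
    have hsum : ∑ l : Fin m.natDegree,
        (minpoly k'⟮r j⟯ (r x)).coeff (l : ℕ) • (r ∘ fun l : Fin m.natDegree => x ^ (l : ℕ)) l
          = 0 := by
      have h1 := Polynomial.aeval_eq_sum_range' hlt (r x)
      rw [minpoly.aeval] at h1
      rw [h1, ← Fin.sum_univ_eq_sum_range
        (fun l => (minpoly k'⟮r j⟯ (r x)).coeff l • r x ^ l) m.natDegree]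
      refine Finset.sum_congr rfl fun l _ => ?_
      simp only [Function.comp_apply, map_pow]
    have h0 := Fintype.linearIndependent_iff.mp hind' _ hsum
      ⟨(minpoly k'⟮r j⟯ (r x)).natDegree, hlt⟩
    have h2 : (minpoly k'⟮r j⟯ (r x)).leadingCoeff = 0 := h0
    rw [(minpoly.monic hint).leadingCoeff] at h2
    exact one_ne_zero h2
  exact (Polynomial.eq_of_monic_of_dvd_of_natDegree_le (minpoly.monic hint) hmon hdvd hdeg).symm

/-- **Separability descends** along an extension of constants. -/
theorem isSeparable_of_map (j : K) [Algebra.IsIntegral k⟮j⟯ K]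
    (hli : ∀ (n : ℕ) (v : Fin n → K), LinearIndependent k⟮j⟯ v →
      LinearIndependent k'⟮r j⟯ (r ∘ v))
    [Algebra.IsSeparable k'⟮r j⟯ K'] : Algebra.IsSeparable k⟮j⟯ K := by
  refine ⟨fun x => ?_⟩
  have hx : IsIntegral k⟮j⟯ x := Algebra.IsIntegral.isIntegral x
  have h1 : (minpoly k'⟮r j⟯ (r x)).Separable := Algebra.IsSeparable.isSeparable k'⟮r j⟯ (r x)
  rw [minpoly_map i r hir j hli x hx] at h1
  exact (Polynomial.separable_map (rK i r hir j)).mp h1

end Fermat.Agent.S44.D.ConstTrace
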