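import Mathlib
import Fermat.Agent.S30.E2.Degree
import Fermat.Agent.S44.D.ConstTrace
import Fermat.Agent.S44.D.ConstTraceSep

/-!
# Strand D of S44, base change of constants: the Laurent-series instance

`E ⊆ Ω` fields, `LE ⊆ E((q))` and `LΩ ⊆ Ω((q))` subfields with `ι (LE) ⊆ LΩ`
(`ι` = coefficientwise `E → Ω`), `ρ = Abs.rho LE LΩ hL : LE →+* LΩ`, and `LΩ` generated over `Ω`
by `ρ (LE)` (`hgen`).  `S30.E2.Degree.Abs` (linear disjointness of constants inside Laurent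
series) supplies the two hypotheses of `S44/D/ConstTrace.lean`:

* `hli`, `hspan` : `ρ` preserves `E(j)`-independence, and `ρ (LE)` spans `LΩ` over `Ω(ρ j)`.
* `finite_down`, `finite_up`, `finrank_eq` : finiteness and degree over `E(j)` / `Ω(ρ j)`.
* `trace_rho` : `Tr_{LΩ/Ω(ρ j)} (ρ x) = ρ (Tr_{LE/E(j)} x)`.
* `traceDual_descent` : if `ρ G` is trace-dual regular over `Ω[ρ j]` and `Ω[(ρ j)⁻¹]`, then `G`
  is trace-dual regular over `E[j]` and `E[j⁻¹]` (the two hypotheses of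
  `TraceDualConv.exists_functional_of_traceDual` at the small level).
* `isSeparable_down` : separability of `LΩ / Ω(ρ j)` descends to `LE / E(j)`.
-/

set_option autoImplicit false

open IntermediateField Polynomial HahnSeries

namespace Fermat.Agent.S44.D.ConstTraceLS

open Fermat.Agent.S30.E2.Degree Fermat.Agent.S44.D.ConstTrace

variable {E Ω : Type*} [Field E] [Field Ω] [Algebra E Ω]
variable (LE : IntermediateField E (LaurentSeries E))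
  (LΩ : IntermediateField Ω (LaurentSeries Ω))
  (hL : ∀ x ∈ LE, Abs.iota (Ω := Ω) x ∈ LΩ)

/-- `Ω(ρ j)` is generated over `Ω` by the image of `E(j)`. -/
theorem adjoin_simple_le (j : LE) :
    Ω⟮Abs.rho LE LΩ hL j⟯ ≤ IntermediateField.adjoin Ω
      (Abs.rho LE LΩ hL '' ((E⟮j⟯ : IntermediateField E LE) : Set LE)) := by
  rw [IntermediateField.adjoin_simple_le_iff]
  exact IntermediateField.subset_adjoin _ _ ⟨j, mem_adjoin_simple_self E j, rfl⟩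

/-- `ρ` maps `E(j)` into `Ω(ρ j)`. -/
theorem rho_mem_adjoin_simple (j : LE) (x : E⟮j⟯) :
    Abs.rho LE LΩ hL x ∈ Ω⟮Abs.rho LE LΩ hL j⟯ :=
  map_mem_adjoin_simple (algebraMap E Ω) (Abs.rho LE LΩ hL) (Abs.rho_algebraMap LE LΩ hL) j x.2

/-- **Linear disjointness**, in the shape of `ConstTrace`. -/
theorem hli (j : LE) : ∀ (n : ℕ) (v : Fin n → LE), LinearIndependent E⟮j⟯ v →
    LinearIndependent Ω⟮Abs.rho LE LΩ hL j⟯ (Abs.rho LE LΩ hL ∘ v) := fun _ v hv =>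
  Abs.linearIndependent_rho LE LΩ hL E⟮j⟯ Ω⟮Abs.rho LE LΩ hL j⟯ (adjoin_simple_le LE LΩ hL j) v hv

/-- **Spanning**, in the shape of `ConstTrace`. -/
theorem hspan (hgen : IntermediateField.adjoin Ω (Set.range (Abs.rho LE LΩ hL)) = ⊤) (j : LE)
    [FiniteDimensional E⟮j⟯ LE] :
    ∀ w : LΩ, w ∈ Submodule.span Ω⟮Abs.rho LE LΩ hL j⟯ (Set.range (Abs.rho LE LΩ hL)) := by
  intro w
  have : Module.Free E⟮j⟯ LE := Module.Free.of_divisionRing E⟮j⟯ LE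
  have h1 := Abs.span_rho_eq_top LE LΩ hL E⟮j⟯ Ω⟮Abs.rho LE LΩ hL j⟯
    (rho_mem_adjoin_simple LE LΩ hL j) hgen (Module.finBasis E⟮j⟯ LE)
    (Module.finBasis E⟮j⟯ LE).span_eq
  have h2 : Submodule.span Ω⟮Abs.rho LE LΩ hL j⟯
      (Set.range (Abs.rho LE LΩ hL ∘ Module.finBasis E⟮j⟯ LE)) ≤
      Submodule.span Ω⟮Abs.rho LE LΩ hL j⟯ (Set.range (Abs.rho LE LΩ hL)) :=
    Submodule.span_mono (Set.range_comp_subset_range _ _)
  exact h2 (by rw [h1]; trivial)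

/-- Finiteness descends. -/
theorem finite_down (j : LE) [FiniteDimensional Ω⟮Abs.rho LE LΩ hL j⟯ LΩ] :
    FiniteDimensional E⟮j⟯ LE :=
  Abs.finite_down LE LΩ hL E⟮j⟯ Ω⟮Abs.rho LE LΩ hL j⟯ (adjoin_simple_le LE LΩ hL j)

/-- Finiteness ascends (under `hgen`). -/
theorem finite_up (hgen : IntermediateField.adjoin Ω (Set.range (Abs.rho LE LΩ hL)) = ⊤)
    (j : LE) [FiniteDimensional E⟮j⟯ LE] : FiniteDimensional Ω⟮Abs.rho LE LΩ hL j⟯ LΩ :=
  (Abs.finite_and_finrank_up LE LΩ hL E⟮j⟯ Ω⟮Abs.rho LE LΩ hL j⟯ (adjoin_simple_le LE LΩ hL j)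
    (rho_mem_adjoin_simple LE LΩ hL j) hgen).1

/-- The degrees agree (under `hgen`). -/
theorem finrank_eq (hgen : IntermediateField.adjoin Ω (Set.range (Abs.rho LE LΩ hL)) = ⊤)
    (j : LE) [FiniteDimensional E⟮j⟯ LE] :
    Module.finrank Ω⟮Abs.rho LE LΩ hL j⟯ LΩ = Module.finrank E⟮j⟯ LE :=
  (Abs.finite_and_finrank_up LE LΩ hL E⟮j⟯ Ω⟮Abs.rho LE LΩ hL j⟯ (adjoin_simple_le LE LΩ hL j)
    (rho_mem_adjoin_simple LE LΩ hL j) hgen).2

/-- **Trace transfer** along the extension of constants. -/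
theorem trace_rho (hgen : IntermediateField.adjoin Ω (Set.range (Abs.rho LE LΩ hL)) = ⊤)
    (j : LE) [FiniteDimensional E⟮j⟯ LE] (x : LE) :
    ((Algebra.trace Ω⟮Abs.rho LE LΩ hL j⟯ LΩ (Abs.rho LE LΩ hL x) :
        Ω⟮Abs.rho LE LΩ hL j⟯) : LΩ) =
      Abs.rho LE LΩ hL ((Algebra.trace E⟮j⟯ LE x : E⟮j⟯) : LE) :=
  trace_map (algebraMap E Ω) (Abs.rho LE LΩ hL) (Abs.rho_algebraMap LE LΩ hL) j
    (hli LE LΩ hL j) (hspan LE LΩ hL hgen j) x

/-- **Descent of trace-duality along an extension of constants** (Laurent-series form).  The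
conclusions are literally the hypotheses `hG0`, `hGinf` of
`TraceDualConv.exists_functional_of_traceDual` for `(k, K, j, G) := (E, LE, j, G)`. -/
theorem traceDual_descent (hgen : IntermediateField.adjoin Ω (Set.range (Abs.rho LE LΩ hL)) = ⊤)
    (j : LE) [FiniteDimensional E⟮j⟯ LE] (hj' : Transcendental Ω (Abs.rho LE LΩ hL j)) (G : LE)
    (hG0 : ∀ y : LΩ, IsIntegral (Algebra.adjoin Ω {Abs.rho LE LΩ hL j}) y →
      ((Algebra.trace Ω⟮Abs.rho LE LΩ hL j⟯ LΩ (Abs.rho LE LΩ hL G * y) :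
        Ω⟮Abs.rho LE LΩ hL j⟯) : LΩ) ∈ Algebra.adjoin Ω {Abs.rho LE LΩ hL j})
    (hGinf : ∀ y : LΩ, IsIntegral (Algebra.adjoin Ω {(Abs.rho LE LΩ hL j)⁻¹}) y →
      ((Algebra.trace Ω⟮Abs.rho LE LΩ hL j⟯ LΩ
        (Abs.rho LE LΩ hL G * Abs.rho LE LΩ hL j ^ 2 * y) :
        Ω⟮Abs.rho LE LΩ hL j⟯) : LΩ) ∈ Algebra.adjoin Ω {(Abs.rho LE LΩ hL j)⁻¹}) :
    (∀ b : LE, IsIntegral (Algebra.adjoin E {j}) b →
      ((Algebra.trace E⟮j⟯ LE (G * b) : E⟮j⟯) : LE) ∈ Algebra.adjoin E {j}) ∧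
    (∀ c : LE, IsIntegral (Algebra.adjoin E {j⁻¹}) c →
      ((Algebra.trace E⟮j⟯ LE (G * j ^ 2 * c) : E⟮j⟯) : LE) ∈ Algebra.adjoin E {j⁻¹}) :=
  ⟨traceDual_descent_zero (algebraMap E Ω) (Abs.rho LE LΩ hL) (Abs.rho_algebraMap LE LΩ hL) j hj'
      (hli LE LΩ hL j) (hspan LE LΩ hL hgen j) G hG0,
    traceDual_descent_inf (algebraMap E Ω) (Abs.rho LE LΩ hL) (Abs.rho_algebraMap LE LΩ hL) j hj'
      (hli LE LΩ hL j) (hspan LE LΩ hL hgen j) G hGinf⟩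

/-- **Separability descends** along the extension of constants. -/
theorem isSeparable_down (j : LE) [FiniteDimensional E⟮j⟯ LE]
    [Algebra.IsSeparable Ω⟮Abs.rho LE LΩ hL j⟯ LΩ] : Algebra.IsSeparable E⟮j⟯ LE :=
  isSeparable_of_map (algebraMap E Ω) (Abs.rho LE LΩ hL) (Abs.rho_algebraMap LE LΩ hL) j
    (hli LE LΩ hL j)

end Fermat.Agent.S44.D.ConstTraceLS
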