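import Mathlib
import Fermat.Prelude.Def_ModularCurve_LaurentCoeff
import Fermat.Agent.S44.D.CechAdapter

/-!
# Strand D of S44: the reduction datum of the chart `u` (adapter for `LiftRed`)

Level-free, in the Gauss block of `S44/D/CechAdapter.lean` (`O` a discrete valuation ring with
fraction field `E`, `L / E` with a `q`-expansion `emb`, `u : L` with integral expansion having a
pole modulo the maximal ideal, `π` prime in the chart ring `C0` of `u`).

* `redFrac O emb u` : the function field of the special fibre of the chart `u`, realised as the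
  intermediate field of `k((q)) / k` of the fractions of reductions of elements of `C0`.
* `redHom_mem_redFrac` : the reduction of every Gauss-integral element of `L` lies in it.
* `rhoHom` : the reduction homomorphism `gaussSub O emb →+* redFrac O emb u`.
* the six facts `hR`, `hinv`, `halg`, `hker`, `hfracΛ`, `htrans` of the reduction datum.
-/

set_option autoImplicit false
set_option linter.unusedSectionVars false

open Polynomial ModularCurve

noncomputable section

namespace Fermat.Agent.S44.D.RedDatum

open Fermat.Agent.S30 Fermat.Agent.S30.Model Fermat.Agent.S48.G1.K1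
open Fermat.Agent.S44.D.CechAdapter

variable {O E : Type*} [CommRing O] [IsDomain O] [IsDiscreteValuationRing O] [Field E]
  [Algebra O E] [IsFractionRing O E]
variable {L : Type*} [Field L] [Algebra E L] [Algebra O L] [IsScalarTower O E L]

/-! ### Units and the kernel of the reduction -/

/-- The inverse of a Gauss-integral element of nonzero reduction is Gauss-integral. -/
theorem inv_mem_gaussSub_of_redHom_ne_zero (emb : L →ₐ[E] LaurentSeries E)
    (x : gaussSub O emb) (hx : redHom O emb x ≠ 0) : (x : L)⁻¹ ∈ gaussSub O emb := by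
  show emb (x : L)⁻¹ ∈ GaussDVR.V O E
  rw [map_inv₀]
  exact GaussDVR.inv_mem O E ⟨emb (x : L), x.2⟩ hx

/-- **The kernel of the reduction on the chart ring `C0` is `π C0`.** -/
theorem exists_eq_unif_mul_of_redHom_eq_zero (emb : L →ₐ[E] LaurentSeries E)
    (hfrac : ∀ x : L, emb x ∈ GaussDVR.fracField O E) (π : O) (hπ : Irreducible π) (u : L)
    (uO : LaurentSeries O) (hu : emb u = GaussDVR.iota O E uO)
    (hpole : (GaussDVR.rho O uO).order < 0)
    (hprime : Prime (algebraMap (Algebra.adjoin O {u})
      (integralClosure (Algebra.adjoin O {u}) L) (algebraMap O (Algebra.adjoin O {u}) π)))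
    (x : gaussSub O emb) (hx0 : (x : L) ∈ C0 (O := O) u) (hx : redHom O emb x = 0) :
    ∃ y : L, y ∈ C0 (O := O) u ∧ (x : L) = algebraMap O L π * y := by
  obtain ⟨Y, hY⟩ := GaussDVR.ker' E π hπ ⟨emb (x : L), x.2⟩ hx
  have hY' : emb (x : L) = HahnSeries.C (algebraMap O E π) * (Y : LaurentSeries E) := hY
  have hπL : algebraMap O L π ≠ 0 := fun h0 =>
    hπ.ne_zero (ChartProv.algebraMap_injective_base O E L (h0.trans (map_zero _).symm))
  have hCπ : (HahnSeries.C (algebraMap O E π) : LaurentSeries E) ≠ 0 := by
    rw [← GaussOne.emb_algebraMap emb π]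
    exact fun h0 => hπL (emb.injective (h0.trans (map_zero _).symm))
  have hyV : emb ((x : L) / algebraMap O L π) ∈ GaussDVR.V O E := by
    rw [map_div₀, hY', GaussOne.emb_algebraMap, mul_div_cancel_left₀ _ hCπ]
    exact Y.2
  have hint : IsIntegral (Algebra.adjoin O {u}) ((x : L) / algebraMap O L π) :=
    GaussInt.isIntegral_of_mul_of_mem_V emb hfrac π hπ u uO hu hpole hprime _ hyV π hπ.ne_zero
      (by
        rw [mul_div_cancel₀ _ hπL]
        exact hx0)
  exact ⟨_, hint, (mul_div_cancel₀ _ hπL).symm⟩

/-- **Every Gauss-integral element is a fraction of elements of `C0` with denominator of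
nonzero reduction.** -/
theorem exists_fraction (emb : L →ₐ[E] LaurentSeries E)
    (hfrac : ∀ x : L, emb x ∈ GaussDVR.fracField O E) (π : O) (hπ : Irreducible π) (u : L)
    (uO : LaurentSeries O) (hu : emb u = GaussDVR.iota O E uO)
    (hpole : (GaussDVR.rho O uO).order < 0)
    (hprime : Prime (algebraMap (Algebra.adjoin O {u})
      (integralClosure (Algebra.adjoin O {u}) L) (algebraMap O (Algebra.adjoin O {u}) π)))
    [FiniteDimensional (IntermediateField.adjoin E {u}) L] (x : gaussSub O emb) :
    ∃ a b : gaussSub O emb, (a : L) ∈ C0 (O := O) u ∧ (b : L) ∈ C0 (O := O) u ∧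
      redHom O emb b ≠ 0 ∧ (x : L) * (b : L) = (a : L) := by
  have hπG : algebraMap O L π ∈ gaussSub O emb := algebraMap_mem_gaussSub emb π
  have hπL : algebraMap O L π ≠ 0 := fun h0 =>
    hπ.ne_zero (ChartProv.algebraMap_injective_base O E L (h0.trans (map_zero _).symm))
  set g : gaussSub O emb := 1 + ⟨algebraMap O L π, hπG⟩ * x with hg
  have hg1 : GaussDVR.red O E ⟨emb (g : L), g.2⟩ = 1 := by
    have h : redHom O emb g = 1 := by
      rw [hg, map_add, map_one, map_mul, redHom_algebraMap, GaussDVR.residue_unif π hπ,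
        map_zero, zero_mul, add_zero]
    exact h
  obtain ⟨a, b, ha, hb, hbπ, hgb⟩ := GaussOne.gaussOne_of_red_eq_one' emb hfrac π hπ u uO hu
    hpole hprime (g : L) g.2 hg1
  have haG : a ∈ gaussSub O emb := mem_gaussSub_of_mem_C0 emb hfrac π hπ u uO hu a ha
  have hbG : b ∈ gaussSub O emb := mem_gaussSub_of_mem_C0 emb hfrac π hπ u uO hu b hb
  refine ⟨⟨a, haG⟩, ⟨b, hbG⟩, ha, hb, ?_, ?_⟩
  · intro h0
    obtain ⟨y, hy, hby⟩ := exists_eq_unif_mul_of_redHom_eq_zero emb hfrac π hπ u uO hu hpole
      hprime ⟨b, hbG⟩ hb h0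
    exact hbπ y hy hby
  · have h1 : (g : L) = 1 + algebraMap O L π * (x : L) := rfl
    rw [h1] at hgb
    have h2 : algebraMap O L π * ((x : L) * b) = algebraMap O L π * a := by
      linear_combination hgb
    exact mul_left_cancel₀ hπL h2

/-! ### The function field of the special fibre -/

variable (O) in
/-- The function field of the special fibre of the chart `u`, inside `k((q))`: the fractions of
reductions of elements of the chart ring `C0`. -/
def redFrac (emb : L →ₐ[E] LaurentSeries E) (u : L) :
    IntermediateField (IsLocalRing.ResidueField O)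
      (LaurentSeries (IsLocalRing.ResidueField O)) :=
  Subalgebra.toIntermediateField
    { carrier := {y | ∃ a b : gaussSub O emb, (a : L) ∈ C0 (O := O) u ∧
        (b : L) ∈ C0 (O := O) u ∧ redHom O emb b ≠ 0 ∧ y * redHom O emb b = redHom O emb a}
      mul_mem' := by
        rintro y z ⟨a, b, ha, hb, hb0, h⟩ ⟨a', b', ha', hb', hb0', h'⟩
        refine ⟨a * a', b * b', mul_mem ha ha', mul_mem hb hb', ?_, ?_⟩
        · rw [map_mul]; exact mul_ne_zero hb0 hb0'
        · rw [map_mul, map_mul, ← h, ← h']; ring
      one_mem' := ⟨1, 1, one_mem _, one_mem _, by rw [map_one]; exact one_ne_zero,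
        by rw [map_one, mul_one]⟩
      add_mem' := by
        rintro y z ⟨a, b, ha, hb, hb0, h⟩ ⟨a', b', ha', hb', hb0', h'⟩
        refine ⟨a * b' + a' * b, b * b', add_mem (mul_mem ha hb') (mul_mem ha' hb),
          mul_mem hb hb', ?_, ?_⟩
        · rw [map_mul]; exact mul_ne_zero hb0 hb0'
        · rw [map_add, map_mul, map_mul, map_mul, ← h, ← h']; ring
      zero_mem' := ⟨0, 1, zero_mem _, one_mem _, by rw [map_one]; exact one_ne_zero,
        by rw [map_zero, zero_mul]⟩
      algebraMap_mem' := by
        intro cbar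
        obtain ⟨c, rfl⟩ := IsLocalRing.residue_surjective cbar
        refine ⟨⟨algebraMap O L c, algebraMap_mem_gaussSub emb c⟩, 1,
          Subalgebra.algebraMap_mem _ c, one_mem _, by rw [map_one]; exact one_ne_zero, ?_⟩
        rw [map_one, mul_one, redHom_algebraMap, algebraMap_laurentSeries_eq_single,
          HahnSeries.C_apply] }
    (by
      rintro y ⟨a, b, ha, hb, hb0, h⟩
      by_cases ha0 : redHom O emb a = 0
      · have hy : y = 0 := by
          rw [ha0] at h
          exact (mul_eq_zero.mp h).resolve_right hb0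
        rw [hy, inv_zero]
        exact ⟨0, 1, zero_mem _, one_mem _, by rw [map_one]; exact one_ne_zero,
          by rw [map_zero, zero_mul]⟩
      · refine ⟨b, a, hb, ha, ha0, ?_⟩
        have hy : y ≠ 0 := fun h0 => ha0 (by rw [← h, h0, zero_mul])
        rw [← h]
        field_simp)

theorem mem_redFrac {emb : L →ₐ[E] LaurentSeries E} {u : L}
    {y : LaurentSeries (IsLocalRing.ResidueField O)} :
    y ∈ redFrac O emb u ↔ ∃ a b : gaussSub O emb, (a : L) ∈ C0 (O := O) u ∧
      (b : L) ∈ C0 (O := O) u ∧ redHom O emb b ≠ 0 ∧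
        y * redHom O emb b = redHom O emb a := Iff.rfl

/-- Shortcut instance: the `k`-algebra structure of `redFrac` (the generic instance search
through `IsLocalRing.ResidueField` is slow). -/
instance instAlgebraRedFrac (emb : L →ₐ[E] LaurentSeries E) (u : L) :
    Algebra (IsLocalRing.ResidueField O) (redFrac O emb u) :=
  (redFrac O emb u).toSubalgebra.algebra

theorem coe_algebraMap_redFrac (emb : L →ₐ[E] LaurentSeries E) (u : L)
    (c : IsLocalRing.ResidueField O) :
    ((algebraMap (IsLocalRing.ResidueField O) (redFrac O emb u) c : redFrac O emb u) :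
      LaurentSeries (IsLocalRing.ResidueField O)) = HahnSeries.C c := by
  have h1 : ((algebraMap (IsLocalRing.ResidueField O) (redFrac O emb u) c : redFrac O emb u) :
      LaurentSeries (IsLocalRing.ResidueField O)) =
      algebraMap (IsLocalRing.ResidueField O) (LaurentSeries (IsLocalRing.ResidueField O)) c :=
    rfl
  rw [h1, algebraMap_laurentSeries_eq_single, HahnSeries.C_apply]

/-- **The reduction of every Gauss-integral element lies in the function field of the special
fibre.** -/
theorem redHom_mem_redFrac (emb : L →ₐ[E] LaurentSeries E)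
    (hfrac : ∀ x : L, emb x ∈ GaussDVR.fracField O E) (π : O) (hπ : Irreducible π) (u : L)
    (uO : LaurentSeries O) (hu : emb u = GaussDVR.iota O E uO)
    (hpole : (GaussDVR.rho O uO).order < 0)
    (hprime : Prime (algebraMap (Algebra.adjoin O {u})
      (integralClosure (Algebra.adjoin O {u}) L) (algebraMap O (Algebra.adjoin O {u}) π)))
    [FiniteDimensional (IntermediateField.adjoin E {u}) L] (x : gaussSub O emb) :
    redHom O emb x ∈ redFrac O emb u := by
  obtain ⟨a, b, ha, hb, hb0, h⟩ := exists_fraction emb hfrac π hπ u uO hu hpole hprime x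
  refine ⟨a, b, ha, hb, hb0, ?_⟩
  rw [← map_mul]
  exact congrArg (redHom O emb) (Subtype.ext h)

/-! ### The reduction homomorphism into the function field of the special fibre -/

/-- The reduction homomorphism with values in `redFrac`, given that it lands there
(`redHom_mem_redFrac`). -/
def rhoHom (emb : L →ₐ[E] LaurentSeries E) (u : L)
    (hmem : ∀ x : gaussSub O emb, redHom O emb x ∈ redFrac O emb u) :
    gaussSub O emb →+* redFrac O emb u :=
  (redHom O emb).codRestrict (redFrac O emb u) hmem

theorem coe_rhoHom (emb : L →ₐ[E] LaurentSeries E) (u : L)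
    (hmem : ∀ x : gaussSub O emb, redHom O emb x ∈ redFrac O emb u) (x : gaussSub O emb) :
    ((rhoHom emb u hmem x : redFrac O emb u) :
      LaurentSeries (IsLocalRing.ResidueField O)) = redHom O emb x := rfl

theorem rhoHom_eq_zero_iff (emb : L →ₐ[E] LaurentSeries E) (u : L)
    (hmem : ∀ x : gaussSub O emb, redHom O emb x ∈ redFrac O emb u) (x : gaussSub O emb) :
    rhoHom emb u hmem x = 0 ↔ redHom O emb x = 0 := by
  constructor
  · intro h
    have := congrArg (Subtype.val) h
    exact this
  · intro h
    exact Subtype.ext h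

/-! ### The six facts of the reduction datum -/

/-- (hR) The overlap ring is Gauss-integral. -/
theorem hR (emb : L →ₐ[E] LaurentSeries E)
    (hfrac : ∀ x : L, emb x ∈ GaussDVR.fracField O E) (π : O) (hπ : Irreducible π) (u : L)
    (uO : LaurentSeries O) (hu : emb u = GaussDVR.iota O E uO)
    (hpole : (GaussDVR.rho O uO).order < 0) :
    ∀ x : L, x ∈ C01 (O := O) u → x ∈ gaussSub O emb :=
  fun x hx => mem_gaussSub_of_mem_C01 emb hfrac π hπ u uO hu hpole x hx

/-- (hinv) Elements of nonzero reduction are units of the Gauss ring. -/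
theorem hinv (emb : L →ₐ[E] LaurentSeries E) (u : L)
    (hmem : ∀ x : gaussSub O emb, redHom O emb x ∈ redFrac O emb u) :
    ∀ x : gaussSub O emb, rhoHom emb u hmem x ≠ 0 → (x : L)⁻¹ ∈ gaussSub O emb :=
  fun x hx => inv_mem_gaussSub_of_redHom_ne_zero emb x
    (fun h0 => hx ((rhoHom_eq_zero_iff emb u hmem x).mpr h0))

/-- (halg) The reduction of a constant is the constant of its residue class. -/
theorem halg (emb : L →ₐ[E] LaurentSeries E) (u : L)
    (hmem : ∀ x : gaussSub O emb, redHom O emb x ∈ redFrac O emb u) :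
    ∀ (c : O) (x : gaussSub O emb), (x : L) = algebraMap O L c →
      rhoHom emb u hmem x =
        algebraMap (IsLocalRing.ResidueField O) (redFrac O emb u) (IsLocalRing.residue O c) := by
  intro c x hx
  apply Subtype.ext
  rw [coe_rhoHom, coe_algebraMap_redFrac, ← redHom_algebraMap emb c]
  exact congrArg (redHom O emb) (Subtype.ext hx)

/-- (hker) The kernel of the reduction on `C0` is `π C0`. -/
theorem hker (emb : L →ₐ[E] LaurentSeries E)
    (hfrac : ∀ x : L, emb x ∈ GaussDVR.fracField O E) (π : O) (hπ : Irreducible π) (u : L)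
    (uO : LaurentSeries O) (hu : emb u = GaussDVR.iota O E uO)
    (hpole : (GaussDVR.rho O uO).order < 0)
    (hprime : Prime (algebraMap (Algebra.adjoin O {u})
      (integralClosure (Algebra.adjoin O {u}) L) (algebraMap O (Algebra.adjoin O {u}) π)))
    (hmem : ∀ x : gaussSub O emb, redHom O emb x ∈ redFrac O emb u) :
    ∀ x : gaussSub O emb, (x : L) ∈ C0 (O := O) u → rhoHom emb u hmem x = 0 →
      ∃ y : L, y ∈ C0 (O := O) u ∧ (x : L) = algebraMap O L π * y :=
  fun x hx0 hx => exists_eq_unif_mul_of_redHom_eq_zero emb hfrac π hπ u uO hu hpole hprime x hx0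
    ((rhoHom_eq_zero_iff emb u hmem x).mp hx)

/-- (hfracΛ) `redFrac` is the field of fractions of the reduction of `C0`. -/
theorem hfracΛ (emb : L →ₐ[E] LaurentSeries E) (u : L)
    (hmem : ∀ x : gaussSub O emb, redHom O emb x ∈ redFrac O emb u) :
    ∀ y : redFrac O emb u, ∃ a b : gaussSub O emb, (a : L) ∈ C0 (O := O) u ∧
      (b : L) ∈ C0 (O := O) u ∧ rhoHom emb u hmem b ≠ 0 ∧
        y * rhoHom emb u hmem b = rhoHom emb u hmem a := by
  rintro ⟨y, a, b, ha, hb, hb0, h⟩
  exact ⟨a, b, ha, hb, fun h0 => hb0 ((rhoHom_eq_zero_iff emb u hmem b).mp h0), Subtype.ext h⟩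

/-- The reduction of `u` is the coefficientwise reduction of its expansion. -/
theorem coe_rhoHom_u (emb : L →ₐ[E] LaurentSeries E) (u : L) (uO : LaurentSeries O)
    (hu : emb u = GaussDVR.iota O E uO)
    (hmem : ∀ x : gaussSub O emb, redHom O emb x ∈ redFrac O emb u)
    (ubar : gaussSub O emb) (hubar : (ubar : L) = u) :
    ((rhoHom emb u hmem ubar : redFrac O emb u) :
      LaurentSeries (IsLocalRing.ResidueField O)) = GaussDVR.rho O uO := by
  rw [coe_rhoHom, ← redHom_of_int emb u uO hu]
  exact congrArg (redHom O emb) (Subtype.ext hubar)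

/-- (htrans) The coordinate of the special fibre is transcendental over the residue field. -/
theorem htrans (emb : L →ₐ[E] LaurentSeries E) (u : L) (uO : LaurentSeries O)
    (hu : emb u = GaussDVR.iota O E uO) (hpole : (GaussDVR.rho O uO).order < 0)
    (hmem : ∀ x : gaussSub O emb, redHom O emb x ∈ redFrac O emb u) :
    ∀ ubar : gaussSub O emb, (ubar : L) = u →
      Transcendental (IsLocalRing.ResidueField O) (rhoHom emb u hmem ubar) := by
  intro ubar hubar
  refine LaurentConst.transcendental_of_order_ne_zero (redFrac O emb u) _ ?_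
  rw [coe_rhoHom_u emb u uO hu hmem ubar hubar]
  exact ne_of_lt hpole

end Fermat.Agent.S44.D.RedDatum
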