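import Mathlib

/-!
# Strand D of S44: the duality brick (DW-b) without a normal basis

`k` a field, `F = Frac k[X]` (the image of `X` is the function `j`), `K / F` finite separable.
`B₀` = integral closure of `k[j]` in `K`, `B∞` = integral closure of `k[1/j]` in `K`.

Main results (Mathlib only):

* `exists_traceDual_of_functional` : every `k`-linear functional `φ` on `K` killing `B₀` and `B∞`
  is "coefficient of `j⁻¹` of `Tr (G * ·)`" for some `G` with `Tr (G B₀) ⊆ k[j]` and
  `Tr (G j² B∞) ⊆ k[1/j]`.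
* `eq_zero_of_trace_eq_zero` : left nondegeneracy.

The proof uses one `k[j]`-basis of `B₀` and its trace-dual basis; no simultaneous (normal) basis
and no dimension count.
-/

namespace Fermat.Agent.S44.D.DWFun

open Polynomial

universe u v w

/-! ### Scaling lemmas -/

theorem aeval_mul_pow_mem {k F : Type*} [CommRing k] [CommRing F] [Algebra k F] (t t' : F)
    (htt : t * t' = 1) (g : k[X]) (e : ℕ) (he : g.natDegree ≤ e) :
    aeval t g * t' ^ e ∈ Algebra.adjoin k {t'} := by
  rw [aeval_eq_sum_range, Finset.sum_mul]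
  refine Subalgebra.sum_mem _ fun a ha => ?_
  have hae : a ≤ e := (Nat.lt_succ_iff.mp (Finset.mem_range.mp ha)).trans he
  have h1 : t ^ a * t' ^ e = t' ^ (e - a) := by
    have : t' ^ e = t' ^ a * t' ^ (e - a) := by rw [← pow_add, Nat.add_sub_cancel' hae]
    rw [this, ← mul_assoc, ← mul_pow, htt, one_pow, one_mul]
  rw [smul_mul_assoc, h1]
  exact Subalgebra.smul_mem _
    (Subalgebra.pow_mem _ (Algebra.subset_adjoin (Set.mem_singleton _)) _) _

theorem exists_scaled_monic {k F K R : Type*} [CommRing k] [Field F] [CommRing K] [CommRing R]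
    [Algebra k F] [Algebra F K]
    (f : R →+* F) (t t' : F) (htt : t * t' = 1)
    (hf : ∀ r : R, ∃ g : k[X], f r = aeval t g)
    (x : K) (p : R[X]) (hp : p.Monic) (hx : eval₂ ((algebraMap F K).comp f) x p = 0) :
    ∃ M : ℕ, ∀ m, M ≤ m → ∃ q : F[X], q.Monic ∧ (∀ i, q.coeff i ∈ Algebra.adjoin k {t'}) ∧
      aeval (algebraMap F K (t' ^ m) * x) q = 0 := by
  choose g hg using hf
  refine ⟨(Finset.range p.natDegree).sup (fun i => (g (p.coeff i)).natDegree), fun m hm => ?_⟩
  have hpm : (p.map f).Monic := hp.map f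
  have hdeg : (p.map f).natDegree = p.natDegree := hp.natDegree_map f
  refine ⟨scaleRoots (p.map f) (t' ^ m), (monic_scaleRoots_iff _).mpr hpm, fun i => ?_, ?_⟩
  · rw [coeff_scaleRoots, hdeg]
    rcases lt_trichotomy i p.natDegree with hi | hi | hi
    · rw [coeff_map, hg]
      have h1 : (g (p.coeff i)).natDegree ≤ m :=
        (Finset.le_sup (f := fun i => (g (p.coeff i)).natDegree)
          (Finset.mem_range.mpr hi)).trans hm
      have h2 : m ≤ m * (p.natDegree - i) := Nat.le_mul_of_pos_right _ (Nat.sub_pos_of_lt hi)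
      rw [← pow_mul]
      exact aeval_mul_pow_mem t t' htt _ _ (h1.trans h2)
    · subst hi
      rw [← hdeg, hpm.coeff_natDegree, Nat.sub_self, pow_zero, mul_one]
      exact Subalgebra.one_mem _
    · rw [coeff_eq_zero_of_natDegree_lt (hdeg ▸ hi), zero_mul]
      exact Subalgebra.zero_mem _
  · apply scaleRoots_aeval_eq_zero
    rw [aeval_def, eval₂_map]
    exact hx

theorem isIntegralElem_of_monic_of_coeff_mem_range {F K R : Type*} [CommRing F] [CommRing K]
    [CommRing R] [Algebra F K] (f : R →+* F) (z : K) (q : F[X]) (hq : q.Monic)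
    (hc : ∀ i, q.coeff i ∈ f.range) (hz : aeval z q = 0) :
    ((algebraMap F K).comp f).IsIntegralElem z := by
  obtain ⟨q', hq', -, hmon⟩ :=
    lifts_and_natDegree_eq_and_monic
      ((lifts_iff_coeff_lifts q).mpr fun n => RingHom.mem_range.mp (hc n)) hq
  refine ⟨q', hmon, ?_⟩
  rw [← eval₂_map, hq', ← aeval_def]
  exact hz

theorem inv_pow_mul_pow_of_le {K : Type*} [Field K] {J : K} (hJ : J ≠ 0) {a b : ℕ} (h : b ≤ a) :
    J⁻¹ ^ a * J ^ b = J⁻¹ ^ (a - b) := by
  obtain ⟨c, rfl⟩ := Nat.exists_eq_add_of_le h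
  rw [Nat.add_sub_cancel_left, pow_add, mul_comm (J⁻¹ ^ b), mul_assoc, ← mul_pow,
    inv_mul_cancel₀ hJ, one_pow, mul_one]

theorem inv_pow_mul_pow_of_ge {K : Type*} [Field K] {J : K} (hJ : J ≠ 0) {a b : ℕ} (h : a ≤ b) :
    J⁻¹ ^ a * J ^ b = J ^ (b - a) := by
  obtain ⟨c, rfl⟩ := Nat.exists_eq_add_of_le h
  rw [Nat.add_sub_cancel_left, pow_add, ← mul_assoc, ← mul_pow, inv_mul_cancel₀ hJ, one_pow,
    one_mul]

section Main

variable {k : Type u} {F : Type v} {K : Type w} [Field k] [Field F] [Field K]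
  [Algebra k[X] F] [Algebra F K] [Algebra k[X] K] [IsScalarTower k[X] F K]
  [Algebra k F] [IsScalarTower k k[X] F] [Algebra k K] [IsScalarTower k F K]

variable (k F) in
/-- `k[1/j]` inside `F = Frac k[X]`, `j` the image of `X`. -/
abbrev kinv : Subalgebra k F := Algebra.adjoin k {(algebraMap k[X] F X)⁻¹}

theorem algebraMap_eq_aeval (g : k[X]) :
    algebraMap k[X] F g = aeval (algebraMap k[X] F X) g := by
  conv_lhs => rw [← aeval_X_left_apply g]
  rw [aeval_algebraMap_apply]

variable (F) in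
include F in
theorem algebraMap_C_eq (a : k) : algebraMap k[X] K (C a) = algebraMap k K a := by
  rw [IsScalarTower.algebraMap_apply k[X] F K, IsScalarTower.algebraMap_apply k F K,
    IsScalarTower.algebraMap_apply k k[X] F, Polynomial.algebraMap_eq]

omit [Algebra k F] [IsScalarTower k k[X] F] [Algebra k K] [IsScalarTower k F K] in
theorem jK_ne_zero (hj : algebraMap k[X] F X ≠ 0) : algebraMap k[X] K X ≠ 0 := by
  rw [IsScalarTower.algebraMap_apply k[X] F K]
  exact (_root_.map_ne_zero _).mpr hj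

omit [Algebra k K] [IsScalarTower k F K] in
/-- (ii): integral over `k[j]` implies `j⁻ᵐ x` integral over `k[1/j]` for `m ≫ 0`. -/
theorem exists_isIntegral_kinv_of_isIntegral (hj : algebraMap k[X] F X ≠ 0) {x : K}
    (hx : IsIntegral k[X] x) :
    ∃ M : ℕ, ∀ m, M ≤ m → IsIntegral (kinv k F) ((algebraMap k[X] K X)⁻¹ ^ m * x) := by
  obtain ⟨p, hp, hpx⟩ := hx
  rw [IsScalarTower.algebraMap_eq k[X] F K] at hpx
  obtain ⟨M, hM⟩ := exists_scaled_monic (k := k) (algebraMap k[X] F) (algebraMap k[X] F X)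
    (algebraMap k[X] F X)⁻¹ (mul_inv_cancel₀ hj) (fun r => ⟨r, algebraMap_eq_aeval r⟩) x p hp hpx
  refine ⟨M, fun m hm => ?_⟩
  obtain ⟨q, hq, hqc, hqz⟩ := hM m hm
  have h1 := isIntegralElem_of_monic_of_coeff_mem_range (kinv k F).val.toRingHom _ q hq
    (fun i => ⟨⟨_, hqc i⟩, rfl⟩) hqz
  have e : algebraMap F K ((algebraMap k[X] F X)⁻¹ ^ m) * x =
      (algebraMap k[X] K X)⁻¹ ^ m * x := by
    rw [map_pow, map_inv₀, ← IsScalarTower.algebraMap_apply]
  rw [e] at h1
  exact h1

omit [Algebra k K] [IsScalarTower k F K] in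
/-- (iii): integral over `k[1/j]` implies `jⁿ y` integral over `k[j]` for `n ≫ 0`. -/
theorem exists_isIntegral_of_isIntegral_kinv (hj : algebraMap k[X] F X ≠ 0) {y : K}
    (hy : IsIntegral (kinv k F) y) :
    ∃ N : ℕ, ∀ n, N ≤ n → IsIntegral k[X] ((algebraMap k[X] K X) ^ n * y) := by
  obtain ⟨p, hp, hpy⟩ := hy
  have hf : ∀ r : kinv k F, ∃ g : k[X],
      (kinv k F).val.toRingHom r = aeval (algebraMap k[X] F X)⁻¹ g := by
    intro r
    have h : (r : F) ∈ Algebra.adjoin k {(algebraMap k[X] F X)⁻¹} := r.2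
    rw [Algebra.adjoin_singleton_eq_range_aeval] at h
    obtain ⟨g, hg⟩ := h
    exact ⟨g, hg.symm⟩
  obtain ⟨N, hN⟩ := exists_scaled_monic (k := k) (kinv k F).val.toRingHom
    (algebraMap k[X] F X)⁻¹ (algebraMap k[X] F X) (inv_mul_cancel₀ hj) hf y p hp hpy
  refine ⟨N, fun n hn => ?_⟩
  obtain ⟨q, hq, hqc, hqz⟩ := hN n hn
  have hc : ∀ i, q.coeff i ∈ (algebraMap k[X] F).range := by
    intro i
    have h : q.coeff i ∈ Algebra.adjoin k {algebraMap k[X] F X} := hqc i
    rw [Algebra.adjoin_singleton_eq_range_aeval] at h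
    obtain ⟨g, hg⟩ := h
    exact ⟨g, by rw [algebraMap_eq_aeval]; exact hg⟩
  have h1 := isIntegralElem_of_monic_of_coeff_mem_range (algebraMap k[X] F) _ q hq hc hqz
  rw [← IsScalarTower.algebraMap_eq k[X] F K] at h1
  have e : algebraMap F K ((algebraMap k[X] F X) ^ n) * y = (algebraMap k[X] K X) ^ n * y := by
    rw [map_pow, ← IsScalarTower.algebraMap_apply]
  rw [e] at h1
  exact h1

omit [IsScalarTower k k[X] F] [Algebra k K] [IsScalarTower k F K] in
/-- (iv): `B∞` is stable under `j⁻¹`. -/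
theorem isIntegral_kinv_inv_pow_mul {y : K} (hy : IsIntegral (kinv k F) y) (e : ℕ) :
    IsIntegral (kinv k F) ((algebraMap k[X] K X)⁻¹ ^ e * y) := by
  have h1 : IsIntegral (kinv k F) (algebraMap (kinv k F) K
      ⟨(algebraMap k[X] F X)⁻¹, Algebra.subset_adjoin (Set.mem_singleton _)⟩) :=
    isIntegral_algebraMap
  have h2 : algebraMap (kinv k F) K
      ⟨(algebraMap k[X] F X)⁻¹, Algebra.subset_adjoin (Set.mem_singleton _)⟩ =
      (algebraMap k[X] K X)⁻¹ := by
    rw [Subalgebra.algebraMap_mk, map_inv₀, ← IsScalarTower.algebraMap_apply]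
  rw [h2] at h1
  exact (h1.pow e).mul hy

variable (F) in
include F in
/-- The key computation: `φ (j^-(m+1) r z)` as a convolution, when `φ` kills all `j^e z`. -/
theorem phi_scaled (φ : K →ₗ[k] k) (hjK : algebraMap k[X] K X ≠ 0) (z : K)
    (hz : ∀ e : ℕ, φ ((algebraMap k[X] K X) ^ e * z) = 0) (r : k[X]) (m : ℕ) :
    φ ((algebraMap k[X] K X)⁻¹ ^ (m + 1) * (algebraMap k[X] K r * z)) =
      ∑ ab ∈ Finset.HasAntidiagonal.antidiagonal m,
        r.coeff ab.1 * φ ((algebraMap k[X] K X)⁻¹ ^ (ab.2 + 1) * z) := by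
  induction r using Polynomial.induction_on' with
  | add p q hp hq =>
    rw [map_add, add_mul, mul_add, map_add, hp, hq, ← Finset.sum_add_distrib]
    refine Finset.sum_congr rfl fun ab _ => ?_
    rw [coeff_add, add_mul]
  | monomial n a =>
    have h1 : algebraMap k[X] K (monomial n a) =
        algebraMap k K a * (algebraMap k[X] K X) ^ n := by
      rw [← C_mul_X_pow_eq_monomial, map_mul, map_pow, algebraMap_C_eq F]
    have h2 : (algebraMap k[X] K X)⁻¹ ^ (m + 1) *
        (algebraMap k K a * (algebraMap k[X] K X) ^ n * z) =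
        a • ((algebraMap k[X] K X)⁻¹ ^ (m + 1) * (algebraMap k[X] K X) ^ n * z) := by
      rw [Algebra.smul_def]; ring
    rw [h1, h2, map_smul, smul_eq_mul]
    by_cases hnm : n ≤ m
    · rw [Finset.sum_eq_single (n, m - n)]
      · rw [coeff_monomial, if_pos rfl, inv_pow_mul_pow_of_le hjK (by omega : n ≤ m + 1)]
        have : m + 1 - n = m - n + 1 := by omega
        rw [this]
      · intro ab hab hne
        have hab' := Finset.HasAntidiagonal.mem_antidiagonal.mp hab
        have : n ≠ ab.1 := by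
          intro h
          apply hne
          ext
          · exact h.symm
          · simp only; omega
        rw [coeff_monomial, if_neg this, zero_mul]
      · intro h
        exact absurd (Finset.HasAntidiagonal.mem_antidiagonal.mpr (Nat.add_sub_cancel' hnm)) h
    · rw [inv_pow_mul_pow_of_ge hjK (by omega : m + 1 ≤ n), hz, mul_zero]
      symm
      apply Finset.sum_eq_zero
      intro ab hab
      have hab' := Finset.HasAntidiagonal.mem_antidiagonal.mp hab
      rw [coeff_monomial, if_neg (by omega), zero_mul]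

/-- Core: an abstract lattice `⊕ k[j] b_i` and a set `Binf` absorbing `j^-m b_i`, `m ≫ 0`. -/
theorem core {ι : Type*} [Fintype ι] [FiniteDimensional F K] [Algebra.IsSeparable F K]
    (hj : algebraMap k[X] F X ≠ 0)
    (b : Module.Basis ι F K) (φ : K →ₗ[k] k) (Binf : Set K)
    (h0 : ∀ x : K, (∀ i, b.repr x i ∈ (algebraMap k[X] F).range) → φ x = 0)
    (hinf : ∀ y ∈ Binf, φ y = 0)
    (hii : ∀ i, ∃ M : ℕ, ∀ m, M ≤ m → (algebraMap k[X] K X)⁻¹ ^ m * b i ∈ Binf) :
    ∃ G : K, ∀ x : K, (∀ i, b.repr x i ∈ (algebraMap k[X] F).range) →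
        ∃ Q : k[X], Algebra.trace F K (G * x) = algebraMap k[X] F Q ∧
          ∀ m : ℕ, Q.coeff m = φ ((algebraMap k[X] K X)⁻¹ ^ (m + 1) * x) := by
  classical
  have hjK : algebraMap k[X] K X ≠ 0 := jK_ne_zero hj
  choose M₀ hM₀ using hii
  have hM : ∀ i m, Finset.univ.sup M₀ ≤ m → (algebraMap k[X] K X)⁻¹ ^ m * b i ∈ Binf :=
    fun i m hm => hM₀ i m ((Finset.le_sup (Finset.mem_univ i)).trans hm)
  set M := Finset.univ.sup M₀ with hMdef
  let c : ι → ℕ → k := fun i m => φ ((algebraMap k[X] K X)⁻¹ ^ (m + 1) * b i)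
  let P : ι → k[X] := fun i => ∑ m ∈ Finset.range M, monomial m (c i m)
  have hPc : ∀ i m, (P i).coeff m = c i m := by
    intro i m
    simp only [P, finsetSum_coeff, coeff_monomial]
    rw [Finset.sum_ite_eq' (Finset.range M) m (c i)]
    split_ifs with h
    · rfl
    · rw [Finset.mem_range, not_lt] at h
      exact (hinf _ (hM i (m + 1) (by omega))).symm
  let bd := (Algebra.traceForm F K).dualBasis (traceForm_nondegenerate F K) b
  let G : K := bd.equivFun.symm (fun i => algebraMap k[X] F (P i))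
  have hGb : ∀ l, Algebra.trace F K (G * b l) = algebraMap k[X] F (P l) := by
    intro l
    have h := LinearMap.BilinForm.dualBasis_repr_apply (traceForm_nondegenerate F K) b G l
    rw [Algebra.traceForm_apply] at h
    have h2 : bd.repr G l = algebraMap k[X] F (P l) := by
      have h3 := congrFun (bd.equivFun.apply_symm_apply (fun i => algebraMap k[X] F (P i))) l
      rwa [Module.Basis.equivFun_apply] at h3
    exact h.symm.trans h2
  have hzb : ∀ l (e : ℕ), φ ((algebraMap k[X] K X) ^ e * b l) = 0 := by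
    intro l e
    apply h0
    intro i
    have h : (algebraMap k[X] K X) ^ e * b l = ((algebraMap k[X] F X) ^ e) • b l := by
      rw [Algebra.smul_def, map_pow, ← IsScalarTower.algebraMap_apply]
    rw [h, map_smul, b.repr_self, Finsupp.smul_apply, Finsupp.single_apply, smul_eq_mul]
    split_ifs
    · exact ⟨X ^ e, by rw [map_pow, mul_one]⟩
    · exact ⟨0, by rw [map_zero, mul_zero]⟩
  refine ⟨G, fun x hx => ?_⟩
  choose r hr using hx
  have hxsum : x = ∑ l, algebraMap k[X] K (r l) * b l := by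
    conv_lhs => rw [← b.sum_repr x]
    refine Finset.sum_congr rfl fun l _ => ?_
    rw [← hr l, Algebra.smul_def, ← IsScalarTower.algebraMap_apply]
  refine ⟨∑ l, r l * P l, ?_, fun m => ?_⟩
  · rw [hxsum, Finset.mul_sum, map_sum, map_sum]
    refine Finset.sum_congr rfl fun l _ => ?_
    have h : G * (algebraMap k[X] K (r l) * b l) = (algebraMap k[X] F (r l)) • (G * b l) := by
      rw [Algebra.smul_def, ← IsScalarTower.algebraMap_apply]; ring
    rw [h, map_smul, hGb, smul_eq_mul, map_mul]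
  · rw [finsetSum_coeff, hxsum, Finset.mul_sum, map_sum]
    refine Finset.sum_congr rfl fun l _ => ?_
    rw [phi_scaled F φ hjK (b l) (hzb l) (r l) m, coeff_mul]
    refine Finset.sum_congr rfl fun ab _ => ?_
    rw [hPc]

omit [IsScalarTower k F K] in
/-- The `B∞` half: the coefficient identities force `Tr (G j² y) ∈ k[1/j]`. -/
theorem trace_mem_kinv (hj : algebraMap k[X] F X ≠ 0) (φ : K →ₗ[k] k) (G y : K) (N : ℕ)
    (hN : 2 ≤ N) (Q : k[X])
    (hQ : Algebra.trace F K (G * ((algebraMap k[X] K X) ^ N * y)) = algebraMap k[X] F Q)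
    (hQc : ∀ m : ℕ, Q.coeff m =
      φ ((algebraMap k[X] K X)⁻¹ ^ (m + 1) * ((algebraMap k[X] K X) ^ N * y)))
    (hy : ∀ e : ℕ, φ ((algebraMap k[X] K X)⁻¹ ^ e * y) = 0) :
    Algebra.trace F K (G * (algebraMap k[X] K X) ^ 2 * y) ∈ kinv k F := by
  have hjK : algebraMap k[X] K X ≠ 0 := jK_ne_zero hj
  have hdeg : Q.natDegree ≤ N - 2 := by
    rw [natDegree_le_iff_coeff_eq_zero]
    intro m hm
    rw [hQc, ← mul_assoc, inv_pow_mul_pow_of_le hjK (by omega : N ≤ m + 1), hy]
  have h1 : G * (algebraMap k[X] K X) ^ 2 * y =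
      ((algebraMap k[X] F X)⁻¹ ^ (N - 2)) • (G * ((algebraMap k[X] K X) ^ N * y)) := by
    rw [Algebra.smul_def, map_pow, map_inv₀, ← IsScalarTower.algebraMap_apply]
    have h2 : (algebraMap k[X] K X) ^ N =
        (algebraMap k[X] K X) ^ (N - 2) * (algebraMap k[X] K X) ^ 2 := by
      rw [← pow_add]; congr 1; omega
    have h3 : (algebraMap k[X] K X)⁻¹ ^ (N - 2) * (algebraMap k[X] K X) ^ (N - 2) = 1 := by
      rw [← mul_pow, inv_mul_cancel₀ hjK, one_pow]
    calc G * (algebraMap k[X] K X) ^ 2 * y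
        = ((algebraMap k[X] K X)⁻¹ ^ (N - 2) * (algebraMap k[X] K X) ^ (N - 2)) *
            (G * (algebraMap k[X] K X) ^ 2 * y) := by rw [h3, one_mul]
      _ = (algebraMap k[X] K X)⁻¹ ^ (N - 2) * (G * ((algebraMap k[X] K X) ^ N * y)) := by
          rw [h2]; ring
  rw [h1, map_smul, hQ, smul_eq_mul, algebraMap_eq_aeval Q, mul_comm]
  exact aeval_mul_pow_mem _ _ (mul_inv_cancel₀ hj) Q (N - 2) hdeg

variable (k F K) in
omit [Algebra k F] [IsScalarTower k k[X] F] [Algebra k K] [IsScalarTower k F K] in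
/-- A `k[j]`-basis of `B₀` which is an `F`-basis of `K`. -/
theorem exists_basis_isIntegral_iff [IsFractionRing k[X] F] [FiniteDimensional F K]
    [Algebra.IsSeparable F K] :
    ∃ (ι : Type w) (_ : Fintype ι) (b : Module.Basis ι F K),
      ∀ x : K, IsIntegral k[X] x ↔ ∀ i, b.repr x i ∈ (algebraMap k[X] F).range := by
  classical
  have : Module.IsTorsionFree k[X] K := .trans_faithfulSMul k[X] F K
  have : Module.Free k[X] (integralClosure k[X] K) :=
    IsIntegralClosure.module_free k[X] F K (integralClosure k[X] K)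
  have : Module.Finite k[X] (integralClosure k[X] K) :=
    IsIntegralClosure.finite k[X] F K (integralClosure k[X] K)
  have : IsLocalization (Algebra.algebraMapSubmonoid (integralClosure k[X] K)
      (nonZeroDivisors k[X])) K :=
    IsIntegralClosure.isLocalization k[X] F K (integralClosure k[X] K)
  let b₀ := Module.Free.chooseBasis k[X] (integralClosure k[X] K)
  let b := b₀.localizationLocalization F (nonZeroDivisors k[X]) K
  have hbi : ∀ i, b i = (b₀ i : K) := fun i =>
    Module.Basis.localizationLocalization_apply F (nonZeroDivisors k[X]) K b₀ i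
  refine ⟨_, inferInstance, b, fun x => ⟨fun hx i => ?_, fun hx => ?_⟩⟩
  · have h := Module.Basis.localizationLocalization_repr_algebraMap F (nonZeroDivisors k[X]) K b₀
      (⟨x, hx⟩ : integralClosure k[X] K) i
    exact ⟨_, h.symm⟩
  · choose r hr using hx
    rw [← b.sum_repr x]
    refine IsIntegral.sum _ fun i _ => ?_
    rw [← hr i, hbi, Algebra.smul_def, ← IsScalarTower.algebraMap_apply]
    exact isIntegral_algebraMap.mul (b₀ i).2

/-- **(DW-b)**. Every `k`-linear functional killing `B₀` and `B∞` is the coefficient of `j⁻¹`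
of `Tr (G * ·)` for some `G` in the trace-dual space `W`. -/
theorem exists_traceDual_of_functional [IsFractionRing k[X] F] [FiniteDimensional F K]
    [Algebra.IsSeparable F K] (φ : K →ₗ[k] k)
    (h0 : ∀ x : K, IsIntegral k[X] x → φ x = 0)
    (hoo : ∀ y : K, IsIntegral (kinv k F) y → φ y = 0) :
    ∃ G : K,
      (∀ x : K, IsIntegral k[X] x → ∃ Q : k[X],
          Algebra.trace F K (G * x) = algebraMap k[X] F Q ∧
          ∀ m : ℕ, Q.coeff m = φ ((algebraMap k[X] K X)⁻¹ ^ (m + 1) * x)) ∧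
      (∀ y : K, IsIntegral (kinv k F) y →
          Algebra.trace F K (G * (algebraMap k[X] K X) ^ 2 * y) ∈ kinv k F) := by
  have hj : algebraMap k[X] F X ≠ 0 :=
    (map_ne_zero_iff _ (IsFractionRing.injective k[X] F)).mpr X_ne_zero
  obtain ⟨ι, _, b, hb⟩ := exists_basis_isIntegral_iff k F K
  have hbint : ∀ i, IsIntegral k[X] (b i) := by
    classical
    intro i
    rw [hb]
    intro l
    rw [b.repr_self, Finsupp.single_apply]
    split_ifs
    · exact ⟨1, map_one _⟩
    · exact ⟨0, map_zero _⟩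
  obtain ⟨G, hG⟩ := core hj b φ {y | IsIntegral (kinv k F) y}
    (fun x hx => h0 x ((hb x).mpr hx)) (fun y hy => hoo y hy)
    (fun i => exists_isIntegral_kinv_of_isIntegral hj (hbint i))
  refine ⟨G, fun x hx => hG x ((hb x).mp hx), fun y hy => ?_⟩
  obtain ⟨N₀, hN₀⟩ := exists_isIntegral_of_isIntegral_kinv hj hy
  obtain ⟨Q, hQ, hQc⟩ := hG _ ((hb _).mp (hN₀ (max N₀ 2) (le_max_left _ _)))
  exact trace_mem_kinv hj φ G y (max N₀ 2) (le_max_right _ _) Q hQ hQc
    (fun e => hoo _ (isIntegral_kinv_inv_pow_mul hy e))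

omit [Algebra k F] [IsScalarTower k k[X] F] [Algebra k K] [IsScalarTower k F K] in
/-- **(DW-a)**, left nondegeneracy: `Tr (G B₀) = 0` forces `G = 0`. -/
theorem eq_zero_of_trace_eq_zero [IsFractionRing k[X] F] [FiniteDimensional F K]
    [Algebra.IsSeparable F K] (G : K)
    (h : ∀ x : K, IsIntegral k[X] x → Algebra.trace F K (G * x) = 0) : G = 0 := by
  classical
  obtain ⟨ι, _, b, hb⟩ := exists_basis_isIntegral_iff k F K
  have hbint : ∀ i, IsIntegral k[X] (b i) := by
    intro i
    rw [hb]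
    intro l
    rw [b.repr_self, Finsupp.single_apply]
    split_ifs
    · exact ⟨1, map_one _⟩
    · exact ⟨0, map_zero _⟩
  apply ((Algebra.traceForm F K).dualBasis (traceForm_nondegenerate F K) b).ext_elem
  intro i
  rw [LinearMap.BilinForm.dualBasis_repr_apply, Algebra.traceForm_apply, h _ (hbint i)]
  simp

omit [Algebra k[X] F] [Algebra k[X] K] [IsScalarTower k[X] F K] [Algebra k F]
  [IsScalarTower k k[X] F] [Algebra k K] [IsScalarTower k F K] in
/-- Left nondegeneracy against any `F`-spanning set. -/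
theorem eq_zero_of_trace_eq_zero_of_span [FiniteDimensional F K] [Algebra.IsSeparable F K]
    (G : K) (S : Set K) (hS : Submodule.span F S = ⊤)
    (h : ∀ x ∈ S, Algebra.trace F K (G * x) = 0) : G = 0 := by
  have hnd := traceForm_nondegenerate F K
  have hall : ∀ z : K, Algebra.traceForm F K G z = 0 := by
    intro z
    have hz : z ∈ Submodule.span F S := hS ▸ Submodule.mem_top
    induction hz using Submodule.span_induction with
    | mem x hx => rw [Algebra.traceForm_apply]; exact h x hx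
    | zero => simp
    | add x y _ _ hx hy => rw [map_add, hx, hy, add_zero]
    | smul a x _ hx => rw [map_smul, hx, smul_zero]
  exact hnd.1 G hall

/-! ### The converse: the functional attached to an element of `W` -/

/-- The expansion at `j = 0`, `k[X] → k⸨X⸩`. -/
noncomputable def polyToLaurent (k : Type u) [Field k] : k[X] →+* HahnSeries ℤ k :=
  (HahnSeries.ofPowerSeries ℤ k).comp Polynomial.coeToPowerSeries.ringHom

omit [Field F] [Field K] [Algebra k[X] F] [Algebra F K] [Algebra k[X] K] [IsScalarTower k[X] F K]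
  [Algebra k F] [IsScalarTower k k[X] F] [Algebra k K] [IsScalarTower k F K] in
theorem polyToLaurent_injective : Function.Injective (polyToLaurent k) := by
  intro p q h
  exact Polynomial.coe_injective k (HahnSeries.ofPowerSeries_injective h)

omit [Algebra F K] [Algebra k[X] K] [IsScalarTower k[X] F K] [Algebra k K]
  [IsScalarTower k F K] in
/-- The "coefficient of `j⁻¹`" functional on `F = Frac k[X]` (expansion at `j = 0`). -/
theorem exists_residue_functional [IsFractionRing k[X] F] :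
    ∃ ψ : F →ₗ[k] k, ∀ (Q : k[X]) (m : ℕ),
      ψ (algebraMap k[X] F Q * (algebraMap k[X] F X)⁻¹ ^ (m + 1)) = Q.coeff m := by
  have hj : algebraMap k[X] F X ≠ 0 :=
    (map_ne_zero_iff _ (IsFractionRing.injective k[X] F)).mpr X_ne_zero
  let ι : F →+* HahnSeries ℤ k := IsFractionRing.lift (polyToLaurent_injective (k := k))
  have hι : ∀ Q : k[X], ι (algebraMap k[X] F Q) = polyToLaurent k Q :=
    fun Q => IsFractionRing.lift_algebraMap _ Q
  have hC : ∀ a : k, ι (algebraMap k F a) = HahnSeries.C a := by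
    intro a
    rw [IsScalarTower.algebraMap_apply k k[X] F, hι, Polynomial.algebraMap_eq]
    simp [polyToLaurent]
  have hX : ι (algebraMap k[X] F X) = HahnSeries.single 1 1 := by
    rw [hι]
    simp [polyToLaurent]
  refine ⟨{ toFun := fun f => (ι f).coeff (-1)
            map_add' := fun f g => by rw [map_add, HahnSeries.coeff_add]
            map_smul' := fun a f => by
              rw [Algebra.smul_def, map_mul, hC, HahnSeries.C_mul_eq_smul, HahnSeries.coeff_smul]
              rfl }, fun Q m => ?_⟩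
  show (ι (algebraMap k[X] F Q * (algebraMap k[X] F X)⁻¹ ^ (m + 1))).coeff (-1) = Q.coeff m
  have hs : ι (algebraMap k[X] F Q * (algebraMap k[X] F X)⁻¹ ^ (m + 1)) *
      HahnSeries.single ((m + 1 : ℕ) : ℤ) (1 : k) = polyToLaurent k Q := by
    have h1 : HahnSeries.single ((m + 1 : ℕ) : ℤ) (1 : k) = ι (algebraMap k[X] F X) ^ (m + 1) := by
      rw [hX, HahnSeries.single_pow, one_pow, nsmul_eq_mul, mul_one]
    rw [h1, ← map_pow, ← map_mul, mul_assoc, ← mul_pow, inv_mul_cancel₀ hj, one_pow, mul_one, hι]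
  have h2 := congrArg (fun t => HahnSeries.coeff t ((-1 : ℤ) + ((m + 1 : ℕ) : ℤ))) hs
  simp only [HahnSeries.coeff_mul_single_add, mul_one] at h2
  rw [h2]
  have h3 : ((-1 : ℤ) + ((m + 1 : ℕ) : ℤ)) = (m : ℤ) := by push_cast; ring
  rw [h3]
  show (HahnSeries.ofPowerSeries ℤ k (Q : PowerSeries k)).coeff (m : ℤ) = Q.coeff m
  rw [HahnSeries.ofPowerSeries_apply_coeff, Polynomial.coeff_coe]

/-- **Converse of (DW-b)**: an element `G` of `W` defines a functional killing `B₀` and `B∞`
whose values are the coefficients of `Tr (G * ·)`. -/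
theorem exists_functional_of_traceDual [IsFractionRing k[X] F] (G : K)
    (hG0 : ∀ x : K, IsIntegral k[X] x →
      Algebra.trace F K (G * x) ∈ (algebraMap k[X] F).range)
    (hGoo : ∀ y : K, IsIntegral (kinv k F) y →
      Algebra.trace F K (G * (algebraMap k[X] K X) ^ 2 * y) ∈ kinv k F) :
    ∃ φ : K →ₗ[k] k, (∀ x : K, IsIntegral k[X] x → φ x = 0) ∧
      (∀ y : K, IsIntegral (kinv k F) y → φ y = 0) ∧
      ∀ (x : K) (Q : k[X]), Algebra.trace F K (G * x) = algebraMap k[X] F Q →
        ∀ m : ℕ, Q.coeff m = φ ((algebraMap k[X] K X)⁻¹ ^ (m + 1) * x) := by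
  have hj : algebraMap k[X] F X ≠ 0 :=
    (map_ne_zero_iff _ (IsFractionRing.injective k[X] F)).mpr X_ne_zero
  have hjK : algebraMap k[X] K X ≠ 0 := jK_ne_zero hj
  obtain ⟨ψ, hψ⟩ := exists_residue_functional (k := k) (F := F)
  have hψ0 : ∀ Q : k[X], ψ (algebraMap k[X] F Q) = 0 := by
    intro Q
    have h := hψ (Q * X) 0
    have e : algebraMap k[X] F (Q * X) * (algebraMap k[X] F X)⁻¹ ^ (0 + 1) =
        algebraMap k[X] F Q := by
      rw [zero_add, pow_one, (algebraMap k[X] F).map_mul, mul_assoc, mul_inv_cancel₀ hj, mul_one]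
    rw [e, coeff_mul_X_zero] at h
    exact h
  have hψinv : ∀ a : ℕ, ψ ((algebraMap k[X] F X)⁻¹ ^ (a + 2)) = 0 := by
    intro a
    have h := hψ 1 (a + 1)
    rw [map_one, one_mul, coeff_one, if_neg (by omega)] at h
    exact h
  let φ : K →ₗ[k] k := ψ ∘ₗ ((Algebra.trace F K).restrictScalars k) ∘ₗ (LinearMap.mulLeft k G)
  have hφ : ∀ z : K, φ z = ψ (Algebra.trace F K (G * z)) := fun z => rfl
  refine ⟨φ, fun x hx => ?_, fun y hy => ?_, fun x Q hQ m => ?_⟩
  · obtain ⟨Q, hQ⟩ := hG0 x hx
    rw [hφ, ← hQ, hψ0]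
  · have hu : Algebra.trace F K (G * (algebraMap k[X] K X) ^ 2 * y) ∈
        Algebra.adjoin k {(algebraMap k[X] F X)⁻¹} := hGoo y hy
    rw [Algebra.adjoin_singleton_eq_range_aeval] at hu
    obtain ⟨g, hg⟩ := hu
    have h1 : G * y = ((algebraMap k[X] F X)⁻¹ ^ 2) • (G * (algebraMap k[X] K X) ^ 2 * y) := by
      rw [Algebra.smul_def, map_pow, map_inv₀, ← IsScalarTower.algebraMap_apply]
      have h3 : (algebraMap k[X] K X)⁻¹ ^ 2 * (algebraMap k[X] K X) ^ 2 = 1 := by
        rw [← mul_pow, inv_mul_cancel₀ hjK, one_pow]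
      calc G * y = ((algebraMap k[X] K X)⁻¹ ^ 2 * (algebraMap k[X] K X) ^ 2) * (G * y) := by
            rw [h3, one_mul]
        _ = (algebraMap k[X] K X)⁻¹ ^ 2 * (G * (algebraMap k[X] K X) ^ 2 * y) := by ring
    have h2 : (aeval (algebraMap k[X] F X)⁻¹) g = Algebra.trace F K
        (G * (algebraMap k[X] K X) ^ 2 * y) := hg
    rw [hφ, h1, map_smul, ← h2, smul_eq_mul, aeval_eq_sum_range, Finset.mul_sum, map_sum]
    refine Finset.sum_eq_zero fun a _ => ?_
    rw [mul_smul_comm, map_smul, ← pow_add, add_comm 2 a, hψinv, smul_zero]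
  · have h1 : G * ((algebraMap k[X] K X)⁻¹ ^ (m + 1) * x) =
        ((algebraMap k[X] F X)⁻¹ ^ (m + 1)) • (G * x) := by
      rw [Algebra.smul_def, map_pow, map_inv₀, ← IsScalarTower.algebraMap_apply]
      ring
    rw [hφ, h1, map_smul, hQ, smul_eq_mul, mul_comm, hψ]

end Main

end Fermat.Agent.S44.D.DWFun
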