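import Mathlib
import Fermat.Agent.Lib.DerivDual
import Fermat.Agent.S44.D.DWFun

/-!
# PROGRAM MR (S44), strand D, brick (b): regular logarithmic classes are trace-dual

Level-free (no modular input; helper223, row D.Reg), on top of `Lib/DerivDual.trace_mem_global`.
`k` an algebraically closed field, `K / k(j)` finite separable, `Ω ⊇ K` a field of
characteristic `p` with an additive Leibniz map `δ` killing `k`, `δ j ≠ 0`.  If `f ≠ 0` in `K`
is at every valuation subring of `K` a unit times a `p`-th power, then `G := δ f / (f δ j)`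
satisfies `Tr (G B₀) ⊆ k[j]` and `Tr (G j² B∞) ⊆ k[1/j]` (`B₀` / `B∞` the integral closures of
`k[j]` / `k[1/j]` in `K`).  No tameness and no ramification index is used.

Two vocabularies:

* section `Simple` (the vocabulary of `S44/D/TraceDual.lean`, `S44/D/TraceDualConv.lean`):
  `{k K} [Algebra k K]`, `j : K`, traces over `k⟮j⟯` read in `K`, integrality over
  `Algebra.adjoin k {j}` / `{j⁻¹}`:
  `traceDual_of_dlog_simple` (conclusions = `hG0`, `hGinf` of
  `TraceDualConv.exists_functional_of_traceDual`), `exists_deriv_eq_simple` (`δ K ⊆ K * δ j`),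
  `exists_dlog_quot_simple` (`G` exists in `K`), `trace_mem_adjoin` (one chart).
* section `Main` (the vocabulary of `S44/D/DWFun.lean`): `F = Frac k[X]`, `K / F`:
  `traceDual_of_dlog` (conclusions = `hG0`, `hGoo` of `DWFun.exists_functional_of_traceDual`),
  `exists_deriv_eq`, `exists_dlog_quot`.
-/

set_option autoImplicit false

namespace Fermat.Agent.S44.D.RegDual

open Polynomial Fermat.Agent.Lib Fermat.Agent.S44.D

universe u v w

section Line

variable {k : Type*} [Field k] [IsAlgClosed k]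

/-- Over an algebraically closed field every maximal ideal of `k[X]` has residue field `k`. -/
theorem exists_sub_C_mem (𝔭 : Ideal k[X]) (h𝔭 : 𝔭.IsMaximal) (r : k[X]) :
    ∃ a : k, r - C a ∈ 𝔭 := by
  have hprime := h𝔭.isPrime
  have hne : 𝔭 ≠ ⊥ := by
    rintro rfl
    exact Polynomial.not_isField k (Ring.isField_iff_maximal_bot.mpr h𝔭)
  obtain ⟨g, hg, hg0⟩ := Submodule.exists_mem_ne_zero_of_ne_bot hne
  have heq := (IsAlgClosed.splits g).eq_prod_roots
  rw [heq] at hg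
  rcases hprime.mem_or_mem hg with h | h
  · exfalso
    have hu : IsUnit (C g.leadingCoeff) :=
      Polynomial.isUnit_C.mpr (isUnit_iff_ne_zero.mpr (leadingCoeff_ne_zero.mpr hg0))
    exact hprime.ne_top (Ideal.eq_top_of_isUnit_mem _ h hu)
  · obtain ⟨q, hq, hq𝔭⟩ := (hprime.multiset_prod_mem_iff_exists_mem _).mp h
    obtain ⟨a, -, rfl⟩ := Multiset.mem_map.mp hq
    refine ⟨r.eval a, ?_⟩
    obtain ⟨s, hs⟩ := X_sub_C_dvd_sub_C_eval (a := a) (p := r)
    rw [hs]
    exact Ideal.mul_mem_right _ _ hq𝔭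

/-- The same for every quotient of `k[X]`. -/
theorem exists_sub_algebraMap_mem {R₀ : Type*} [CommRing R₀] [Algebra k R₀] (π : k[X] →ₐ[k] R₀)
    (hπ : Function.Surjective π) (𝔭 : Ideal R₀) (h𝔭 : 𝔭.IsMaximal) (r : R₀) :
    ∃ a : k, r - algebraMap k R₀ a ∈ 𝔭 := by
  obtain ⟨g, rfl⟩ := hπ r
  haveI := h𝔭
  have hmax : (𝔭.comap π).IsMaximal := Ideal.comap_isMaximal_of_surjective π hπ
  obtain ⟨a, ha⟩ := exists_sub_C_mem (𝔭.comap π) hmax g
  refine ⟨a, ?_⟩
  have h1 : π (g - C a) ∈ 𝔭 := ha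
  rwa [map_sub, C_eq_algebraMap, AlgHom.commutes] at h1

end Line

section Deriv

variable {Ω : Type*} [Field Ω]

/-- The derivative of an inverse. -/
theorem deriv_inv (δ : Ω → Ω) (hmul : ∀ x y, δ (x * y) = δ x * y + x * δ y) (x : Ω)
    (hx : x ≠ 0) : δ x⁻¹ = -(δ x) * x⁻¹ ^ 2 := by
  have h1 : δ (x * x⁻¹) = 0 := by
    rw [mul_inv_cancel₀ hx]
    exact DerivDual.deriv_one δ hmul
  rw [hmul] at h1
  have h2 : x * δ x⁻¹ = -(δ x * x⁻¹) := eq_neg_of_add_eq_zero_right h1
  have h3 : δ x⁻¹ = x⁻¹ * (x * δ x⁻¹) := by rw [inv_mul_cancel_left₀ hx]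
  rw [h3, h2]
  ring

end Deriv

section Main

variable {k : Type u} {F : Type v} {K : Type w} [Field k] [Field F] [Field K]
  [Algebra k[X] F] [Algebra F K] [Algebra k[X] K] [IsScalarTower k[X] F K]
  [Algebra k F] [IsScalarTower k k[X] F] [Algebra k K] [IsScalarTower k F K]
  {Ω : Type*} [Field Ω] [Algebra K Ω]

variable (F) in
include F in
theorem isScalarTower_poly : IsScalarTower k k[X] K :=
  IsScalarTower.of_algebraMap_eq fun a => by
    rw [← C_eq_algebraMap, DWFun.algebraMap_C_eq F a]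

variable (F) in
include F in
theorem algebraMap_eq_aeval_top (g : k[X]) :
    algebraMap k[X] K g = aeval (algebraMap k[X] K X) g := by
  haveI := isScalarTower_poly (k := k) F (K := K)
  exact DWFun.algebraMap_eq_aeval (F := K) g

omit [Algebra k[X] F] [Algebra F K] [Algebra k[X] K] [IsScalarTower k[X] F K] [Algebra k F]
  [IsScalarTower k k[X] F] [IsScalarTower k F K] [Field F] in
/-- The chain rule for a derivation killing the constants. -/
theorem deriv_aeval (δ : Ω → Ω) (hadd : ∀ x y, δ (x + y) = δ x + δ y)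
    (hmul : ∀ x y, δ (x * y) = δ x * y + x * δ y)
    (hconst : ∀ a : k, δ (algebraMap K Ω (algebraMap k K a)) = 0) (t : K) (g : k[X]) :
    δ (algebraMap K Ω (aeval t g)) =
      algebraMap K Ω (aeval t (derivative g)) * δ (algebraMap K Ω t) := by
  obtain ⟨r, hr⟩ := DerivDual.exists_total_deriv (A := k) δ hadd hmul 0
    (fun a => ⟨0, by rw [hconst, mul_zero]⟩) t g
  rw [hr, mul_zero, zero_add]

/-- The surjection `k[X] → k[1/j]`. -/
noncomputable def toKinv : k[X] →ₐ[k] DWFun.kinv k F :=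
  (aeval (algebraMap k[X] F X)⁻¹).codRestrict (DWFun.kinv k F) fun g =>
    aeval_mem_adjoin_singleton k _

theorem toKinv_apply (g : k[X]) :
    ((toKinv (k := k) (F := F) g : DWFun.kinv k F) : F) = aeval (algebraMap k[X] F X)⁻¹ g := rfl

theorem toKinv_surjective : Function.Surjective (toKinv (k := k) (F := F)) := by
  rintro ⟨y, hy⟩
  have hy' : y ∈ Algebra.adjoin k {(algebraMap k[X] F X)⁻¹} := hy
  rw [Algebra.adjoin_singleton_eq_range_aeval] at hy'
  obtain ⟨g, hg⟩ := hy'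
  exact ⟨g, Subtype.ext hg⟩

theorem isFractionRing_kinv [IsFractionRing k[X] F] : IsFractionRing (DWFun.kinv k F) F := by
  have hj : algebraMap k[X] F X ≠ 0 :=
    (map_ne_zero_iff _ (IsFractionRing.injective k[X] F)).mpr X_ne_zero
  haveI : FaithfulSMul (DWFun.kinv k F) F :=
    (faithfulSMul_iff_algebraMap_injective _ _).mpr Subtype.val_injective
  refine IsFractionRing.of_field (DWFun.kinv k F) F fun z => ?_
  obtain ⟨a, b, hb, rfl⟩ := IsFractionRing.div_surjective (A := k[X]) z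
  have hb0 : algebraMap k[X] F b ≠ 0 :=
    (map_ne_zero_iff _ (IsFractionRing.injective k[X] F)).mpr (nonZeroDivisors.ne_zero hb)
  set n := max a.natDegree b.natDegree with hn
  have ht : (algebraMap k[X] F X)⁻¹ ^ n ≠ 0 := pow_ne_zero _ (inv_ne_zero hj)
  have ha' : algebraMap k[X] F a * (algebraMap k[X] F X)⁻¹ ^ n ∈ DWFun.kinv k F := by
    rw [DWFun.algebraMap_eq_aeval a]
    exact DWFun.aeval_mul_pow_mem _ _ (mul_inv_cancel₀ hj) a n (le_max_left _ _)
  have hb' : algebraMap k[X] F b * (algebraMap k[X] F X)⁻¹ ^ n ∈ DWFun.kinv k F := by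
    rw [DWFun.algebraMap_eq_aeval b]
    exact DWFun.aeval_mul_pow_mem _ _ (mul_inv_cancel₀ hj) b n (le_max_right _ _)
  refine ⟨⟨_, ha'⟩, ⟨_, hb'⟩, ?_⟩
  show _ = (algebraMap k[X] F a * (algebraMap k[X] F X)⁻¹ ^ n) /
    (algebraMap k[X] F b * (algebraMap k[X] F X)⁻¹ ^ n)
  rw [mul_div_mul_right _ _ ht]

/-- The quotient rule: `δ` maps `F = k(j)` into `F * δ j`. -/
theorem exists_deriv_eq_base [IsFractionRing k[X] F]
    (δ : Ω → Ω) (hadd : ∀ x y, δ (x + y) = δ x + δ y)
    (hmul : ∀ x y, δ (x * y) = δ x * y + x * δ y)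
    (hconst : ∀ a : k, δ (algebraMap K Ω (algebraMap k K a)) = 0) (a : F) :
    ∃ e : F, δ (algebraMap K Ω (algebraMap F K a)) =
      algebraMap K Ω (algebraMap F K e) * δ (algebraMap K Ω (algebraMap k[X] K X)) := by
  obtain ⟨n, d, hd, rfl⟩ := IsFractionRing.div_surjective (A := k[X]) a
  have hd0 : algebraMap k[X] F d ≠ 0 :=
    (map_ne_zero_iff _ (IsFractionRing.injective k[X] F)).mpr (nonZeroDivisors.ne_zero hd)
  have hdK : algebraMap F K (algebraMap k[X] F d) ≠ 0 :=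
    (map_ne_zero_iff _ (algebraMap F K).injective).mpr hd0
  have hdΩ : algebraMap K Ω (algebraMap F K (algebraMap k[X] F d)) ≠ 0 :=
    (map_ne_zero_iff _ (algebraMap K Ω).injective).mpr hdK
  have hpoly : ∀ g : k[X], δ (algebraMap K Ω (algebraMap F K (algebraMap k[X] F g))) =
      algebraMap K Ω (algebraMap F K (algebraMap k[X] F (derivative g))) *
        δ (algebraMap K Ω (algebraMap k[X] K X)) := by
    intro g
    rw [← IsScalarTower.algebraMap_apply k[X] F K, ← IsScalarTower.algebraMap_apply k[X] F K,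
      algebraMap_eq_aeval_top F g, algebraMap_eq_aeval_top F (derivative g)]
    exact deriv_aeval δ hadd hmul hconst _ g
  refine ⟨(algebraMap k[X] F (derivative n) -
    algebraMap k[X] F n / algebraMap k[X] F d * algebraMap k[X] F (derivative d)) /
      algebraMap k[X] F d, ?_⟩
  have h1 : algebraMap K Ω (algebraMap F K (algebraMap k[X] F n / algebraMap k[X] F d)) *
      algebraMap K Ω (algebraMap F K (algebraMap k[X] F d)) =
      algebraMap K Ω (algebraMap F K (algebraMap k[X] F n)) := by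
    rw [← map_mul, ← map_mul, div_mul_cancel₀ _ hd0]
  have h2 := congrArg δ h1
  rw [hmul, hpoly n, hpoly d] at h2
  apply mul_right_cancel₀ hdΩ
  simp only [map_div₀, map_sub, map_mul] at h2 ⊢
  field_simp at h2 ⊢
  linear_combination h2

/-- **`δ` maps `K` into `K * δ j`** (the derivation `d/dj` extends uniquely to the separable
extension `K / k(j)`). -/
theorem exists_deriv_eq [IsFractionRing k[X] F] [FiniteDimensional F K]
    [Algebra.IsSeparable F K]
    (δ : Ω → Ω) (hadd : ∀ x y, δ (x + y) = δ x + δ y)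
    (hmul : ∀ x y, δ (x * y) = δ x * y + x * δ y)
    (hconst : ∀ a : k, δ (algebraMap K Ω (algebraMap k K a)) = 0) (x : K) :
    ∃ y : K, δ (algebraMap K Ω x) =
      algebraMap K Ω y * δ (algebraMap K Ω (algebraMap k[X] K X)) := by
  obtain ⟨y, hy, -⟩ := DerivDual.exists_deriv_mul_mem_adjoin (A := F) (K := F) (L := K) δ hadd hmul
    (δ (algebraMap K Ω (algebraMap k[X] K X)))
    (fun a => exists_deriv_eq_base δ hadd hmul hconst a) x
    (Algebra.IsIntegral.isIntegral x) x (Algebra.self_mem_adjoin_singleton F x)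
  exact ⟨y, hy⟩

/-- Existence of `G = δ f / (f δ j)` in `K`. -/
theorem exists_dlog_quot [IsFractionRing k[X] F] [FiniteDimensional F K]
    [Algebra.IsSeparable F K]
    (δ : Ω → Ω) (hadd : ∀ x y, δ (x + y) = δ x + δ y)
    (hmul : ∀ x y, δ (x * y) = δ x * y + x * δ y)
    (hconst : ∀ a : k, δ (algebraMap K Ω (algebraMap k K a)) = 0) (f : K) (hf : f ≠ 0) :
    ∃ G : K, algebraMap K Ω G * algebraMap K Ω f * δ (algebraMap K Ω (algebraMap k[X] K X)) =
      δ (algebraMap K Ω f) := by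
  obtain ⟨y, hy⟩ := exists_deriv_eq (F := F) δ hadd hmul hconst f
  refine ⟨y / f, ?_⟩
  rw [hy, ← map_mul, div_mul_cancel₀ _ hf]

/-- **The finite chart**: `Tr (G x) ∈ k[j]` for `x` integral over `k[j]`. -/
theorem trace_mem_range [IsAlgClosed k] [IsFractionRing k[X] F] [FiniteDimensional F K]
    [Algebra.IsSeparable F K]
    (δ : Ω → Ω) (hadd : ∀ x y, δ (x + y) = δ x + δ y)
    (hmul : ∀ x y, δ (x * y) = δ x * y + x * δ y)
    (hconst : ∀ a : k, δ (algebraMap K Ω (algebraMap k K a)) = 0)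
    (hc : δ (algebraMap K Ω (algebraMap k[X] K X)) ≠ 0)
    (p : ℕ) [CharP Ω p] (f : K) (hf : f ≠ 0)
    (hU : ∀ w : ValuationSubring K, ∃ u h : K, f = u * h ^ p ∧ u ∈ w ∧ u⁻¹ ∈ w)
    (G : K)
    (hG : algebraMap K Ω G * algebraMap K Ω f * δ (algebraMap K Ω (algebraMap k[X] K X)) =
      δ (algebraMap K Ω f))
    (x : K) (hx : IsIntegral k[X] x) :
    Algebra.trace F K (G * x) ∈ (algebraMap k[X] F).range := by
  obtain ⟨a, ha⟩ := DerivDual.trace_mem_global (k := k) (R₀ := k[X]) (K := F) (L := K)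
    (fun 𝔭 h𝔭 r => by
      obtain ⟨a, ha⟩ := exists_sub_C_mem 𝔭 h𝔭 r
      exact ⟨a, by rwa [← C_eq_algebraMap]⟩)
    δ hadd hmul _ hc (fun a => ⟨derivative a, by
      rw [algebraMap_eq_aeval_top F a, algebraMap_eq_aeval_top F (derivative a)]
      exact deriv_aeval δ hadd hmul hconst _ a⟩) p f hf hU G hG x hx
  exact ⟨a, ha.symm⟩

/-- **The chart at infinity**: `Tr (G j² y) ∈ k[1/j]` for `y` integral over `k[1/j]`. -/
theorem trace_mem_kinv [IsAlgClosed k] [IsFractionRing k[X] F] [FiniteDimensional F K]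
    [Algebra.IsSeparable F K]
    (δ : Ω → Ω) (hadd : ∀ x y, δ (x + y) = δ x + δ y)
    (hmul : ∀ x y, δ (x * y) = δ x * y + x * δ y)
    (hconst : ∀ a : k, δ (algebraMap K Ω (algebraMap k K a)) = 0)
    (hc : δ (algebraMap K Ω (algebraMap k[X] K X)) ≠ 0)
    (p : ℕ) [CharP Ω p] (f : K) (hf : f ≠ 0)
    (hU : ∀ w : ValuationSubring K, ∃ u h : K, f = u * h ^ p ∧ u ∈ w ∧ u⁻¹ ∈ w)
    (G : K)
    (hG : algebraMap K Ω G * algebraMap K Ω f * δ (algebraMap K Ω (algebraMap k[X] K X)) =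
      δ (algebraMap K Ω f))
    (y : K) (hy : IsIntegral (DWFun.kinv k F) y) :
    Algebra.trace F K (G * (algebraMap k[X] K X) ^ 2 * y) ∈ DWFun.kinv k F := by
  have hj : algebraMap k[X] F X ≠ 0 :=
    (map_ne_zero_iff _ (IsFractionRing.injective k[X] F)).mpr X_ne_zero
  have hjK : algebraMap k[X] K X ≠ 0 := DWFun.jK_ne_zero hj
  have hjΩ : algebraMap K Ω (algebraMap k[X] K X) ≠ 0 :=
    (map_ne_zero_iff _ (algebraMap K Ω).injective).mpr hjK
  haveI : IsPrincipalIdealRing (DWFun.kinv k F) :=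
    IsPrincipalIdealRing.of_surjective (toKinv (k := k) (F := F)) toKinv_surjective
  haveI : IsFractionRing (DWFun.kinv k F) F := isFractionRing_kinv
  -- `δ (1/j)`
  have hcinv : δ (algebraMap K Ω (algebraMap k[X] K X)⁻¹) =
      -(δ (algebraMap K Ω (algebraMap k[X] K X))) *
        (algebraMap K Ω (algebraMap k[X] K X))⁻¹ ^ 2 := by
    rw [map_inv₀]
    exact deriv_inv δ hmul _ hjΩ
  have hcinv0 : δ (algebraMap K Ω (algebraMap k[X] K X)⁻¹) ≠ 0 := by
    rw [hcinv]
    exact mul_ne_zero (neg_ne_zero.mpr hc) (pow_ne_zero _ (inv_ne_zero hjΩ))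
  have hmapK : ∀ g : k[X], algebraMap (DWFun.kinv k F) K (toKinv (k := k) (F := F) g) =
      aeval (algebraMap k[X] K X)⁻¹ g := by
    intro g
    rw [IsScalarTower.algebraMap_apply (DWFun.kinv k F) F K]
    show algebraMap F K (aeval (algebraMap k[X] F X)⁻¹ g) = _
    rw [← aeval_algebraMap_apply, map_inv₀, ← IsScalarTower.algebraMap_apply]
  have hG' : algebraMap K Ω (-((algebraMap k[X] K X) ^ 2 * G)) * algebraMap K Ω f *
      δ (algebraMap K Ω (algebraMap k[X] K X)⁻¹) = δ (algebraMap K Ω f) := by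
    rw [hcinv, ← hG]
    simp only [map_neg, map_mul, map_pow]
    field_simp
  obtain ⟨a, ha⟩ := DerivDual.trace_mem_global (k := k) (R₀ := DWFun.kinv k F) (K := F) (L := K)
    (fun 𝔭 h𝔭 r => exists_sub_algebraMap_mem toKinv toKinv_surjective 𝔭 h𝔭 r)
    δ hadd hmul _ hcinv0 (fun a => by
      obtain ⟨g, rfl⟩ := toKinv_surjective a
      exact ⟨toKinv (derivative g), by
        rw [hmapK, hmapK]
        exact deriv_aeval δ hadd hmul hconst _ g⟩) p f hf hU _ hG' y hy
  have h1 : G * (algebraMap k[X] K X) ^ 2 * y = -(-((algebraMap k[X] K X) ^ 2 * G) * y) := by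
    ring
  rw [h1, map_neg, ha]
  exact Subalgebra.neg_mem _ a.2

/-- **Regular logarithmic classes are trace-dual** (both charts; the two conclusions are the
hypotheses `hG0`, `hGoo` of `DWFun.exists_functional_of_traceDual`). -/
theorem traceDual_of_dlog [IsAlgClosed k] [IsFractionRing k[X] F] [FiniteDimensional F K]
    [Algebra.IsSeparable F K]
    (δ : Ω → Ω) (hadd : ∀ x y, δ (x + y) = δ x + δ y)
    (hmul : ∀ x y, δ (x * y) = δ x * y + x * δ y)
    (hconst : ∀ a : k, δ (algebraMap K Ω (algebraMap k K a)) = 0)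
    (hc : δ (algebraMap K Ω (algebraMap k[X] K X)) ≠ 0)
    (p : ℕ) [CharP Ω p] (f : K) (hf : f ≠ 0)
    (hU : ∀ w : ValuationSubring K, ∃ u h : K, f = u * h ^ p ∧ u ∈ w ∧ u⁻¹ ∈ w)
    (G : K)
    (hG : algebraMap K Ω G * algebraMap K Ω f * δ (algebraMap K Ω (algebraMap k[X] K X)) =
      δ (algebraMap K Ω f)) :
    (∀ x : K, IsIntegral k[X] x → Algebra.trace F K (G * x) ∈ (algebraMap k[X] F).range) ∧
    (∀ y : K, IsIntegral (DWFun.kinv k F) y →
      Algebra.trace F K (G * (algebraMap k[X] K X) ^ 2 * y) ∈ DWFun.kinv k F) :=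
  ⟨fun x hx => trace_mem_range δ hadd hmul hconst hc p f hf hU G hG x hx,
    fun y hy => trace_mem_kinv δ hadd hmul hconst hc p f hf hU G hG y hy⟩

end Main

section Simple

open IntermediateField
open scoped IntermediateField.algebraAdjoinAdjoin

variable {k K Ω : Type*} [Field k] [Field K] [Algebra k K] [Field Ω] [Algebra K Ω]

/-- The surjection `k[X] → k[t]`. -/
noncomputable def toAdjoin (t : K) : k[X] →ₐ[k] Algebra.adjoin k {t} :=
  (aeval t).codRestrict (Algebra.adjoin k {t}) fun _ => aeval_mem_adjoin_singleton k t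

theorem coe_toAdjoin (t : K) (g : k[X]) :
    ((toAdjoin (k := k) t g : Algebra.adjoin k {t}) : K) = aeval t g := rfl

theorem toAdjoin_surjective (t : K) : Function.Surjective (toAdjoin (k := k) t) := by
  rintro ⟨y, hy⟩
  rw [Algebra.adjoin_singleton_eq_range_aeval] at hy
  obtain ⟨g, hg⟩ := hy
  exact ⟨g, Subtype.ext hg⟩

/-- **One chart, `k⟮t⟯` vocabulary**: `Tr (G b) ∈ k[t]` for `b` integral over `k[t]`, where
`G = δ f / (f δ t)`.  (`E` is `k⟮t⟯`, up to a propositional equality, so that the chart at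
infinity `t = j⁻¹` can be read over `k⟮j⟯`.) -/
theorem trace_mem_adjoin [IsAlgClosed k] (t : K) (E : IntermediateField k K) (hE : E = k⟮t⟯)
    [FiniteDimensional E K] [Algebra.IsSeparable E K]
    (δ : Ω → Ω) (hadd : ∀ x y, δ (x + y) = δ x + δ y)
    (hmul : ∀ x y, δ (x * y) = δ x * y + x * δ y)
    (hconst : ∀ a : k, δ (algebraMap K Ω (algebraMap k K a)) = 0)
    (hc : δ (algebraMap K Ω t) ≠ 0)
    (p : ℕ) [CharP Ω p] (f : K) (hf : f ≠ 0)
    (hU : ∀ w : ValuationSubring K, ∃ u h : K, f = u * h ^ p ∧ u ∈ w ∧ u⁻¹ ∈ w)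
    (G : K) (hG : algebraMap K Ω G * algebraMap K Ω f * δ (algebraMap K Ω t) =
      δ (algebraMap K Ω f))
    (b : K) (hb : IsIntegral (Algebra.adjoin k {t}) b) :
    ((Algebra.trace E K (G * b) : E) : K) ∈ Algebra.adjoin k {t} := by
  subst hE
  haveI : IsPrincipalIdealRing (Algebra.adjoin k {t}) :=
    IsPrincipalIdealRing.of_surjective (toAdjoin (k := k) t) (toAdjoin_surjective t)
  obtain ⟨a, ha⟩ := DerivDual.trace_mem_global (k := k) (R₀ := Algebra.adjoin k {t})
    (K := k⟮t⟯) (L := K)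
    (fun 𝔭 h𝔭 r => exists_sub_algebraMap_mem (toAdjoin t) (toAdjoin_surjective t) 𝔭 h𝔭 r)
    δ hadd hmul _ hc (fun a => by
      obtain ⟨g, rfl⟩ := toAdjoin_surjective t a
      exact ⟨toAdjoin t (derivative g), deriv_aeval δ hadd hmul hconst t g⟩) p f hf hU G hG b hb
  rw [ha]
  exact a.2

/-- **Regular logarithmic classes are trace-dual**, in the vocabulary of `S44/D/TraceDual.lean`
and `S44/D/TraceDualConv.lean`: `k` algebraically closed, `K / k⟮j⟯` finite separable, `Ω ⊇ K`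
a field of characteristic `p` with an additive Leibniz map `δ` killing `k`, `δ j ≠ 0`.  If
`f ≠ 0` in `K` is at every valuation subring of `K` a unit times a `p`-th power, then
`G = δ f / (f δ j)` satisfies `Tr (G B₀) ⊆ k[j]` and `Tr (G j² B∞) ⊆ k[j⁻¹]`. -/
theorem traceDual_of_dlog_simple [IsAlgClosed k] (j : K) [FiniteDimensional k⟮j⟯ K]
    [Algebra.IsSeparable k⟮j⟯ K]
    (δ : Ω → Ω) (hadd : ∀ x y, δ (x + y) = δ x + δ y)
    (hmul : ∀ x y, δ (x * y) = δ x * y + x * δ y)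
    (hconst : ∀ a : k, δ (algebraMap K Ω (algebraMap k K a)) = 0)
    (hc : δ (algebraMap K Ω j) ≠ 0)
    (p : ℕ) [CharP Ω p] (f : K) (hf : f ≠ 0)
    (hU : ∀ w : ValuationSubring K, ∃ u h : K, f = u * h ^ p ∧ u ∈ w ∧ u⁻¹ ∈ w)
    (G : K) (hG : algebraMap K Ω G * algebraMap K Ω f * δ (algebraMap K Ω j) =
      δ (algebraMap K Ω f)) :
    (∀ b : K, IsIntegral (Algebra.adjoin k {j}) b →
      ((Algebra.trace k⟮j⟯ K (G * b) : k⟮j⟯) : K) ∈ Algebra.adjoin k {j}) ∧
    (∀ c : K, IsIntegral (Algebra.adjoin k {j⁻¹}) c →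
      ((Algebra.trace k⟮j⟯ K (G * j ^ 2 * c) : k⟮j⟯) : K) ∈ Algebra.adjoin k {j⁻¹}) := by
  refine ⟨fun b hb => trace_mem_adjoin j k⟮j⟯ rfl δ hadd hmul hconst hc p f hf hU G hG b hb,
    fun c hcint => ?_⟩
  have hjΩ : algebraMap K Ω j ≠ 0 := by
    intro h0
    rw [h0] at hc
    exact hc (DerivDual.deriv_zero δ hadd)
  have hjK : j ≠ 0 := fun h => hjΩ (by rw [h, map_zero])
  have hE : k⟮j⟯ = k⟮j⁻¹⟯ := by
    refine le_antisymm (adjoin_simple_le_iff.mpr ?_) (adjoin_simple_le_iff.mpr ?_)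
    · have h1 := inv_mem (mem_adjoin_simple_self k j⁻¹)
      rwa [inv_inv] at h1
    · exact inv_mem (mem_adjoin_simple_self k j)
  have hcinv : δ (algebraMap K Ω j⁻¹) = -(δ (algebraMap K Ω j)) * (algebraMap K Ω j)⁻¹ ^ 2 := by
    rw [map_inv₀]
    exact deriv_inv δ hmul _ hjΩ
  have hcinv0 : δ (algebraMap K Ω j⁻¹) ≠ 0 := by
    rw [hcinv]
    exact mul_ne_zero (neg_ne_zero.mpr hc) (pow_ne_zero _ (inv_ne_zero hjΩ))
  have hG' : algebraMap K Ω (-(j ^ 2 * G)) * algebraMap K Ω f * δ (algebraMap K Ω j⁻¹) =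
      δ (algebraMap K Ω f) := by
    rw [hcinv, ← hG]
    simp only [map_neg, map_mul, map_pow]
    field_simp
  have h1 := trace_mem_adjoin j⁻¹ k⟮j⟯ hE δ hadd hmul hconst hcinv0 p f hf hU (-(j ^ 2 * G)) hG'
    c hcint
  have h2 : G * j ^ 2 * c = -(-(j ^ 2 * G) * c) := by ring
  rw [h2, map_neg, IntermediateField.coe_neg]
  exact Subalgebra.neg_mem _ h1

omit [Algebra K Ω] in
/-- A function with nonzero derivative is transcendental over the (algebraically closed)
constants. -/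
theorem transcendental_of_deriv_ne_zero [IsAlgClosed k] (j : K) (δ : K → Ω)
    (hconst : ∀ a : k, δ (algebraMap k K a) = 0) (hc : δ j ≠ 0) : Transcendental k j := by
  intro halg
  have hdeg : (minpoly k j).degree = 1 :=
    IsAlgClosed.degree_eq_one_of_irreducible k (minpoly.irreducible halg.isIntegral)
  obtain ⟨a, rfl⟩ := minpoly.mem_range_of_degree_eq_one k j hdeg
  exact hc (hconst a)

/-- The quotient rule: `δ` maps `k⟮j⟯` into `k⟮j⟯ * δ j`. -/
theorem exists_deriv_eq_base_simple (j : K)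
    (δ : Ω → Ω) (hadd : ∀ x y, δ (x + y) = δ x + δ y)
    (hmul : ∀ x y, δ (x * y) = δ x * y + x * δ y)
    (hconst : ∀ a : k, δ (algebraMap K Ω (algebraMap k K a)) = 0) (a : k⟮j⟯) :
    ∃ e : k⟮j⟯, δ (algebraMap K Ω (algebraMap k⟮j⟯ K a)) =
      algebraMap K Ω (algebraMap k⟮j⟯ K e) * δ (algebraMap K Ω j) := by
  obtain ⟨n, hn, d, hd, hnd⟩ := mem_adjoin_iff_div.mp a.2
  obtain ⟨gn, rfl⟩ := toAdjoin_surjective j ⟨n, hn⟩ |>.imp fun g hg => (congrArg Subtype.val hg).symm
  obtain ⟨gd, rfl⟩ := toAdjoin_surjective j ⟨d, hd⟩ |>.imp fun g hg => (congrArg Subtype.val hg).symm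
  simp only [coe_toAdjoin] at hnd
  have hmemj : j ∈ k⟮j⟯ := mem_adjoin_simple_self k j
  have hmem : ∀ g : k[X], aeval j g ∈ k⟮j⟯ := fun g =>
    algebra_adjoin_le_adjoin k {j} (aeval_mem_adjoin_singleton k j)
  by_cases hd0 : aeval j gd = 0
  · refine ⟨0, ?_⟩
    have ha0 : algebraMap k⟮j⟯ K a = 0 := by
      show (a : K) = 0
      rw [hnd, hd0, div_zero]
    rw [ha0, map_zero, map_zero, map_zero, zero_mul]
    exact DerivDual.deriv_zero δ hadd
  have hdΩ : algebraMap K Ω (aeval j gd) ≠ 0 :=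
    (map_ne_zero_iff _ (algebraMap K Ω).injective).mpr hd0
  refine ⟨⟨(aeval j (derivative gn) - aeval j gn / aeval j gd * aeval j (derivative gd)) /
    aeval j gd, div_mem (sub_mem (hmem _) (mul_mem (div_mem (hmem _) (hmem _)) (hmem _)))
      (hmem _)⟩, ?_⟩
  have ha : algebraMap k⟮j⟯ K a = aeval j gn / aeval j gd := hnd
  have h1 : algebraMap K Ω (aeval j gn / aeval j gd) * algebraMap K Ω (aeval j gd) =
      algebraMap K Ω (aeval j gn) := by
    rw [← map_mul, div_mul_cancel₀ _ hd0]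
  have h2 := congrArg δ h1
  rw [hmul, deriv_aeval δ hadd hmul hconst j gn, deriv_aeval δ hadd hmul hconst j gd] at h2
  rw [ha]
  show _ = algebraMap K Ω ((aeval j (derivative gn) -
    aeval j gn / aeval j gd * aeval j (derivative gd)) / aeval j gd) * _
  apply mul_right_cancel₀ hdΩ
  simp only [map_div₀, map_sub, map_mul] at h2 ⊢
  field_simp at h2 ⊢
  linear_combination h2

/-- **`δ` maps `K` into `K * δ j`** (`K / k⟮j⟯` finite separable). -/
theorem exists_deriv_eq_simple (j : K) [FiniteDimensional k⟮j⟯ K] [Algebra.IsSeparable k⟮j⟯ K]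
    (δ : Ω → Ω) (hadd : ∀ x y, δ (x + y) = δ x + δ y)
    (hmul : ∀ x y, δ (x * y) = δ x * y + x * δ y)
    (hconst : ∀ a : k, δ (algebraMap K Ω (algebraMap k K a)) = 0) (x : K) :
    ∃ y : K, δ (algebraMap K Ω x) = algebraMap K Ω y * δ (algebraMap K Ω j) := by
  obtain ⟨y, hy, -⟩ := DerivDual.exists_deriv_mul_mem_adjoin (A := k⟮j⟯) (K := k⟮j⟯) (L := K)
    δ hadd hmul (δ (algebraMap K Ω j))
    (fun a => exists_deriv_eq_base_simple j δ hadd hmul hconst a) x
    (Algebra.IsIntegral.isIntegral x) x (Algebra.self_mem_adjoin_singleton k⟮j⟯ x)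
  exact ⟨y, hy⟩

/-- Existence of `G = δ f / (f δ j)` in `K`. -/
theorem exists_dlog_quot_simple (j : K) [FiniteDimensional k⟮j⟯ K] [Algebra.IsSeparable k⟮j⟯ K]
    (δ : Ω → Ω) (hadd : ∀ x y, δ (x + y) = δ x + δ y)
    (hmul : ∀ x y, δ (x * y) = δ x * y + x * δ y)
    (hconst : ∀ a : k, δ (algebraMap K Ω (algebraMap k K a)) = 0) (f : K) (hf : f ≠ 0) :
    ∃ G : K, algebraMap K Ω G * algebraMap K Ω f * δ (algebraMap K Ω j) =
      δ (algebraMap K Ω f) := by
  obtain ⟨y, hy⟩ := exists_deriv_eq_simple j δ hadd hmul hconst f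
  refine ⟨y / f, ?_⟩
  rw [hy, ← map_mul, div_mul_cancel₀ _ hf]

end Simple

end Fermat.Agent.S44.D.RegDual
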