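import Mathlib
import Fermat.Agent.S44.D.RegDual
import Fermat.Agent.S44.L.RedSep

/-!
# PROGRAM MR (S44), strand D, brick (b) at the reduced function field

The `κ`-level instance of `S44/D/RegDual.traceDual_of_dlog_simple` (helper223, row D.Reg):
`κ` the residue field of a valuation subring `A` of `ℚ̄` over `p`, `K = redField N A ⊆ κ((q))`,
`κ₀ ⊆ K` the constants, `t = j̄`, `θ = q d/dq`.  For `f ≠ 0` in `K` whose order at every valuation
subring of `K` is divisible by `p` (the place clause of `Contract.RegLog`, verbatim) the element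
`G = θ f / (f θ j̄)` of `K` is trace-dual on both charts of the `j̄`-line:
`Tr (G B₀) ⊆ κ₀[j̄]`, `Tr (G j̄² B∞) ⊆ κ₀[1/j̄]`.

H-vocabulary (`κ₀ : Subfield (redField N A)`, `IntermediateField.adjoin κ₀ {t}`):
* `traceDual_redField` : the statement for given `κ₀`, `t` (finiteness and separability of
  `K / κ₀(j̄)` as instance hypotheses).
* `exists_traceDual_redField`, `exists_traceDual_of_regLog` : the packaged forms from the
  strand-H literals `H.RedFinStatement`, `H.SepSeriesStatement` (hypotheses), with
  `G θ(j̄) = φ` for the series `φ` of a `RegLog` datum.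

`κ`-vocabulary (the shape of `TraceDualConv.exists_functional_of_traceDual` and of
`ConstTraceLS.traceDual_descent`; `LΩ : IntermediateField κ (LaurentSeries κ)`):
* `traceDual_laurent`, `exists_traceDual_laurent` : level-free, any intermediate field of
  `κ((q)) / κ` finite separable over `κ⟮j⟯`.
* `traceDual_redField_int` : `LΩ` any intermediate field with the carrier of `redField N A`;
  for a `RegLog` datum there is `G ∈ LΩ` with `G θ(j̄) = φ`, trace-dual on both charts.
-/

set_option autoImplicit false

open HahnSeries ModularCurve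

namespace Fermat.Agent.S44.D.RegInst

open Fermat.Agent.S44.Contract Fermat.Agent.S36.QFormal Fermat.Agent.S44.L
open IntermediateField

local notation "Qb" => AlgebraicClosure ℚ

/-- The residue field of a valuation subring of an algebraically closed field is algebraically
closed. -/
theorem isAlgClosed_residue {K : Type*} [Field K] [IsAlgClosed K] (A : ValuationSubring K) :
    IsAlgClosed (IsLocalRing.ResidueField A) := by
  refine IsAlgClosed.of_exists_root _ fun p hmonic hirr => ?_
  have hp : p ∈ Polynomial.lifts (IsLocalRing.residue A) :=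
    (Polynomial.mem_lifts p).mpr
      (Polynomial.map_surjective _ (IsLocalRing.residue_surjective (R := A)) p)
  obtain ⟨q, hq, hqdeg, hqmonic⟩ := Polynomial.lifts_and_degree_eq_and_monic hp hmonic
  have hdeg : (q.map A.subtype).degree ≠ 0 := by
    rw [Polynomial.degree_map_eq_of_injective (Subtype.val_injective), hqdeg]
    exact (Polynomial.degree_pos_of_irreducible hirr).ne'
  obtain ⟨z, hz⟩ := IsAlgClosed.exists_root (q.map A.subtype) hdeg
  have hint : IsIntegral A z := ⟨q, hqmonic, by
    rw [← Polynomial.eval_map]; exact hz⟩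
  obtain ⟨z', rfl⟩ := IsIntegrallyClosed.isIntegral_iff.mp hint
  refine ⟨IsLocalRing.residue A z', ?_⟩
  rw [← hq, Polynomial.eval_map, Polynomial.eval₂_at_apply]
  have h0 : Polynomial.eval z' q = 0 := by
    apply Subtype.val_injective
    have h3 : Polynomial.eval (A.subtype z') (q.map A.subtype) = 0 := hz
    rw [Polynomial.eval_map, Polynomial.eval₂_at_apply] at h3
    exact h3
  rw [h0, map_zero]

/-- A subfield of constants `κ₀ ≅ κ` of a subfield of `κ((q))` is algebraically closed if `κ`
is. -/
theorem isAlgClosed_const {κ : Type*} [Field κ] [IsAlgClosed κ] (k : Subfield (LaurentSeries κ))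
    (κ₀ : Subfield k)
    (hκ₀ : ∀ x : k, x ∈ κ₀ ↔ ∃ c : κ, (x : LaurentSeries κ) = HahnSeries.C c)
    (hC : ∀ c : κ, HahnSeries.C c ∈ k) : IsAlgClosed κ₀ := by
  let e₁ : κ →+* k := (HahnSeries.C : κ →+* LaurentSeries κ).codRestrict k hC
  let e₂ : κ →+* κ₀ := e₁.codRestrict κ₀ fun c => (hκ₀ _).mpr ⟨c, rfl⟩
  have hbij : Function.Bijective e₂ := by
    refine ⟨e₂.injective, fun x => ?_⟩
    obtain ⟨c, hc⟩ := (hκ₀ x).mp x.2
    refine ⟨c, Subtype.ext (Subtype.ext ?_)⟩
    show (HahnSeries.C c : LaurentSeries κ) = ((x : k) : LaurentSeries κ)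
    exact hc.symm
  exact IsAlgClosed.of_ringEquiv κ κ₀ (RingEquiv.ofBijective e₂ hbij)

variable {p N : ℕ} {A : ValuationSubring Qb}

/-- **Brick (b) at the reduced function field**: for `f ≠ 0` in `redField N A` whose order at
every valuation subring is divisible by `p`, `G = θ f / (f θ j̄)` is trace-dual on both charts of
the `j̄`-line. -/
theorem traceDual_redField (hp : p.Prime) (hA : A.LiesOverPrime p)
    (κ₀ : Subfield (redField N A)) (t : redField N A)
    (hκ₀ : ∀ x : redField N A, x ∈ κ₀ ↔
      ∃ c : IsLocalRing.ResidueField A,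
        (x : LaurentSeries (IsLocalRing.ResidueField A)) = HahnSeries.C c)
    (hC : ∀ c : IsLocalRing.ResidueField A, HahnSeries.C c ∈ redField N A)
    (ht : (t : LaurentSeries (IsLocalRing.ResidueField A)) = jqModC (IsLocalRing.ResidueField A))
    [FiniteDimensional (IntermediateField.adjoin κ₀ {t}) (redField N A)]
    [Algebra.IsSeparable (IntermediateField.adjoin κ₀ {t}) (redField N A)]
    (f : redField N A) (hf : f ≠ 0)
    (hU : ∀ w : ValuationSubring (redField N A),
      ∃ u h : redField N A, f = u * h ^ p ∧ u ∈ w ∧ u⁻¹ ∈ w)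
    (G : redField N A)
    (hG : (G : LaurentSeries (IsLocalRing.ResidueField A)) *
        (f : LaurentSeries (IsLocalRing.ResidueField A)) *
        theta (jqModC (IsLocalRing.ResidueField A)) =
      theta (f : LaurentSeries (IsLocalRing.ResidueField A))) :
    (∀ b : redField N A, IsIntegral (Algebra.adjoin κ₀ {t}) b →
      ((Algebra.trace (IntermediateField.adjoin κ₀ {t}) (redField N A) (G * b) :
        IntermediateField.adjoin κ₀ {t}) : redField N A) ∈ Algebra.adjoin κ₀ {t}) ∧
    (∀ c : redField N A, IsIntegral (Algebra.adjoin κ₀ {t⁻¹}) c →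
      ((Algebra.trace (IntermediateField.adjoin κ₀ {t}) (redField N A) (G * t ^ 2 * c) :
        IntermediateField.adjoin κ₀ {t}) : redField N A) ∈ Algebra.adjoin κ₀ {t⁻¹}) := by
  haveI : IsAlgClosed (IsLocalRing.ResidueField A) := isAlgClosed_residue A
  haveI : IsAlgClosed κ₀ := isAlgClosed_const (redField N A) κ₀ hκ₀ hC
  haveI : CharP (IsLocalRing.ResidueField A) p := Kappa.charP_residueField hp hA
  haveI : CharP (LaurentSeries (IsLocalRing.ResidueField A)) p :=
    charP_of_injective_ringHom
      (f := (HahnSeries.C : IsLocalRing.ResidueField A →+* LaurentSeries _))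
      HahnSeries.C_injective p
  refine RegDual.traceDual_of_dlog_simple (k := κ₀) (K := redField N A)
    (Ω := LaurentSeries (IsLocalRing.ResidueField A)) t (fun x => theta x)
    (fun x y => map_add theta x y) theta_mul (fun a => ?_) ?_ p f hf hU G ?_
  · obtain ⟨c, hc⟩ := (hκ₀ a).mp a.2
    show theta (((a : redField N A)) : LaurentSeries (IsLocalRing.ResidueField A)) = 0
    rw [hc, theta_C]
  · show theta (t : LaurentSeries (IsLocalRing.ResidueField A)) ≠ 0
    rw [ht]
    exact RedSep.theta_jqModC_ne_zero _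
  · show (G : LaurentSeries (IsLocalRing.ResidueField A)) *
      (f : LaurentSeries (IsLocalRing.ResidueField A)) *
      theta (t : LaurentSeries (IsLocalRing.ResidueField A)) =
        theta (f : LaurentSeries (IsLocalRing.ResidueField A))
    rw [ht]
    exact hG

/-- **Brick (b), packaged form** from the strand-H literals `H.RedFinStatement` and
`H.SepSeriesStatement`: the constants `κ₀`, the function `t = j̄`, and the trace-dual element
`G = θ f / (f θ j̄)` of the reduced function field. -/
theorem exists_traceDual_redField (hFin : H.RedFinStatement) (hSep : H.SepSeriesStatement)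
    [NeZero N] (hp : p.Prime) (hA : A.LiesOverPrime p)
    (f : redField N A) (hf : f ≠ 0)
    (hU : ∀ w : ValuationSubring (redField N A),
      ∃ u h : redField N A, f = u * h ^ p ∧ u ∈ w ∧ u⁻¹ ∈ w) :
    ∃ (κ₀ : Subfield (redField N A)) (t G : redField N A),
      (∀ x : redField N A, x ∈ κ₀ ↔
        ∃ c : IsLocalRing.ResidueField A,
          (x : LaurentSeries (IsLocalRing.ResidueField A)) = HahnSeries.C c) ∧
      (t : LaurentSeries (IsLocalRing.ResidueField A)) = jqModC (IsLocalRing.ResidueField A) ∧
      FiniteDimensional (IntermediateField.adjoin κ₀ {t}) (redField N A) ∧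
      Algebra.IsSeparable (IntermediateField.adjoin κ₀ {t}) (redField N A) ∧
      (G : LaurentSeries (IsLocalRing.ResidueField A)) *
          (f : LaurentSeries (IsLocalRing.ResidueField A)) *
          theta (jqModC (IsLocalRing.ResidueField A)) =
        theta (f : LaurentSeries (IsLocalRing.ResidueField A)) ∧
      (∀ b : redField N A, IsIntegral (Algebra.adjoin κ₀ {t}) b →
        ((Algebra.trace (IntermediateField.adjoin κ₀ {t}) (redField N A) (G * b) :
          IntermediateField.adjoin κ₀ {t}) : redField N A) ∈ Algebra.adjoin κ₀ {t}) ∧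
      (∀ c : redField N A, IsIntegral (Algebra.adjoin κ₀ {t⁻¹}) c →
        ((Algebra.trace (IntermediateField.adjoin κ₀ {t}) (redField N A) (G * t ^ 2 * c) :
          IntermediateField.adjoin κ₀ {t}) : redField N A) ∈ Algebra.adjoin κ₀ {t⁻¹}) := by
  obtain ⟨κ₀, t, hκ₀, hC, ht, -, hfin⟩ := hFin p N hp A hA
  haveI := Kappa.charP_residueField hp hA
  haveI := hfin
  have hsep := hSep (IsLocalRing.ResidueField A) p hp (RedSep.exists_pow_eq_residue p hp A hA)
    (redField N A) κ₀ t hκ₀ hC (by rw [ht]; exact RedSep.jqModC_ne_zero' _)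
    (by rw [ht]; exact RedSep.not_dvd_order_jqModC _ hp) (Algebra.IsAlgebraic.of_finite _ _)
  haveI := hsep
  obtain ⟨f', hf'⟩ := RedSep.theta_coe_redField hFin hSep p N hp A hA f
  have hf0 : (f : LaurentSeries (IsLocalRing.ResidueField A)) ≠ 0 := fun h => hf (Subtype.ext h)
  have hG : ((f' / f : redField N A) : LaurentSeries (IsLocalRing.ResidueField A)) *
      (f : LaurentSeries (IsLocalRing.ResidueField A)) *
      theta (jqModC (IsLocalRing.ResidueField A)) =
      theta (f : LaurentSeries (IsLocalRing.ResidueField A)) := by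
    rw [hf']
    push_cast
    rw [div_mul_cancel₀ _ hf0]
  exact ⟨κ₀, t, f' / f, hκ₀, ht, hfin, hsep, hG,
    traceDual_redField hp hA κ₀ t hκ₀ hC ht f hf hU (f' / f) hG⟩

/-- **Brick (b) for a `RegLog` datum** (without its Hecke clause): `G θ(j̄) = φ`. -/
theorem exists_traceDual_of_regLog (hFin : H.RedFinStatement) (hSep : H.SepSeriesStatement)
    [NeZero N] (hp : p.Prime) (hA : A.LiesOverPrime p)
    (f : redField N A) (g φ : LaurentSeries (IsLocalRing.ResidueField A)) (hf : f ≠ 0)
    (hU : ∀ w : ValuationSubring (redField N A),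
      ∃ u h : redField N A, f = u * h ^ p ∧ u ∈ w ∧ u⁻¹ ∈ w)
    (hg : ∀ n : ℤ, g.coeff n = (n : IsLocalRing.ResidueField A) *
      (f : LaurentSeries (IsLocalRing.ResidueField A)).coeff n)
    (hφ : φ * (f : LaurentSeries (IsLocalRing.ResidueField A)) = g) :
    ∃ (κ₀ : Subfield (redField N A)) (t G : redField N A),
      (∀ x : redField N A, x ∈ κ₀ ↔
        ∃ c : IsLocalRing.ResidueField A,
          (x : LaurentSeries (IsLocalRing.ResidueField A)) = HahnSeries.C c) ∧
      (t : LaurentSeries (IsLocalRing.ResidueField A)) = jqModC (IsLocalRing.ResidueField A) ∧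
      FiniteDimensional (IntermediateField.adjoin κ₀ {t}) (redField N A) ∧
      Algebra.IsSeparable (IntermediateField.adjoin κ₀ {t}) (redField N A) ∧
      (G : LaurentSeries (IsLocalRing.ResidueField A)) *
          theta (jqModC (IsLocalRing.ResidueField A)) = φ ∧
      (∀ b : redField N A, IsIntegral (Algebra.adjoin κ₀ {t}) b →
        ((Algebra.trace (IntermediateField.adjoin κ₀ {t}) (redField N A) (G * b) :
          IntermediateField.adjoin κ₀ {t}) : redField N A) ∈ Algebra.adjoin κ₀ {t}) ∧
      (∀ c : redField N A, IsIntegral (Algebra.adjoin κ₀ {t⁻¹}) c →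
        ((Algebra.trace (IntermediateField.adjoin κ₀ {t}) (redField N A) (G * t ^ 2 * c) :
          IntermediateField.adjoin κ₀ {t}) : redField N A) ∈ Algebra.adjoin κ₀ {t⁻¹}) := by
  obtain ⟨κ₀, t, G, hκ₀, ht, hfin, hsep, hG, h0, hinf⟩ :=
    exists_traceDual_redField hFin hSep hp hA f hf hU
  have hf0 : (f : LaurentSeries (IsLocalRing.ResidueField A)) ≠ 0 := fun h => hf (Subtype.ext h)
  have hgθ : g = theta (f : LaurentSeries (IsLocalRing.ResidueField A)) := by
    ext n
    rw [hg n, coeff_theta]
  refine ⟨κ₀, t, G, hκ₀, ht, hfin, hsep, ?_, h0, hinf⟩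
  apply mul_right_cancel₀ hf0
  rw [hφ, hgθ, ← hG]
  ring

/-! ### The `κ`-vocabulary: the reduced field as an intermediate field of `κ((q)) / κ` -/

section Laurent

variable {κ : Type*} [Field κ]

/-- `θ` kills the constants (the algebra map of `κ((q))`). -/
theorem theta_algebraMap (a : κ) : theta (algebraMap κ (LaurentSeries κ) a) = 0 := by
  have h1 : algebraMap κ (PowerSeries κ) a = PowerSeries.C a := by simp
  rw [HahnSeries.algebraMap_apply', h1, HahnSeries.ofPowerSeries_C]
  exact theta_C a

/-- **Brick (b) for an intermediate field of `κ((q)) / κ`** (level-free): `κ` algebraically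
closed of characteristic `p`, `L / κ⟮j⟯` finite separable, `θ j ≠ 0`. -/
theorem traceDual_laurent [IsAlgClosed κ] (p : ℕ) [CharP κ p]
    (L : IntermediateField κ (LaurentSeries κ)) (j : L)
    [FiniteDimensional (IntermediateField.adjoin κ {j}) L]
    [Algebra.IsSeparable (IntermediateField.adjoin κ {j}) L]
    (hj : theta (j : LaurentSeries κ) ≠ 0) (f : L) (hf : f ≠ 0)
    (hU : ∀ w : ValuationSubring L, ∃ u h : L, f = u * h ^ p ∧ u ∈ w ∧ u⁻¹ ∈ w)
    (G : L)
    (hG : (G : LaurentSeries κ) * (f : LaurentSeries κ) * theta (j : LaurentSeries κ) =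
      theta (f : LaurentSeries κ)) :
    (∀ b : L, IsIntegral (Algebra.adjoin κ {j}) b →
      ((Algebra.trace (IntermediateField.adjoin κ {j}) L (G * b) :
        IntermediateField.adjoin κ {j}) : L) ∈ Algebra.adjoin κ {j}) ∧
    (∀ c : L, IsIntegral (Algebra.adjoin κ {j⁻¹}) c →
      ((Algebra.trace (IntermediateField.adjoin κ {j}) L (G * j ^ 2 * c) :
        IntermediateField.adjoin κ {j}) : L) ∈ Algebra.adjoin κ {j⁻¹}) := by
  haveI : CharP (LaurentSeries κ) p :=
    charP_of_injective_ringHom (f := (HahnSeries.C : κ →+* LaurentSeries κ))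
      HahnSeries.C_injective p
  refine RegDual.traceDual_of_dlog_simple (k := κ) (K := L) (Ω := LaurentSeries κ) j
    (fun x => theta x) (fun x y => map_add theta x y) theta_mul (fun a => ?_) hj p f hf hU G hG
  exact theta_algebraMap a

/-- Existence of `G = θ f / (f θ j)` in `L`, with the trace-duality (level-free). -/
theorem exists_traceDual_laurent [IsAlgClosed κ] (p : ℕ) [CharP κ p]
    (L : IntermediateField κ (LaurentSeries κ)) (j : L)
    [FiniteDimensional (IntermediateField.adjoin κ {j}) L]
    [Algebra.IsSeparable (IntermediateField.adjoin κ {j}) L]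
    (hj : theta (j : LaurentSeries κ) ≠ 0) (f : L) (hf : f ≠ 0)
    (hU : ∀ w : ValuationSubring L, ∃ u h : L, f = u * h ^ p ∧ u ∈ w ∧ u⁻¹ ∈ w) :
    ∃ G : L, (G : LaurentSeries κ) * (f : LaurentSeries κ) * theta (j : LaurentSeries κ) =
        theta (f : LaurentSeries κ) ∧
      (∀ b : L, IsIntegral (Algebra.adjoin κ {j}) b →
        ((Algebra.trace (IntermediateField.adjoin κ {j}) L (G * b) :
          IntermediateField.adjoin κ {j}) : L) ∈ Algebra.adjoin κ {j}) ∧
      (∀ c : L, IsIntegral (Algebra.adjoin κ {j⁻¹}) c →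
        ((Algebra.trace (IntermediateField.adjoin κ {j}) L (G * j ^ 2 * c) :
          IntermediateField.adjoin κ {j}) : L) ∈ Algebra.adjoin κ {j⁻¹}) := by
  obtain ⟨G, hG⟩ := RegDual.exists_dlog_quot_simple (k := κ) (K := L) (Ω := LaurentSeries κ) j
    (fun x => theta x) (fun x y => map_add theta x y) theta_mul
    (fun a => theta_algebraMap a) f hf
  exact ⟨G, hG, traceDual_laurent p L j hj f hf hU G hG⟩

end Laurent

/-- **Brick (b) at the reduced function field, `κ`-vocabulary** (the shape of
`TraceDualConv.exists_functional_of_traceDual` and `ConstTraceLS.traceDual_descent`): `LΩ` any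
intermediate field of `κ((q)) / κ` with the carrier of `redField N A`, `jb = j̄`.  For a
`RegLog` datum `(f, g, φ)` (without its Hecke clause) there is `G ∈ LΩ` with `G θ(j̄) = φ`,
trace-dual on both charts of the `j̄`-line. -/
theorem traceDual_redField_int (hp : p.Prime) (hA : A.LiesOverPrime p)
    (LΩ : IntermediateField (IsLocalRing.ResidueField A)
      (LaurentSeries (IsLocalRing.ResidueField A)))
    (hLΩ : ∀ x : LaurentSeries (IsLocalRing.ResidueField A), x ∈ LΩ ↔ x ∈ redField N A)
    (jb : LΩ)
    (hjb : (jb : LaurentSeries (IsLocalRing.ResidueField A)) =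
      jqModC (IsLocalRing.ResidueField A))
    [FiniteDimensional (IntermediateField.adjoin (IsLocalRing.ResidueField A) {jb}) LΩ]
    [Algebra.IsSeparable (IntermediateField.adjoin (IsLocalRing.ResidueField A) {jb}) LΩ]
    (f : redField N A) (g φ : LaurentSeries (IsLocalRing.ResidueField A)) (hf : f ≠ 0)
    (hU : ∀ w : ValuationSubring (redField N A),
      ∃ u h : redField N A, f = u * h ^ p ∧ u ∈ w ∧ u⁻¹ ∈ w)
    (hg : ∀ n : ℤ, g.coeff n = (n : IsLocalRing.ResidueField A) *
      (f : LaurentSeries (IsLocalRing.ResidueField A)).coeff n)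
    (hφ : φ * (f : LaurentSeries (IsLocalRing.ResidueField A)) = g) :
    ∃ G : LΩ, (G : LaurentSeries (IsLocalRing.ResidueField A)) *
        theta (jqModC (IsLocalRing.ResidueField A)) = φ ∧
      (∀ b : LΩ, IsIntegral (Algebra.adjoin (IsLocalRing.ResidueField A) {jb}) b →
        ((Algebra.trace (IntermediateField.adjoin (IsLocalRing.ResidueField A) {jb}) LΩ (G * b) :
          IntermediateField.adjoin (IsLocalRing.ResidueField A) {jb}) : LΩ) ∈
            Algebra.adjoin (IsLocalRing.ResidueField A) {jb}) ∧
      (∀ c : LΩ, IsIntegral (Algebra.adjoin (IsLocalRing.ResidueField A) {jb⁻¹}) c →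
        ((Algebra.trace (IntermediateField.adjoin (IsLocalRing.ResidueField A) {jb}) LΩ
            (G * jb ^ 2 * c) :
          IntermediateField.adjoin (IsLocalRing.ResidueField A) {jb}) : LΩ) ∈
            Algebra.adjoin (IsLocalRing.ResidueField A) {jb⁻¹}) := by
  haveI : IsAlgClosed (IsLocalRing.ResidueField A) := isAlgClosed_residue A
  haveI : CharP (IsLocalRing.ResidueField A) p := Kappa.charP_residueField hp hA
  -- the identity ring homomorphism `redField N A → LΩ`
  let e : redField N A →+* LΩ :=
    (redField N A).subtype.codRestrict LΩ fun x => (hLΩ _).mpr x.2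
  have he : ∀ x : redField N A, ((e x : LΩ) : LaurentSeries (IsLocalRing.ResidueField A)) =
      (x : LaurentSeries (IsLocalRing.ResidueField A)) := fun x => rfl
  have hf0 : (f : LaurentSeries (IsLocalRing.ResidueField A)) ≠ 0 := fun h => hf (Subtype.ext h)
  have hef : e f ≠ 0 := fun h => hf0 (by rw [← he f, h]; rfl)
  have hU' : ∀ w : ValuationSubring LΩ, ∃ u h : LΩ, e f = u * h ^ p ∧ u ∈ w ∧ u⁻¹ ∈ w := by
    intro w
    obtain ⟨u, h, hfu, hu, hu'⟩ := hU (w.comap e)
    refine ⟨e u, e h, by rw [hfu, map_mul, map_pow], hu, ?_⟩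
    rw [← map_inv₀]
    exact hu'
  have hjθ : theta ((jb : LΩ) : LaurentSeries (IsLocalRing.ResidueField A)) ≠ 0 := by
    rw [hjb]
    exact RedSep.theta_jqModC_ne_zero _
  obtain ⟨G, hG, h0, hinf⟩ := exists_traceDual_laurent p LΩ jb hjθ (e f) hef hU'
  refine ⟨G, ?_, h0, hinf⟩
  have hgθ : g = theta (f : LaurentSeries (IsLocalRing.ResidueField A)) := by
    ext n
    rw [hg n, coeff_theta]
  rw [he f, hjb] at hG
  apply mul_right_cancel₀ hf0
  rw [hφ, hgθ, ← hG]
  ring

end Fermat.Agent.S44.D.RegInst
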