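import Mathlib
import Fermat.Agent.S44.D.RegInst

/-!
# PROGRAM MR (S44), strand D, brick (b): the bridge from the H vocabulary to the `κ` vocabulary

The strand-H literals `H.RedFinStatement`, `H.SepSeriesStatement` speak about the reduced
function field `K = redField N A` as a `Subfield` of `κ((q))`, its subfield of constants
`κ₀ : Subfield K` and `IntermediateField.adjoin κ₀ {t}`.  Route X of strand D reads the same
field as an intermediate field `LΩ` of `κ((q)) / κ` and uses `κ⟮jb⟯`.  This file transports
finiteness and separability along the identity (helper223, row D.Reg, item (R3)).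

* `finite_sep_transfer` : level-free transport.
* `finite_sep_int` : `LΩ / κ⟮jb⟯` is finite and separable, from the two H literals.
* `traceDual_redField_int_of` : brick (b) in the `κ` vocabulary with no instance hypothesis:
  for a `RegLog` datum there is `G ∈ LΩ` with `G θ(j̄) = φ`, trace-dual on both charts.
-/

set_option autoImplicit false

open HahnSeries ModularCurve

namespace Fermat.Agent.S44.D.RegBridge

open Fermat.Agent.S44.Contract Fermat.Agent.S36.QFormal Fermat.Agent.S44.L
open IntermediateField

local notation "Qb" => AlgebraicClosure ℚ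

section Transfer

variable {κ : Type*} [Field κ]

/-- The algebra map of `κ((q))` is `HahnSeries.C`. -/
theorem algebraMap_eq_C (a : κ) :
    algebraMap κ (LaurentSeries κ) a = (HahnSeries.C a : LaurentSeries κ) := by
  have h1 : algebraMap κ (PowerSeries κ) a = PowerSeries.C a := by simp
  rw [HahnSeries.algebraMap_apply', h1, HahnSeries.ofPowerSeries_C]

/-- **Transport of finiteness and separability** from `K / κ₀(t)` (`K` a subfield of `κ((q))`,
`κ₀` its constants) to `L / κ⟮j⟯` (`L` the same field as an intermediate field of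
`κ((q)) / κ`, `j = t`). -/
theorem finite_sep_transfer (K : Subfield (LaurentSeries κ)) (κ₀ : Subfield K) (t : K)
    (hκ₀ : ∀ x : K, x ∈ κ₀ ↔ ∃ c : κ, (x : LaurentSeries κ) = HahnSeries.C c)
    (L : IntermediateField κ (LaurentSeries κ))
    (hL : ∀ x : LaurentSeries κ, x ∈ L ↔ x ∈ K) (j : L)
    (hj : (j : LaurentSeries κ) = (t : LaurentSeries κ))
    [FiniteDimensional (IntermediateField.adjoin κ₀ {t}) K]
    [Algebra.IsSeparable (IntermediateField.adjoin κ₀ {t}) K] :
    FiniteDimensional (IntermediateField.adjoin κ {j}) L ∧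
      Algebra.IsSeparable (IntermediateField.adjoin κ {j}) L := by
  -- the identity isomorphism `K ≃+* L`
  let e : K ≃+* L :=
    { toFun := fun x => ⟨x, (hL _).mpr x.2⟩
      invFun := fun y => ⟨y, (hL _).mp y.2⟩
      left_inv := fun x => rfl
      right_inv := fun y => rfl
      map_mul' := fun x y => rfl
      map_add' := fun x y => rfl }
  have he : ∀ x : K, ((e x : L) : LaurentSeries κ) = (x : LaurentSeries κ) := fun x => rfl
  have hCK : ∀ c : κ, (HahnSeries.C c : LaurentSeries κ) ∈ K := fun c =>
    (hL _).mp (by rw [← algebraMap_eq_C]; exact L.algebraMap_mem c)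
  -- the image of the generators
  have himg : (e : K →+* L) '' (Set.range (algebraMap κ₀ K) ∪ {t}) =
      Set.range (algebraMap κ L) ∪ {j} := by
    rw [Set.image_union, Set.image_singleton]
    have h1 : (e : K →+* L) t = j := Subtype.ext hj.symm
    have h2 : (e : K →+* L) '' Set.range (algebraMap κ₀ K) = Set.range (algebraMap κ L) := by
      ext y
      constructor
      · rintro ⟨_, ⟨a, rfl⟩, rfl⟩
        obtain ⟨c, hc⟩ := (hκ₀ a).mp a.2
        refine ⟨c, Subtype.ext ?_⟩
        show algebraMap κ (LaurentSeries κ) c = ((a : K) : LaurentSeries κ)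
        rw [algebraMap_eq_C, hc]
      · rintro ⟨c, rfl⟩
        refine ⟨⟨HahnSeries.C c, hCK c⟩, ⟨⟨⟨HahnSeries.C c, hCK c⟩, (hκ₀ _).mpr ⟨c, rfl⟩⟩, rfl⟩,
          Subtype.ext ?_⟩
        show (HahnSeries.C c : LaurentSeries κ) = algebraMap κ (LaurentSeries κ) c
        rw [algebraMap_eq_C]
    rw [h1, h2]
  have hmap : (IntermediateField.adjoin κ₀ {t}).toSubfield.map (e : K →+* L) =
      (IntermediateField.adjoin κ {j}).toSubfield := by
    rw [IntermediateField.adjoin_toSubfield, IntermediateField.adjoin_toSubfield,
      RingHom.map_field_closure, himg]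
  have hmem : ∀ x : K, x ∈ IntermediateField.adjoin κ₀ {t} ↔
      e x ∈ IntermediateField.adjoin κ {j} := by
    intro x
    have h1 : e x ∈ IntermediateField.adjoin κ {j} ↔
        e x ∈ (IntermediateField.adjoin κ₀ {t}).toSubfield.map (e : K →+* L) := by
      rw [hmap]
      exact Iff.rfl
    rw [h1, Subfield.mem_map]
    constructor
    · intro hx
      exact ⟨x, hx, rfl⟩
    · rintro ⟨y, hy, hyx⟩
      have : y = x := e.injective hyx
      rw [← this]
      exact hy
  -- the restricted isomorphism
  let e₀ : IntermediateField.adjoin κ₀ {t} ≃+* IntermediateField.adjoin κ {j} :=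
    { toFun := fun x => ⟨e x, (hmem x).mp x.2⟩
      invFun := fun y => ⟨e.symm y, (hmem _).mpr (by rw [e.apply_symm_apply]; exact y.2)⟩
      left_inv := fun x => Subtype.ext (e.symm_apply_apply x)
      right_inv := fun y => Subtype.ext (e.apply_symm_apply y)
      map_mul' := fun x y => Subtype.ext (map_mul e _ _)
      map_add' := fun x y => Subtype.ext (map_add e _ _) }
  have hcomp : (algebraMap (IntermediateField.adjoin κ {j}) L).comp
      (e₀ : IntermediateField.adjoin κ₀ {t} →+* IntermediateField.adjoin κ {j}) =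
      (e : K →+* L).comp (algebraMap (IntermediateField.adjoin κ₀ {t}) K) :=
    RingHom.ext fun x => rfl
  exact ⟨Module.Finite.of_equiv_equiv e₀ e hcomp, Algebra.IsSeparable.of_equiv_equiv e₀ e hcomp⟩

end Transfer

variable {p N : ℕ} {A : ValuationSubring Qb}

/-- **(R3)** The reduced function field, read as an intermediate field `LΩ` of `κ((q)) / κ`,
is finite and separable over `κ⟮j̄⟯` (from the strand-H literals). -/
theorem finite_sep_int (hFin : H.RedFinStatement) (hSep : H.SepSeriesStatement)
    [NeZero N] (hp : p.Prime) (hA : A.LiesOverPrime p)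
    (LΩ : IntermediateField (IsLocalRing.ResidueField A)
      (LaurentSeries (IsLocalRing.ResidueField A)))
    (hLΩ : ∀ x : LaurentSeries (IsLocalRing.ResidueField A), x ∈ LΩ ↔ x ∈ redField N A)
    (jb : LΩ)
    (hjb : (jb : LaurentSeries (IsLocalRing.ResidueField A)) =
      jqModC (IsLocalRing.ResidueField A)) :
    FiniteDimensional (IntermediateField.adjoin (IsLocalRing.ResidueField A) {jb}) LΩ ∧
      Algebra.IsSeparable (IntermediateField.adjoin (IsLocalRing.ResidueField A) {jb}) LΩ := by
  obtain ⟨κ₀, t, hκ₀, hC, ht, -, hfin⟩ := hFin p N hp A hA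
  haveI := Kappa.charP_residueField hp hA
  haveI := hfin
  haveI := hSep (IsLocalRing.ResidueField A) p hp (RedSep.exists_pow_eq_residue p hp A hA)
    (redField N A) κ₀ t hκ₀ hC (by rw [ht]; exact RedSep.jqModC_ne_zero' _)
    (by rw [ht]; exact RedSep.not_dvd_order_jqModC _ hp) (Algebra.IsAlgebraic.of_finite _ _)
  exact finite_sep_transfer (redField N A) κ₀ t hκ₀ LΩ hLΩ jb (hjb.trans ht.symm)

/-- **Brick (b) in the `κ` vocabulary, no instance hypothesis**: for a `RegLog` datum
`(f, g, φ)` (without its Hecke clause) there is `G ∈ LΩ` with `G θ(j̄) = φ`, trace-dual on both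
charts of the `j̄`-line (`hG0`, `hGinf` of `TraceDualConv.exists_functional_of_traceDual`, the
hypotheses of `ConstTraceLS.traceDual_descent`). -/
theorem traceDual_redField_int_of (hFin : H.RedFinStatement) (hSep : H.SepSeriesStatement)
    [NeZero N] (hp : p.Prime) (hA : A.LiesOverPrime p)
    (LΩ : IntermediateField (IsLocalRing.ResidueField A)
      (LaurentSeries (IsLocalRing.ResidueField A)))
    (hLΩ : ∀ x : LaurentSeries (IsLocalRing.ResidueField A), x ∈ LΩ ↔ x ∈ redField N A)
    (jb : LΩ)
    (hjb : (jb : LaurentSeries (IsLocalRing.ResidueField A)) =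
      jqModC (IsLocalRing.ResidueField A))
    (f : redField N A) (g φ : LaurentSeries (IsLocalRing.ResidueField A)) (hf : f ≠ 0)
    (hU : ∀ w : ValuationSubring (redField N A),
      ∃ u h : redField N A, f = u * h ^ p ∧ u ∈ w ∧ u⁻¹ ∈ w)
    (hg : ∀ n : ℤ, g.coeff n = (n : IsLocalRing.ResidueField A) *
      (f : LaurentSeries (IsLocalRing.ResidueField A)).coeff n)
    (hφ : φ * (f : LaurentSeries (IsLocalRing.ResidueField A)) = g) :
    ∃ G : LΩ, (G : LaurentSeries (IsLocalRing.ResidueField A)) *
        theta (jqModC (IsLocalRing.ResidueField A)) = φ ∧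
      (∀ b : LΩ, IsIntegral (Algebra.adjoin (IsLocalRing.ResidueField A) {jb}) b →
        ((Algebra.trace (IntermediateField.adjoin (IsLocalRing.ResidueField A) {jb}) LΩ (G * b) :
          IntermediateField.adjoin (IsLocalRing.ResidueField A) {jb}) : LΩ) ∈
            Algebra.adjoin (IsLocalRing.ResidueField A) {jb}) ∧
      (∀ c : LΩ, IsIntegral (Algebra.adjoin (IsLocalRing.ResidueField A) {jb⁻¹}) c →
        ((Algebra.trace (IntermediateField.adjoin (IsLocalRing.ResidueField A) {jb}) LΩ
            (G * jb ^ 2 * c) :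
          IntermediateField.adjoin (IsLocalRing.ResidueField A) {jb}) : LΩ) ∈
            Algebra.adjoin (IsLocalRing.ResidueField A) {jb⁻¹}) := by
  obtain ⟨hfd, hsep⟩ := finite_sep_int hFin hSep hp hA LΩ hLΩ jb hjb
  haveI := hfd
  haveI := hsep
  exact RegInst.traceDual_redField_int hp hA LΩ hLΩ jb hjb f g φ hf hU hg hφ

end Fermat.Agent.S44.D.RegBridge
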