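import Mathlib
import Fermat.Agent.S44.Contract

/-!
# PROGRAM MR (S44), strand D: the exit — statement-level file (top split)

`Contract.DStatement` (a regular logarithmic eigen-class of level `N'` modulo `p` gives a
normalised eigenform of level `N'` with congruent eigenvalues) is split into two bricks:

* `LiftStatement` (geometry): the series `φ = θ f / f` of a `RegLog` datum (WITHOUT its Hecke
  clause) is the reduction of the `q`-expansion of a weight-2 cusp form of level `N'` with
  `A`-integral `q`-coefficients ("a regular differential of the special fibre lifts").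
* `ExitStatement` (Deligne–Serre, no geometry): a cusp form with `A`-integral coefficients whose
  reduction `φ ≠ 0` is an eigen-series of the weight-2 operators `T_ℓ` gives a normalised
  eigenform with congruent eigenvalues.

`HasRedQExp N' A ι F φ` : the `q`-coefficients of `F` are the images under `ι : ℚ̄ → ℂ` of
elements `c n` of `A`, and `φ = ∑_{n ≥ 0} (c n mod 𝔪_A) q^n`.
-/

set_option autoImplicit false

open CuspForm ModularFormClass UpperHalfPlane HahnSeries

namespace Fermat.Agent.S44.D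

open Fermat.Agent.S44.Contract

local notation "Qb" => AlgebraicClosure ℚ

/-- The cusp form `F` has `A`-integral `q`-coefficients (read through `ι : ℚ̄ → ℂ`) and the
reduction of its `q`-expansion modulo the maximal ideal of `A` is the series `φ`. -/
def HasRedQExp (N' : ℕ) (A : ValuationSubring Qb) (ι : Qb →+* ℂ)
    (F : CuspForm (CongruenceSubgroup.Gamma0 N') 2)
    (φ : LaurentSeries (IsLocalRing.ResidueField A)) : Prop :=
  ∃ c : ℕ → A, (∀ n : ℕ, ModularFormClass.qCoeff F n = ι (c n : Qb)) ∧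
    (∀ n : ℕ, φ.coeff (n : ℤ) = IsLocalRing.residue A (c n)) ∧
    ∀ n : ℤ, n < 0 → φ.coeff n = 0

/-- **Brick D-I (lifting).**  For a function `f ≠ 0` of the reduced curve of level `N'` whose
order at every valuation subring is divisible by `p`, the series `φ = θ f / f` is the reduction
of the `q`-expansion of a weight-2 cusp form of level `N'` with `A`-integral coefficients. -/
def LiftStatement : Prop :=
  ∀ (p N' : ℕ), p.Prime → 5 ≤ p → 0 < N' → ¬ p ∣ N' →
    ∀ A : ValuationSubring Qb, A.LiesOverPrime p →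
    ∀ (f : redField N' A) (g φ : LaurentSeries (IsLocalRing.ResidueField A)),
      f ≠ 0 →
      (∀ w : ValuationSubring (redField N' A),
        ∃ u h : redField N' A, f = u * h ^ p ∧ u ∈ w ∧ u⁻¹ ∈ w) →
      (∀ n : ℤ, g.coeff n = (n : IsLocalRing.ResidueField A) *
        (f : LaurentSeries (IsLocalRing.ResidueField A)).coeff n) →
      φ * (f : LaurentSeries (IsLocalRing.ResidueField A)) = g →
      ∀ ι : Qb →+* ℂ,
        ∃ F : CuspForm (CongruenceSubgroup.Gamma0 N') 2, HasRedQExp N' A ι F φ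

/-- **Brick D-II (exit).**  A cusp form with `A`-integral coefficients whose reduction `φ ≠ 0`
is an eigen-series of the weight-2 Hecke operators `T_ℓ` (`ℓ ∈ S` prime, `ℓ ∤ N' p`) with
eigenvalues `a ℓ` gives a normalised eigenform of level `N'` congruent to `a` modulo a maximal
ideal over `p`. -/
def ExitStatement : Prop :=
  ∀ (p N' : ℕ), p.Prime → 0 < N' → ¬ p ∣ N' →
    ∀ A : ValuationSubring Qb, A.LiesOverPrime p → ∀ (S : Set ℕ) (a : ℕ → ℤ)
      (ι : Qb →+* ℂ) (F : CuspForm (CongruenceSubgroup.Gamma0 N') 2)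
      (φ : LaurentSeries (IsLocalRing.ResidueField A)),
      HasRedQExp N' A ι F φ → φ ≠ 0 →
      (∀ ℓ : ℕ, ℓ.Prime → ℓ ∈ S → ¬ ℓ ∣ N' * p → ∀ n : ℤ,
        φ.coeff (ℓ * n)
            + (ℓ : IsLocalRing.ResidueField A) * (if (ℓ : ℤ) ∣ n then φ.coeff (n / ℓ) else 0)
          = ((a ℓ : ℤ) : IsLocalRing.ResidueField A) * φ.coeff n) →
      ∃ (g : CuspForm (CongruenceSubgroup.Gamma0 N') 2) (𝔪 : Ideal (integralClosure ℤ ℂ)),
        g.IsNormalizedEigenform ∧ 𝔪.IsMaximal ∧ (p : integralClosure ℤ ℂ) ∈ 𝔪 ∧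
        ∀ ℓ : ℕ, ℓ.Prime → ℓ ∈ S → ¬ ℓ ∣ N' → ℓ ≠ p →
          ∃ x : integralClosure ℤ ℂ, (x : ℂ) = ModularFormClass.qCoeff g ℓ ∧
            x - ((a ℓ : ℤ) : integralClosure ℤ ℂ) ∈ 𝔪

/-- **Strand D from its two bricks.** -/
theorem DStatement_of_bricks (hLift : LiftStatement) (hExit : ExitStatement) : DStatement := by
  intro p N' hp hp5 hN' hpN' A hA S a hR
  obtain ⟨f, g, φ, hf, hw, hg, hφf, hφ, hheck⟩ := hR
  haveI : Algebra.IsAlgebraic ℚ (AlgebraicClosure ℚ) := AlgebraicClosure.isAlgebraic ℚ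
  let ι : Qb →+* ℂ := (IsAlgClosed.lift : AlgebraicClosure ℚ →ₐ[ℚ] ℂ).toRingHom
  obtain ⟨F, hF⟩ := hLift p N' hp hp5 hN' hpN' A hA f g φ hf hw hg hφf ι
  exact hExit p N' hp hN' hpN' A hA S a ι F φ hF hφ hheck

end Fermat.Agent.S44.D
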