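import Mathlib
import Fermat.Agent.S44.D.Bricks
import Fermat.Agent.S37.Fn.Defs
import Fermat.Agent.S18.K1Descent
import Fermat.Agent.S18.K1Main.JBase

/-!
# PROGRAM MR (S44), strand D: second-level contract for the lifting brick `LiftStatement`

`LiftStatement` of `S44/D/Bricks.lean` is split into three bricks, meeting at an element
`G` of the level-`N'` function field `LE N' E` over a number field `E ⊆ ℚ̄`:

* `TraceLiftStatement` (special fibre + Čech lifting): for a `RegLog` datum `(f, g, φ)` (without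
  its Hecke clause) there are a number field `E` and `G : LE N' E` which is *trace-dual regular*
  over `E` (`IsTraceDualReg`: `Tr(G · B₀) ⊆ E[j]`, `Tr(G j² · B_∞) ⊆ E[1/j]`, where `B₀`, `B_∞` are
  the integral closures of `E[j]`, `E[1/j]`), Gauss-integral with reduction `Gb`, and
  `Gb · θ(j̄) = φ`.
* `DictStatement` (characteristic-zero dictionary): a trace-dual regular `G` gives the weight-2
  cusp form of level `N'` with `q`-expansion `G · θ(j)`.
* `IntCoeffStatement` (bounded denominators + Gauss lemma): if `x` is Gauss-integral with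
  reduction `xb` and `x · θ(j)` is the `q`-expansion of a cusp form, then `x · θ(j)` has
  coefficients in `A` and reduces coefficientwise to `xb · θ(j̄)`.

`θ = q d/dq` is encoded coefficientwise: `IsThetaJ K jθ` says `jθ = θ(j)` in `K((q))`.
-/

set_option autoImplicit false

open CuspForm ModularFormClass UpperHalfPlane HahnSeries Polynomial IntermediateField

namespace Fermat.Agent.S44.D

open Fermat.Agent.S44.Contract Fermat.Agent.S37.Fn
open Fermat.Agent.S18 Fermat.Agent.S18.K1Defs Fermat.Agent.S18.K1Main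

local notation "Qb" => AlgebraicClosure ℚ

/-- `jθ = θ(j) = q dj/dq` in `K((q))`, coefficientwise. -/
def IsThetaJ (K : Type*) [CommRing K] (jθ : LaurentSeries K) : Prop :=
  ∀ n : ℤ, jθ.coeff n = (n : K) * (ModularCurve.jqModC K).coeff n

/-- `G` is **trace-dual regular** on the `u`-line: `Tr_{L/E(u)}(G y) ∈ E[u]` for `y` integral
over `E[u]`, and `Tr_{L/E(u)}(G u² y) ∈ E[1/u]` for `y` integral over `E[1/u]`
("`G du` is a regular differential"; literal of `S44/D/Dict0.lean`). -/
def IsTraceDualReg {E L : Type*} [Field E] [Field L] [Algebra E L] (u G : L) : Prop :=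
  (∀ y : L, IsIntegral (Algebra.adjoin E {u}) y →
      ∃ w : E[X], ((Algebra.trace E⟮u⟯ L (G * y) : E⟮u⟯) : L) = aeval u w) ∧
  (∀ y : L, IsIntegral (Algebra.adjoin E {u⁻¹}) y →
      ∃ w : E[X], ((Algebra.trace E⟮u⟯ L (G * u ^ 2 * y) : E⟮u⟯) : L) = aeval u⁻¹ w)

/-- **Brick D-I.1 (special fibre and lifting).**  A `RegLog` datum (without its Hecke clause)
gives a number field `E` and a trace-dual regular `G : LE N' E`, Gauss-integral with reduction
`Gb`, such that `Gb · θ(j̄) = φ`. -/
def TraceLiftStatement : Prop :=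
  ∀ (p N' : ℕ) [NeZero N'], p.Prime → 5 ≤ p → ¬ p ∣ N' →
    ∀ A : ValuationSubring Qb, A.LiesOverPrime p →
    ∀ (f : redField N' A) (g φ : LaurentSeries (IsLocalRing.ResidueField A)),
      f ≠ 0 →
      (∀ w : ValuationSubring (redField N' A),
        ∃ u h : redField N' A, f = u * h ^ p ∧ u ∈ w ∧ u⁻¹ ∈ w) →
      (∀ n : ℤ, g.coeff n = (n : IsLocalRing.ResidueField A) *
        (f : LaurentSeries (IsLocalRing.ResidueField A)).coeff n) →
      φ * (f : LaurentSeries (IsLocalRing.ResidueField A)) = g →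
      ∃ (E : IntermediateField ℚ Qb) (_ : FiniteDimensional ℚ E) (G : LE N' E)
        (Gb jθb : LaurentSeries (IsLocalRing.ResidueField A)),
        IsTraceDualReg (E := E) (jE N' E) G ∧
        IsRed N' A (K1Descent.upHom N' E G) Gb ∧
        IsThetaJ (IsLocalRing.ResidueField A) jθb ∧ Gb * jθb = φ

/-- **Brick D-I.2 (dictionary).**  A trace-dual regular `G : LE N' E` gives a weight-2 cusp
form of level `N'` whose `q`-expansion is `G · θ(j)` (read through any `ι : ℚ̄ → ℂ`). -/
def DictStatement : Prop :=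
  ∀ (N' : ℕ) [NeZero N'] (E : IntermediateField ℚ Qb) [FiniteDimensional ℚ E] (G : LE N' E),
    IsTraceDualReg (E := E) (jE N' E) G →
    ∀ ι : Qb →+* ℂ,
      ∃ (Φ : CuspForm (CongruenceSubgroup.Gamma0 N') 2) (jθ : LaurentSeries Qb),
        IsThetaJ Qb jθ ∧
        ∀ n : ℕ, ModularFormClass.qCoeff Φ n =
          ι ((((K1Descent.upHom N' E G : ModularCurve.modularFunctionFieldBar N') :
            LaurentSeries Qb) * jθ).coeff n)

/-- **Brick D-I.3 (integrality of the coefficients).**  If `x ∈ Fb N'` is Gauss-integral with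
reduction `xb` and `x · θ(j)` is the `q`-expansion of a cusp form of level `N'`, then the
coefficients of `x · θ(j)` lie in `A` and reduce to those of `xb · θ(j̄)`. -/
def IntCoeffStatement : Prop :=
  ∀ (p N' : ℕ) [NeZero N'], p.Prime →
    ∀ A : ValuationSubring Qb, A.LiesOverPrime p →
    ∀ (x : ModularCurve.modularFunctionFieldBar N')
      (xb : LaurentSeries (IsLocalRing.ResidueField A)), IsRed N' A x xb →
    ∀ (jθ : LaurentSeries Qb) (jθb : LaurentSeries (IsLocalRing.ResidueField A)),
      IsThetaJ Qb jθ → IsThetaJ (IsLocalRing.ResidueField A) jθb →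
    ∀ (ι : Qb →+* ℂ) (Φ : CuspForm (CongruenceSubgroup.Gamma0 N') 2),
      (∀ n : ℕ, ModularFormClass.qCoeff Φ n = ι (((x : LaurentSeries Qb) * jθ).coeff n)) →
      ∃ c : ℕ → A, (∀ n : ℕ, ((x : LaurentSeries Qb) * jθ).coeff n = (c n : Qb)) ∧
        ∀ n : ℕ, (xb * jθb).coeff (n : ℤ) = IsLocalRing.residue A (c n)

/-- `φ = θ f / f` has no terms of negative degree (formal). -/
theorem coeff_eq_zero_of_theta_log {κ : Type*} [Field κ] (f g φ : LaurentSeries κ) (hf : f ≠ 0)
    (hg : ∀ n : ℤ, g.coeff n = (n : κ) * f.coeff n) (hφ : φ * f = g) :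
    ∀ n : ℤ, n < 0 → φ.coeff n = 0 := by
  intro n hn
  rcases eq_or_ne φ 0 with rfl | hφ0
  · simp
  have hg0 : g ≠ 0 := by rw [← hφ]; exact mul_ne_zero hφ0 hf
  have hord : g.order = φ.order + f.order := by rw [← hφ]; exact HahnSeries.order_mul hφ0 hf
  have hle : f.order ≤ g.order := by
    apply HahnSeries.order_le_of_coeff_ne_zero
    intro h0
    exact hg0 (HahnSeries.coeff_order_eq_zero.mp (by rw [hg, h0, mul_zero]))
  apply HahnSeries.coeff_eq_zero_of_lt_order
  omega

/-- **The lifting brick from its three second-level bricks.** -/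
theorem liftStatement_of_bricks (hTL : TraceLiftStatement) (hDict : DictStatement)
    (hInt : IntCoeffStatement) : LiftStatement := by
  intro p N' hp hp5 hN' hpN' A hA f g φ hf hw hg hφf ι
  haveI : NeZero N' := ⟨hN'.ne'⟩
  obtain ⟨E, hfd, G, Gb, jθb, hG, hred, hjθb, hGb⟩ :=
    hTL p N' hp hp5 hpN' A hA f g φ hf hw hg hφf
  haveI := hfd
  obtain ⟨Φ, jθ, hjθ, hΦ⟩ := hDict N' E G hG ι
  obtain ⟨c, hc, hcres⟩ :=
    hInt p N' hp A hA (K1Descent.upHom N' E G) Gb hred jθ jθb hjθ hjθb ι Φ hΦ
  refine ⟨Φ, c, fun n => ?_, fun n => ?_, ?_⟩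
  · rw [hΦ n, hc n]
  · rw [← hGb]; exact hcres n
  · have hf' : (f : LaurentSeries (IsLocalRing.ResidueField A)) ≠ 0 := fun h =>
      hf (Subtype.ext h)
    exact coeff_eq_zero_of_theta_log _ g φ hf' hg hφf

end Fermat.Agent.S44.D
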