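import Mathlib
import Fermat.Agent.S30.Model.Defs
import Fermat.Agent.S30.Model.ChartInst

/-!
# Strand D of S44: a trace-dual element is Gauss-integral

* `isIntegral_of_tsdAt_pow` (level-free, on `Model.TSDAt`): if the integral closure of `D` is
  trace-self-dual at `q` and `Tr(G y) ∈ D` for every `y` integral over `D`, then a factor `q^m`
  can be removed from any denominator of `G`: `q^m s G` integral ⇒ `s G` integral.
* `gauss_integral_of_trace` : on the chart `O[u]` (`O` a UFD with fraction field `E`, `u`
  transcendental, `L / E(u)` finite, `GaussTSD π u`): an element `G : L` with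
  `Tr(G b) ∈ O[u]` for all `b` integral over `O[u]` is integral at the Gauss prime `π`, in the
  elementwise form of `Model.IsIntegralAt`: `s G` is integral over `O[u]` for some `s ∈ O[u]`
  not divisible by `π`.
-/

set_option autoImplicit false

open Polynomial

namespace Fermat.Agent.S44.D.GaussInt

open Fermat.Agent.S30.Model

section Abstract

variable {E L A : Type*} [Field E] [Field L] [Algebra E L] [CommRing A] [Algebra A L]

/-- **Peeling `q` off a denominator.** -/
theorem isIntegral_of_tsdAt_pow (K : IntermediateField E L) (D : Subalgebra A L) (q : L)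
    (hq0 : q ≠ 0) (hqD : q ∈ D) (hDK : ∀ s : L, s ∈ D → s ∈ K) (hTSD : TSDAt K D q)
    (G s : L) (hs : s ∈ D)
    (htr : ∀ y : L, IsIntegral D y →
      ∃ w : L, w ∈ D ∧ ((Algebra.trace K L (G * y) : K) : L) = w) :
    ∀ m : ℕ, IsIntegral D (q ^ m * s * G) → IsIntegral D (s * G) := by
  intro m
  induction m with
  | zero =>
    intro h
    simpa using h
  | succ m ih =>
    intro h
    apply ih
    obtain ⟨z, hz, hxz⟩ := hTSD (q ^ (m + 1) * s * G) h (fun y hy => by
      obtain ⟨w, hw, hT⟩ := htr y hy
      refine ⟨q ^ m * s * w, mul_mem (mul_mem (pow_mem hqD m) hs) hw, ?_⟩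
      have hc : q ^ (m + 1) * s ∈ K := hDK _ (mul_mem (pow_mem hqD _) hs)
      have e1 : q ^ (m + 1) * s * G * y = (⟨q ^ (m + 1) * s, hc⟩ : K) • (G * y) := by
        show _ = (q ^ (m + 1) * s) * (G * y)
        ring
      rw [e1, map_smul, smul_eq_mul]
      show (q ^ (m + 1) * s) * ((Algebra.trace K L (G * y) : K) : L) = _
      rw [hT]
      ring)
    have hzeq : z = q ^ m * s * G := by
      apply mul_left_cancel₀ hq0
      rw [← hxz]
      ring
    rw [← hzeq]
    exact hz

end Abstract

section Chart

variable {O E L : Type*} [CommRing O] [IsDomain O] [UniqueFactorizationMonoid O] [Field E]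
  [Algebra O E] [IsFractionRing O E] [Field L] [Algebra E L] [Algebra O L] [IsScalarTower O E L]

/-- **A trace-dual element is Gauss-integral.** -/
theorem gauss_integral_of_trace (π : O) (hπ : Prime π) (u : L) (hu : Transcendental E u)
    [FiniteDimensional (IntermediateField.adjoin E {u}) L]
    (hTSD : GaussTSD (E := E) π u) (G : L)
    (htr : ∀ b : L, IsIntegral (Algebra.adjoin O {u}) b → ∃ p : O[X],
      ((Algebra.trace (IntermediateField.adjoin E {u}) L (G * b) :
        IntermediateField.adjoin E {u}) : L) = aeval u p) :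
    ∃ s : L, s ∈ Algebra.adjoin O {u} ∧
      (∀ c : L, c ∈ Algebra.adjoin O {u} → s ≠ algebraMap O L π * c) ∧
      IsIntegral (Algebra.adjoin O {u}) (s * G) := by
  classical
  have huK : u ∈ IntermediateField.adjoin E {u} := IntermediateField.mem_adjoin_simple_self E u
  have huO : Transcendental O u := hu.restrictScalars (IsFractionRing.injective O E)
  let _ := (ChartInst.incl O u (IntermediateField.adjoin E {u}) huK).toAlgebra
  have hST := ChartInst.isScalarTower_incl O u (IntermediateField.adjoin E {u}) huK
  have hFR := ChartInst.isFractionRing_incl O u (IntermediateField.adjoin E {u}) huK le_rfl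
  have hUFM := ChartInst.uniqueFactorizationMonoid_adjoin O u huO
  have hGalg : IsAlgebraic (Algebra.adjoin O {u}) G :=
    (IsFractionRing.isAlgebraic_iff (Algebra.adjoin O {u}) (IntermediateField.adjoin E {u}) L).mpr
      (Algebra.IsAlgebraic.isAlgebraic G)
  obtain ⟨d, hd0, hd⟩ := hGalg.exists_integral_multiple
  have hP : Prime (algebraMap O (Algebra.adjoin O {u}) π) :=
    ChartInst.prime_algebraMap_adjoin O u huO hπ
  obtain ⟨m, s, hs, rfl⟩ := WfDvdMonoid.max_power_factor hd0 hP.irreducible
  have hπL : algebraMap O L π ≠ 0 := by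
    rw [IsScalarTower.algebraMap_apply O E L]
    exact (_root_.map_ne_zero _).mpr
      (fun h => hπ.ne_zero (IsFractionRing.injective O E (by rw [h, map_zero])))
  refine ⟨(s : L), s.2, ?_, ?_⟩
  · intro c hc hsc
    apply hs
    exact ⟨⟨c, hc⟩, Subtype.ext hsc⟩
  · refine isIntegral_of_tsdAt_pow (IntermediateField.adjoin E {u}) (Algebra.adjoin O {u})
      (algebraMap O L π) hπL (Subalgebra.algebraMap_mem _ π)
      (fun s hs => ChartInst.mem_of_mem_adjoin O u (IntermediateField.adjoin E {u}) huK hs)
      hTSD G s s.2 (fun y hy => ?_) m ?_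
    · obtain ⟨p, hp⟩ := htr y hy
      refine ⟨aeval u p, ?_, hp⟩
      rw [Algebra.adjoin_singleton_eq_range_aeval]
      exact ⟨p, rfl⟩
    · have e : ((algebraMap O (Algebra.adjoin O {u}) π ^ m * s : Algebra.adjoin O {u}) • G) =
          algebraMap O L π ^ m * (s : L) * G := by
        rw [Algebra.smul_def]
        rfl
      rw [← e]
      exact hd

end Chart

end Fermat.Agent.S44.D.GaussInt
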