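import Mathlib

/-!
# Strand D of S44: the dual element of an integral functional on the Čech `H¹` (level-free)

Mathlib only.  `O` a domain, `E` a field over `O`, `L` a field over `E`, `K` an intermediate
field of `L / E` with `L / K` finite separable, `u ∈ K` nonzero, and three `O`-subalgebras
`C0, C1 ≤ C01` of `L` with `u ∈ C0`, `u⁻¹ ∈ C1` (the three charts of the `u`-line; vocabulary
of `S44/D/CechFree.lean`).

* `lev u hu : O[T;T⁻¹] →+* L` : evaluation of Laurent polynomials at `u`.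
* `coeff_dualPoly_mul` : the residue formula on Laurent polynomials.
* `exists_dual_element` : **(DW-b) with integrality.**  Given a `K`-basis `e` of `L` inside `C0`
  in which the elements of `C01` have Laurent-polynomial coordinates up to a constant
  denominator, and an `O`-linear functional `φ` on `C01` which kills `C0` and `C1`, there is
  `G : L` such that for every `x ∈ C01` the trace `Tr_{L/K}(G x)` is `P(u)` for a Laurent
  polynomial `P` over `O` whose coefficient of `T^m` is `φ (u^(-m-1) x)`.  In particular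
  (coefficient `m = -1`) the residue pairing with `G` is `φ`, `Tr(G C0) ⊆ O[u]` and
  `Tr(G u² C1) ⊆ O[u⁻¹]`.  No normal basis, no Riemann–Roch, no transcendence hypothesis.
-/

set_option autoImplicit false

open Polynomial LaurentPolynomial

namespace Fermat.Agent.S44.D.IntLift

section Laurent

variable {R L : Type*} [CommRing R] [Field L] [Algebra R L]

/-- Evaluation of a Laurent polynomial over `R` at a nonzero element `u` of the field `L`. -/
noncomputable def lev (u : L) (hu : u ≠ 0) : R[T;T⁻¹] →+* L :=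
  LaurentPolynomial.eval₂ (algebraMap R L) (Units.mk0 u hu)

theorem lev_C (u : L) (hu : u ≠ 0) (r : R) : lev u hu (LaurentPolynomial.C r) = algebraMap R L r := by
  unfold lev
  rw [LaurentPolynomial.eval₂_C]

theorem lev_T (u : L) (hu : u ≠ 0) (n : ℤ) : lev u hu (T n : R[T;T⁻¹]) = u ^ n := by
  unfold lev
  rw [LaurentPolynomial.eval₂_T, Units.val_zpow_eq_zpow_val, Units.val_mk0]

theorem lev_C_mul_T (u : L) (hu : u ≠ 0) (r : R) (n : ℤ) :
    lev u hu (LaurentPolynomial.C r * T n) = algebraMap R L r * u ^ n := by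
  rw [map_mul, lev_C, lev_T]

theorem lev_toLaurent (u : L) (hu : u ≠ 0) (p : R[X]) :
    lev u hu (toLaurent p) = aeval u p := by
  unfold lev
  rw [LaurentPolynomial.eval₂_toLaurent]
  rfl

theorem lev_smul (u : L) (hu : u ≠ 0) (r : R) (Q : R[T;T⁻¹]) :
    lev u hu (r • Q) = algebraMap R L r * lev u hu Q := by
  rw [LaurentPolynomial.smul_eq_C_mul, map_mul, lev_C]

/-- Coefficients of a product with a monomial. -/
theorem coeff_C_mul_T_mul (a r : R) (k n m : ℤ) :
    ((LaurentPolynomial.C a * T k) * (LaurentPolynomial.C r * T n) : R[T;T⁻¹]).coeff m = if k + n = m then a * r else 0 := by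
  rw [← single_eq_C_mul_T, ← single_eq_C_mul_T, AddMonoidAlgebra.single_mul_single,
    AddMonoidAlgebra.coeff_single, Finsupp.single_apply]

end Laurent

section Functional

variable {R : Type*} [CommRing R]

/-- The polynomial attached to a functional `Φ` on Laurent polynomials which kills `T n` for
`n ≥ 0` and for `n ≤ -a`. -/
noncomputable def dualPoly (Φ : R[T;T⁻¹] →ₗ[R] R) (a : ℕ) : R[T;T⁻¹] :=
  ∑ k ∈ Finset.range a, LaurentPolynomial.C (Φ (T (-(k : ℤ) - 1))) * T (k : ℤ)

/-- **The residue formula.**  If `Φ (T n) = 0` for `n ≥ 0` and for `n ≤ -a`, then the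
coefficient of `T^m` in `dualPoly Φ a * Q` is `Φ (T^(-m-1) Q)`. -/
theorem coeff_dualPoly_mul (Φ : R[T;T⁻¹] →ₗ[R] R) (a : ℕ)
    (h0 : ∀ n : ℤ, 0 ≤ n → Φ (T n) = 0) (ha : ∀ n : ℤ, n ≤ -(a : ℤ) → Φ (T n) = 0)
    (Q : R[T;T⁻¹]) (m : ℤ) :
    (dualPoly Φ a * Q).coeff m = Φ (T (-m - 1) * Q) := by
  induction Q using LaurentPolynomial.induction_on' with
  | add p q hp hq =>
    rw [mul_add, mul_add, map_add, ← hp, ← hq]
    rfl
  | C_mul_T n r =>
    have hR : Φ (T (-m - 1) * (LaurentPolynomial.C r * T n)) = r * Φ (T (n - m - 1)) := by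
      have e : (T (-m - 1) * (LaurentPolynomial.C r * T n) : R[T;T⁻¹]) = r • T (n - m - 1) := by
        rw [LaurentPolynomial.smul_eq_C_mul, ← mul_assoc, LaurentPolynomial.T_mul, mul_assoc,
          ← LaurentPolynomial.T_add]
        congr 2
        ring_nf
      rw [e, map_smul, smul_eq_mul]
    rw [hR]
    unfold dualPoly
    rw [Finset.sum_mul]
    have hL : ((∑ k ∈ Finset.range a, LaurentPolynomial.C (Φ (T (-(k : ℤ) - 1))) * T (k : ℤ) * (LaurentPolynomial.C r * T n) :
        R[T;T⁻¹])).coeff m =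
        ∑ k ∈ Finset.range a, if (k : ℤ) + n = m then Φ (T (-(k : ℤ) - 1)) * r else 0 := by
      rw [AddMonoidAlgebra.coeff_sum, Finset.sum_apply']
      exact Finset.sum_congr rfl fun k _ => coeff_C_mul_T_mul _ _ _ _ _
    rw [hL]
    by_cases hk : 0 ≤ m - n ∧ m - n < a
    · obtain ⟨k0, hk0⟩ := Int.eq_ofNat_of_zero_le hk.1
      have hk0a : k0 ∈ Finset.range a := Finset.mem_range.mpr (by omega)
      rw [Finset.sum_eq_single_of_mem k0 hk0a]
      · rw [if_pos (by omega)]
        have : (-(k0 : ℤ) - 1) = n - m - 1 := by omega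
        rw [this, mul_comm]
      · intro b _ hb
        rw [if_neg]
        intro h
        apply hb
        omega
    · rw [Finset.sum_eq_zero]
      · rcases lt_or_ge (m - n) 0 with h | h
        · rw [h0 (n - m - 1) (by omega), mul_zero]
        · rw [ha (n - m - 1) (by omega), mul_zero]
      · intro k hk'
        have := Finset.mem_range.mp hk'
        rw [if_neg]
        intro h
        apply hk
        omega

end Functional

section Core

variable {O E L : Type*} [CommRing O] [IsDomain O] [Field E] [Algebra O E] [Field L]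
  [Algebra E L] [Algebra O L] [IsScalarTower O E L]

omit [IsDomain O] in
theorem lev_mem (K : IntermediateField E L) (u : L) (hu : u ≠ 0) (huK : u ∈ K)
    (Q : O[T;T⁻¹]) : lev u hu Q ∈ K := by
  induction Q using LaurentPolynomial.induction_on' with
  | add p q hp hq => rw [map_add]; exact add_mem hp hq
  | C_mul_T n r =>
    rw [lev_C_mul_T, IsScalarTower.algebraMap_apply O E L]
    exact mul_mem (K.algebraMap_mem _) (zpow_mem huK n)

omit [IsDomain O] in
theorem zpow_mul_mem (C01 : Subalgebra O L) (u : L) (hu1 : u ∈ C01) (hu2 : u⁻¹ ∈ C01) {x : L}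
    (hx : x ∈ C01) (n : ℤ) : u ^ n * x ∈ C01 := by
  rcases Int.eq_nat_or_neg n with ⟨k, rfl | rfl⟩
  · rw [zpow_natCast]; exact mul_mem (pow_mem hu1 k) hx
  · rw [zpow_neg, zpow_natCast, ← inv_pow]; exact mul_mem (pow_mem hu2 k) hx

omit [IsDomain O] in
theorem lev_mul_mem (C01 : Subalgebra O L) (u : L) (hu : u ≠ 0) (hu1 : u ∈ C01)
    (hu2 : u⁻¹ ∈ C01) {y : L} (hy : y ∈ C01) (Q : O[T;T⁻¹]) : lev u hu Q * y ∈ C01 := by
  induction Q using LaurentPolynomial.induction_on' with
  | add p q hp hq => rw [map_add, add_mul]; exact add_mem hp hq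
  | C_mul_T n r =>
    rw [lev_C_mul_T, mul_assoc]
    exact mul_mem (C01.algebraMap_mem r) (zpow_mul_mem C01 u hu1 hu2 hy n)

/-- `Q ↦ Q(u) * y` as an `O`-linear map from Laurent polynomials to the overlap ring. -/
noncomputable def mulLev (C01 : Subalgebra O L) (u : L) (hu : u ≠ 0) (hu1 : u ∈ C01)
    (hu2 : u⁻¹ ∈ C01) (y : L) (hy : y ∈ C01) :
    O[T;T⁻¹] →ₗ[O] Subalgebra.toSubmodule C01 where
  toFun Q := ⟨lev u hu Q * y, lev_mul_mem C01 u hu hu1 hu2 hy Q⟩
  map_add' p q := by
    apply Subtype.ext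
    show lev u hu (p + q) * y = lev u hu p * y + lev u hu q * y
    rw [map_add, add_mul]
  map_smul' r Q := by
    apply Subtype.ext
    show lev u hu (r • Q) * y = r • (lev u hu Q * y)
    rw [lev_smul, Algebra.smul_def, mul_assoc]

/-- **The dual element of a functional on the Čech `H¹`** (abstract form).  `e` a `K`-basis of
`L` inside `C0` in which the elements of `C01` have Laurent-polynomial coordinates (up to a
constant denominator); `φ` an `O`-linear functional on `C01` killing `C0` and `C1`.  Then there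
is `G : L` such that, for every `x ∈ C01`, the trace of `G x` is a Laurent polynomial in `u` over
`O` whose coefficient of `u^m` is `φ (u^(-m-1) x)`. -/
theorem exists_dual_element (K : IntermediateField E L) [FiniteDimensional K L]
    [Algebra.IsSeparable K L] (u : L) (hu : u ≠ 0) (huK : u ∈ K)
    (C0 C1 C01 : Subalgebra O L) (h0le : C0 ≤ C01) (h1le : C1 ≤ C01)
    (hu0 : u ∈ C0) (hu1 : u⁻¹ ∈ C1)
    (hloc1 : ∀ w : L, w ∈ C01 → ∃ n : ℕ, u⁻¹ ^ n * w ∈ C1)
    {ι : Type*} [Fintype ι] (e : Module.Basis ι K L) (he0 : ∀ i, e i ∈ C0)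
    (hcoord : ∀ x : L, x ∈ C01 → ∃ d : O, algebraMap O L d ≠ 0 ∧ ∃ Q : ι → O[T;T⁻¹],
      ∀ i, algebraMap O L d * ((e.repr x i : K) : L) = lev u hu (Q i))
    (φ : Subalgebra.toSubmodule C01 →ₗ[O] O)
    (hφ0 : ∀ z : Subalgebra.toSubmodule C01, (z : L) ∈ C0 → φ z = 0)
    (hφ1 : ∀ z : Subalgebra.toSubmodule C01, (z : L) ∈ C1 → φ z = 0) :
    ∃ G : L, ∀ (x : L) (_ : x ∈ C01), ∃ P : O[T;T⁻¹],
      ((Algebra.trace K L (G * x) : K) : L) = lev u hu P ∧
      ∀ (m : ℤ) (hm : u ^ (-m - 1) * x ∈ C01),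
        P.coeff m = φ ⟨u ^ (-m - 1) * x, hm⟩ := by
  classical
  have huC : u ∈ C01 := h0le hu0
  have huC' : u⁻¹ ∈ C01 := h1le hu1
  have heC : ∀ i, e i ∈ C01 := fun i => h0le (he0 i)
  choose a ha using fun i => hloc1 (e i) (heC i)
  let Φ : ι → (O[T;T⁻¹] →ₗ[O] O) := fun i =>
    φ.comp (mulLev C01 u hu huC huC' (e i) (heC i))
  have hΦ : ∀ i Q, Φ i Q =
      φ ⟨lev u hu Q * e i, lev_mul_mem C01 u hu huC huC' (heC i) Q⟩ := fun i Q => rfl
  have hΦ0 : ∀ i (n : ℤ), 0 ≤ n → Φ i (T n) = 0 := by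
    intro i n hn
    rw [hΦ]
    apply hφ0
    show lev u hu (T n) * e i ∈ C0
    rw [lev_T]
    obtain ⟨k, rfl⟩ := Int.eq_ofNat_of_zero_le hn
    rw [zpow_natCast]
    exact mul_mem (pow_mem hu0 k) (he0 i)
  have hΦa : ∀ i (n : ℤ), n ≤ -(a i : ℤ) → Φ i (T n) = 0 := by
    intro i n hn
    rw [hΦ]
    apply hφ1
    show lev u hu (T n) * e i ∈ C1
    rw [lev_T]
    obtain ⟨k, hk⟩ : ∃ k : ℕ, n = -((k : ℤ) + a i) := ⟨(-n - a i).toNat, by omega⟩
    have e1 : u ^ n * e i = u⁻¹ ^ k * (u⁻¹ ^ a i * e i) := by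
      rw [hk, zpow_neg, ← inv_zpow, zpow_add₀ (inv_ne_zero hu), zpow_natCast, zpow_natCast,
        mul_assoc]
    rw [e1]
    exact mul_mem (pow_mem hu1 k) (ha i)
  let c : ι → O[T;T⁻¹] := fun i => dualPoly (Φ i) (a i)
  have hc : ∀ i Q m, (c i * Q).coeff m = Φ i (T (-m - 1) * Q) := fun i Q m =>
    coeff_dualPoly_mul (Φ i) (a i) (hΦ0 i) (hΦa i) Q m
  let γ : ι → K := fun i => ⟨lev u hu (c i), lev_mem K u hu huK (c i)⟩
  have hB : (Algebra.traceForm K L).Nondegenerate := traceForm_nondegenerate K L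
  let e' := (Algebra.traceForm K L).dualBasis hB e
  refine ⟨∑ i, γ i • e' i, fun x hx => ?_⟩
  obtain ⟨d, hd, Q, hQ⟩ := hcoord x hx
  have hd0 : d ≠ 0 := fun h => hd (by rw [h, map_zero])
  set S : O[T;T⁻¹] := ∑ i, c i * Q i with hS
  have hx_exp : algebraMap O L d * x = ∑ i, lev u hu (Q i) * e i := by
    conv_lhs => rw [← e.sum_repr x]
    rw [Finset.mul_sum]
    refine Finset.sum_congr rfl fun i _ => ?_
    rw [← hQ i, mul_assoc]
    rfl
  have hmem : ∀ m : ℤ, u ^ (-m - 1) * x ∈ C01 := fun m => zpow_mul_mem C01 u huC huC' hx _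
  have hcoef : ∀ m : ℤ, S.coeff m = d * φ ⟨u ^ (-m - 1) * x, hmem m⟩ := by
    intro m
    have h1 : S.coeff m = ∑ i, (c i * Q i).coeff m := by
      rw [hS, AddMonoidAlgebra.coeff_sum, Finset.sum_apply']
    rw [h1]
    simp_rw [hc, hΦ]
    rw [← map_sum, ← smul_eq_mul, ← map_smul]
    congr 1
    apply Subtype.ext
    rw [Submodule.coe_sum, Submodule.coe_smul]
    show ∑ i, lev u hu (T (-m - 1) * Q i) * e i = d • (u ^ (-m - 1) * x)
    rw [Algebra.smul_def, mul_left_comm, hx_exp, Finset.mul_sum]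
    refine Finset.sum_congr rfl fun i _ => ?_
    rw [map_mul, lev_T, mul_assoc]
  let fc : ℤ → O := fun m => φ ⟨u ^ (-m - 1) * x, hmem m⟩
  have hsupp : ∀ m, fc m ≠ 0 → m ∈ S.coeff.support := by
    intro m hm
    rw [Finsupp.mem_support_iff, hcoef m]
    exact mul_ne_zero hd0 hm
  let P : O[T;T⁻¹] := AddMonoidAlgebra.ofCoeff (Finsupp.onFinset S.coeff.support fc hsupp)
  have hP : ∀ m, P.coeff m = fc m := fun m => rfl
  have hSP : S = d • P := by
    ext m
    rw [hcoef m, AddMonoidAlgebra.coeff_smul, Finsupp.smul_apply, hP, smul_eq_mul]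
  refine ⟨P, ?_, fun m hm => hP m⟩
  have htr : Algebra.trace K L ((∑ i, γ i • e' i) * x) = ∑ i, γ i * e.repr x i := by
    rw [Finset.sum_mul, map_sum]
    refine Finset.sum_congr rfl fun i _ => ?_
    rw [smul_mul_assoc, map_smul, smul_eq_mul]
    congr 1
    have h1 : ((Algebra.traceForm K L).dualBasis hB e').repr x i =
        Algebra.traceForm K L x (e' i) :=
      (Algebra.traceForm K L).dualBasis_repr_apply hB e' x i
    have h2 : (Algebra.traceForm K L).dualBasis hB e' = e :=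
      (Algebra.traceForm K L).dualBasis_dualBasis hB (Algebra.traceForm_isSymm K) e
    rw [h2] at h1
    rw [h1, Algebra.traceForm_apply, mul_comm]
  apply mul_left_cancel₀ hd
  rw [htr, ← lev_smul, ← hSP, hS, map_sum]
  have hcoe : ((∑ i, γ i * e.repr x i : K) : L) = ∑ i, lev u hu (c i) * ((e.repr x i : K) : L) := by
    rw [IntermediateField.coe_sum]
    rfl
  rw [hcoe, Finset.mul_sum]
  refine Finset.sum_congr rfl fun i _ => ?_
  rw [map_mul, ← hQ i]
  ring

end Core

end Fermat.Agent.S44.D.IntLift
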