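import Mathlib
import Fermat.Agent.S30.Model.CechP1
import Fermat.Agent.S30.Model.ChartSwap
import Fermat.Agent.S44.D.CechFree
import Fermat.Agent.S44.D.IntLift

/-!
# Strand D of S44: the integral lift at the three charts of the `u`-line

`O` a domain with fraction field `E`, `L` a field over `E`, `u : L` transcendental over `E`
with `L / E(u)` finite separable.  The charts are `C0 = CechP1.chart O {u}`,
`C1 = chart O {u⁻¹}`, `C01 = chart O {u, u⁻¹}` (integral closures of `O[u]`, `O[u⁻¹]`,
`O[u, u⁻¹]` in `L`).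

* `exists_chart_basis` : an `E(u)`-basis of `L` which is an `E[u]`-basis of the integral closure
  of `E[u]`.
* `exists_dual_chart` : `IntLift.exists_dual_element` at the three charts (no hypothesis left).
* `exists_dual_cechH` : for every `O`-linear functional `Lam` on the Čech `H¹`
  `CechFree.CechH C0 C1 C01` there is `G : L` with `Tr(G C0) ⊆ O[u]`, `Tr(G u² C1) ⊆ O[u⁻¹]`
  and, for `x ∈ C01`, `Tr(G x) = P(u)` with `P` a Laurent polynomial over `O` whose coefficient
  of `T^m` is `Lam [u^(-m-1) x]` (`m = -1`: the residue pairing with `G` is `Lam`).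
* `exists_dual_cechH_quot` : the same for a functional with values in a quotient `k` of `O`,
  when the Čech `H¹` is free (`CechFree.cechH_free`).
-/

set_option autoImplicit false

open Polynomial LaurentPolynomial

namespace Fermat.Agent.S44.D.IntLiftChart

open Fermat.Agent.S30.Model Fermat.Agent.S30.Model.CechP1
open Fermat.Agent.S44.D.CechFree Fermat.Agent.S44.D.IntLift

section Basis

variable {E L : Type*} [Field E] [Field L] [Algebra E L]

open scoped IntermediateField.algebraAdjoinAdjoin in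
/-- An `E(u)`-basis of `L` consisting of elements integral over `E[u]`, in which the elements
integral over `E[u]` have polynomial coordinates. -/
theorem exists_chart_basis (u : L) (hu : Transcendental E u)
    [FiniteDimensional (IntermediateField.adjoin E {u}) L]
    [Algebra.IsSeparable (IntermediateField.adjoin E {u}) L] :
    ∃ (n : ℕ) (e : Module.Basis (Fin n) (IntermediateField.adjoin E {u}) L),
      (∀ i, IsIntegral (Algebra.adjoin E {u}) (e i)) ∧
      ∀ y : L, IsIntegral (Algebra.adjoin E {u}) y → ∀ i,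
        ∃ p : E[X], ((e.repr y i : IntermediateField.adjoin E {u}) : L) = aeval u p := by
  have hN : IsNoetherianRing (Algebra.adjoin E {u}) := ChartInst.isNoetherianRing_adjoin E u hu
  have hIC : IsIntegrallyClosed (Algebra.adjoin E {u}) :=
    ChartInst.isIntegrallyClosed_adjoin E u hu
  have hPID : IsPrincipalIdealRing (Algebra.adjoin E {u}) :=
    IsPrincipalIdealRing.of_surjective (ChartInst.polyEquiv E u hu).toRingEquiv.toRingHom
      (ChartInst.polyEquiv E u hu).surjective
  have hTF : Module.IsTorsionFree (Algebra.adjoin E {u}) L :=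
    Module.IsTorsionFree.trans_faithfulSMul (Algebra.adjoin E {u})
      (IntermediateField.adjoin E {u}) L
  have hTFC : Module.IsTorsionFree (Algebra.adjoin E {u})
      (integralClosure (Algebra.adjoin E {u}) L) :=
    IsIntegralClosure.isTorsionFree (Algebra.adjoin E {u}) L
  have hfin : Module.Finite (Algebra.adjoin E {u}) (integralClosure (Algebra.adjoin E {u}) L) :=
    IsIntegralClosure.finite (Algebra.adjoin E {u}) (IntermediateField.adjoin E {u}) L _
  obtain ⟨n, b⟩ := Module.basisOfFiniteTypeTorsionFree' (R := Algebra.adjoin E {u})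
    (M := integralClosure (Algebra.adjoin E {u}) L)
  have hloc : IsLocalization
      (Algebra.algebraMapSubmonoid (integralClosure (Algebra.adjoin E {u}) L)
        (nonZeroDivisors (Algebra.adjoin E {u}))) L :=
    IsIntegralClosure.isLocalization (Algebra.adjoin E {u}) (IntermediateField.adjoin E {u}) L _
  refine ⟨n, b.localizationLocalization (IntermediateField.adjoin E {u})
    (nonZeroDivisors (Algebra.adjoin E {u})) L, fun i => ?_, fun y hy i => ?_⟩
  · rw [Module.Basis.localizationLocalization_apply]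
    exact (b i).2
  · have h := Module.Basis.localizationLocalization_repr_algebraMap
      (IntermediateField.adjoin E {u}) (nonZeroDivisors (Algebra.adjoin E {u})) L b ⟨y, hy⟩ i
    have hy' : algebraMap (integralClosure (Algebra.adjoin E {u}) L) L ⟨y, hy⟩ = y := rfl
    rw [hy'] at h
    rw [h]
    have hmem : ((b.repr ⟨y, hy⟩ i : Algebra.adjoin E {u}) : L) ∈
        (aeval u : E[X] →ₐ[E] L).range := by
      rw [← Algebra.adjoin_singleton_eq_range_aeval]
      exact (b.repr ⟨y, hy⟩ i).2
    obtain ⟨p, hp⟩ := hmem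
    exact ⟨p, hp.symm⟩

end Basis

section Laurent

variable {R L : Type*} [CommRing R] [Field L] [Algebra R L]

/-- A Laurent polynomial is the sum of its monomials. -/
theorem eq_sum_C_mul_T (P : R[T;T⁻¹]) :
    P = ∑ n ∈ P.coeff.support, LaurentPolynomial.C (P.coeff n) * T n := by
  ext a
  simp_rw [← single_eq_C_mul_T]
  simp only [AddMonoidAlgebra.coeff_sum, AddMonoidAlgebra.coeff_single]
  rw [Finset.sum_apply', Finset.sum_eq_single a, Finsupp.single_eq_same]
  · intro b _ hb
    rw [Finsupp.single_eq_of_ne' hb]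
  · intro ha
    rw [Finsupp.single_eq_same, Finsupp.notMem_support_iff.mp ha]

/-- A Laurent polynomial without terms of negative degree is a polynomial. -/
theorem exists_toLaurent_eq (P : R[T;T⁻¹]) (h : ∀ m : ℤ, m < 0 → P.coeff m = 0) :
    ∃ p : R[X], toLaurent p = P := by
  refine ⟨∑ n ∈ P.coeff.support, Polynomial.C (P.coeff n) * X ^ n.toNat, ?_⟩
  conv_rhs => rw [eq_sum_C_mul_T P]
  rw [map_sum]
  refine Finset.sum_congr rfl fun n hn => ?_
  have hn0 : 0 ≤ n := by
    by_contra hlt
    exact (Finsupp.mem_support_iff.mp hn) (h n (not_le.mp hlt))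
  rw [map_mul, Polynomial.toLaurent_C, Polynomial.toLaurent_X_pow, Int.toNat_of_nonneg hn0]

/-- Evaluation at `u` is evaluation of the inverted Laurent polynomial at `u⁻¹`. -/
theorem lev_invert (u : L) (hu : u ≠ 0) (P : R[T;T⁻¹]) :
    lev u⁻¹ (inv_ne_zero hu) (LaurentPolynomial.invert P) = lev u hu P := by
  induction P using LaurentPolynomial.induction_on' with
  | add p q hp hq => rw [map_add, map_add, map_add, hp, hq]
  | C_mul_T n r =>
    rw [map_mul, LaurentPolynomial.invert_C, LaurentPolynomial.invert_T, lev_C_mul_T,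
      lev_C_mul_T, inv_zpow, zpow_neg, inv_inv]

end Laurent

section Inj

theorem algebraMap_ne_zero_of_ne_zero (E : Type*) {O L : Type*} [CommRing O] [Field E]
    [Algebra O E] [IsFractionRing O E] [Field L] [Algebra E L] [Algebra O L]
    [IsScalarTower O E L] {d : O} (hd : d ≠ 0) : algebraMap O L d ≠ 0 := by
  rw [IsScalarTower.algebraMap_apply O E L]
  exact (_root_.map_ne_zero _).mpr (fun h => hd (IsFractionRing.injective O E (by rw [h, map_zero])))

end Inj

section Chart

variable {O E L : Type*} [CommRing O] [IsDomain O] [Field E] [Algebra O E] [IsFractionRing O E]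
  [Field L] [Algebra E L] [Algebra O L] [IsScalarTower O E L]


/-- Clearing the denominators of a finite family of polynomials over `E = Frac O`. -/
theorem exists_common_denom {n : ℕ} (u : L) (p : Fin n → E[X]) :
    ∃ D : O, D ≠ 0 ∧ ∀ i, ∃ q : O[X], aeval u q = algebraMap O L D * aeval u (p i) := by
  classical
  have h : ∀ i, ∃ b : O, b ≠ 0 ∧ ∃ q : O[X], aeval u q = algebraMap O L b * aeval u (p i) := by
    intro i
    obtain ⟨b, hbm, hb⟩ := IsLocalization.integerNormalization_spec (nonZeroDivisors O) (p i)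
    refine ⟨b, nonZeroDivisors.ne_zero hbm,
      IsLocalization.integerNormalization (nonZeroDivisors O) (p i), ?_⟩
    have h1 : aeval u ((IsLocalization.integerNormalization (nonZeroDivisors O) (p i)).map
        (algebraMap O E)) = aeval u (IsLocalization.integerNormalization (nonZeroDivisors O) (p i)) :=
      aeval_map_algebraMap E u _
    rw [← h1, hb, Algebra.smul_def, map_mul, Polynomial.algebraMap_apply, aeval_C,
      ← IsScalarTower.algebraMap_apply]
  choose b hb0 q hq using h
  refine ⟨∏ i, b i, Finset.prod_ne_zero_iff.mpr fun i _ => hb0 i,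
    fun i => ⟨Polynomial.C (∏ j ∈ Finset.univ.erase i, b j) * q i, ?_⟩⟩
  rw [map_mul, aeval_C, hq i, ← mul_assoc, ← map_mul, Finset.prod_erase_mul _ _ (Finset.mem_univ i)]

/-- **`IntLift.exists_dual_element` at the three charts of the `u`-line.** -/
theorem exists_dual_chart (u : L) (hu : Transcendental E u)
    [FiniteDimensional (IntermediateField.adjoin E {u}) L]
    [Algebra.IsSeparable (IntermediateField.adjoin E {u}) L] (hu0 : u ≠ 0)
    (φ : Subalgebra.toSubmodule (chart O ({u, u⁻¹} : Set L)) →ₗ[O] O)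
    (hφ0 : ∀ z : Subalgebra.toSubmodule (chart O ({u, u⁻¹} : Set L)),
      (z : L) ∈ chart O ({u} : Set L) → φ z = 0)
    (hφ1 : ∀ z : Subalgebra.toSubmodule (chart O ({u, u⁻¹} : Set L)),
      (z : L) ∈ chart O ({u⁻¹} : Set L) → φ z = 0) :
    ∃ G : L, ∀ (x : L) (_ : x ∈ chart O ({u, u⁻¹} : Set L)), ∃ P : O[T;T⁻¹],
      ((Algebra.trace (IntermediateField.adjoin E {u}) L (G * x) :
        IntermediateField.adjoin E {u}) : L) = lev u hu0 P ∧
      ∀ (m : ℤ) (hm : u ^ (-m - 1) * x ∈ chart O ({u, u⁻¹} : Set L)),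
        P.coeff m = φ ⟨u ^ (-m - 1) * x, hm⟩ := by
  classical
  have huK : u ∈ IntermediateField.adjoin E {u} := IntermediateField.mem_adjoin_simple_self E u
  obtain ⟨n, e, he, hrepr⟩ := exists_chart_basis u hu
  have hsc : ∀ i, ∃ d : O, d ≠ 0 ∧
      IsIntegral (Algebra.adjoin O {u}) (algebraMap O L d * e i) := fun i => by
    obtain ⟨m, hm0, -, hm⟩ := ChartSwap.exists_smul_isIntegral_adjoin (O := O) u (e i) (he i)
    exact ⟨m, hm0, hm⟩
  choose d hd0 hd using hsc
  set d₀ : O := ∏ i, d i with hd₀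
  have hd₀0 : d₀ ≠ 0 := Finset.prod_ne_zero_iff.mpr fun i _ => hd0 i
  have hd₀L : algebraMap O L d₀ ≠ 0 := algebraMap_ne_zero_of_ne_zero E hd₀0
  have hd₀int : ∀ i, IsIntegral (Algebra.adjoin O {u}) (algebraMap O L d₀ * e i) := by
    intro i
    have e1 : algebraMap O L d₀ * e i =
        algebraMap O L (∏ j ∈ Finset.univ.erase i, d j) * (algebraMap O L (d i) * e i) := by
      rw [← mul_assoc, ← map_mul, Finset.prod_erase_mul _ _ (Finset.mem_univ i)]
    rw [e1]
    exact IsIntegral.mul (isIntegral_adjoin_of_mem (Subalgebra.algebraMap_mem _ _)) (hd i)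
  have hcoeK : ((algebraMap O (IntermediateField.adjoin E {u}) d₀ :
      IntermediateField.adjoin E {u}) : L) = algebraMap O L d₀ := rfl
  have hd₀K : algebraMap O (IntermediateField.adjoin E {u}) d₀ ≠ 0 := by
    intro h
    apply hd₀L
    rw [← hcoeK, h]
    rfl
  let w : Fin n → (IntermediateField.adjoin E {u})ˣ := fun _ =>
    Units.mk0 (algebraMap O (IntermediateField.adjoin E {u}) d₀) hd₀K
  have he₁ : ∀ i, e.unitsSMul w i = algebraMap O L d₀ * e i := by
    intro i
    rw [Module.Basis.unitsSMul_apply]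
    rfl
  have hrepr₁ : ∀ (x : L) (i : Fin n),
      algebraMap O L d₀ * (((e.unitsSMul w).repr x i : IntermediateField.adjoin E {u}) : L) =
        ((e.repr x i : IntermediateField.adjoin E {u}) : L) := by
    intro x i
    rw [Module.Basis.repr_unitsSMul, Units.smul_def, smul_eq_mul, ← hcoeK]
    have h2 : ((w i)⁻¹ : (IntermediateField.adjoin E {u})ˣ).val =
        (algebraMap O (IntermediateField.adjoin E {u}) d₀)⁻¹ := by
      rw [Units.val_inv_eq_inv_val]
      rfl
    rw [h2]
    have h3 : algebraMap O (IntermediateField.adjoin E {u}) d₀ *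
        ((algebraMap O (IntermediateField.adjoin E {u}) d₀)⁻¹ * e.repr x i) = e.repr x i :=
      mul_inv_cancel_left₀ hd₀K _
    exact congrArg (fun z : IntermediateField.adjoin E {u} => (z : L)) h3
  have hu0mem : u ∈ chart O ({u} : Set L) :=
    isIntegral_adjoin_of_mem (Algebra.subset_adjoin (Set.mem_singleton u))
  have hu1mem : u⁻¹ ∈ chart O ({u⁻¹} : Set L) :=
    isIntegral_adjoin_of_mem (Algebra.subset_adjoin (Set.mem_singleton u⁻¹))
  have hloc1 : ∀ w : L, w ∈ chart O ({u, u⁻¹} : Set L) →
      ∃ n : ℕ, u⁻¹ ^ n * w ∈ chart O ({u⁻¹} : Set L) := by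
    intro w hw
    have hw' : IsIntegral (Algebra.adjoin O {u⁻¹, u⁻¹⁻¹}) w := by
      rw [inv_inv, Set.pair_comm]; exact hw
    exact exists_pow_mul_isIntegral u⁻¹ (inv_ne_zero hu0) w hw'
  refine exists_dual_element (IntermediateField.adjoin E {u}) u hu0 huK
    (chart O ({u} : Set L)) (chart O ({u⁻¹} : Set L)) (chart O ({u, u⁻¹} : Set L))
    (chart_mono (by simp)) (chart_mono (by simp)) hu0mem hu1mem hloc1 (e.unitsSMul w)
    (fun i => by rw [he₁]; exact hd₀int i) ?_ φ hφ0 hφ1
  intro x hx
  obtain ⟨N, hN⟩ := exists_pow_mul_isIntegral u hu0 x hx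
  have hNE : IsIntegral (Algebra.adjoin E {u}) (u ^ N * x) :=
    ChartSwap.isIntegral_adjoin_of_isIntegral_adjoin u hN
  choose p hp using hrepr (u ^ N * x) hNE
  obtain ⟨D, hD0, hD⟩ := exists_common_denom (O := O) u p
  choose q hq using hD
  have hDL : algebraMap O L D ≠ 0 := algebraMap_ne_zero_of_ne_zero E hD0
  refine ⟨D * d₀, by rw [map_mul]; exact mul_ne_zero hDL hd₀L,
    fun i => T (-(N : ℤ)) * toLaurent (q i), fun i => ?_⟩
  have hsm : ((e.repr (u ^ N * x) i : IntermediateField.adjoin E {u}) : L) =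
      u ^ N * ((e.repr x i : IntermediateField.adjoin E {u}) : L) := by
    have h1 : u ^ N * x = ((⟨u, huK⟩ : IntermediateField.adjoin E {u}) ^ N) • x := rfl
    rw [h1, map_smul, Finsupp.smul_apply, smul_eq_mul]
    rfl
  show algebraMap O L (D * d₀) * (((e.unitsSMul w).repr x i : IntermediateField.adjoin E {u}) : L)
    = lev u hu0 (T (-(N : ℤ)) * toLaurent (q i))
  rw [map_mul (lev u hu0), lev_T, lev_toLaurent, hq i, ← hp i, hsm, map_mul, mul_assoc, hrepr₁,
    zpow_neg, zpow_natCast]
  field_simp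

/-- **The dual element of a functional on the Čech `H¹` of the three charts.**  For every
`O`-linear `Lam : CechH C0 C1 C01 → O` there is `G : L` with `Tr(G C0) ⊆ O[u]`,
`Tr(G u² C1) ⊆ O[u⁻¹]` and `Tr(G x) = P(u)` for `x ∈ C01`, where the coefficient of `T^m` in the
Laurent polynomial `P` over `O` is `Lam [u^(-m-1) x]`. -/
theorem exists_dual_cechH (u : L) (hu : Transcendental E u)
    [FiniteDimensional (IntermediateField.adjoin E {u}) L]
    [Algebra.IsSeparable (IntermediateField.adjoin E {u}) L] (hu0 : u ≠ 0)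
    (Lam : CechH (chart O ({u} : Set L)) (chart O ({u⁻¹} : Set L))
      (chart O ({u, u⁻¹} : Set L)) →ₗ[O] O) :
    ∃ G : L,
      (∀ b : L, b ∈ chart O ({u} : Set L) → ∃ p : O[X],
        ((Algebra.trace (IntermediateField.adjoin E {u}) L (G * b) :
          IntermediateField.adjoin E {u}) : L) = aeval u p) ∧
      (∀ b : L, b ∈ chart O ({u⁻¹} : Set L) → ∃ p : O[X],
        ((Algebra.trace (IntermediateField.adjoin E {u}) L (G * (u ^ 2 * b)) :
          IntermediateField.adjoin E {u}) : L) = aeval u⁻¹ p) ∧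
      ∀ (x : L) (_ : x ∈ chart O ({u, u⁻¹} : Set L)), ∃ P : O[T;T⁻¹],
        ((Algebra.trace (IntermediateField.adjoin E {u}) L (G * x) :
          IntermediateField.adjoin E {u}) : L) = lev u hu0 P ∧
        ∀ (m : ℤ) (hm : u ^ (-m - 1) * x ∈ chart O ({u, u⁻¹} : Set L)),
          P.coeff m = Lam (cechClass (chart O ({u} : Set L)) (chart O ({u⁻¹} : Set L))
            (chart O ({u, u⁻¹} : Set L)) ⟨u ^ (-m - 1) * x, hm⟩) := by
  have h0le : chart O ({u} : Set L) ≤ chart O ({u, u⁻¹} : Set L) := chart_mono (by simp)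
  have h1le : chart O ({u⁻¹} : Set L) ≤ chart O ({u, u⁻¹} : Set L) := chart_mono (by simp)
  have hu0mem : u ∈ chart O ({u} : Set L) :=
    isIntegral_adjoin_of_mem (Algebra.subset_adjoin (Set.mem_singleton u))
  have hu1mem : u⁻¹ ∈ chart O ({u⁻¹} : Set L) :=
    isIntegral_adjoin_of_mem (Algebra.subset_adjoin (Set.mem_singleton u⁻¹))
  have hkill0 : ∀ z : Subalgebra.toSubmodule (chart O ({u, u⁻¹} : Set L)),
      (z : L) ∈ chart O ({u} : Set L) → Lam (cechClass _ _ _ z) = 0 := fun z hz => by
    rw [(cechClass_eq_zero_iff _ _ _ z).mpr (mem_chartSum_of_mem_left hz), map_zero]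
  have hkill1 : ∀ z : Subalgebra.toSubmodule (chart O ({u, u⁻¹} : Set L)),
      (z : L) ∈ chart O ({u⁻¹} : Set L) → Lam (cechClass _ _ _ z) = 0 := fun z hz => by
    rw [(cechClass_eq_zero_iff _ _ _ z).mpr (mem_chartSum_of_mem_right hz), map_zero]
  obtain ⟨G, hG⟩ := exists_dual_chart (O := O) u hu hu0
    (Lam.comp (cechClass (chart O ({u} : Set L)) (chart O ({u⁻¹} : Set L))
      (chart O ({u, u⁻¹} : Set L)))) hkill0 hkill1
  refine ⟨G, ?_, ?_, fun x hx => ?_⟩
  · intro b hb
    obtain ⟨P, hP, hcoef⟩ := hG b (h0le hb)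
    have hneg : ∀ m : ℤ, m < 0 → P.coeff m = 0 := by
      intro m hm
      have hmem0 : u ^ (-m - 1) * b ∈ chart O ({u} : Set L) := by
        obtain ⟨k, hk⟩ := Int.eq_ofNat_of_zero_le (show 0 ≤ -m - 1 by omega)
        rw [hk, zpow_natCast]
        exact mul_mem (pow_mem hu0mem k) hb
      rw [hcoef m (h0le hmem0)]
      exact hkill0 _ hmem0
    obtain ⟨p, hp⟩ := exists_toLaurent_eq P hneg
    exact ⟨p, by rw [hP, ← hp, lev_toLaurent]⟩
  · intro b hb
    have hx : u ^ 2 * b ∈ chart O ({u, u⁻¹} : Set L) :=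
      mul_mem (pow_mem (h0le hu0mem) 2) (h1le hb)
    obtain ⟨P, hP, hcoef⟩ := hG (u ^ 2 * b) hx
    have hpos : ∀ m : ℤ, 0 < m → P.coeff m = 0 := by
      intro m hm
      have hmem1 : u ^ (-m - 1) * (u ^ 2 * b) ∈ chart O ({u⁻¹} : Set L) := by
        obtain ⟨k, hk⟩ := Int.eq_ofNat_of_zero_le (show 0 ≤ m - 1 by omega)
        have e1 : u ^ (-m - 1) * (u ^ 2 * b) = u⁻¹ ^ k * b := by
          have h1 : -m - 1 = -((k : ℤ) + 2) := by omega
          rw [h1, zpow_neg, zpow_add₀ hu0, zpow_natCast, inv_pow]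
          have h2 : u ^ (2 : ℤ) = u ^ 2 := zpow_natCast u 2
          rw [h2]
          field_simp
        rw [e1]
        exact mul_mem (pow_mem hu1mem k) hb
      rw [hcoef m (h1le hmem1)]
      exact hkill1 _ hmem1
    have hneg : ∀ m : ℤ, m < 0 → (LaurentPolynomial.invert P).coeff m = 0 := by
      intro m hm
      rw [LaurentPolynomial.invert_apply]
      exact hpos (-m) (by omega)
    obtain ⟨p, hp⟩ := exists_toLaurent_eq _ hneg
    refine ⟨p, ?_⟩
    rw [hP, ← lev_invert u hu0 P, ← hp, lev_toLaurent]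
  · obtain ⟨P, hP, hcoef⟩ := hG x hx
    exact ⟨P, hP, fun m hm => hcoef m hm⟩

/-- **The integral lift of a functional with values in a quotient of `O`.**  When the Čech `H¹`
is free over `O` (`CechFree.cechH_free`), every `O`-linear functional on it with values in a
quotient `k` of `O` is the reduction of the residue pairing with some `G : L` satisfying
`Tr(G C0) ⊆ O[u]` and `Tr(G u² C1) ⊆ O[u⁻¹]`. -/
theorem exists_dual_cechH_quot (u : L) (hu : Transcendental E u)
    [FiniteDimensional (IntermediateField.adjoin E {u}) L]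
    [Algebra.IsSeparable (IntermediateField.adjoin E {u}) L] (hu0 : u ≠ 0)
    [Module.Free O (CechH (chart O ({u} : Set L)) (chart O ({u⁻¹} : Set L))
      (chart O ({u, u⁻¹} : Set L)))]
    {k : Type*} [CommRing k] [Algebra O k] (hsurj : Function.Surjective (algebraMap O k))
    (lam : CechH (chart O ({u} : Set L)) (chart O ({u⁻¹} : Set L))
      (chart O ({u, u⁻¹} : Set L)) →ₗ[O] k) :
    ∃ G : L,
      (∀ b : L, b ∈ chart O ({u} : Set L) → ∃ p : O[X],
        ((Algebra.trace (IntermediateField.adjoin E {u}) L (G * b) :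
          IntermediateField.adjoin E {u}) : L) = aeval u p) ∧
      (∀ b : L, b ∈ chart O ({u⁻¹} : Set L) → ∃ p : O[X],
        ((Algebra.trace (IntermediateField.adjoin E {u}) L (G * (u ^ 2 * b)) :
          IntermediateField.adjoin E {u}) : L) = aeval u⁻¹ p) ∧
      ∀ (x : L) (_ : x ∈ chart O ({u, u⁻¹} : Set L)), ∃ P : O[T;T⁻¹],
        ((Algebra.trace (IntermediateField.adjoin E {u}) L (G * x) :
          IntermediateField.adjoin E {u}) : L) = lev u hu0 P ∧
        ∀ (m : ℤ) (hm : u ^ (-m - 1) * x ∈ chart O ({u, u⁻¹} : Set L)),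
          algebraMap O k (P.coeff m) = lam (cechClass (chart O ({u} : Set L))
            (chart O ({u⁻¹} : Set L)) (chart O ({u, u⁻¹} : Set L)) ⟨u ^ (-m - 1) * x, hm⟩) := by
  obtain ⟨Lam, hLam⟩ := exists_lift_functional hsurj lam
  obtain ⟨G, h1, h2, h3⟩ := exists_dual_cechH (O := O) u hu hu0 Lam
  refine ⟨G, h1, h2, fun x hx => ?_⟩
  obtain ⟨P, hP, hc⟩ := h3 x hx
  exact ⟨P, hP, fun m hm => by rw [hc m hm, hLam]⟩

end Chart

end Fermat.Agent.S44.D.IntLiftChart
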