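import Mathlib

/-!
# Trace duality over the `j`-line without a normal basis (S44, strand D, brick DW)

Setting: `k` a field, `K` a field extension of `k`, `j : K` with `j ≠ 0`, `K` finite and
separable over `k⟮j⟯`.  Write `B₀` / `B∞` for the elements of `K` integral over `k[j]` /
`k[j⁻¹]`.

Main result (`exists_traceDual`): every `k`-linear functional `lam : K → k` that vanishes on
`B₀` and on `B∞` (i.e. every functional on the Čech `H¹ = B₀∞ / (B₀ + B∞)`, extended
`k`-linearly to `K`) is represented by a trace-dual element `G : K`: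

* `Tr (G b) = ∑ₘ lam (j⁻¹ ^ (m + 1) b) j ^ m`  for `b ∈ B₀`   (a polynomial in `j`),
* `Tr (G j² c) = ∑ₘ lam (j ^ (m + 1) c) j⁻¹ ^ m`  for `c ∈ B∞` (a polynomial in `j⁻¹`).

The proof uses only the nondegenerate trace form: `b ↦ ∑ₘ lam (j⁻¹ ^ (m + 1) b) j ^ m` is a
`k[j]`-linear functional on `B₀`.  No normal basis, no dimension count.

`eq_zero_of_trace_eq_zero` is the uniqueness half: `G` is determined by the traces `Tr (G b)`,
`b ∈ B₀`.
-/

set_option autoImplicit false

open IntermediateField Polynomial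

namespace Fermat.Agent.S44.D.TraceDual

variable {k K : Type*} [Field k] [Field K] [Algebra k K]

/-! ### Integrality shifts -/

/-- `p(j) · j' ^ N ∈ k[j']` as soon as `N ≥ deg p`, for `j j' = 1`. -/
theorem aeval_mul_pow_mem (j j' : K) (h : j * j' = 1) (p : k[X]) (N : ℕ)
    (hN : p.natDegree ≤ N) : aeval j p * j' ^ N ∈ Algebra.adjoin k {j'} := by
  rw [aeval_eq_sum_range, Finset.sum_mul]
  refine Subalgebra.sum_mem _ fun i hi => ?_
  have hi' : i ≤ N := (Nat.lt_succ_iff.mp (Finset.mem_range.mp hi)).trans hN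
  have h1 : j ^ i * j' ^ N = j' ^ (N - i) := by
    calc j ^ i * j' ^ N = j ^ i * (j' ^ (N - i) * j' ^ i) := by
          rw [← pow_add, Nat.sub_add_cancel hi']
      _ = j' ^ (N - i) * (j * j') ^ i := by rw [mul_pow]; ring
      _ = j' ^ (N - i) := by rw [h, one_pow, mul_one]
  rw [smul_mul_assoc, h1]
  exact Subalgebra.smul_mem _ (Subalgebra.pow_mem _ (Algebra.self_mem_adjoin_singleton k _) _) _

/-- Core shift: for `j j' = 1`, if `b` is integral over `k[j]` then `j' ^ m * b` is integral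
over `k[j']` for all large `m`. -/
theorem exists_isIntegral_pow_mul_of_mul_eq_one (j j' : K) (h : j * j' = 1) {b : K}
    (hb : IsIntegral (Algebra.adjoin k {j}) b) :
    ∃ n : ℕ, ∀ m, n ≤ m → IsIntegral (Algebra.adjoin k {j'}) (j' ^ m * b) := by
  obtain ⟨P, hP, hPb⟩ := hb
  -- the coefficients of `P`, as polynomials in `j`
  have hcoeff : ∀ i : ℕ, ∃ n : ℕ, ∀ N, n ≤ N →
      ((P.coeff i : Algebra.adjoin k {j}) : K) * j' ^ N ∈ Algebra.adjoin k {j'} := by
    intro i
    have hmem : ((P.coeff i : Algebra.adjoin k {j}) : K) ∈ (aeval (R := k) j).range := by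
      rw [← Algebra.adjoin_singleton_eq_range_aeval]
      exact (P.coeff i).2
    obtain ⟨p, hp⟩ := hmem
    refine ⟨p.natDegree, fun N hN => ?_⟩
    rw [← hp]
    exact aeval_mul_pow_mem j j' h p N hN
  choose nn hnn using hcoeff
  refine ⟨∑ i ∈ Finset.range (P.natDegree + 1), nn i, fun m hm => ?_⟩
  -- the scaled polynomial over `K`
  set PK : K[X] := P.map (algebraMap (Algebra.adjoin k {j}) K) with hPK
  have hPKm : PK.Monic := hP.map _
  have hdeg : PK.natDegree = P.natDegree := hP.natDegree_map _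
  set Q : K[X] := scaleRoots PK (j' ^ m) with hQ
  have hQm : Q.Monic := (monic_scaleRoots_iff _).mpr hPKm
  have hQroot : Q.eval (j' ^ m * b) = 0 := by
    have h0 : PK.eval b = 0 := by
      rw [hPK, eval_map]; exact hPb
    have := scaleRoots_eval₂_mul (p := PK) (f := RingHom.id K) (r := b) (s := j' ^ m)
    simp only [eval₂_id, RingHom.id_apply] at this
    rw [hQ, this, h0, mul_zero]
  have hlift : Q ∈ lifts (algebraMap (Algebra.adjoin k {j'}) K) := by
    rw [lifts_iff_coeff_lifts]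
    intro i
    rw [hQ, coeff_scaleRoots, hdeg]
    rcases lt_trichotomy i P.natDegree with hi | hi | hi
    · have hmem := hnn i (m * (P.natDegree - i)) (by
        have h1 : nn i ≤ ∑ i ∈ Finset.range (P.natDegree + 1), nn i :=
          Finset.single_le_sum (f := nn) (fun _ _ => Nat.zero_le _)
            (Finset.mem_range.mpr (by omega))
        have h2 : 1 ≤ P.natDegree - i := by omega
        calc nn i ≤ m := h1.trans hm
          _ = m * 1 := (mul_one m).symm
          _ ≤ m * (P.natDegree - i) := Nat.mul_le_mul_left m h2)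
      rw [hPK, coeff_map, ← pow_mul]
      exact ⟨⟨_, hmem⟩, rfl⟩
    · subst hi
      rw [Nat.sub_self, pow_zero, mul_one, ← hdeg, hPKm.coeff_natDegree]
      exact ⟨1, map_one _⟩
    · rw [hPK, coeff_map, coeff_eq_zero_of_natDegree_lt hi, map_zero, zero_mul]
      exact ⟨0, map_zero _⟩
  obtain ⟨q, hq, -, hqm⟩ := lifts_and_natDegree_eq_and_monic hlift hQm
  refine ⟨q, hqm, ?_⟩
  rw [← eval_map, hq]
  exact hQroot

/-- If `b` is integral over `k[j]` then `j⁻¹ ^ m * b` is integral over `k[j⁻¹]` for all large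
`m`. -/
theorem exists_isIntegral_inv_pow_mul (j : K) (hj : j ≠ 0) {b : K}
    (hb : IsIntegral (Algebra.adjoin k {j}) b) :
    ∃ n : ℕ, ∀ m, n ≤ m → IsIntegral (Algebra.adjoin k {j⁻¹}) (j⁻¹ ^ m * b) :=
  exists_isIntegral_pow_mul_of_mul_eq_one j j⁻¹ (mul_inv_cancel₀ hj) hb

/-- Symmetric form: if `c` is integral over `k[j⁻¹]` then `j ^ m * c` is integral over `k[j]`
for all large `m`. -/
theorem exists_isIntegral_pow_mul (j : K) (hj : j ≠ 0) {c : K}
    (hc : IsIntegral (Algebra.adjoin k {j⁻¹}) c) :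
    ∃ n : ℕ, ∀ m, n ≤ m → IsIntegral (Algebra.adjoin k {j}) (j ^ m * c) :=
  exists_isIntegral_pow_mul_of_mul_eq_one j⁻¹ j (inv_mul_cancel₀ hj) hc

/-! ### Elements of `k[j]` are integral over `k[j]` -/

theorem isIntegral_aeval (j : K) (p : k[X]) :
    IsIntegral (Algebra.adjoin k {j}) (aeval j p) := by
  have hmem : aeval j p ∈ Algebra.adjoin k {j} := by
    rw [Algebra.adjoin_singleton_eq_range_aeval]; exact ⟨p, rfl⟩
  exact isIntegral_algebraMap (R := Algebra.adjoin k {j}) (A := K) (x := ⟨_, hmem⟩)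

theorem isIntegral_gen_pow (j : K) (i : ℕ) : IsIntegral (Algebra.adjoin k {j}) (j ^ i) := by
  have := isIntegral_aeval (k := k) j (X ^ i)
  simpa using this

/-! ### The truncated generating maps -/

section Phi

variable (j : K) (lam : K →ₗ[k] k)

/-- `phi N x = ∑_{m < N} lam (j⁻¹ ^ (m + 1) x) j ^ m`, as a `k`-linear map. -/
noncomputable def phi (N : ℕ) : K →ₗ[k] K :=
  ∑ m ∈ Finset.range N,
    (LinearMap.toSpanSingleton k K (j ^ m)).comp (lam.comp (LinearMap.mulLeft k (j⁻¹ ^ (m + 1))))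

theorem phi_apply (N : ℕ) (x : K) :
    phi j lam N x = ∑ m ∈ Finset.range N, lam (j⁻¹ ^ (m + 1) * x) • j ^ m := by
  simp [phi, LinearMap.sum_apply]

theorem phi_succ_mul (hj : j ≠ 0) (N : ℕ) (x : K) :
    phi j lam (N + 1) (j * x) = lam x • (1 : K) + j * phi j lam N x := by
  rw [phi_apply, phi_apply, Finset.sum_range_succ', Finset.mul_sum]
  have h0 : lam (j⁻¹ ^ (0 + 1) * (j * x)) • j ^ 0 = lam x • (1 : K) := by
    rw [zero_add, pow_one, pow_zero, inv_mul_cancel_left₀ hj]
  have h1 : ∀ m ∈ Finset.range N, lam (j⁻¹ ^ (m + 1 + 1) * (j * x)) • j ^ (m + 1)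
      = j * (lam (j⁻¹ ^ (m + 1) * x) • j ^ m) := by
    intro m _
    have : j⁻¹ ^ (m + 1 + 1) * (j * x) = j⁻¹ ^ (m + 1) * x := by
      rw [pow_succ, mul_assoc, inv_mul_cancel_left₀ hj]
    rw [this, mul_smul_comm, pow_succ' j m]
  rw [h0, Finset.sum_congr rfl h1, add_comm]

theorem phi_eq_of_stab {n N : ℕ} {x : K} (hst : ∀ m, n ≤ m → lam (j⁻¹ ^ (m + 1) * x) = 0)
    (hN : n ≤ N) : phi j lam N x = phi j lam n x := by
  rw [phi_apply, phi_apply]
  symm
  apply Finset.sum_subset (Finset.range_mono hN)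
  intro m _ hm'
  rw [hst m (by simpa using hm'), zero_smul]

theorem phi_pow_mul (hj : j ≠ 0)
    (h0 : ∀ b : K, IsIntegral (Algebra.adjoin k {j}) b → lam b = 0)
    {b : K} (hb : IsIntegral (Algebra.adjoin k {j}) b) (N i : ℕ) :
    phi j lam (N + i) (j ^ i * b) = j ^ i * phi j lam N b := by
  induction i with
  | zero => simp
  | succ i ih =>
    have hint : IsIntegral (Algebra.adjoin k {j}) (j ^ i * b) := (isIntegral_gen_pow j i).mul hb
    rw [← add_assoc, pow_succ', mul_assoc, phi_succ_mul j lam hj, ih, h0 _ hint, zero_smul,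
      zero_add, mul_assoc]

theorem phi_aeval_mul (hj : j ≠ 0)
    (h0 : ∀ b : K, IsIntegral (Algebra.adjoin k {j}) b → lam b = 0)
    {b : K} (hb : IsIntegral (Algebra.adjoin k {j}) b) {n : ℕ}
    (hst : ∀ m, n ≤ m → lam (j⁻¹ ^ (m + 1) * b) = 0) (p : k[X]) {N : ℕ}
    (hN : n + p.natDegree ≤ N) :
    phi j lam N (aeval j p * b) = aeval j p * phi j lam n b := by
  rw [aeval_eq_sum_range, Finset.sum_mul, map_sum, Finset.sum_mul]
  refine Finset.sum_congr rfl fun i hi => ?_
  have hi' : i ≤ p.natDegree := Nat.lt_succ_iff.mp (Finset.mem_range.mp hi)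
  have hNi : N = (N - i) + i := (Nat.sub_add_cancel (by omega)).symm
  rw [smul_mul_assoc, map_smul, smul_mul_assoc]
  congr 1
  rw [hNi, phi_pow_mul j lam hj h0 hb, phi_eq_of_stab j lam hst (by omega)]

end Phi

/-- Every element of `k[j]` (as a subalgebra of `K`) is a polynomial in `j`. -/
theorem exists_aeval_eq (j : K) (a : Algebra.adjoin k {j}) : ∃ p : k[X], aeval j p = (a : K) := by
  have hmem : (a : K) ∈ (aeval (R := k) j).range := by
    rw [← Algebra.adjoin_singleton_eq_range_aeval]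
    exact a.2
  exact hmem

/-! ### The trace-dual element -/

section Main

open scoped IntermediateField.algebraAdjoinAdjoin

variable (j : K) [FiniteDimensional k⟮j⟯ K] [Algebra.IsSeparable k⟮j⟯ K]

/-- **Core of (DW-b).**  There is `G : K` with `Tr (G b) = phi n b` for every `b` integral over
`k[j]` and every stabilisation index `n` of `b`. -/
theorem exists_trace_eq_phi (hj : j ≠ 0) (lam : K →ₗ[k] k)
    (h0 : ∀ b : K, IsIntegral (Algebra.adjoin k {j}) b → lam b = 0)
    (hinf : ∀ c : K, IsIntegral (Algebra.adjoin k {j⁻¹}) c → lam c = 0) :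
    ∃ G : K, ∀ b : K, IsIntegral (Algebra.adjoin k {j}) b → ∀ n : ℕ,
      (∀ m, n ≤ m → lam (j⁻¹ ^ (m + 1) * b) = 0) →
      ((Algebra.trace k⟮j⟯ K (G * b) : k⟮j⟯) : K) = phi j lam n b := by
  classical
  -- stabilisation index for integral elements
  have hstab : ∀ b : K, IsIntegral (Algebra.adjoin k {j}) b →
      ∃ n : ℕ, ∀ m, n ≤ m → lam (j⁻¹ ^ (m + 1) * b) = 0 := by
    intro b hb
    obtain ⟨n, hn⟩ := exists_isIntegral_inv_pow_mul j hj hb
    exact ⟨n, fun m hm => hinf _ (hn (m + 1) (by omega))⟩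
  obtain ⟨s, bas, hbas⟩ :=
    FiniteDimensional.exists_is_basis_integral (Algebra.adjoin k {j}) k⟮j⟯ K
  choose nb hnb using fun i => hstab (bas i) (hbas i)
  set n₀ : ℕ := ∑ i, nb i with hn₀
  have hst₀ : ∀ i, ∀ m, n₀ ≤ m → lam (j⁻¹ ^ (m + 1) * bas i) = 0 := fun i m hm =>
    hnb i m ((Finset.single_le_sum (f := nb) (fun _ _ => Nat.zero_le _)
      (Finset.mem_univ i)).trans hm)
  -- the prescribed traces, as elements of `k⟮j⟯`
  let cF : s → k⟮j⟯ := fun i =>
    ∑ m ∈ Finset.range n₀, lam (j⁻¹ ^ (m + 1) * bas i) • (AdjoinSimple.gen k j) ^ m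
  have hcF : ∀ i, ((cF i : k⟮j⟯) : K) = phi j lam n₀ (bas i) := by
    intro i
    rw [phi_apply]
    simp only [cF, AddSubmonoidClass.coe_finsetSum, IntermediateField.coe_smul,
      IntermediateField.coe_pow, AdjoinSimple.coe_gen]
  have hB : (Algebra.traceForm k⟮j⟯ K).Nondegenerate := traceForm_nondegenerate k⟮j⟯ K
  let dual := (Algebra.traceForm k⟮j⟯ K).dualBasis hB bas
  have htr : ∀ l, Algebra.trace k⟮j⟯ K ((∑ i, cF i • dual i) * bas l) = cF l := by
    intro l
    have hdl : ∀ i, Algebra.trace k⟮j⟯ K (dual i * bas l) = if l = i then 1 else 0 := fun i => by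
      have := LinearMap.BilinForm.apply_dualBasis_left hB bas i l
      rwa [Algebra.traceForm_apply] at this
    rw [Finset.sum_mul, map_sum]
    simp_rw [smul_mul_assoc, map_smul, hdl]
    simp
  refine ⟨∑ i, cF i • dual i, fun b hb n hst => ?_⟩
  set G : K := ∑ i, cF i • dual i with hG
  -- coordinates of `b` and a common denominator
  set r : s → k⟮j⟯ := fun i => bas.repr b i with hr
  have hbsum : b = ∑ i, r i • bas i := (bas.sum_repr b).symm
  obtain ⟨d, hd⟩ := IsLocalization.exist_integer_multiples_of_finset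
    (nonZeroDivisors (Algebra.adjoin k {j})) (Finset.univ.image r)
  have hd' : ∀ i, ∃ a : Algebra.adjoin k {j},
      ((a : Algebra.adjoin k {j}) : K) = ((d : Algebra.adjoin k {j}) : K) * ((r i : k⟮j⟯) : K) := by
    intro i
    obtain ⟨a, ha⟩ := hd (r i) (Finset.mem_image_of_mem r (Finset.mem_univ i))
    refine ⟨a, ?_⟩
    have := congrArg (fun x : k⟮j⟯ => (x : K)) ha
    simpa [Algebra.smul_def] using this
  choose a ha using hd'
  have hdne : ((d : Algebra.adjoin k {j}) : K) ≠ 0 := by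
    have h1 : (d : Algebra.adjoin k {j}) ≠ 0 := nonZeroDivisors.coe_ne_zero d
    exact fun h => h1 (Subtype.ext h)
  obtain ⟨pd, hpd⟩ := exists_aeval_eq j (d : Algebra.adjoin k {j})
  choose pa hpa using fun i => exists_aeval_eq j (a i)
  -- trace of `G * b`
  have htrb : ((Algebra.trace k⟮j⟯ K (G * b) : k⟮j⟯) : K) = ∑ i, ((r i : k⟮j⟯) : K) * (cF i : K) := by
    have h1 : G * b = ∑ i, r i • (G * bas i) := by
      conv_lhs => rw [hbsum, Finset.mul_sum]
      exact Finset.sum_congr rfl fun i _ => mul_smul_comm _ _ _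
    rw [h1, map_sum]
    simp_rw [map_smul, htr]
    simp
  -- the two computations of `phi N (d * b)`
  set N : ℕ := n + pd.natDegree + n₀ + ∑ i, (pa i).natDegree with hN
  have hL : phi j lam N (((d : Algebra.adjoin k {j}) : K) * b)
      = ((d : Algebra.adjoin k {j}) : K) * phi j lam n b := by
    rw [← hpd]
    exact phi_aeval_mul j lam hj h0 hb hst pd (by omega)
  have hdb : ((d : Algebra.adjoin k {j}) : K) * b = ∑ i, ((a i : Algebra.adjoin k {j}) : K) * bas i := by
    conv_lhs => rw [hbsum, Finset.mul_sum]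
    refine Finset.sum_congr rfl fun i _ => ?_
    rw [ha i, IntermediateField.smul_def, smul_eq_mul, mul_assoc]
  have hR : phi j lam N (((d : Algebra.adjoin k {j}) : K) * b)
      = ∑ i, ((a i : Algebra.adjoin k {j}) : K) * (cF i : K) := by
    rw [hdb, map_sum]
    refine Finset.sum_congr rfl fun i _ => ?_
    rw [← hpa i, hcF i]
    have hle : (pa i).natDegree ≤ ∑ i, (pa i).natDegree :=
      Finset.single_le_sum (f := fun i => (pa i).natDegree) (fun _ _ => Nat.zero_le _)
        (Finset.mem_univ i)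
    exact phi_aeval_mul j lam hj h0 (hbas i) (hst₀ i) (pa i) (by omega)
  have hfin : ((d : Algebra.adjoin k {j}) : K) * ((Algebra.trace k⟮j⟯ K (G * b) : k⟮j⟯) : K)
      = ((d : Algebra.adjoin k {j}) : K) * phi j lam n b := by
    rw [← hL, hR, htrb, Finset.mul_sum]
    refine Finset.sum_congr rfl fun i _ => ?_
    rw [ha i, mul_assoc]
  exact mul_left_cancel₀ hdne hfin

/-- **(DW-b), no normal basis.**  Every `k`-linear functional `lam` on `K` vanishing on the
elements integral over `k[j]` and on those integral over `k[j⁻¹]` is represented by a trace-dual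
element `G`:

* (F0) `Tr (G b) = ∑ₘ lam (j⁻¹ ^ (m + 1) b) j ^ m` for `b` integral over `k[j]`;
* (F∞) `Tr (G j² c) = ∑ₘ lam (j ^ (m + 1) c) j⁻¹ ^ m` for `c` integral over `k[j⁻¹]`.

In both cases the sum is over `m < n` and all coefficients with `m ≥ n` vanish. -/
theorem exists_traceDual (hj : j ≠ 0) (lam : K →ₗ[k] k)
    (h0 : ∀ b : K, IsIntegral (Algebra.adjoin k {j}) b → lam b = 0)
    (hinf : ∀ c : K, IsIntegral (Algebra.adjoin k {j⁻¹}) c → lam c = 0) :
    ∃ G : K,
      (∀ b : K, IsIntegral (Algebra.adjoin k {j}) b → ∃ n : ℕ,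
        (∀ m, n ≤ m → lam (j⁻¹ ^ (m + 1) * b) = 0) ∧
        ((Algebra.trace k⟮j⟯ K (G * b) : k⟮j⟯) : K) =
          ∑ m ∈ Finset.range n, algebraMap k K (lam (j⁻¹ ^ (m + 1) * b)) * j ^ m) ∧
      (∀ c : K, IsIntegral (Algebra.adjoin k {j⁻¹}) c → ∃ n : ℕ,
        (∀ m, n ≤ m → lam (j ^ (m + 1) * c) = 0) ∧
        ((Algebra.trace k⟮j⟯ K (G * j ^ 2 * c) : k⟮j⟯) : K) =
          ∑ m ∈ Finset.range n, algebraMap k K (lam (j ^ (m + 1) * c)) * j⁻¹ ^ m) := by
  obtain ⟨G, hG⟩ := exists_trace_eq_phi j hj lam h0 hinf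
  refine ⟨G, fun b hb => ?_, fun c hc => ?_⟩
  · obtain ⟨n, hn⟩ := exists_isIntegral_inv_pow_mul j hj hb
    have hst : ∀ m, n ≤ m → lam (j⁻¹ ^ (m + 1) * b) = 0 :=
      fun m hm => hinf _ (hn (m + 1) (by omega))
    refine ⟨n, hst, ?_⟩
    rw [hG b hb n hst, phi_apply]
    exact Finset.sum_congr rfl fun m _ => Algebra.smul_def _ _
  · obtain ⟨M₀, hM₀⟩ := exists_isIntegral_pow_mul j hj hc
    set n : ℕ := M₀ + 1 with hn
    have hb : IsIntegral (Algebra.adjoin k {j}) (j ^ (n + 1) * c) := hM₀ _ (by omega)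
    have hjinv_int : ∀ t : ℕ, IsIntegral (Algebra.adjoin k {j⁻¹}) (j⁻¹ ^ t * c) := fun t =>
      (isIntegral_gen_pow (k := k) j⁻¹ t).mul hc
    have hjne : ∀ t : ℕ, j ^ t ≠ 0 := fun t => pow_ne_zero t hj
    have hst : ∀ m, n ≤ m → lam (j⁻¹ ^ (m + 1) * (j ^ (n + 1) * c)) = 0 := by
      intro m hm
      have hm' : m + 1 = (m - n) + (n + 1) := by omega
      have : j⁻¹ ^ (m + 1) * (j ^ (n + 1) * c) = j⁻¹ ^ (m - n) * c := by
        rw [hm', pow_add, mul_assoc, ← mul_assoc (j⁻¹ ^ (n + 1)), ← mul_pow,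
          inv_mul_cancel₀ hj, one_pow, one_mul]
      rw [this]
      exact hinf _ (hjinv_int _)
    have hst' : ∀ m, n ≤ m → lam (j ^ (m + 1) * c) = 0 :=
      fun m hm => h0 _ (hM₀ _ (by omega))
    refine ⟨n, hst', ?_⟩
    have h1 : G * j ^ 2 * c = (AdjoinSimple.gen k j)⁻¹ ^ (n - 1) • (G * (j ^ (n + 1) * c)) := by
      rw [IntermediateField.smul_def, smul_eq_mul, IntermediateField.coe_pow,
        IntermediateField.coe_inv, AdjoinSimple.coe_gen]
      have hn1 : n + 1 = (n - 1) + 2 := by omega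
      have h2 : j⁻¹ ^ (n - 1) * j ^ (n + 1) = j ^ 2 := by
        rw [hn1, pow_add, ← mul_assoc, ← mul_pow, inv_mul_cancel₀ hj, one_pow, one_mul]
      calc G * j ^ 2 * c = G * (j⁻¹ ^ (n - 1) * j ^ (n + 1)) * c := by rw [h2]
        _ = j⁻¹ ^ (n - 1) * (G * (j ^ (n + 1) * c)) := by ring
    rw [h1, map_smul, smul_eq_mul, IntermediateField.coe_mul, hG _ hb n hst, phi_apply,
      IntermediateField.coe_pow, IntermediateField.coe_inv, AdjoinSimple.coe_gen,
      Finset.mul_sum, ← Finset.sum_range_reflect (fun m =>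
        algebraMap k K (lam (j ^ (m + 1) * c)) * j⁻¹ ^ m) n]
    refine Finset.sum_congr rfl fun m hm => ?_
    have hmn : m < n := Finset.mem_range.mp hm
    have e1 : j⁻¹ ^ (m + 1) * (j ^ (n + 1) * c) = j ^ (n - 1 - m + 1) * c := by
      have hn2 : n + 1 = (m + 1) + (n - 1 - m + 1) := by omega
      rw [hn2, pow_add j (m + 1), inv_pow, mul_assoc, inv_mul_cancel_left₀ (hjne _)]
    have e2 : j⁻¹ ^ (n - 1) * j ^ m = j⁻¹ ^ (n - 1 - m) := by
      have hn3 : n - 1 = (n - 1 - m) + m := by omega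
      conv_lhs => rw [hn3, pow_add, mul_assoc, ← mul_pow, inv_mul_cancel₀ hj, one_pow, mul_one]
    rw [e1, Algebra.smul_def, ← mul_assoc, mul_comm (j⁻¹ ^ (n - 1)), mul_assoc, e2]

/-- **(DW-a) core.**  `G` is determined by the traces `Tr (G b)`, `b` integral over `k[j]`. -/
theorem eq_zero_of_trace_eq_zero (G : K)
    (h : ∀ b : K, IsIntegral (Algebra.adjoin k {j}) b → Algebra.trace k⟮j⟯ K (G * b) = 0) :
    G = 0 := by
  classical
  obtain ⟨s, bas, hbas⟩ :=
    FiniteDimensional.exists_is_basis_integral (Algebra.adjoin k {j}) k⟮j⟯ K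
  have hB : (Algebra.traceForm k⟮j⟯ K).Nondegenerate := traceForm_nondegenerate k⟮j⟯ K
  refine hB.1 G fun x => ?_
  rw [← bas.sum_repr x, map_sum]
  refine Finset.sum_eq_zero fun i _ => ?_
  rw [map_smul, Algebra.traceForm_apply, h _ (hbas i), smul_zero]

/-- Uniqueness form: two elements with the same traces against the integral elements agree. -/
theorem eq_of_trace_eq (G G' : K)
    (h : ∀ b : K, IsIntegral (Algebra.adjoin k {j}) b →
      Algebra.trace k⟮j⟯ K (G * b) = Algebra.trace k⟮j⟯ K (G' * b)) : G = G' := by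
  refine sub_eq_zero.mp (eq_zero_of_trace_eq_zero (k := k) j (G - G') fun b hb => ?_)
  rw [sub_mul, map_sub, h b hb, sub_self]

end Main

end Fermat.Agent.S44.D.TraceDual
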