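import Mathlib
import Fermat.Agent.S44.D.DWFun
import Fermat.Agent.S44.D.TraceDual

/-!
# Strand D of S44: the converse of (DW-b) in the vocabulary of `TraceDual.lean`

Setting of `S44/D/TraceDual.lean`: `k` a field, `K` a field over `k`, `j : K`, traces over
`k⟮j⟯` read in `K`, `B₀` / `B∞` = elements of `K` integral over `k[j]` / `k[j⁻¹]`.  Here `j` is
transcendental over `k`.

* `exists_residue_functional` : the `k`-linear "coefficient of `j⁻¹`" functional on `k⟮j⟯`.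
* `exists_functional_of_traceDual` : an element `G` with `Tr (G B₀) ⊆ k[j]` and
  `Tr (G j² B∞) ⊆ k[j⁻¹]` defines a `k`-linear functional `lam` on `K` killing `B₀` and `B∞`
  with `Tr (G b) = ∑ₘ lam (j⁻¹ ^ (m + 1) b) j ^ m` for `b ∈ B₀` — the formula (F0) of
  `TraceDual.exists_traceDual` read backwards.
* `eq_of_F0`, `exists_functional_roundtrip` : any (DW-b) representative of that `lam` is `G`.
-/

set_option autoImplicit false

open IntermediateField Polynomial

namespace Fermat.Agent.S44.D.TraceDualConv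

variable {k K : Type*} [Field k] [Field K] [Algebra k K]

/-- The coefficient of `j⁻¹` as a `k`-linear functional on `k⟮j⟯`, `j` transcendental. -/
theorem exists_residue_functional (j : K) (hj : Transcendental k j) :
    ∃ ψ : k⟮j⟯ →ₗ[k] k, ∀ (Q : k[X]) (m : ℕ),
      ψ (aeval (AdjoinSimple.gen k j) Q * (AdjoinSimple.gen k j)⁻¹ ^ (m + 1)) = Q.coeff m := by
  obtain ⟨ψ₀, hψ₀⟩ := DWFun.exists_residue_functional (k := k) (F := RatFunc k)
  refine ⟨ψ₀ ∘ₗ (RatFunc.algEquivOfTranscendental j hj).symm.toLinearMap, fun Q m => ?_⟩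
  show ψ₀ ((RatFunc.algEquivOfTranscendental j hj).symm
    (aeval (AdjoinSimple.gen k j) Q * (AdjoinSimple.gen k j)⁻¹ ^ (m + 1))) = Q.coeff m
  rw [map_mul, map_pow, map_inv₀, RatFunc.algEquivOfTranscendental_symm_aeval,
    RatFunc.algEquivOfTranscendental_symm_gen, ← RatFunc.algebraMap_X, hψ₀]

/-- Coercion `k⟮j⟯ → K` commutes with `aeval`. -/
theorem coe_aeval (j : K) (x : k⟮j⟯) (Q : k[X]) :
    ((aeval x Q : k⟮j⟯) : K) = aeval (x : K) Q :=
  (Polynomial.aeval_algHom_apply (k⟮j⟯).val x Q).symm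

/-- **Converse of (DW-b)**, vocabulary of `TraceDual.lean`. -/
theorem exists_functional_of_traceDual (j : K) (hj : Transcendental k j) (G : K)
    (hG0 : ∀ b : K, IsIntegral (Algebra.adjoin k {j}) b →
      ((Algebra.trace k⟮j⟯ K (G * b) : k⟮j⟯) : K) ∈ Algebra.adjoin k {j})
    (hGinf : ∀ c : K, IsIntegral (Algebra.adjoin k {j⁻¹}) c →
      ((Algebra.trace k⟮j⟯ K (G * j ^ 2 * c) : k⟮j⟯) : K) ∈ Algebra.adjoin k {j⁻¹}) :
    ∃ lam : K →ₗ[k] k,
      (∀ b : K, IsIntegral (Algebra.adjoin k {j}) b → lam b = 0) ∧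
      (∀ c : K, IsIntegral (Algebra.adjoin k {j⁻¹}) c → lam c = 0) ∧
      (∀ (x : K) (Q : k[X]), ((Algebra.trace k⟮j⟯ K (G * x) : k⟮j⟯) : K) = aeval j Q →
        ∀ m : ℕ, Q.coeff m = lam (j⁻¹ ^ (m + 1) * x)) ∧
      (∀ b : K, IsIntegral (Algebra.adjoin k {j}) b → ∀ n : ℕ,
        (∀ m, n ≤ m → lam (j⁻¹ ^ (m + 1) * b) = 0) →
        ((Algebra.trace k⟮j⟯ K (G * b) : k⟮j⟯) : K) =
          ∑ m ∈ Finset.range n, algebraMap k K (lam (j⁻¹ ^ (m + 1) * b)) * j ^ m) := by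
  have hjne : j ≠ 0 := by
    rintro rfl
    exact hj (isAlgebraic_zero)
  have hgen : AdjoinSimple.gen k j ≠ 0 := by
    intro h
    apply hjne
    rw [← AdjoinSimple.coe_gen k j, h]
    rfl
  obtain ⟨ψ, hψ⟩ := exists_residue_functional (k := k) j hj
  have hψ0 : ∀ Q : k[X], ψ (aeval (AdjoinSimple.gen k j) Q) = 0 := by
    intro Q
    have h := hψ (Q * X) 0
    have e : aeval (AdjoinSimple.gen k j) (Q * X) * (AdjoinSimple.gen k j)⁻¹ ^ (0 + 1) =
        aeval (AdjoinSimple.gen k j) Q := by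
      rw [zero_add, pow_one, map_mul (aeval (AdjoinSimple.gen k j)) Q X, aeval_X, mul_assoc,
        mul_inv_cancel₀ hgen, mul_one]
    rw [e, coeff_mul_X_zero] at h
    exact h
  have hψinv : ∀ a : ℕ, ψ ((AdjoinSimple.gen k j)⁻¹ ^ (a + 2)) = 0 := by
    intro a
    have h := hψ 1 (a + 1)
    rw [map_one, one_mul, coeff_one, if_neg (by omega)] at h
    exact h
  let lam : K →ₗ[k] k :=
    ψ ∘ₗ ((Algebra.trace k⟮j⟯ K).restrictScalars k) ∘ₗ (LinearMap.mulLeft k G)
  have hlam : ∀ z : K, lam z = ψ (Algebra.trace k⟮j⟯ K (G * z)) := fun z => rfl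
  -- traces that are polynomials in `j`
  have hlift : ∀ (x : K) (Q : k[X]),
      ((Algebra.trace k⟮j⟯ K (G * x) : k⟮j⟯) : K) = aeval j Q →
      Algebra.trace k⟮j⟯ K (G * x) = aeval (AdjoinSimple.gen k j) Q := by
    intro x Q h
    apply Subtype.ext
    rw [h, coe_aeval, AdjoinSimple.coe_gen]
  have hcoef : ∀ (x : K) (Q : k[X]),
      ((Algebra.trace k⟮j⟯ K (G * x) : k⟮j⟯) : K) = aeval j Q →
      ∀ m : ℕ, Q.coeff m = lam (j⁻¹ ^ (m + 1) * x) := by
    intro x Q hQ m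
    have h1 : G * (j⁻¹ ^ (m + 1) * x) = ((AdjoinSimple.gen k j)⁻¹ ^ (m + 1)) • (G * x) := by
      rw [IntermediateField.smul_def, smul_eq_mul, IntermediateField.coe_pow,
        IntermediateField.coe_inv, AdjoinSimple.coe_gen]
      ring
    rw [hlam, h1, map_smul, hlift x Q hQ, smul_eq_mul, mul_comm, hψ]
  refine ⟨lam, fun b hb => ?_, fun c hc => ?_, hcoef, fun b hb n hst => ?_⟩
  · have h := hG0 b hb
    rw [Algebra.adjoin_singleton_eq_range_aeval] at h
    obtain ⟨Q, hQ⟩ := h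
    rw [hlam, hlift b Q hQ.symm, hψ0]
  · have h := hGinf c hc
    rw [Algebra.adjoin_singleton_eq_range_aeval] at h
    obtain ⟨g, hg⟩ := h
    have h2 : Algebra.trace k⟮j⟯ K (G * j ^ 2 * c) = aeval (AdjoinSimple.gen k j)⁻¹ g := by
      apply Subtype.ext
      rw [coe_aeval, IntermediateField.coe_inv, AdjoinSimple.coe_gen]
      exact hg.symm
    have h1 : G * c = ((AdjoinSimple.gen k j)⁻¹ ^ 2) • (G * j ^ 2 * c) := by
      rw [IntermediateField.smul_def, smul_eq_mul, IntermediateField.coe_pow,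
        IntermediateField.coe_inv, AdjoinSimple.coe_gen]
      have h3 : j⁻¹ ^ 2 * j ^ 2 = 1 := by
        rw [← mul_pow, inv_mul_cancel₀ hjne, one_pow]
      calc G * c = (j⁻¹ ^ 2 * j ^ 2) * (G * c) := by rw [h3, one_mul]
        _ = j⁻¹ ^ 2 * (G * j ^ 2 * c) := by ring
    rw [hlam, h1, map_smul, h2, smul_eq_mul, aeval_eq_sum_range, Finset.mul_sum, map_sum]
    refine Finset.sum_eq_zero fun a _ => ?_
    rw [mul_smul_comm, map_smul, ← pow_add, add_comm 2 a, hψinv, smul_zero]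
  · have h := hG0 b hb
    rw [Algebra.adjoin_singleton_eq_range_aeval] at h
    obtain ⟨Q, hQ⟩ := h
    have hQc : ∀ m : ℕ, Q.coeff m = lam (j⁻¹ ^ (m + 1) * b) := hcoef b Q hQ.symm
    have hcoeff0 : ∀ m, n ≤ m → Q.coeff m = 0 := fun m hm => (hQc m).trans (hst m hm)
    have hQ' : ((Algebra.trace k⟮j⟯ K (G * b) : k⟮j⟯) : K) = aeval j Q := hQ.symm
    rw [hQ']
    rcases Nat.eq_zero_or_pos n with rfl | hn
    · have hQ0 : Q = 0 := by
        ext m
        rw [coeff_zero]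
        exact hcoeff0 m (Nat.zero_le m)
      rw [hQ0, map_zero, Finset.range_zero, Finset.sum_empty]
    · have hdeg : Q.natDegree < n :=
        lt_of_le_of_lt (natDegree_le_iff_coeff_eq_zero.mpr fun m hm => hcoeff0 m (by omega))
          (Nat.sub_lt hn one_pos)
      rw [aeval_eq_sum_range' hdeg]
      refine Finset.sum_congr rfl fun m _ => ?_
      rw [Algebra.smul_def, hQc m]

/-- Two elements satisfying (F0) of `TraceDual.exists_traceDual` for the same functional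
agree (one in the "for every stabilisation index" form, one in the "for some" form). -/
theorem eq_of_F0 (j : K) [FiniteDimensional k⟮j⟯ K] [Algebra.IsSeparable k⟮j⟯ K]
    (lam : K →ₗ[k] k) (G G' : K)
    (hG : ∀ b : K, IsIntegral (Algebra.adjoin k {j}) b → ∀ n : ℕ,
      (∀ m, n ≤ m → lam (j⁻¹ ^ (m + 1) * b) = 0) →
      ((Algebra.trace k⟮j⟯ K (G * b) : k⟮j⟯) : K) =
        ∑ m ∈ Finset.range n, algebraMap k K (lam (j⁻¹ ^ (m + 1) * b)) * j ^ m)
    (hG' : ∀ b : K, IsIntegral (Algebra.adjoin k {j}) b → ∃ n : ℕ,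
      (∀ m, n ≤ m → lam (j⁻¹ ^ (m + 1) * b) = 0) ∧
      ((Algebra.trace k⟮j⟯ K (G' * b) : k⟮j⟯) : K) =
        ∑ m ∈ Finset.range n, algebraMap k K (lam (j⁻¹ ^ (m + 1) * b)) * j ^ m) :
    G' = G := by
  refine TraceDual.eq_of_trace_eq (k := k) j G' G fun b hb => ?_
  obtain ⟨n, hst, h'⟩ := hG' b hb
  exact Subtype.ext (h'.trans (hG b hb n hst).symm)

/-- **Round trip.**  A trace-dual element `G` is recovered from its functional: there is `lam`
killing `B₀` and `B∞` such that every element `G'` satisfying the conclusion (F0) of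
`TraceDual.exists_traceDual` for `lam` equals `G`. -/
theorem exists_functional_roundtrip (j : K) (hj : Transcendental k j)
    [FiniteDimensional k⟮j⟯ K] [Algebra.IsSeparable k⟮j⟯ K] (G : K)
    (hG0 : ∀ b : K, IsIntegral (Algebra.adjoin k {j}) b →
      ((Algebra.trace k⟮j⟯ K (G * b) : k⟮j⟯) : K) ∈ Algebra.adjoin k {j})
    (hGinf : ∀ c : K, IsIntegral (Algebra.adjoin k {j⁻¹}) c →
      ((Algebra.trace k⟮j⟯ K (G * j ^ 2 * c) : k⟮j⟯) : K) ∈ Algebra.adjoin k {j⁻¹}) :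
    ∃ lam : K →ₗ[k] k,
      (∀ b : K, IsIntegral (Algebra.adjoin k {j}) b → lam b = 0) ∧
      (∀ c : K, IsIntegral (Algebra.adjoin k {j⁻¹}) c → lam c = 0) ∧
      ∀ G' : K, (∀ b : K, IsIntegral (Algebra.adjoin k {j}) b → ∃ n : ℕ,
          (∀ m, n ≤ m → lam (j⁻¹ ^ (m + 1) * b) = 0) ∧
          ((Algebra.trace k⟮j⟯ K (G' * b) : k⟮j⟯) : K) =
            ∑ m ∈ Finset.range n, algebraMap k K (lam (j⁻¹ ^ (m + 1) * b)) * j ^ m) →
        G' = G := by
  obtain ⟨lam, h0, hinf, -, hF0⟩ := exists_functional_of_traceDual j hj G hG0 hGinf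
  exact ⟨lam, h0, hinf, fun G' hG' => eq_of_F0 j lam G G' hF0 hG'⟩

end Fermat.Agent.S44.D.TraceDualConv
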