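import Mathlib

/-!
# Reduction of traces along a family with unit discriminant (S44, strand D, seam (R))

Elementwise form of "the trace commutes with reduction at an unramified prime"; Mathlib only,
no localisation types, no DVR, no integral closure in the statement.

Two abstract "integral rings with two maps": `S` (integral elements upstairs) with
`ι : S →+* L` (generic fibre) and `ρ : S →+* Λ` (special fibre); `S₀` (the base) with
`ι₀ : S₀ →+* K`, `ρ₀ : S₀ →+* F`; `φ : S₀ →+* S` the structure map.  If traces of integral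
elements are integral (`hTr`), the kernel of the reduction is trace-stable (`hker`), `F` and `Λ`
are the fraction fields of the reductions (`hF`, `hΛ`), and there is a family `β` of
`[L : K]` integral elements whose trace discriminant reduces to a nonzero element, then

* the reductions `ρ (β i)` form an `F`-basis of `Λ` (`[Λ : F] = [L : K]`), and
* `Tr_{Λ/F} (ρ s) = ρ₀ (Tr_{L/K} (ι s))` for every `s : S` (`trace_red`).
-/

set_option autoImplicit false

open Matrix

namespace Fermat.Agent.S44.D.TraceRed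

/-! ### Generic linear algebra over a field extension -/

section Generic

variable {K L : Type*} [Field K] [Field L] [Algebra K L] {n : ℕ}

/-- A family with nonzero trace discriminant is linearly independent. -/
theorem linearIndependent_of_det_traceMatrix_ne_zero (b : Fin n → L)
    (h : (Algebra.traceMatrix K b).det ≠ 0) : LinearIndependent K b := by
  rw [Fintype.linearIndependent_iff]
  intro g hg
  have hv : g ᵥ* Algebra.traceMatrix K b = 0 := by
    funext l
    have h1 : Algebra.trace K L ((∑ i, g i • b i) * b l) = 0 := by rw [hg, zero_mul, map_zero]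
    rw [Finset.sum_mul, map_sum] at h1
    simp only [Matrix.vecMul, dotProduct, Algebra.traceMatrix_apply, Algebra.traceForm_apply,
      Pi.zero_apply]
    rw [← h1]
    refine Finset.sum_congr rfl fun i _ => ?_
    rw [smul_mul_assoc, map_smul, smul_eq_mul]
  have := Matrix.eq_zero_of_vecMul_eq_zero h hv
  intro i
  exact congrFun this i

/-- **Cramer.**  For a basis `bL` with trace matrix `T`, `det T • x = ∑ᵢ (v ᵥ* adj T) i • bL i`
where `v l = Tr (x * bL l)`. -/
theorem det_smul_eq_sum (bL : Module.Basis (Fin n) K L) (x : L) :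
    (Algebra.traceMatrix K bL).det • x
      = ∑ i, ((fun l => Algebra.trace K L (x * bL l)) ᵥ*
          (Algebra.traceMatrix K bL).adjugate) i • bL i := by
  set T := Algebra.traceMatrix K bL with hT
  set r : Fin n → K := fun i => bL.repr x i with hr
  have hx : x = ∑ i, r i • bL i := (bL.sum_repr x).symm
  have hv : (fun l => Algebra.trace K L (x * bL l)) = r ᵥ* T := by
    funext l
    conv_lhs => rw [hx, Finset.sum_mul, map_sum]
    simp only [Matrix.vecMul, dotProduct, hT, Algebra.traceMatrix_apply, Algebra.traceForm_apply]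
    refine Finset.sum_congr rfl fun i _ => ?_
    rw [smul_mul_assoc, map_smul, smul_eq_mul]
  rw [hv, Matrix.vecMul_vecMul, Matrix.mul_adjugate, Matrix.vecMul_smul, Matrix.vecMul_one]
  conv_lhs => rw [hx, Finset.smul_sum]
  refine Finset.sum_congr rfl fun i _ => ?_
  rw [Pi.smul_apply, smul_eq_mul, mul_smul]

/-- If `δ • (x * b i) = ∑ₗ a i l • b l` for all `i`, then `δ * Tr x = ∑ᵢ a i i`. -/
theorem mul_trace_eq_sum_diag (bL : Module.Basis (Fin n) K L) (x : L) (δ : K)
    (a : Fin n → Fin n → K) (h : ∀ i, δ • (x * bL i) = ∑ l, a i l • bL l) :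
    δ * Algebra.trace K L x = ∑ i, a i i := by
  rw [Algebra.trace_eq_matrix_trace bL, Matrix.trace, Finset.mul_sum]
  refine Finset.sum_congr rfl fun i _ => ?_
  rw [Matrix.diag_apply, Algebra.leftMulMatrix_eq_repr_mul]
  have h1 := congrArg (fun y => bL.repr y i) (h i)
  simp only [map_smul, map_sum, Finsupp.smul_apply, Finsupp.coe_finsetSum, Finset.sum_apply,
    Module.Basis.repr_self, Finsupp.single_apply, smul_eq_mul, mul_ite, mul_one, mul_zero,
    Finset.sum_ite_eq', Finset.mem_univ, if_true] at h1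
  exact h1

end Generic

/-! ### Reduction of traces -/

section Main

variable {K L F Λ S₀ S : Type*} [Field K] [Field L] [Algebra K L] [FiniteDimensional K L]
  [Field F] [Field Λ] [Algebra F Λ] [CommRing S₀] [CommRing S]

/-- **(R) Reduction of traces along a family with unit discriminant.** -/
theorem trace_red
    (ι₀ : S₀ →+* K) (ι : S →+* L) (ρ₀ : S₀ →+* F) (ρ : S →+* Λ) (φ : S₀ →+* S)
    (hι : Function.Injective ι)
    (hφι : ∀ t, ι (φ t) = algebraMap K L (ι₀ t)) (hφρ : ∀ t, ρ (φ t) = algebraMap F Λ (ρ₀ t))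
    (hTr : ∀ s : S, ∃ t : S₀, Algebra.trace K L (ι s) = ι₀ t)
    (hker : ∀ (s : S) (t : S₀), ρ s = 0 → Algebra.trace K L (ι s) = ι₀ t → ρ₀ t = 0)
    (hF : ∀ c : F, ∃ a d : S₀, ρ₀ d ≠ 0 ∧ c * ρ₀ d = ρ₀ a)
    (hΛ : ∀ y : Λ, ∃ u v : S, ρ v ≠ 0 ∧ y * ρ v = ρ u)
    (β : Fin (Module.finrank K L) → S) (d : S₀)
    (hd : (Algebra.traceMatrix K fun i => ι (β i)).det = ι₀ d) (hd0 : ρ₀ d ≠ 0) :
    ∃ bΛ : Module.Basis (Fin (Module.finrank K L)) F Λ,
      (∀ i, bΛ i = ρ (β i)) ∧
      ∀ (s : S) (t : S₀), Algebra.trace K L (ι s) = ι₀ t → Algebra.trace F Λ (ρ s) = ρ₀ t := by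
  classical
  -- `ρ₀` is well defined on `ι₀`-values
  have hW : ∀ t t' : S₀, ι₀ t = ι₀ t' → ρ₀ t = ρ₀ t' := by
    intro t t' h
    have h0 := hker 0 (t - t') (map_zero ρ) (by rw [map_zero, map_zero, map_sub, h, sub_self])
    rw [map_sub] at h0
    exact sub_eq_zero.mp h0
  choose tr htr using hTr
  set b : Fin (Module.finrank K L) → L := fun i => ι (β i) with hb
  -- the trace matrix over `S₀`
  set τ : Matrix (Fin (Module.finrank K L)) (Fin (Module.finrank K L)) S₀ :=
    Matrix.of fun i l => tr (β i * β l) with hτdef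
  have hτ : τ.map ι₀ = Algebra.traceMatrix K b := by
    ext i l
    rw [Matrix.map_apply, hτdef, Matrix.of_apply, ← htr, map_mul, Algebra.traceMatrix_apply,
      Algebra.traceForm_apply]
  have hdetι : ι₀ τ.det = ι₀ d := by
    rw [RingHom.map_det, RingHom.mapMatrix_apply, hτ, hd]
  have hdetρ : ρ₀ τ.det ≠ 0 := by rw [hW _ _ hdetι]; exact hd0
  have hdetι0 : ι₀ τ.det ≠ 0 := by
    intro h
    apply hdetρ
    rw [hW τ.det 0 (by rw [h, map_zero]), map_zero]
  -- `b` is a basis
  have hTdet : (Algebra.traceMatrix K b).det ≠ 0 := by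
    rw [← hτ, ← RingHom.mapMatrix_apply, ← RingHom.map_det]; exact hdetι0
  have hli : LinearIndependent K b := linearIndependent_of_det_traceMatrix_ne_zero b hTdet
  have : Nonempty (Fin (Module.finrank K L)) := Fin.pos_iff_nonempty.mp Module.finrank_pos
  set bL : Module.Basis (Fin (Module.finrank K L)) K L :=
    basisOfLinearIndependentOfCardEqFinrank hli (by simp) with hbLdef
  have hbL : ∀ i, bL i = b i := fun i => by
    rw [hbLdef, coe_basisOfLinearIndependentOfCardEqFinrank]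
  have hbL' : (⇑bL : Fin (Module.finrank K L) → L) = b := funext hbL
  -- Cramer over `S₀`
  set α : S → Fin (Module.finrank K L) → S₀ :=
    fun s => (fun l => tr (s * β l)) ᵥ* τ.adjugate with hα
  have hαι : ∀ s i, ι₀ (α s i) = ((fun l => Algebra.trace K L (ι s * bL l)) ᵥ*
      (Algebra.traceMatrix K bL).adjugate) i := by
    intro s i
    rw [hα, RingHom.map_vecMul, ← RingHom.mapMatrix_apply, RingHom.map_adjugate,
      RingHom.mapMatrix_apply, hτ, hbL']
    congr 2
    funext l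
    rw [Function.comp_apply, ← htr, map_mul]
  have hcrL : ∀ s, ι₀ τ.det • ι s = ∑ i, ι₀ (α s i) • bL i := by
    intro s
    have h1 := det_smul_eq_sum bL (ι s)
    rw [hbL', ← hτ, ← RingHom.mapMatrix_apply, ← RingHom.map_det] at h1
    rw [h1]
    refine Finset.sum_congr rfl fun i _ => ?_
    rw [hαι s i, hbL', ← hτ, ← RingHom.mapMatrix_apply]
  have hcr : ∀ s, φ τ.det * s = ∑ i, φ (α s i) * β i := by
    intro s
    apply hι
    rw [map_mul, map_sum, hφι, ← Algebra.smul_def, hcrL s]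
    refine Finset.sum_congr rfl fun i _ => ?_
    rw [map_mul, hφι, ← Algebra.smul_def, hbL i]
  have hρs : ∀ s, ρ₀ τ.det • ρ s = ∑ i, ρ₀ (α s i) • ρ (β i) := by
    intro s
    have h1 := congrArg ρ (hcr s)
    rw [map_mul, map_sum, hφρ, ← Algebra.smul_def] at h1
    rw [h1]
    refine Finset.sum_congr rfl fun i _ => ?_
    rw [map_mul, hφρ, ← Algebra.smul_def]
  -- independence of the reductions
  have hliΛ : LinearIndependent F fun i => ρ (β i) := by
    rw [Fintype.linearIndependent_iff]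
    intro cb hcb
    choose a δ hδ hcδ using fun i => hF (cb i)
    obtain ⟨Δ, hΔdef⟩ : ∃ Δ : S₀, Δ = ∏ i, δ i := ⟨_, rfl⟩
    obtain ⟨c, hcdef⟩ : ∃ c : Fin (Module.finrank K L) → S₀,
        ∀ i, c i = a i * ∏ l ∈ Finset.univ.erase i, δ l := ⟨_, fun _ => rfl⟩
    have hΔ : ρ₀ Δ ≠ 0 := by
      rw [hΔdef, map_prod]
      exact Finset.prod_ne_zero_iff.mpr fun i _ => hδ i
    have hcΔ : ∀ i, cb i * ρ₀ Δ = ρ₀ (c i) := by
      intro i
      have h1 : Δ = δ i * ∏ l ∈ Finset.univ.erase i, δ l := by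
        rw [hΔdef]
        exact (Finset.mul_prod_erase Finset.univ δ (Finset.mem_univ i)).symm
      rw [h1, map_mul, ← mul_assoc, hcδ i, hcdef i, map_mul]
    obtain ⟨y, hy⟩ : ∃ y : S, y = ∑ i, φ (c i) * β i := ⟨_, rfl⟩
    have hρy : ρ y = 0 := by
      rw [hy, map_sum]
      have h1 : ∑ i, ρ (φ (c i) * β i) = ρ₀ Δ • ∑ i, cb i • ρ (β i) := by
        rw [Finset.smul_sum]
        refine Finset.sum_congr rfl fun i _ => ?_
        rw [map_mul, hφρ, ← hcΔ i, ← Algebra.smul_def, mul_comm, mul_smul]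
      rw [h1, hcb, smul_zero]
    have hvec : (fun i => ρ₀ (c i)) ᵥ* τ.map ρ₀ = 0 := by
      funext l
      have htrace : Algebra.trace K L (ι (y * β l)) = ι₀ (∑ i, c i * τ i l) := by
        have e1 : ι (y * β l) = ∑ i, ι₀ (c i) • ι (β i * β l) := by
          rw [hy, Finset.sum_mul, map_sum]
          refine Finset.sum_congr rfl fun i _ => ?_
          rw [mul_assoc, map_mul ι (φ (c i)), hφι, ← Algebra.smul_def]
        rw [e1, map_sum, map_sum]
        refine Finset.sum_congr rfl fun i _ => ?_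
        rw [map_smul, smul_eq_mul, htr, map_mul ι₀ (c i) (τ i l)]
        rfl
      have h1 := hker (y * β l) (∑ i, c i * τ i l) (by rw [map_mul, hρy, zero_mul]) htrace
      rw [map_sum] at h1
      simp only [Matrix.vecMul, dotProduct, Matrix.map_apply, Pi.zero_apply]
      rw [← h1]
      exact Finset.sum_congr rfl fun i _ => (map_mul ρ₀ _ _).symm
    have hdet' : (τ.map ρ₀).det ≠ 0 := by
      rw [← RingHom.mapMatrix_apply, ← RingHom.map_det]; exact hdetρ
    have h0 := Matrix.eq_zero_of_vecMul_eq_zero hdet' hvec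
    intro i
    have h1 : cb i * ρ₀ Δ = 0 := by rw [hcΔ i]; exact congrFun h0 i
    exact (mul_eq_zero.mp h1).resolve_right hΔ
  -- the reductions span
  have hspan : ⊤ ≤ Submodule.span F (Set.range fun i => ρ (β i)) := by
    set P := Submodule.span F (Set.range fun i => ρ (β i)) with hP
    have hρP : ∀ s, ρ s ∈ P := by
      intro s
      have h1 : ρ s = (ρ₀ τ.det)⁻¹ • ∑ i, ρ₀ (α s i) • ρ (β i) := by
        rw [← hρs s, smul_smul, inv_mul_cancel₀ hdetρ, one_smul]
      rw [h1]
      exact P.smul_mem _ (P.sum_mem fun i _ => P.smul_mem _ (Submodule.subset_span ⟨i, rfl⟩))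
    have hA : Subalgebra.toSubmodule (Algebra.adjoin F (Set.range ρ)) ≤ P := by
      rw [Algebra.adjoin_eq_span]
      have h0 : Set.range ρ = ((MonoidHom.mrange (ρ : S →* Λ) : Submonoid Λ) : Set Λ) := by
        ext z
        simp
      rw [h0, Submonoid.closure_eq, ← h0, Submodule.span_le]
      rintro _ ⟨s, rfl⟩
      exact hρP s
    have hfin : FiniteDimensional F P := FiniteDimensional.span_of_finite F (Set.finite_range _)
    have hfinA : FiniteDimensional F (Algebra.adjoin F (Set.range ρ)) :=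
      Submodule.finiteDimensional_of_le hA
    intro y _
    obtain ⟨u, v, hv, hyv⟩ := hΛ y
    have hvA : ρ v ∈ Algebra.adjoin F (Set.range ρ) := Algebra.subset_adjoin ⟨v, rfl⟩
    have huA : ρ u ∈ Algebra.adjoin F (Set.range ρ) := Algebra.subset_adjoin ⟨u, rfl⟩
    have halg : IsAlgebraic F (ρ v) := by
      have h1 : IsAlgebraic F (⟨ρ v, hvA⟩ : Algebra.adjoin F (Set.range ρ)) :=
        Algebra.IsAlgebraic.isAlgebraic _
      exact h1.algHom (Algebra.adjoin F (Set.range ρ)).val
    have hinv : (ρ v)⁻¹ ∈ Algebra.adjoin F (Set.range ρ) :=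
      Subalgebra.inv_mem_of_algebraic (Algebra.adjoin F (Set.range ρ)) (x := ⟨ρ v, hvA⟩) halg
    have hy : y = ρ u * (ρ v)⁻¹ := by
      rw [← hyv, mul_assoc, mul_inv_cancel₀ hv, mul_one]
    rw [hy]
    exact hA (Subalgebra.mul_mem _ huA hinv)
  set bΛ : Module.Basis (Fin (Module.finrank K L)) F Λ := Module.Basis.mk hliΛ hspan with hbΛdef
  have hbΛ : ∀ i, bΛ i = ρ (β i) := fun i => by rw [hbΛdef, Module.Basis.mk_apply]
  refine ⟨bΛ, hbΛ, fun s t hst => ?_⟩
  -- the two traces
  have hup : ι₀ τ.det * Algebra.trace K L (ι s) = ∑ i, ι₀ (α (s * β i) i) := by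
    refine mul_trace_eq_sum_diag bL (ι s) (ι₀ τ.det) (fun i l => ι₀ (α (s * β i) l)) fun i => ?_
    rw [hbL i, hb, ← map_mul, hcrL]
  have hdown : ρ₀ τ.det * Algebra.trace F Λ (ρ s) = ∑ i, ρ₀ (α (s * β i) i) := by
    refine mul_trace_eq_sum_diag bΛ (ρ s) (ρ₀ τ.det) (fun i l => ρ₀ (α (s * β i) l)) fun i => ?_
    rw [hbΛ i, ← map_mul, hρs]
    exact Finset.sum_congr rfl fun l _ => by rw [hbΛ l]
  have h1 : ρ₀ (τ.det * t) = ρ₀ (∑ i, α (s * β i) i) := by
    apply hW
    rw [map_mul, ← hst, hup, map_sum]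
  rw [map_mul, map_sum, ← hdown] at h1
  exact (mul_left_cancel₀ hdetρ h1).symm

/-- Corollary of `trace_red`: the degree is preserved, `[Λ : F] = [L : K]`. -/
theorem finrank_red
    (ι₀ : S₀ →+* K) (ι : S →+* L) (ρ₀ : S₀ →+* F) (ρ : S →+* Λ) (φ : S₀ →+* S)
    (hι : Function.Injective ι)
    (hφι : ∀ t, ι (φ t) = algebraMap K L (ι₀ t)) (hφρ : ∀ t, ρ (φ t) = algebraMap F Λ (ρ₀ t))
    (hTr : ∀ s : S, ∃ t : S₀, Algebra.trace K L (ι s) = ι₀ t)
    (hker : ∀ (s : S) (t : S₀), ρ s = 0 → Algebra.trace K L (ι s) = ι₀ t → ρ₀ t = 0)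
    (hF : ∀ c : F, ∃ a d : S₀, ρ₀ d ≠ 0 ∧ c * ρ₀ d = ρ₀ a)
    (hΛ : ∀ y : Λ, ∃ u v : S, ρ v ≠ 0 ∧ y * ρ v = ρ u)
    (β : Fin (Module.finrank K L) → S) (d : S₀)
    (hd : (Algebra.traceMatrix K fun i => ι (β i)).det = ι₀ d) (hd0 : ρ₀ d ≠ 0) :
    FiniteDimensional F Λ ∧ Module.finrank F Λ = Module.finrank K L := by
  obtain ⟨bΛ, -, -⟩ := trace_red ι₀ ι ρ₀ ρ φ hι hφι hφρ hTr hker hF hΛ β d hd hd0
  exact ⟨Module.Finite.of_basis bΛ, by rw [Module.finrank_eq_card_basis bΛ, Fintype.card_fin]⟩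

end Main

/-! ### Named exports for the consumers (same hypotheses as `trace_red`) -/

section Exports

variable {K L F Λ S₀ S : Type*} [Field K] [Field L] [Algebra K L] [FiniteDimensional K L]
  [Field F] [Field Λ] [Algebra F Λ] [CommRing S₀] [CommRing S]
  (ι₀ : S₀ →+* K) (ι : S →+* L) (ρ₀ : S₀ →+* F) (ρ : S →+* Λ) (φ : S₀ →+* S)
  (hι : Function.Injective ι)
  (hφι : ∀ t, ι (φ t) = algebraMap K L (ι₀ t)) (hφρ : ∀ t, ρ (φ t) = algebraMap F Λ (ρ₀ t))
  (hTr : ∀ s : S, ∃ t : S₀, Algebra.trace K L (ι s) = ι₀ t)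
  (hker : ∀ (s : S) (t : S₀), ρ s = 0 → Algebra.trace K L (ι s) = ι₀ t → ρ₀ t = 0)
  (hF : ∀ c : F, ∃ a d : S₀, ρ₀ d ≠ 0 ∧ c * ρ₀ d = ρ₀ a)
  (hΛ : ∀ y : Λ, ∃ u v : S, ρ v ≠ 0 ∧ y * ρ v = ρ u)
  (β : Fin (Module.finrank K L) → S) (d : S₀)
  (hd : (Algebra.traceMatrix K fun i => ι (β i)).det = ι₀ d) (hd0 : ρ₀ d ≠ 0)

include hι hφι hφρ hTr hker hF hΛ hd hd0

/-- The reductions `ρ (β i)` are `F`-linearly independent. -/
theorem linearIndependent_red : LinearIndependent F fun i => ρ (β i) := by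
  obtain ⟨bΛ, hb, -⟩ := trace_red ι₀ ι ρ₀ ρ φ hι hφι hφρ hTr hker hF hΛ β d hd hd0
  have h : (fun i => ρ (β i)) = bΛ := funext fun i => (hb i).symm
  rw [h]
  exact bΛ.linearIndependent

/-- The reductions `ρ (β i)` span `Λ` over `F`. -/
theorem span_red : Submodule.span F (Set.range fun i => ρ (β i)) = ⊤ := by
  obtain ⟨bΛ, hb, -⟩ := trace_red ι₀ ι ρ₀ ρ φ hι hφι hφρ hTr hker hF hΛ β d hd hd0
  have h : (fun i => ρ (β i)) = bΛ := funext fun i => (hb i).symm
  rw [h]
  exact bΛ.span_eq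

/-- The trace discriminant of the reduced family is the reduction of the discriminant. -/
theorem det_traceMatrix_red : (Algebra.traceMatrix F fun i => ρ (β i)).det = ρ₀ d := by
  classical
  obtain ⟨bΛ, -, htrace⟩ := trace_red ι₀ ι ρ₀ ρ φ hι hφι hφρ hTr hker hF hΛ β d hd hd0
  choose tr htr using hTr
  obtain ⟨τ, hτdef⟩ : ∃ τ : Matrix (Fin (Module.finrank K L)) (Fin (Module.finrank K L)) S₀,
      ∀ i l, τ i l = tr (β i * β l) := ⟨Matrix.of fun i l => tr (β i * β l), fun _ _ => rfl⟩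
  have h1 : Algebra.traceMatrix F (fun i => ρ (β i)) = τ.map ρ₀ := by
    ext i l
    rw [Algebra.traceMatrix_apply, Algebra.traceForm_apply, ← map_mul, Matrix.map_apply, hτdef]
    exact htrace _ _ (htr _)
  have h2 : τ.map ι₀ = Algebra.traceMatrix K fun i => ι (β i) := by
    ext i l
    rw [Matrix.map_apply, hτdef, ← htr, map_mul, Algebra.traceMatrix_apply,
      Algebra.traceForm_apply]
  have h3 : ι₀ τ.det = ι₀ d := by
    rw [RingHom.map_det, RingHom.mapMatrix_apply, h2, hd]
  have h0 := hker 0 (τ.det - d) (map_zero ρ) (by rw [map_zero, map_zero, map_sub, h3, sub_self])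
  rw [map_sub] at h0
  rw [h1, ← RingHom.mapMatrix_apply, ← RingHom.map_det]
  exact sub_eq_zero.mp h0

/-- The special fibre is separable: `Λ / F` is a separable extension. -/
theorem isSeparable_red : Algebra.IsSeparable F Λ := by
  classical
  by_contra H
  have h0 := Algebra.trace_eq_zero_of_not_isSeparable H
  have h1 := det_traceMatrix_red ι₀ ι ρ₀ ρ φ hι hφι hφρ hTr hker hF hΛ β d hd hd0
  have h2 : Algebra.traceMatrix F (fun i => ρ (β i)) = 0 := by
    ext i l
    rw [Algebra.traceMatrix_apply, Algebra.traceForm_apply, h0]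
    rfl
  have : Nonempty (Fin (Module.finrank K L)) := Fin.pos_iff_nonempty.mp Module.finrank_pos
  rw [h2, Matrix.det_zero] at h1
  exact hd0 h1.symm

/-- Testing against the reduced family: an element of `Λ` all of whose traces against the
`ρ (β i)` vanish is zero. -/
theorem eq_zero_of_trace_mul_red_eq_zero (x : Λ)
    (hx : ∀ i, Algebra.trace F Λ (x * ρ (β i)) = 0) : x = 0 := by
  obtain ⟨bΛ, hb, -⟩ := trace_red ι₀ ι ρ₀ ρ φ hι hφι hφρ hTr hker hF hΛ β d hd hd0
  have hsep : Algebra.IsSeparable F Λ :=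
    isSeparable_red ι₀ ι ρ₀ ρ φ hι hφι hφρ hTr hker hF hΛ β d hd hd0
  have hfin : FiniteDimensional F Λ := Module.Finite.of_basis bΛ
  have hall : ∀ y : Λ, Algebra.trace F Λ (x * y) = 0 := by
    intro y
    rw [← bΛ.sum_repr y, Finset.mul_sum, map_sum]
    refine Finset.sum_eq_zero fun i _ => ?_
    rw [mul_smul_comm, map_smul, hb i, hx i, smul_zero]
  by_contra hx0
  obtain ⟨z, hz⟩ := Algebra.trace_surjective F Λ 1
  have h1 := hall (x⁻¹ * z)
  rw [← mul_assoc, mul_inv_cancel₀ hx0, one_mul, hz] at h1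
  exact one_ne_zero h1

/-- Two elements of `Λ` with the same traces against the reduced family are equal. -/
theorem eq_of_trace_mul_red_eq (x x' : Λ)
    (hx : ∀ i, Algebra.trace F Λ (x * ρ (β i)) = Algebra.trace F Λ (x' * ρ (β i))) : x = x' := by
  refine sub_eq_zero.mp
    (eq_zero_of_trace_mul_red_eq_zero ι₀ ι ρ₀ ρ φ hι hφι hφρ hTr hker hF hΛ β d hd hd0 _
      fun i => ?_)
  rw [sub_mul, map_sub, hx i, sub_self]

end Exports

end Fermat.Agent.S44.D.TraceRed
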