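import Mathlib
import Fermat.Agent.S30.Model.Main
import Fermat.Agent.S30.Model.FamilyTSD
import Fermat.Agent.S44.D.IntLiftChart
import Fermat.Agent.S44.D.GaussInt
import Fermat.Agent.S44.D.TraceRed
import Fermat.Agent.S44.D.TraceDualConv

/-!
# Strand D of S44: the special-fibre trace-dual element lifts, with reduction (level-free)

`O` a discrete valuation ring with fraction field `E`, uniformiser `π`, residue field `𝔨`;
`L` a field over `E`, `u : L` transcendental over `E`, `L / E(u)` finite separable and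
unramified at the Gauss prime `π` of `O[u]` (`Model.GaussUnram π u`); the charts
`C0 = CechP1.chart O {u}`, `C1 = chart O {u⁻¹}`, `C01 = chart O {u, u⁻¹}`, with free Čech `H¹`.

A *reduction datum* is a subring `R ⊆ L` containing `C01` with a ring homomorphism
`ρ : R → Λ` to a field `Λ` over `𝔨` such that: `ρ` is the residue map on constants (`halg`);
elements of `R` with nonzero reduction are invertible in `R` (`hinv`); an element of `C0` with
zero reduction is divisible by `π` in `C0` (`hker`); `Λ` is the field of fractions of `ρ (C0)`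
(`hfrac`); `ρ u` is transcendental over `𝔨` (`htrans`).

* `exists_lift_red` : every `Gbar : Λ` which is trace-dual on the special fibre
  (`Tr (Gbar B̄₀) ⊆ 𝔨[ū]`, `Tr (Gbar ū² B̄∞) ⊆ 𝔨[ū⁻¹]`, hypotheses of
  `TraceDualConv.exists_functional_of_traceDual`) is the reduction `ρ G` of some `G ∈ R` with
  `Tr (G C0) ⊆ O[u]` and `Tr (G u² C1) ⊆ O[u⁻¹]`.
-/

set_option autoImplicit false

open Polynomial

namespace Fermat.Agent.S44.D.LiftRed

open Fermat.Agent.S30.Model Fermat.Agent.S30.Model.CechP1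
open Fermat.Agent.S44.D.CechFree

/-! ### Generic lemmas -/

section Generic

/-- The coefficients of a polynomial read as a Laurent polynomial. -/
theorem coeff_toLaurent_natCast {R : Type*} [CommRing R] (p : R[X]) (m : ℕ) :
    (toLaurent p).coeff (m : ℤ) = p.coeff m := by
  induction p using Polynomial.induction_on' with
  | add p q hp hq =>
    simp only [map_add, AddMonoidAlgebra.coeff_add, Finsupp.coe_add, Pi.add_apply, hp, hq,
      Polynomial.coeff_add]
  | monomial n a =>
    rw [← Polynomial.C_mul_X_pow_eq_monomial, map_mul, Polynomial.toLaurent_C,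
      Polynomial.toLaurent_X_pow, ← LaurentPolynomial.single_eq_C_mul_T,
      AddMonoidAlgebra.coeff_single, Polynomial.coeff_C_mul_X_pow]
    simp [Finsupp.single_apply, eq_comm]

/-- An explicit monic equation with coefficients polynomial in `t` shows integrality over
`R[t]`. -/
theorem isIntegral_adjoin_of_eqn {R A : Type*} [CommRing R] [CommRing A] [Algebra R A] (t x : A)
    (d : ℕ) (a : ℕ → R[X]) (h : x ^ d = ∑ i ∈ Finset.range d, aeval t (a i) * x ^ i) :
    IsIntegral (Algebra.adjoin R {t}) x := by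
  classical
  have hmem : ∀ i, aeval t (a i) ∈ Algebra.adjoin R {t} := fun i => by
    rw [Algebra.adjoin_singleton_eq_range_aeval]; exact ⟨a i, rfl⟩
  set q : (Algebra.adjoin R {t})[X] :=
    ∑ i ∈ Finset.range d, C (⟨aeval t (a i), hmem i⟩ : Algebra.adjoin R {t}) * X ^ i with hq
  have hdeg : q.degree < d := by
    refine lt_of_le_of_lt (degree_sum_le _ _) ?_
    refine (Finset.sup_lt_iff (WithBot.bot_lt_coe d)).mpr fun i hi => ?_
    exact lt_of_le_of_lt (degree_C_mul_X_pow_le i _)
      (WithBot.coe_lt_coe.mpr (Finset.mem_range.mp hi))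
  refine ⟨X ^ d - q, monic_X_pow_sub hdeg, ?_⟩
  rw [eval₂_sub, eval₂_X_pow, hq, eval₂_finsetSum, h, sub_eq_zero]
  refine Finset.sum_congr rfl fun i _ => ?_
  rw [eval₂_mul, eval₂_C, eval₂_X_pow]
  rfl

end Generic

/-! ### Polynomial evaluation through a reduction datum -/

section Datum

variable {O L Λ : Type*} [CommRing O] [IsLocalRing O] [Field L] [Algebra O L]
  [Field Λ] [Algebra (IsLocalRing.ResidueField O) Λ]
  (R : Subring L) (ρ : R →+* Λ) (f : O →+* R)

omit [IsLocalRing O] in
theorem coe_eval₂ (hf : ∀ c, (f c : L) = algebraMap O L c) (w : R) (P : O[X]) :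
    ((eval₂ f w P : R) : L) = aeval (w : L) P := by
  have h := Polynomial.hom_eval₂ P f R.subtype w
  have hc : R.subtype.comp f = algebraMap O L := RingHom.ext hf
  rw [hc] at h
  exact h

omit [Algebra O L] in
theorem rho_eval₂
    (hρf : ∀ c, ρ (f c) = algebraMap (IsLocalRing.ResidueField O) Λ (IsLocalRing.residue O c))
    (w : R) (P : O[X]) :
    ρ (eval₂ f w P) =
      eval₂ ((algebraMap (IsLocalRing.ResidueField O) Λ).comp (IsLocalRing.residue O)) (ρ w) P := by
  have h := Polynomial.hom_eval₂ P f ρ w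
  have hc : ρ.comp f =
      (algebraMap (IsLocalRing.ResidueField O) Λ).comp (IsLocalRing.residue O) := RingHom.ext hρf
  rw [hc] at h
  exact h

omit [Field L] [Algebra O L] in
theorem eval₂_comp_residue (j : Λ) (P : O[X]) :
    eval₂ ((algebraMap (IsLocalRing.ResidueField O) Λ).comp (IsLocalRing.residue O)) j P =
      aeval j (P.map (IsLocalRing.residue O)) := by
  rw [aeval_def, eval₂_map]

/-- The reduction of an element integral over `O[w]` is integral over `𝔨[ρ w]`. -/
theorem rho_isIntegral (hf : ∀ c, (f c : L) = algebraMap O L c)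
    (hρf : ∀ c, ρ (f c) = algebraMap (IsLocalRing.ResidueField O) Λ (IsLocalRing.residue O c))
    (w x : R) (h : IsIntegral (Algebra.adjoin O {(w : L)}) (x : L)) :
    IsIntegral (Algebra.adjoin (IsLocalRing.ResidueField O) {ρ w}) (ρ x) := by
  obtain ⟨d, r, a, -, heq⟩ := exists_eqn_of_isIntegral (w : L) (x : L) h
  have h1 : x ^ d = ∑ i ∈ Finset.range d, eval₂ f w (a i) * x ^ i := by
    apply R.subtype_injective
    rw [map_pow, map_sum]
    simp only [map_mul, map_pow]
    refine heq.trans (Finset.sum_congr rfl fun i _ => ?_)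
    rw [← coe_eval₂ R f hf w (a i)]
    rfl
  have h2 := congrArg ρ h1
  rw [map_pow, map_sum] at h2
  simp only [map_mul, map_pow, rho_eval₂ R ρ f hρf, eval₂_comp_residue] at h2
  exact isIntegral_adjoin_of_eqn (ρ w) (ρ x) d (fun i => (a i).map (IsLocalRing.residue O)) h2

end Datum

/-! ### The Gauss prime -/

section Gauss

variable {O L : Type*} [CommRing O] [IsDomain O] [IsDiscreteValuationRing O] [Field L]
  [Algebra O L]

/-- A polynomial over `O` whose reduction vanishes takes values divisible by `π` in `O[u]`. -/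
theorem exists_eq_pi_mul_of_map_eq_zero (π : O) (hπ : Irreducible π) (u : L) (P : O[X])
    (hP : P.map (IsLocalRing.residue O) = 0) :
    ∃ c : L, c ∈ Algebra.adjoin O {u} ∧ aeval u P = algebraMap O L π * c := by
  have hdvd : ∀ i, π ∣ P.coeff i := by
    intro i
    have h := congrArg (fun q => q.coeff i) hP
    simp only [coeff_map, coeff_zero] at h
    rw [IsLocalRing.residue_eq_zero_iff, hπ.maximalIdeal_eq, Ideal.mem_span_singleton] at h
    exact h
  obtain ⟨q, hq⟩ := (C_dvd_iff_dvd_coeff π P).mpr hdvd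
  refine ⟨aeval u q, ?_, by rw [hq, map_mul, aeval_C]⟩
  rw [Algebra.adjoin_singleton_eq_range_aeval]
  exact ⟨q, rfl⟩

omit [IsDomain O] [IsDiscreteValuationRing O] [Algebra O L] in
/-- The residue of a uniformiser vanishes. -/
theorem residue_irreducible_eq_zero [IsLocalRing O] (π : O) (hπ : Irreducible π) :
    IsLocalRing.residue O π = 0 := by
  rw [IsLocalRing.residue_eq_zero_iff]
  exact (IsLocalRing.mem_maximalIdeal π).mpr hπ.not_isUnit

end Gauss

/-! ### Traces of integral elements -/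

section Trace

variable {O E L : Type*} [CommRing O] [IsDomain O] [UniqueFactorizationMonoid O] [Field E]
  [Algebra O E] [IsFractionRing O E] [Field L] [Algebra E L] [Algebra O L] [IsScalarTower O E L]

/-- The trace to `E(u)` of an element integral over `O[u]` is a polynomial in `u` over `O`. -/
theorem exists_trace_eq_aeval (u : L) (hu : Transcendental E u)
    [FiniteDimensional (IntermediateField.adjoin E {u}) L] (s : L)
    (hs : IsIntegral (Algebra.adjoin O {u}) s) :
    ∃ t : O[X], ((Algebra.trace (IntermediateField.adjoin E {u}) L s :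
      IntermediateField.adjoin E {u}) : L) = aeval u t := by
  have huK : u ∈ IntermediateField.adjoin E {u} := IntermediateField.mem_adjoin_simple_self E u
  have huO : Transcendental O u := hu.restrictScalars (IsFractionRing.injective O E)
  let _ := (ChartInst.incl O u (IntermediateField.adjoin E {u}) huK).toAlgebra
  have hST := ChartInst.isScalarTower_incl O u (IntermediateField.adjoin E {u}) huK
  have hFR := ChartInst.isFractionRing_incl O u (IntermediateField.adjoin E {u}) huK le_rfl
  have hIC := ChartInst.isIntegrallyClosed_adjoin O u huO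
  have h1 : IsIntegral (Algebra.adjoin O {u})
      (Algebra.trace (IntermediateField.adjoin E {u}) L s) := Algebra.isIntegral_trace hs
  obtain ⟨y, hy⟩ := IsIntegrallyClosed.isIntegral_iff.1 h1
  have hmem : (y : L) ∈ (aeval u : O[X] →ₐ[O] L).range := by
    rw [← Algebra.adjoin_singleton_eq_range_aeval]
    exact y.2
  obtain ⟨t, ht⟩ := hmem
  exact ⟨t, by rw [← hy]; exact ht.symm⟩

end Trace

/-! ### The lift -/

section Main

variable {O E L : Type*} [CommRing O] [IsDomain O] [IsDiscreteValuationRing O]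
  [Field E] [Algebra O E] [IsFractionRing O E]
  [Field L] [Algebra E L] [Algebra O L] [IsScalarTower O E L]
  {Λ : Type*} [Field Λ] [Algebra (IsLocalRing.ResidueField O) Λ]

/-- **The special-fibre trace-dual element lifts, with reduction.** -/
theorem exists_lift_red (π : O) (hπ : Irreducible π) (u : L) (hu : Transcendental E u)
    [FiniteDimensional (IntermediateField.adjoin E {u}) L]
    [Algebra.IsSeparable (IntermediateField.adjoin E {u}) L]
    (hunr : GaussUnram (E := E) π u)
    [Module.Free O (CechH (chart O ({u} : Set L)) (chart O ({u⁻¹} : Set L))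
      (chart O ({u, u⁻¹} : Set L)))]
    (R : Subring L) (ρ : R →+* Λ)
    (hR : ∀ x : L, x ∈ chart O ({u, u⁻¹} : Set L) → x ∈ R)
    (hinv : ∀ x : R, ρ x ≠ 0 → (x : L)⁻¹ ∈ R)
    (halg : ∀ (c : O) (x : R), (x : L) = algebraMap O L c →
      ρ x = algebraMap (IsLocalRing.ResidueField O) Λ (IsLocalRing.residue O c))
    (hker : ∀ x : R, (x : L) ∈ chart O ({u} : Set L) → ρ x = 0 →
      ∃ y : L, y ∈ chart O ({u} : Set L) ∧ (x : L) = algebraMap O L π * y)
    (hfrac : ∀ y : Λ, ∃ a b : R, (a : L) ∈ chart O ({u} : Set L) ∧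
      (b : L) ∈ chart O ({u} : Set L) ∧ ρ b ≠ 0 ∧ y * ρ b = ρ a)
    (ū : R) (hū : (ū : L) = u) (htrans : Transcendental (IsLocalRing.ResidueField O) (ρ ū))
    (Gbar : Λ)
    (hG0 : ∀ b : Λ, IsIntegral (Algebra.adjoin (IsLocalRing.ResidueField O) {ρ ū}) b →
      ((Algebra.trace (IntermediateField.adjoin (IsLocalRing.ResidueField O) {ρ ū}) Λ (Gbar * b) :
        IntermediateField.adjoin (IsLocalRing.ResidueField O) {ρ ū}) : Λ) ∈
          Algebra.adjoin (IsLocalRing.ResidueField O) {ρ ū})
    (hGinf : ∀ c : Λ, IsIntegral (Algebra.adjoin (IsLocalRing.ResidueField O) {(ρ ū)⁻¹}) c →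
      ((Algebra.trace (IntermediateField.adjoin (IsLocalRing.ResidueField O) {ρ ū}) Λ
        (Gbar * ρ ū ^ 2 * c) :
        IntermediateField.adjoin (IsLocalRing.ResidueField O) {ρ ū}) : Λ) ∈
          Algebra.adjoin (IsLocalRing.ResidueField O) {(ρ ū)⁻¹}) :
    ∃ G : R, ρ G = Gbar ∧
      (∀ b : L, b ∈ chart O ({u} : Set L) → ∃ p : O[X],
        ((Algebra.trace (IntermediateField.adjoin E {u}) L ((G : L) * b) :
          IntermediateField.adjoin E {u}) : L) = aeval u p) ∧
      (∀ b : L, b ∈ chart O ({u⁻¹} : Set L) → ∃ p : O[X],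
        ((Algebra.trace (IntermediateField.adjoin E {u}) L ((G : L) * (u ^ 2 * b)) :
          IntermediateField.adjoin E {u}) : L) = aeval u⁻¹ p) := by
  classical
  subst hū
  have hu0 : (ū : L) ≠ 0 := by
    intro h0
    rw [h0] at hu
    exact hu isAlgebraic_zero
  have h0le : chart O ({(ū : L)} : Set L) ≤ chart O ({(ū : L), (ū : L)⁻¹} : Set L) :=
    chart_mono (by simp)
  have h1le : chart O ({(ū : L)⁻¹} : Set L) ≤ chart O ({(ū : L), (ū : L)⁻¹} : Set L) :=
    chart_mono (by simp)
  have hu0mem : (ū : L) ∈ chart O ({(ū : L)} : Set L) :=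
    isIntegral_adjoin_of_mem (Algebra.subset_adjoin (Set.mem_singleton _))
  have hu1mem : (ū : L)⁻¹ ∈ chart O ({(ū : L)⁻¹} : Set L) :=
    isIntegral_adjoin_of_mem (Algebra.subset_adjoin (Set.mem_singleton _))
  -- the structure map `O → R`
  let f : O →+* R := (algebraMap O L).codRestrict R
    (fun c => hR _ (Subalgebra.algebraMap_mem _ c))
  have hf : ∀ c, (f c : L) = algebraMap O L c := fun c => rfl
  have hρf : ∀ c, ρ (f c) =
      algebraMap (IsLocalRing.ResidueField O) Λ (IsLocalRing.residue O c) :=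
    fun c => halg c (f c) rfl
  -- the inverse coordinate
  let vR : R := ⟨(ū : L)⁻¹, hR _ (h1le hu1mem)⟩
  have huv : ū * vR = 1 := Subtype.ext (mul_inv_cancel₀ hu0)
  have hρv : ρ vR = (ρ ū)⁻¹ := by
    have h := congrArg ρ huv
    rw [map_mul, map_one] at h
    exact eq_inv_of_mul_eq_one_right h
  -- Step 1: the functional of `Gbar`
  obtain ⟨lam, hlam0, hlam1, hlamc, -⟩ :=
    TraceDualConv.exists_functional_of_traceDual (ρ ū) htrans Gbar hG0 hGinf
  -- Step 2: the induced functional on the Čech `H¹`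
  let μ : Subalgebra.toSubmodule (chart O ({(ū : L), (ū : L)⁻¹} : Set L)) →ₗ[O]
      IsLocalRing.ResidueField O :=
    { toFun := fun x => lam (ρ ⟨(x : L), hR _ x.2⟩)
      map_add' := fun x y => by
        have e : (⟨((x + y :
            Subalgebra.toSubmodule (chart O ({(ū : L), (ū : L)⁻¹} : Set L))) : L),
            hR _ (x + y).2⟩ : R) = ⟨(x : L), hR _ x.2⟩ + ⟨(y : L), hR _ y.2⟩ := rfl
        rw [e, map_add, map_add]
      map_smul' := fun c x => by
        have e : (⟨((c • x :
            Subalgebra.toSubmodule (chart O ({(ū : L), (ū : L)⁻¹} : Set L))) : L),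
            hR _ (c • x).2⟩ : R) = f c * ⟨(x : L), hR _ x.2⟩ :=
          Subtype.ext (Algebra.smul_def c (x : L))
        rw [e, map_mul, hρf, ← Algebra.smul_def, map_smul, RingHom.id_apply,
          Algebra.smul_def c, IsLocalRing.ResidueField.algebraMap_eq, smul_eq_mul] }
  have hμ : ∀ x : Subalgebra.toSubmodule (chart O ({(ū : L), (ū : L)⁻¹} : Set L)),
      μ x = lam (ρ ⟨(x : L), hR _ x.2⟩) := fun _ => rfl
  have hμ0 : ∀ x : Subalgebra.toSubmodule (chart O ({(ū : L), (ū : L)⁻¹} : Set L)),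
      (x : L) ∈ chart O ({(ū : L)} : Set L) → μ x = 0 := fun x hx =>
    hlam0 _ (rho_isIntegral R ρ f hf hρf ū ⟨(x : L), hR _ x.2⟩ hx)
  have hμ1 : ∀ x : Subalgebra.toSubmodule (chart O ({(ū : L), (ū : L)⁻¹} : Set L)),
      (x : L) ∈ chart O ({(ū : L)⁻¹} : Set L) → μ x = 0 := fun x hx => by
    have h := rho_isIntegral R ρ f hf hρf vR ⟨(x : L), hR _ x.2⟩ hx
    rw [hρv] at h
    exact hlam1 _ h
  have hμker : (chartSum (chart O ({(ū : L)} : Set L)) (chart O ({(ū : L)⁻¹} : Set L))).comap
      (Subalgebra.toSubmodule (chart O ({(ū : L), (ū : L)⁻¹} : Set L))).subtype ≤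
        LinearMap.ker μ := by
    intro x hx
    rw [Submodule.mem_comap] at hx
    obtain ⟨a, ha, b, hb, hab⟩ := mem_chartSum_iff.mp hx
    rw [LinearMap.mem_ker]
    have e : x = (⟨a, h0le ha⟩ : Subalgebra.toSubmodule
        (chart O ({(ū : L), (ū : L)⁻¹} : Set L))) + ⟨b, h1le hb⟩ := Subtype.ext hab.symm
    rw [e, map_add, hμ0 _ ha, hμ1 _ hb, add_zero]
  let lamH : CechH (chart O ({(ū : L)} : Set L)) (chart O ({(ū : L)⁻¹} : Set L))
      (chart O ({(ū : L), (ū : L)⁻¹} : Set L)) →ₗ[O] IsLocalRing.ResidueField O :=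
    Submodule.liftQ _ μ hμker
  have hlamH : ∀ x, lamH (cechClass _ _ _ x) = μ x := fun x => Submodule.liftQ_apply _ _ _
  -- Step 3: lift to an `O`-valued functional and take its dual element
  have hsurj : Function.Surjective (algebraMap O (IsLocalRing.ResidueField O)) :=
    IsLocalRing.residue_surjective
  obtain ⟨Lam, hLam⟩ := exists_lift_functional hsurj lamH
  obtain ⟨G, hGC0, hGC1, hGP⟩ := IntLiftChart.exists_dual_cechH (O := O) (ū : L) hu hu0 Lam
  have hcoef : ∀ (b : L) (hb : b ∈ chart O ({(ū : L)} : Set L)), ∃ p : O[X],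
      ((Algebra.trace (IntermediateField.adjoin E {(ū : L)}) L (G * b) :
        IntermediateField.adjoin E {(ū : L)}) : L) = aeval (ū : L) p ∧
      ∀ m : ℕ, IsLocalRing.residue O (p.coeff m) =
        lam ((ρ ū)⁻¹ ^ (m + 1) * ρ ⟨b, hR _ (h0le hb)⟩) := by
    intro b hb
    obtain ⟨P, hP, hc⟩ := hGP b (h0le hb)
    have hmem : ∀ m : ℤ, (ū : L) ^ m * b ∈ chart O ({(ū : L), (ū : L)⁻¹} : Set L) := fun m =>
      IntLift.zpow_mul_mem _ (ū : L) (h0le hu0mem) (h1le hu1mem) (h0le hb) m
    have hneg : ∀ m : ℤ, m < 0 → P.coeff m = 0 := by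
      intro m hm
      have hmem0 : (ū : L) ^ (-m - 1) * b ∈ chart O ({(ū : L)} : Set L) := by
        obtain ⟨n, hn⟩ := Int.eq_ofNat_of_zero_le (show 0 ≤ -m - 1 by omega)
        rw [hn, zpow_natCast]
        exact mul_mem (pow_mem hu0mem n) hb
      rw [hc m (h0le hmem0),
        (cechClass_eq_zero_iff _ _ _ _).mpr (mem_chartSum_of_mem_left hmem0), map_zero]
    obtain ⟨p, hp⟩ := IntLiftChart.exists_toLaurent_eq P hneg
    refine ⟨p, by rw [hP, ← hp, IntLift.lev_toLaurent], fun m => ?_⟩
    have hpm : p.coeff m = P.coeff (m : ℤ) := by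
      rw [← hp]
      exact (coeff_toLaurent_natCast p m).symm
    rw [hpm, hc (m : ℤ) (hmem _), ← IsLocalRing.ResidueField.algebraMap_eq, hLam, hlamH, hμ]
    congr 1
    have e : (⟨(ū : L) ^ (-(m : ℤ) - 1) * b, hR _ (hmem _)⟩ : R) =
        vR ^ (m + 1) * ⟨b, hR _ (h0le hb)⟩ := by
      apply Subtype.ext
      show (ū : L) ^ (-(m : ℤ) - 1) * b = (ū : L)⁻¹ ^ (m + 1) * b
      congr 1
      rw [inv_pow, ← zpow_natCast, ← zpow_neg]
      congr 1
      push_cast
      ring
    rw [e, map_mul, map_pow, hρv]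
  -- transcendence of the reduced coordinate, in polynomial form
  have hinj : ∀ P : O[X],
      eval₂ ((algebraMap (IsLocalRing.ResidueField O) Λ).comp (IsLocalRing.residue O)) (ρ ū) P = 0 →
        P.map (IsLocalRing.residue O) = 0 := by
    intro P hP
    rw [eval₂_comp_residue] at hP
    exact (injective_iff_map_eq_zero _).mp (transcendental_iff_injective.mp htrans) _ hP
  -- Step 4: `G` is Gauss-integral, hence lies in `R`
  have huO : Transcendental O (ū : L) := FamilyTSD.transcendental_base (ū : L) hu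
  have hTSD : GaussTSD (E := E) π (ū : L) :=
    FamilyTSD.tsdAt_of_unramAt O (ū : L) huO (algebraMap O (Algebra.adjoin O {(ū : L)}) π)
      (ChartInst.prime_algebraMap_adjoin O (ū : L) huO hπ.prime) hunr
  obtain ⟨s, hsmem, hsnd, hsG⟩ := GaussInt.gauss_integral_of_trace π hπ.prime (ū : L) hu hTSD G
    (fun b hb => hGC0 b hb)
  obtain ⟨sp, hsp⟩ : ∃ sp : O[X], aeval (ū : L) sp = s := by
    have h : s ∈ (aeval (ū : L) : O[X] →ₐ[O] L).range := by
      rw [← Algebra.adjoin_singleton_eq_range_aeval]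
      exact hsmem
    exact h
  let sR : R := eval₂ f ū sp
  have hsR : (sR : L) = s := (coe_eval₂ R f hf ū sp).trans hsp
  have hρsR : ρ sR ≠ 0 := by
    intro h0
    rw [rho_eval₂ R ρ f hρf] at h0
    obtain ⟨c, hc, hcs⟩ := exists_eq_pi_mul_of_map_eq_zero π hπ (ū : L) sp (hinj sp h0)
    exact hsnd c hc (hsp.symm.trans hcs)
  have hs0 : s ≠ 0 := by
    intro h0
    exact hsnd 0 (zero_mem _) (by rw [h0, mul_zero])
  let sGR : R := ⟨s * G, hR _ (h0le hsG)⟩
  let GR : R := ⟨(sR : L)⁻¹, hinv sR hρsR⟩ * sGR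
  have hGR : (GR : L) = G := by
    show (sR : L)⁻¹ * (s * G) = G
    rw [hsR, ← mul_assoc, inv_mul_cancel₀ hs0, one_mul]
  have hsGR : sR * GR = sGR := by
    apply Subtype.ext
    show (sR : L) * (GR : L) = s * G
    rw [hsR, hGR]
  -- Step 5: reduction of traces (`TraceRed`) on the chart `C0`
  let ι₀ : O[X] →+* IntermediateField.adjoin E {(ū : L)} :=
    eval₂RingHom ((algebraMap E (IntermediateField.adjoin E {(ū : L)})).comp (algebraMap O E))
      (IntermediateField.AdjoinSimple.gen E (ū : L))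
  have hι₀ : ∀ t : O[X],
      ((ι₀ t : IntermediateField.adjoin E {(ū : L)}) : L) = aeval (ū : L) t := by
    intro t
    have h := Polynomial.hom_eval₂ t
      ((algebraMap E (IntermediateField.adjoin E {(ū : L)})).comp (algebraMap O E))
      (algebraMap (IntermediateField.adjoin E {(ū : L)}) L)
      (IntermediateField.AdjoinSimple.gen E (ū : L))
    have hc : (algebraMap (IntermediateField.adjoin E {(ū : L)}) L).comp
        ((algebraMap E (IntermediateField.adjoin E {(ū : L)})).comp (algebraMap O E)) =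
          algebraMap O L := by
      ext c
      simp only [RingHom.comp_apply]
      rw [IsScalarTower.algebraMap_apply O E L]
      rfl
    rw [hc, IntermediateField.AdjoinSimple.algebraMap_gen] at h
    exact h
  let ρ₀ : O[X] →+* IntermediateField.adjoin (IsLocalRing.ResidueField O) {ρ ū} :=
    eval₂RingHom ((algebraMap (IsLocalRing.ResidueField O)
      (IntermediateField.adjoin (IsLocalRing.ResidueField O) {ρ ū})).comp (IsLocalRing.residue O))
      (IntermediateField.AdjoinSimple.gen (IsLocalRing.ResidueField O) (ρ ū))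
  have hρ₀ : ∀ t : O[X],
      ((ρ₀ t : IntermediateField.adjoin (IsLocalRing.ResidueField O) {ρ ū}) : Λ) =
        eval₂ ((algebraMap (IsLocalRing.ResidueField O) Λ).comp (IsLocalRing.residue O))
          (ρ ū) t := by
    intro t
    have h := Polynomial.hom_eval₂ t
      ((algebraMap (IsLocalRing.ResidueField O)
        (IntermediateField.adjoin (IsLocalRing.ResidueField O) {ρ ū})).comp
          (IsLocalRing.residue O))
      (algebraMap (IntermediateField.adjoin (IsLocalRing.ResidueField O) {ρ ū}) Λ)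
      (IntermediateField.AdjoinSimple.gen (IsLocalRing.ResidueField O) (ρ ū))
    have hc : (algebraMap (IntermediateField.adjoin (IsLocalRing.ResidueField O) {ρ ū}) Λ).comp
        ((algebraMap (IsLocalRing.ResidueField O)
          (IntermediateField.adjoin (IsLocalRing.ResidueField O) {ρ ū})).comp
            (IsLocalRing.residue O)) =
          (algebraMap (IsLocalRing.ResidueField O) Λ).comp (IsLocalRing.residue O) := rfl
    rw [hc, IntermediateField.AdjoinSimple.algebraMap_gen] at h
    exact h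
  let ι : chart O ({(ū : L)} : Set L) →+* L := (chart O ({(ū : L)} : Set L)).val
  let ρS : chart O ({(ū : L)} : Set L) →+* Λ :=
    ρ.comp (((chart O ({(ū : L)} : Set L)).val : _ →+* L).codRestrict R
      (fun x => hR _ (h0le x.2)))
  let φ : O[X] →+* chart O ({(ū : L)} : Set L) :=
    (aeval (⟨(ū : L), hu0mem⟩ : chart O ({(ū : L)} : Set L)) : O[X] →ₐ[O] _)
  have hφ : ∀ t : O[X], ((φ t : chart O ({(ū : L)} : Set L)) : L) = aeval (ū : L) t := by
    intro t
    have h := Polynomial.aeval_algHom_apply (chart O ({(ū : L)} : Set L)).val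
      (⟨(ū : L), hu0mem⟩ : chart O ({(ū : L)} : Set L)) t
    exact h.symm
  have hρS : ∀ x : chart O ({(ū : L)} : Set L), ρS x = ρ ⟨(x : L), hR _ (h0le x.2)⟩ :=
    fun _ => rfl
  have hι : Function.Injective ι := Subtype.val_injective
  have hφι : ∀ t, ι (φ t) = algebraMap (IntermediateField.adjoin E {(ū : L)}) L (ι₀ t) :=
    fun t => (hφ t).trans (hι₀ t).symm
  have hφρ : ∀ t, ρS (φ t) =
      algebraMap (IntermediateField.adjoin (IsLocalRing.ResidueField O) {ρ ū}) Λ (ρ₀ t) := by
    intro t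
    have e : (⟨((φ t : chart O ({(ū : L)} : Set L)) : L), hR _ (h0le (φ t).2)⟩ : R) =
        eval₂ f ū t := Subtype.ext ((hφ t).trans (coe_eval₂ R f hf ū t).symm)
    rw [hρS, e, rho_eval₂ R ρ f hρf]
    exact (hρ₀ t).symm
  have hTr : ∀ x : chart O ({(ū : L)} : Set L), ∃ t : O[X],
      Algebra.trace (IntermediateField.adjoin E {(ū : L)}) L (ι x) = ι₀ t := by
    intro x
    obtain ⟨t, ht⟩ := exists_trace_eq_aeval (O := O) (ū : L) hu (x : L) x.2
    exact ⟨t, Subtype.ext (ht.trans (hι₀ t).symm)⟩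
  have hι₀inj : Function.Injective ι₀ := by
    intro t t' h
    have h' := congrArg (fun z : IntermediateField.adjoin E {(ū : L)} => (z : L)) h
    simp only [hι₀] at h'
    exact (transcendental_iff_injective.mp huO) h'
  have hρ₀π : ρ₀ (C π) = 0 := by
    apply Subtype.ext
    rw [hρ₀, eval₂_C, RingHom.comp_apply, residue_irreducible_eq_zero π hπ, map_zero]
    rfl
  have hkerT : ∀ (x : chart O ({(ū : L)} : Set L)) (t : O[X]), ρS x = 0 →
      Algebra.trace (IntermediateField.adjoin E {(ū : L)}) L (ι x) = ι₀ t → ρ₀ t = 0 := by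
    intro x t hx ht
    obtain ⟨y, hy, hxy⟩ := hker ⟨(x : L), hR _ (h0le x.2)⟩ x.2 hx
    obtain ⟨t', ht'⟩ := hTr ⟨y, hy⟩
    have e1 : ι x = (ι₀ (C π)) • y := by
      rw [Algebra.smul_def]
      show (x : L) = ((ι₀ (C π) : IntermediateField.adjoin E {(ū : L)}) : L) * y
      rw [hι₀, aeval_C]
      exact hxy
    have ht2 : Algebra.trace (IntermediateField.adjoin E {(ū : L)}) L y = ι₀ t' := ht'
    rw [e1, map_smul, smul_eq_mul, ht2, ← map_mul] at ht
    rw [← hι₀inj ht, map_mul, hρ₀π, zero_mul]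
  have hF : ∀ c : IntermediateField.adjoin (IsLocalRing.ResidueField O) {ρ ū},
      ∃ a d : O[X], ρ₀ d ≠ 0 ∧ c * ρ₀ d = ρ₀ a := by
    intro c
    obtain ⟨r, q, hrq⟩ :=
      (IntermediateField.mem_adjoin_simple_iff (IsLocalRing.ResidueField O) (c : Λ)).mp c.2
    obtain ⟨r', rfl⟩ :=
      Polynomial.map_surjective (IsLocalRing.residue O) IsLocalRing.residue_surjective r
    obtain ⟨q', rfl⟩ :=
      Polynomial.map_surjective (IsLocalRing.residue O) IsLocalRing.residue_surjective q
    by_cases hq0 : aeval (ρ ū) (q'.map (IsLocalRing.residue O)) = 0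
    · refine ⟨0, 1, by rw [map_one]; exact one_ne_zero, ?_⟩
      rw [map_one, mul_one, map_zero]
      apply Subtype.ext
      rw [hrq, hq0, div_zero]
      rfl
    · refine ⟨r', q', fun h => hq0 ?_, ?_⟩
      · rw [← eval₂_comp_residue, ← hρ₀, h]
        rfl
      · apply Subtype.ext
        show (c : Λ) * ((ρ₀ q' : IntermediateField.adjoin (IsLocalRing.ResidueField O) {ρ ū}) : Λ)
          = ((ρ₀ r' : IntermediateField.adjoin (IsLocalRing.ResidueField O) {ρ ū}) : Λ)
        rw [hρ₀, hρ₀, eval₂_comp_residue, eval₂_comp_residue, hrq, div_mul_cancel₀ _ hq0]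
  have hΛ : ∀ y : Λ, ∃ a b : chart O ({(ū : L)} : Set L), ρS b ≠ 0 ∧ y * ρS b = ρS a := by
    intro y
    obtain ⟨a, b, ha, hb, hb0, hab⟩ := hfrac y
    exact ⟨⟨(a : L), ha⟩, ⟨(b : L), hb⟩, hb0, hab⟩
  obtain ⟨bfam, hbint, d, hdmem, hdet, hdnd⟩ := hunr
  obtain ⟨dp, hdp⟩ : ∃ dp : O[X], aeval (ū : L) dp = d := by
    have h : d ∈ (aeval (ū : L) : O[X] →ₐ[O] L).range := by
      rw [← Algebra.adjoin_singleton_eq_range_aeval]
      exact hdmem
    exact h
  let β : Fin (Module.finrank (IntermediateField.adjoin E {(ū : L)}) L) →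
      chart O ({(ū : L)} : Set L) := fun i => ⟨bfam i, hbint i⟩
  have hd : (Algebra.traceMatrix (IntermediateField.adjoin E {(ū : L)}) fun i => ι (β i)).det =
      ι₀ dp := Subtype.ext (hdet.trans (hdp.symm.trans (hι₀ dp).symm))
  have hd0 : ρ₀ dp ≠ 0 := by
    intro h0
    have h1 : eval₂ ((algebraMap (IsLocalRing.ResidueField O) Λ).comp (IsLocalRing.residue O))
        (ρ ū) dp = 0 := by
      rw [← hρ₀, h0]
      rfl
    obtain ⟨c, hc, hcs⟩ := exists_eq_pi_mul_of_map_eq_zero π hπ (ū : L) dp (hinj dp h1)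
    exact hdnd c hc (hdp.symm.trans hcs)
  obtain ⟨bΛ, hbΛ, htr⟩ :=
    TraceRed.trace_red ι₀ ι ρ₀ ρS φ hι hφι hφρ hTr hkerT hF hΛ β dp hd hd0
  have hρ₀sp : ρ sR =
      algebraMap (IntermediateField.adjoin (IsLocalRing.ResidueField O) {ρ ū}) Λ (ρ₀ sp) := by
    rw [rho_eval₂ R ρ f hρf]
    exact (hρ₀ sp).symm
  have hρ₀sp0 : ρ₀ sp ≠ 0 := fun h => hρsR (by rw [hρ₀sp, h, map_zero])
  refine ⟨GR, ?_, ?_, ?_⟩
  · refine TraceRed.eq_of_trace_mul_red_eq ι₀ ι ρ₀ ρS φ hι hφι hφρ hTr hkerT hF hΛ β dp hd hd0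
      (ρ GR) Gbar (fun i => ?_)
    obtain ⟨p, hp, hpc⟩ := hcoef (β i : L) (β i).2
    have h1 : Algebra.trace (IntermediateField.adjoin (IsLocalRing.ResidueField O) {ρ ū}) Λ
        (ρ GR * ρS (β i)) = ρ₀ p := by
      let x : chart O ({(ū : L)} : Set L) := ⟨s * G * (β i : L), mul_mem hsG (β i).2⟩
      have e1 : ι x = (ι₀ sp) • (G * (β i : L)) := by
        rw [Algebra.smul_def]
        show s * G * (β i : L) =
          ((ι₀ sp : IntermediateField.adjoin E {(ū : L)}) : L) * (G * (β i : L))
        rw [hι₀, hsp, mul_assoc]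
      have e2 : Algebra.trace (IntermediateField.adjoin E {(ū : L)}) L (G * (β i : L)) = ι₀ p :=
        Subtype.ext (hp.trans (hι₀ p).symm)
      have e3 : Algebra.trace (IntermediateField.adjoin E {(ū : L)}) L (ι x) = ι₀ (sp * p) := by
        rw [e1, map_smul, smul_eq_mul, e2, map_mul]
      have e4 := htr x (sp * p) e3
      have e5 : ρS x = (ρ₀ sp) • (ρ GR * ρS (β i)) := by
        rw [Algebra.smul_def, ← hρ₀sp, hρS, hρS, ← map_mul, ← map_mul]
        congr 1
        apply Subtype.ext
        show s * G * (β i : L) = (sR : L) * ((GR : L) * (β i : L))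
        rw [hsR, hGR, mul_assoc]
      have e6 : ρ₀ (sp * p) = ρ₀ sp * ρ₀ p := map_mul ρ₀ sp p
      rw [e5, map_smul, smul_eq_mul, e6] at e4
      exact mul_left_cancel₀ hρ₀sp0 e4
    have hint : IsIntegral (Algebra.adjoin (IsLocalRing.ResidueField O) {ρ ū}) (ρS (β i)) :=
      rho_isIntegral R ρ f hf hρf ū ⟨(β i : L), hR _ (h0le (β i).2)⟩ (β i).2
    have hmemQ := hG0 _ hint
    rw [Algebra.adjoin_singleton_eq_range_aeval] at hmemQ
    obtain ⟨Q, hQ⟩ := hmemQ
    have hQ' : Q = p.map (IsLocalRing.residue O) := by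
      ext m
      rw [hlamc (ρS (β i)) Q hQ.symm m, coeff_map, hpc m]
      rfl
    have h2 : Algebra.trace (IntermediateField.adjoin (IsLocalRing.ResidueField O) {ρ ū}) Λ
        (Gbar * ρS (β i)) = ρ₀ p := by
      apply Subtype.ext
      rw [hρ₀, eval₂_comp_residue, ← hQ']
      exact hQ.symm
    rw [h1, h2]
  · intro b hb
    rw [hGR]
    exact hGC0 b hb
  · intro b hb
    rw [hGR]
    exact hGC1 b hb

end Main

end Fermat.Agent.S44.D.LiftRed
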