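import Mathlib
import Fermat.Prelude.Def_ModularCurve_LaurentCoeff
import Fermat.Agent.S44.D.RedDatum
import Fermat.Agent.S44.D.LiftRed

/-!
# Strand D of S44: `LiftRed.exists_lift_red` at the Gauss datum

Level-free, Gauss block of `S44/D/CechAdapter.lean` (`O` a discrete valuation ring with fraction
field `E` of characteristic zero, `L / E` with a `q`-expansion `emb`, `u : L` with integral
expansion having a pole modulo the maximal ideal, `π` prime in the chart ring `C0` of `u`), plus
`Model.GaussUnram π u`.

* `uRed emb u hu` : the coordinate of the special fibre, the reduction of `u` as an element of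
  the function field `RedDatum.redFrac O emb u` of the special fibre.
* `exists_lift_red_gauss` : an element `Gbar` of `redFrac O emb u` which is trace-dual regular on
  the special fibre (the two hypotheses of `LiftRed.exists_lift_red`, at `Λ := redFrac O emb u`,
  coordinate `uRed`) lifts to a Gauss-integral `G : L` with reduction `Gbar`, `Tr(G C0) ⊆ O[u]`
  and `Tr(G u² C1) ⊆ O[u⁻¹]`.
-/

set_option autoImplicit false
set_option linter.unusedSectionVars false

open Polynomial ModularCurve

noncomputable section

namespace Fermat.Agent.S44.D.LiftRedGauss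

open Fermat.Agent.S30 Fermat.Agent.S30.Model Fermat.Agent.S48.G1.K1
open Fermat.Agent.S44.D.CechAdapter Fermat.Agent.S44.D.RedDatum

variable {O E : Type*} [CommRing O] [IsDomain O] [IsDiscreteValuationRing O] [Field E]
  [Algebra O E] [IsFractionRing O E]
variable {L : Type*} [Field L] [Algebra E L] [Algebra O L] [IsScalarTower O E L]

/-- The coordinate of the special fibre: the reduction of `u`, as an element of the function
field `redFrac O emb u` of the special fibre. -/
def uRed (emb : L →ₐ[E] LaurentSeries E) (u : L) (hu : u ∈ gaussSub O emb) : redFrac O emb u :=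
  ⟨redHom O emb ⟨u, hu⟩, ⟨⟨u, hu⟩, 1, self_mem_C0 u, one_mem _,
    by rw [map_one]; exact one_ne_zero, by rw [map_one, mul_one]⟩⟩

theorem coe_uRed (emb : L →ₐ[E] LaurentSeries E) (u : L) (hu : u ∈ gaussSub O emb) :
    ((uRed emb u hu : redFrac O emb u) : LaurentSeries (IsLocalRing.ResidueField O)) =
      redHom O emb ⟨u, hu⟩ := rfl

/-- The coordinate of the special fibre is the coefficientwise reduction of the expansion of
`u`. -/
theorem coe_uRed_of_int (emb : L →ₐ[E] LaurentSeries E) (u : L) (uO : LaurentSeries O)
    (hu : emb u = GaussDVR.iota O E uO) :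
    ((uRed emb u (mem_gaussSub_of_int emb u uO hu) : redFrac O emb u) :
      LaurentSeries (IsLocalRing.ResidueField O)) = GaussDVR.rho O uO :=
  redHom_of_int emb u uO hu

theorem rhoHom_u (emb : L →ₐ[E] LaurentSeries E) (u : L) (hu : u ∈ gaussSub O emb)
    (hmem : ∀ x : gaussSub O emb, redHom O emb x ∈ redFrac O emb u) :
    rhoHom emb u hmem ⟨u, hu⟩ = uRed emb u hu := rfl

/-- **The special-fibre trace-dual element lifts, with reduction (Gauss datum).** -/
theorem exists_lift_red_gauss [CharZero E] (emb : L →ₐ[E] LaurentSeries E)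
    (hfrac : ∀ x : L, emb x ∈ GaussDVR.fracField O E) (π : O) (hπ : Irreducible π) (u : L)
    (uO : LaurentSeries O) (hu : emb u = GaussDVR.iota O E uO)
    (hpole : (GaussDVR.rho O uO).order < 0)
    (hprime : Prime (algebraMap (Algebra.adjoin O {u})
      (integralClosure (Algebra.adjoin O {u}) L) (algebraMap O (Algebra.adjoin O {u}) π)))
    [FiniteDimensional (IntermediateField.adjoin E {u}) L]
    (hunr : Model.GaussUnram (E := E) π u)
    (huG : u ∈ gaussSub O emb) (Gbar : redFrac O emb u)
    (hG0 : ∀ b : redFrac O emb u,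
      IsIntegral (Algebra.adjoin (IsLocalRing.ResidueField O) {uRed emb u huG}) b →
      ((Algebra.trace (IntermediateField.adjoin (IsLocalRing.ResidueField O) {uRed emb u huG})
        (redFrac O emb u) (Gbar * b) :
        IntermediateField.adjoin (IsLocalRing.ResidueField O) {uRed emb u huG}) :
          redFrac O emb u) ∈ Algebra.adjoin (IsLocalRing.ResidueField O) {uRed emb u huG})
    (hGinf : ∀ c : redFrac O emb u,
      IsIntegral (Algebra.adjoin (IsLocalRing.ResidueField O) {(uRed emb u huG)⁻¹}) c →
      ((Algebra.trace (IntermediateField.adjoin (IsLocalRing.ResidueField O) {uRed emb u huG})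
        (redFrac O emb u) (Gbar * uRed emb u huG ^ 2 * c) :
        IntermediateField.adjoin (IsLocalRing.ResidueField O) {uRed emb u huG}) :
          redFrac O emb u) ∈ Algebra.adjoin (IsLocalRing.ResidueField O) {(uRed emb u huG)⁻¹}) :
    ∃ G : gaussSub O emb,
      redHom O emb G = (Gbar : LaurentSeries (IsLocalRing.ResidueField O)) ∧
      (∀ b : L, b ∈ C0 (O := O) u → ∃ p : O[X],
        ((Algebra.trace (IntermediateField.adjoin E {u}) L ((G : L) * b) :
          IntermediateField.adjoin E {u}) : L) = aeval u p) ∧
      (∀ b : L, b ∈ C1 (O := O) u → ∃ p : O[X],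
        ((Algebra.trace (IntermediateField.adjoin E {u}) L ((G : L) * (u ^ 2 * b)) :
          IntermediateField.adjoin E {u}) : L) = aeval u⁻¹ p) := by
  have htr : Transcendental E u := transcendental_of_pole emb u uO hu hpole
  have hfree : Module.Free O (CechFree.CechH (C0 (O := O) u) (C1 u) (C01 u)) :=
    (cechH_free_charts' emb hfrac π hπ u uO hu hpole hprime).2
  have hmem : ∀ x : gaussSub O emb, redHom O emb x ∈ redFrac O emb u :=
    redHom_mem_redFrac emb hfrac π hπ u uO hu hpole hprime
  have hcz : CharZero L := charZero_of_injective_algebraMap (algebraMap E L).injective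
  obtain ⟨G, hG, h0, h1⟩ := LiftRed.exists_lift_red π hπ u htr hunr (gaussSub O emb)
    (rhoHom emb u hmem) (hR emb hfrac π hπ u uO hu hpole) (hinv emb u hmem) (halg emb u hmem)
    (hker emb hfrac π hπ u uO hu hpole hprime hmem) (hfracΛ emb u hmem) ⟨u, huG⟩ rfl
    (htrans emb u uO hu hpole hmem ⟨u, huG⟩ rfl) Gbar hG0 hGinf
  refine ⟨G, ?_, h0, h1⟩
  rw [← hG]
  rfl

end Fermat.Agent.S44.D.LiftRedGauss
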