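import Mathlib
import Fermat.Agent.S44.D.LiftBricks
import Fermat.Agent.S44.D.LiftRedGauss
import Fermat.Agent.S44.L.RedTransfer

/-!
# PROGRAM MR (S44), strand D, route X: `TraceLiftStatement` from the special fibre

The junction of route X is `RedFracDualStatement`: for a `RegLog` datum `(f, g, φ)` (without its
Hecke clause) and every sufficiently large number field `E ⊆ ℚ̄` there is an element `Gbar` of
the `E`-level function field of the special fibre of the `j`-chart
(`RedDatum.redFrac (OE A E) (LE N' E).val (jE N' E) ⊆ k_E((q))`) which is trace-dual regular over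
`k_E(j̄)` (the two hypotheses of `LiftRedGauss.exists_lift_red_gauss`, verbatim) and satisfies
`Gbar · θ(j̄) = φ` after extension of the residue field.

* `RedFracDualStatement` : the junction `Prop` (proved on the special-fibre side, row X-a).

The assembly `traceLiftStatement_of_redFracDual : RedFracDualStatement → TraceLiftStatement`
(row X-b: lift `Gbar` by `exists_lift_red_gauss` at `O = OE A E`, `L = LE N' E`, `u = j`) is in
`S44/D/TraceLiftXProof.lean`.
-/

set_option autoImplicit false
set_option linter.unusedSectionVars false
set_option linter.style.haveILetI false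
set_option synthInstance.maxHeartbeats 400000
set_option maxHeartbeats 1000000

open ModularCurve AlgebraicCurve Polynomial IntermediateField

noncomputable section

namespace Fermat.Agent.S44.D.TraceLiftX

open Fermat.Agent.S44.Contract Fermat.Agent.S37.Fn
open Fermat.Agent.S18 Fermat.Agent.S18.K1Defs Fermat.Agent.S18.K1Main
open Fermat.Agent.S30 Fermat.Agent.S30.Model Fermat.Agent.S30.Model.CechP1
open Fermat.Agent.S44.D Fermat.Agent.S44.D.CechAdapter Fermat.Agent.S44.D.RedDatum
open Fermat.Agent.S44.D.LiftRedGauss Fermat.Agent.S44.L

local notation "Qb" => AlgebraicClosure ℚ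

/-- **The junction of route X.**  For a `RegLog` datum (without its Hecke clause) and every
sufficiently large number field `E`, the `E`-level function field of the special fibre of the
`j`-chart contains a trace-dual regular element `Gbar` with `Gbar · θ(j̄) = φ`. -/
def RedFracDualStatement : Prop :=
  ∀ (p N' : ℕ) [NeZero N'], p.Prime → 5 ≤ p → ¬ p ∣ N' →
    ∀ A : ValuationSubring Qb, A.LiesOverPrime p →
    ∀ (f : redField N' A) (g φ : LaurentSeries (IsLocalRing.ResidueField A)),
      f ≠ 0 →
      (∀ w : ValuationSubring (redField N' A),
        ∃ u h : redField N' A, f = u * h ^ p ∧ u ∈ w ∧ u⁻¹ ∈ w) →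
      (∀ n : ℤ, g.coeff n = (n : IsLocalRing.ResidueField A) *
        (f : LaurentSeries (IsLocalRing.ResidueField A)).coeff n) →
      φ * (f : LaurentSeries (IsLocalRing.ResidueField A)) = g →
      ∃ S₀ : Finset Qb, ∀ (E : IntermediateField ℚ Qb) [FiniteDimensional ℚ E]
        [IsDiscreteValuationRing (OE A E)], (∀ s ∈ S₀, s ∈ E) →
        letI := algebraOL (OE A E) E (LE N' E)
        haveI := isScalarTower_OL (OE A E) E (LE N' E)
        ∀ huG : jE N' E ∈ gaussSub (OE A E) (LE N' E).val,
        ∃ (Gbar : redFrac (OE A E) (LE N' E).val (jE N' E))
          (jθb : LaurentSeries (IsLocalRing.ResidueField A)),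
          IsThetaJ (IsLocalRing.ResidueField A) jθb ∧
          RedTransfer.kmap A E
            (Gbar : LaurentSeries (IsLocalRing.ResidueField (OE A E))) * jθb = φ ∧
          (∀ b : redFrac (OE A E) (LE N' E).val (jE N' E),
            IsIntegral (Algebra.adjoin (IsLocalRing.ResidueField (OE A E))
              {uRed (LE N' E).val (jE N' E) huG}) b →
            ((Algebra.trace (IntermediateField.adjoin (IsLocalRing.ResidueField (OE A E))
                {uRed (LE N' E).val (jE N' E) huG})
              (redFrac (OE A E) (LE N' E).val (jE N' E)) (Gbar * b) :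
              IntermediateField.adjoin (IsLocalRing.ResidueField (OE A E))
                {uRed (LE N' E).val (jE N' E) huG}) :
                redFrac (OE A E) (LE N' E).val (jE N' E)) ∈
              Algebra.adjoin (IsLocalRing.ResidueField (OE A E))
                {uRed (LE N' E).val (jE N' E) huG}) ∧
          (∀ c : redFrac (OE A E) (LE N' E).val (jE N' E),
            IsIntegral (Algebra.adjoin (IsLocalRing.ResidueField (OE A E))
              {(uRed (LE N' E).val (jE N' E) huG)⁻¹}) c →
            ((Algebra.trace (IntermediateField.adjoin (IsLocalRing.ResidueField (OE A E))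
                {uRed (LE N' E).val (jE N' E) huG})
              (redFrac (OE A E) (LE N' E).val (jE N' E))
              (Gbar * uRed (LE N' E).val (jE N' E) huG ^ 2 * c) :
              IntermediateField.adjoin (IsLocalRing.ResidueField (OE A E))
                {uRed (LE N' E).val (jE N' E) huG}) :
                redFrac (OE A E) (LE N' E).val (jE N' E)) ∈
              Algebra.adjoin (IsLocalRing.ResidueField (OE A E))
                {(uRed (LE N' E).val (jE N' E) huG)⁻¹})

end Fermat.Agent.S44.D.TraceLiftX
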