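/-
PROGRAM MR (S44), strand D, brick (d1) (helper279): THE DICTIONARY, `q`-coefficient clause.

For the cusp form `Φ = G · D j` of `DictHol.exists_cuspForm_of_place_bounds`, the `q`-expansion
of `Φ` is `G · θ j` (`θ = q d/dq` on Laurent series, taken coefficientwise as in
`S44.Contract.RegLog`), read in `ℂ` through `ι`.

The only analytic input besides `DictHol` is the `q`-expansion of `D j` (`hD` below; it is the
termwise derivative of the `q`-expansion of `j`).
-/
import Mathlib
import Fermat.Agent.S44.D.DictHol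
import Fermat.Prelude.Def_FLTPrelim_Modularity
import Fermat.Prelude.Thm_CongruenceSubgroup_one_mem_strictPeriods_Gamma0

set_option autoImplicit false
set_option linter.dupNamespace false
set_option linter.unusedSectionVars false
set_option linter.style.haveILetI false

open scoped Manifold MatrixGroups Topology Real ModularForm
open UpperHalfPlane Filter AlgebraicCurve ModularCurve CongruenceSubgroup
open ModularForm Derivative
open Fermat.Agent.S24.HolH Fermat.Agent.S24.JHol Fermat.Agent.S24.JFun Fermat.Agent.S24.Theta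
open Fermat.Agent.S24.Modular Fermat.Agent.S24.QB

noncomputable section

namespace Fermat.Agent.S44.D.DictQ

local notation "𝕢" => Function.Periodic.qParam

/-! ### Generalities on `HasQ` -/

/-- Reading the coefficients in `ℂ`. -/
theorem hasQ_coeffMap {K : Type*} [Field K] {ι : K →+* ℂ} {A : LaurentSeries K} {φ : ℍ → ℂ}
    (h : HasQ ι A φ) : HasQ (RingHom.id ℂ) (coeffMap ι A) φ := fun τ => h τ

theorem coeffMap_injective {K : Type*} [Field K] (ι : K →+* ℂ) :
    Function.Injective (coeffMap ι) := by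
  intro A B h
  ext k
  have := congrArg (fun X : LaurentSeries ℂ => X.coeff k) h
  simp only [coeffMap_coeff] at this
  exact ι.injective this

/-- A function with a `q`-expansion in the sense of Mathlib has one in the sense of `HasQ`. -/
theorem hasQ_ofPowerSeries {φ : ℍ → ℂ} (hper : Function.Periodic (φ ∘ ofComplex) 1)
    (hhol : MDiff φ) (hbdd : IsBoundedAtImInfty φ) :
    HasQ (RingHom.id ℂ) (HahnSeries.ofPowerSeries ℤ ℂ (qExpansion 1 φ)) φ := by
  intro τ
  have h := hasSum_qExpansion one_pos hper hhol hbdd τ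
  have hq0 : 𝕢 1 (τ : ℂ) ≠ 0 := Function.Periodic.qParam_ne_zero _
  have hm : ∀ k : ℤ, k < -((0 : ℕ) : ℤ) →
      (HahnSeries.ofPowerSeries ℤ ℂ (qExpansion 1 φ)).coeff k = 0 := by
    intro k hk
    exact ModularCurve.ofPowerSeries_coeff_of_neg _ (by simpa using hk)
  refine (hasLExp_iff (RingHom.id ℂ) hq0 _ 0 hm _).mpr ?_
  unfold HasPExp
  rw [pow_zero, one_mul]
  convert h using 2 with n
  rw [coeff_psPart, Nat.cast_zero, sub_zero, HahnSeries.ofPowerSeries_apply_coeff,
    RingHom.id_apply, smul_eq_mul]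

/-! ### The `q`-coefficients of `Φ = G · D j` -/

/-- **The `q`-expansion of `G · D j`.**  If `Φ · θ b = θ a · D j` with `G = a / b`, and `D j` has
`q`-expansion `jθ`, then the `q`-expansion of the cusp form `Φ` is `G · jθ`. -/
theorem qCoeff_eq (ι : Kbar →+* ℂ) (N : ℕ) [NeZero N] (G : FN N) (Φ : CuspForm (Gamma0 N) 2)
    (a b : A0 N) (hb : b ≠ 0) (hab : G * (b : FN N) = (a : FN N))
    (hΦ : ∀ τ : ℍ, Φ τ * (theta ι N b : ℍ → ℂ) τ = (theta ι N a : ℍ → ℂ) τ * D jFun τ)
    (jθ : LaurentSeries Kbar) (hD : HasQ ι jθ (D jFun)) (n : ℕ) :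
    ModularFormClass.qCoeff Φ n = ι (((G : LaurentSeries Kbar) * jθ).coeff n) := by
  have hper : Function.Periodic ((Φ : ℍ → ℂ) ∘ ofComplex) 1 :=
    SlashInvariantFormClass.periodic_comp_ofComplex Φ (one_mem_strictPeriods_Gamma0 N)
  have hbdd : IsBoundedAtImInfty (Φ : ℍ → ℂ) :=
    have : Fact (IsCusp OnePoint.infty ((Gamma0 N).map (Matrix.SpecialLinearGroup.mapGL ℝ))) :=
      ⟨Subgroup.isCusp_of_mem_strictPeriods one_pos (one_mem_strictPeriods_Gamma0 N)⟩
    ModularFormClass.bdd_at_infty Φ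
  have h1 := hasQ_ofPowerSeries hper (ModularFormClass.holo Φ) hbdd
  have h2 := h1.mul (hasQ_coeffMap (hasQ_theta ι N b))
  have h3 := hasQ_coeffMap ((hasQ_theta ι N a).mul hD)
  have hfun : (Φ : ℍ → ℂ) * (theta ι N b : ℍ → ℂ) = (theta ι N a : ℍ → ℂ) * D jFun :=
    funext hΦ
  rw [hfun] at h2
  have h4 := h2.unique h3
  have hab' : (G : LaurentSeries Kbar) * ((b : FN N) : LaurentSeries Kbar)
      = ((a : FN N) : LaurentSeries Kbar) := by
    have := congrArg (fun x : FN N => (x : LaurentSeries Kbar)) hab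
    simpa using this
  have hb0 : coeffMap ι ((b : FN N) : LaurentSeries Kbar) ≠ 0 := by
    intro h0
    have h5 : ((b : FN N) : LaurentSeries Kbar) = 0 :=
      coeffMap_injective ι (by rw [h0, map_zero])
    exact hb (Subtype.ext (Subtype.ext h5))
  have h6 : HahnSeries.ofPowerSeries ℤ ℂ (qExpansion 1 (Φ : ℍ → ℂ))
      = coeffMap ι ((G : LaurentSeries Kbar) * jθ) := by
    apply mul_right_cancel₀ hb0
    rw [h4, ← map_mul, ← hab']
    congr 1
    ring
  have h7 := congrArg (fun X : LaurentSeries ℂ => X.coeff (n : ℤ)) h6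
  simp only [coeffMap_coeff, HahnSeries.ofPowerSeries_apply_coeff] at h7
  exact h7

/-- `DictHol.exists_cuspForm_of_place_bounds` with the place bounds required only for `G ≠ 0`
(`Place.ord 0 = 0`, so the bound at the poles of `j` is never satisfied by `G = 0`; the cusp
form is then `0`). -/
theorem exists_cuspForm_of_place_bounds_guarded (ι : Kbar →+* ℂ) (N : ℕ) [NeZero N] (G : FN N)
    (hfin : G ≠ 0 → ∀ (v : Place Kbar (FN N)) (c : Kbar),
        0 < v.ord (jF N - algebraMap Kbar (FN N) c) →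
        1 - v.ord (jF N - algebraMap Kbar (FN N) c) ≤ v.ord G)
    (hinf : G ≠ 0 → ∀ v : Place Kbar (FN N), v.ord (jF N) < 0 → 1 - v.ord (jF N) ≤ v.ord G) :
    ∃ Φ : CuspForm (Gamma0 N) 2,
      ∀ a b : A0 N, G * (b : FN N) = (a : FN N) → ∀ τ : ℍ,
        Φ τ * (theta ι N b : ℍ → ℂ) τ = (theta ι N a : ℍ → ℂ) τ * D jFun τ := by
  by_cases hG0 : G = 0
  · refine ⟨0, fun a b hab τ => ?_⟩
    have ha : a = 0 := by
      apply Subtype.ext
      rw [← hab, hG0, zero_mul]
      rfl
    rw [ha, map_zero]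
    simp
  · exact DictHol.exists_cuspForm_of_place_bounds ι N G (hfin hG0) (hinf hG0)

/-- **(d1), `q`-coefficient form.**  Under the place bounds (for `G ≠ 0`) there is a weight-2
cusp form on `Γ₀(N)` whose `q`-expansion is `G · jθ`, where `jθ` is the `q`-expansion of `D j`. -/
theorem exists_cuspForm_qCoeff_of_hasQ (ι : Kbar →+* ℂ) (N : ℕ) [NeZero N] (G : FN N)
    (hfin : G ≠ 0 → ∀ (v : Place Kbar (FN N)) (c : Kbar),
        0 < v.ord (jF N - algebraMap Kbar (FN N) c) →
        1 - v.ord (jF N - algebraMap Kbar (FN N) c) ≤ v.ord G)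
    (hinf : G ≠ 0 → ∀ v : Place Kbar (FN N), v.ord (jF N) < 0 → 1 - v.ord (jF N) ≤ v.ord G)
    (jθ : LaurentSeries Kbar) (hD : HasQ ι jθ (D jFun)) :
    ∃ Φ : CuspForm (Gamma0 N) 2, ∀ n : ℕ,
      ModularFormClass.qCoeff Φ n = ι (((G : LaurentSeries Kbar) * jθ).coeff n) := by
  obtain ⟨Φ, hΦ⟩ := exists_cuspForm_of_place_bounds_guarded ι N G hfin hinf
  obtain ⟨a, b, hb', hab⟩ := exists_mul_eq G
  have hb : b ≠ 0 := fun h => hb' (by rw [h]; rfl)
  exact ⟨Φ, fun n => qCoeff_eq ι N G Φ a b hb hab (hΦ a b hab) jθ hD n⟩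

/-- The `q`-expansion of `j`, in the form needed to produce `hD` above by termwise
differentiation. -/
theorem hasQ_jF (ι : Kbar →+* ℂ) (N : ℕ) : HasQ ι ((jF N : FN N) : LaurentSeries Kbar) jFun := by
  have h := hasQ_theta ι N (jA0 N)
  rwa [theta_jA0 ι N] at h

end Fermat.Agent.S44.D.DictQ
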