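import Fermat.Agent.S44.D.Dict0
import Fermat.Agent.S44.D.DictQ
import Fermat.Agent.S30.E2.Degree

set_option autoImplicit false
set_option linter.style.haveILetI false

/-!
# PROGRAM MR (S44), strand D, row (d0) = MR.D.Dict0: the `E`-level modular instance (helper29)

`E` any field of characteristic zero with a map to `ℚ̄` (`[Algebra ℚ E] [Algebra E ℚ̄]`; in the
application `E : IntermediateField ℚ ℚ̄` a number field), `LEv N E = S18.K1Defs.LE N E` the
level-`N` modular function field with constant field `E` (inside `E((q))`), `rhoE N E` the base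
change of constants `LEv N E → FN N` (coefficientwise on `q`-expansions: `coe_rhoE`).

For `G : LEv N E` trace-dual to the integral closure of `E[j]` (`h0`) and with `G j²` trace-dual
to the integral closure of `E[1/j]` (`hoo`) — the two trace conditions are literally those of
`Dict0.fin_bound` / `Dict0.inf_bound` (helper145) at `u := jE N E` —

* `hfin_E`, `hinf_E` : the place bounds of helper279's seam (`DictHol` / `DictQ`) hold for
  `rhoE N E G : FN N` at every place of `FN N / ℚ̄` (`hinf_E` for `G ≠ 0`: `Place.ord 0 = 0`);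
* `exists_cuspForm_of_traceDual` : the weight-2 cusp form `Φ = G · D j` of level `Γ₀(N)`;
* `exists_cuspForm_qCoeff_of_traceDual` : `Φ` with `qCoeff Φ n = ι ((G · jθ).coeff n)`, where the
  series of `G` is read in `ℚ̄((q))` coefficientwise (`Abs.iota`) and `jθ` is any series with a
  `q`-expansion `HasQ ι jθ (D jFun)` (`= θ j`, the termwise derivative).

No base change of integral closures from `E` to `ℚ̄` is used (`Dict0`: a place of `FN N / ℚ̄`
restricts to a positive multiple of a place of `LEv N E / E`).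
-/

noncomputable section

open Polynomial IntermediateField AlgebraicCurve ModularCurve UpperHalfPlane CongruenceSubgroup
open Fermat.Agent.S30.E2.Degree Fermat.Agent.S24.Modular Fermat.Agent.S24.Theta
open Fermat.Agent.S24.JFun

namespace Fermat.Agent.S44.D.Dict0Inst

variable (N : ℕ) (E : Type*) [Field E] [Algebra ℚ E] [Algebra E Kbar]

/-- The `E`-level modular function field of level `N` (`= S18.K1Defs.LE N E`). -/
abbrev LEv : IntermediateField E (LaurentSeries E) :=
  laurentBaseChange E (modularFunctionFieldFull N)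

/-- Base change of constants `E → ℚ̄` on the modular function field of level `N`. -/
abbrev rhoE : LEv N E →+* FN N :=
  Abs.rhoBC (modularFunctionFieldFull N) E Kbar

/-- `rhoE` is coefficientwise on `q`-expansions. -/
theorem coe_rhoE (x : LEv N E) :
    ((rhoE N E x : FN N) : LaurentSeries Kbar) = Abs.iota (x : LaurentSeries E) := rfl

theorem rhoE_jE : rhoE N E (jE N E) = jF N :=
  Abs.rhoBC_embF (modularFunctionFieldFull N) E Kbar (jQ N)

theorem rhoE_algebraMap (c : E) :
    rhoE N E (algebraMap E (LEv N E) c) = algebraMap Kbar (FN N) (algebraMap E Kbar c) :=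
  Abs.rho_algebraMap _ _ _ c

theorem rhoE_injective : Function.Injective (rhoE N E) := (rhoE N E).injective

/-- Every element of `ℚ̄` is integral over `E`. -/
theorem isIntegral_Kbar (c : Kbar) : IsIntegral E c := by
  have h : IsIntegral ℚ c := (AlgebraicClosure.isAlgebraic ℚ).isIntegral.isIntegral c
  exact h.tower_top

/-- **(d0), finite places, `E`-level**: the `hfin` of `DictHol.exists_cuspForm_of_place_bounds`
for the image in `FN N` of a function `G` of level `N` over `E` which is trace-dual to the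
integral closure of `E[j]`. -/
theorem hfin_E [NeZero N] (G : LEv N E)
    (h0 : ∀ y : LEv N E, IsIntegral (Algebra.adjoin E {jE N E}) y →
      ∃ w : E[X], ((Algebra.trace E⟮jE N E⟯ (LEv N E) (G * y) : E⟮jE N E⟯) : LEv N E)
        = aeval (jE N E) w) :
    ∀ (v : Place Kbar (FN N)) (c : Kbar), 0 < v.ord (jF N - algebraMap Kbar (FN N) c) →
      1 - v.ord (jF N - algebraMap Kbar (FN N) c) ≤ v.ord (rhoE N E G) := by
  intro v c hv
  haveI : CharZero E := algebraRat.charZero E
  haveI : FiniteDimensional E⟮jE N E⟯ (LEv N E) := (finite_and_finrank_LE N E).1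
  have h := Dict0.fin_bound (Kb := Kbar) (F := FN N) (rhoE N E) (rhoE_algebraMap N E) (jE N E)
    (transcendental_jE N E) G h0 v c (isIntegral_Kbar E c)
  rw [rhoE_jE] at h
  exact h hv

/-- **(d0), poles of `j`, `E`-level**: the `hinf` of `DictHol.exists_cuspForm_of_place_bounds`
for the image in `FN N` of a function `G ≠ 0` of level `N` over `E` such that `G j²` is
trace-dual to the integral closure of `E[1/j]`. -/
theorem hinf_E [NeZero N] (G : LEv N E) (hG : G ≠ 0)
    (hoo : ∀ y : LEv N E, IsIntegral (Algebra.adjoin E {(jE N E)⁻¹}) y →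
      ∃ w : E[X], ((Algebra.trace E⟮jE N E⟯ (LEv N E) (G * jE N E ^ 2 * y) : E⟮jE N E⟯) :
        LEv N E) = aeval (jE N E)⁻¹ w) :
    ∀ v : Place Kbar (FN N), v.ord (jF N) < 0 → 1 - v.ord (jF N) ≤ v.ord (rhoE N E G) := by
  intro v hv
  haveI : CharZero E := algebraRat.charZero E
  haveI : FiniteDimensional E⟮jE N E⟯ (LEv N E) := (finite_and_finrank_LE N E).1
  have h := Dict0.inf_bound (Kb := Kbar) (F := FN N) (rhoE N E) (rhoE_algebraMap N E) (jE N E)
    (transcendental_jE N E) G hG hoo v
  rw [rhoE_jE] at h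
  exact h hv

/-- `G ≠ 0` descends along `rhoE`. -/
theorem ne_zero_of_rhoE_ne_zero {G : LEv N E} (h : rhoE N E G ≠ 0) : G ≠ 0 := by
  rintro rfl
  exact h (map_zero _)

/-- **(d0) + (d1), `E`-level**: a function `G` of level `N` over `E` which is trace-dual to the
integral closures of `E[j]` (`h0`) and — after multiplication by `j²` — of `E[1/j]` (`hoo`) gives
the weight-2 cusp form `Φ = G · D j` of level `Γ₀(N)`. -/
theorem exists_cuspForm_of_traceDual (ι : Kbar →+* ℂ) [NeZero N] (G : LEv N E)
    (h0 : ∀ y : LEv N E, IsIntegral (Algebra.adjoin E {jE N E}) y →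
      ∃ w : E[X], ((Algebra.trace E⟮jE N E⟯ (LEv N E) (G * y) : E⟮jE N E⟯) : LEv N E)
        = aeval (jE N E) w)
    (hoo : ∀ y : LEv N E, IsIntegral (Algebra.adjoin E {(jE N E)⁻¹}) y →
      ∃ w : E[X], ((Algebra.trace E⟮jE N E⟯ (LEv N E) (G * jE N E ^ 2 * y) : E⟮jE N E⟯) :
        LEv N E) = aeval (jE N E)⁻¹ w) :
    ∃ Φ : CuspForm (Gamma0 N) 2,
      ∀ a b : A0 N, rhoE N E G * (b : FN N) = (a : FN N) → ∀ τ : ℍ,
        Φ τ * (theta ι N b : ℍ → ℂ) τ = (theta ι N a : ℍ → ℂ) τ * Derivative.normalizedDerivOfComplex jFun τ :=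
  DictQ.exists_cuspForm_of_place_bounds_guarded ι N (rhoE N E G)
    (fun _ => hfin_E N E G h0)
    (fun hG => hinf_E N E G (ne_zero_of_rhoE_ne_zero N E hG) hoo)

/-- **(d0) + (d1), `E`-level, `q`-coefficient form**: the cusp form `Φ` of
`exists_cuspForm_of_traceDual` has `q`-expansion `G · jθ`, where `jθ` is the `q`-expansion of
`D j` (the termwise derivative `θ j` of the `q`-expansion of `j`) and the series of `G` is read
in `ℚ̄((q))` coefficientwise. -/
theorem exists_cuspForm_qCoeff_of_traceDual (ι : Kbar →+* ℂ) [NeZero N] (G : LEv N E)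
    (h0 : ∀ y : LEv N E, IsIntegral (Algebra.adjoin E {jE N E}) y →
      ∃ w : E[X], ((Algebra.trace E⟮jE N E⟯ (LEv N E) (G * y) : E⟮jE N E⟯) : LEv N E)
        = aeval (jE N E) w)
    (hoo : ∀ y : LEv N E, IsIntegral (Algebra.adjoin E {(jE N E)⁻¹}) y →
      ∃ w : E[X], ((Algebra.trace E⟮jE N E⟯ (LEv N E) (G * jE N E ^ 2 * y) : E⟮jE N E⟯) :
        LEv N E) = aeval (jE N E)⁻¹ w)
    (jθ : LaurentSeries Kbar) (hD : HasQ ι jθ (Derivative.normalizedDerivOfComplex jFun)) :
    ∃ Φ : CuspForm (Gamma0 N) 2, ∀ n : ℕ,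
      ModularFormClass.qCoeff Φ n
        = ι ((Abs.iota (Ω := Kbar) (G : LaurentSeries E) * jθ).coeff n) := by
  obtain ⟨Φ, hΦ⟩ := DictQ.exists_cuspForm_qCoeff_of_hasQ ι N (rhoE N E G)
    (fun _ => hfin_E N E G h0)
    (fun hG => hinf_E N E G (ne_zero_of_rhoE_ne_zero N E hG) hoo) jθ hD
  exact ⟨Φ, fun n => by rw [hΦ n, coe_rhoE]⟩

end Fermat.Agent.S44.D.Dict0Inst

end
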