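import Mathlib
import Fermat.Agent.S24.Theta
import Fermat.Agent.S36.Coord.ThetaBridge

set_option autoImplicit false
set_option linter.dupNamespace false

/-!
# Termwise differentiation of Laurent `q`-expansions

If a function `φ` on the upper half plane has the `q`-expansion `A = ∑ aₙ qⁿ` (a Laurent series
with coefficients read in `ℂ` through `ι : K →+* ℂ`, in the sense of `S24.Theta.HasQ`), then its
normalised derivative `D φ = (2πi)⁻¹ dφ/dτ = q dφ/dq` has the `q`-expansion `∑ n aₙ qⁿ`.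

* `HasQ_D` : the general statement.
* `hasQ_D_jqModC`, `hasQ_D_jF`, `hasQ_D_jFun` : the instance for `j`: `D jFun` has the
  `q`-expansion `θ j = ∑ n cₙ qⁿ` (with `j = ∑ cₙ qⁿ` read either as `jqModC K` or as the element
  `jF N` of the function field `F_N`).
* `HasQ_D_mul` : `G · θ A` is the `q`-expansion of `ψ · D φ`.

No place theory: the proof writes `φ = q^(-m) g(q)` with `g` a convergent power series on the
unit disc and uses the termwise differentiation of power series (`S36.Coord.hasQExp_qderiv`).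
-/

noncomputable section

open UpperHalfPlane hiding I
open Real Complex ModularForm Derivative Filter Function
open scoped Manifold MatrixGroups ModularForm Topology

namespace Fermat.Agent.S44.D.DictDeriv

open Fermat.Agent.S24 Fermat.Agent.S24.Theta Fermat.Agent.S24.QB Fermat.Agent.S24.QBridge
open Fermat.Agent.S24.Modular Fermat.Agent.S24.JFun ModularCurve

local notation "𝕢" => Periodic.qParam

/-- Every point of the punctured open unit disc is `q(τ)` for some `τ : ℍ`. -/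
theorem exists_qParam_eq {q : ℂ} (hq0 : q ≠ 0) (hq : ‖q‖ < 1) : ∃ τ : ℍ, 𝕢 1 (τ : ℂ) = q :=
  ⟨⟨Periodic.invQParam 1 q, Periodic.im_invQParam_pos_of_norm_lt_one one_pos hq hq0⟩,
    Periodic.qParam_right_inv one_ne_zero hq0⟩

/-- `exp (-2πi m z) · q(z)^m = 1`. -/
theorem cexp_neg_mul_qParam_pow (m : ℕ) (z : ℂ) :
    cexp (-(2 * π * I * m * z)) * 𝕢 1 z ^ m = 1 := by
  unfold Periodic.qParam
  rw [← Complex.exp_nat_mul, ← Complex.exp_add]
  have h0 : -(2 * (π : ℂ) * I * m * z) + (m : ℂ) * (2 * π * I * z / ((1 : ℝ) : ℂ)) = 0 := by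
    rw [Complex.ofReal_one, div_one]
    ring
  rw [h0, Complex.exp_zero]

section General

variable {K : Type*} [Field K]

/-- **Termwise differentiation of a Laurent `q`-expansion**: if `φ` has the `q`-expansion `A`
and `A'.coeff n = n * A.coeff n` for all `n`, then `D φ` has the `q`-expansion `A'`. -/
theorem HasQ_D (ι : K →+* ℂ) {A A' : LaurentSeries K} {φ : ℍ → ℂ}
    (h : HasQ ι A φ) (hA' : ∀ n : ℤ, A'.coeff n = (n : K) * A.coeff n) : HasQ ι A' (D φ) := by
  obtain ⟨m, hm⟩ := exists_bound A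
  have hm' : ∀ k : ℤ, k < -(m : ℤ) → A'.coeff k = 0 := by
    intro k hk
    rw [hA', hm k hk, mul_zero]
  set c : ℕ → ℂ := fun n => ι (A.coeff ((n : ℤ) - m)) with hc
  set g : ℂ → ℂ := fun q => ∑' n : ℕ, c n * q ^ n with hg
  -- the shifted power series at the points `q(τ)`
  have hnat : ∀ τ : ℍ, HasSum (fun n : ℕ => c n * 𝕢 1 (τ : ℂ) ^ n) (𝕢 1 (τ : ℂ) ^ m * φ τ) := by
    intro τ
    have h2 := (hasLExp_iff ι (Periodic.qParam_ne_zero (τ : ℂ)) A m hm _).mp
      ((hasLExp_def ι _ A _).mpr (h τ))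
    unfold HasPExp at h2
    simp only [coeff_psPart] at h2
    exact h2
  -- `g` is given by the power series `c` on the whole unit disc
  have hQ : HasQExp (PowerSeries.mk c) g := by
    intro q hq
    simp only [PowerSeries.coeff_mk]
    by_cases hq0 : q = 0
    · subst hq0
      have h0 := hasSum_ite_eq (0 : ℕ) (c 0)
      have hfun : (fun n : ℕ => c n * (0 : ℂ) ^ n) = fun n => if n = 0 then c 0 else 0 := by
        funext k
        by_cases hk : k = 0
        · subst hk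
          simp
        · rw [if_neg hk, zero_pow hk, mul_zero]
      rw [hfun]
      have hg0 : g 0 = c 0 := by
        simp only [hg]
        rw [hfun]
        exact h0.tsum_eq
      rw [hg0]
      exact h0
    · obtain ⟨τ, hτ⟩ := exists_qParam_eq hq0 hq
      have h2 := hnat τ
      rw [hτ] at h2
      exact h2.summable.hasSum
  have hdiff : DifferentiableOn ℂ g (Metric.ball 0 1) := by
    have h5 := hQ.hasFPowerSeriesOnBall.differentiableOn
    rw [← ENNReal.coe_one, Metric.eball_coe, NNReal.coe_one] at h5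
    exact h5
  -- `φ = exp (-2πi m τ) · g(q)`
  have hφ : ∀ τ : ℍ, φ τ = cexp (-(2 * π * I * m * (τ : ℂ))) * g (𝕢 1 (τ : ℂ)) := by
    intro τ
    have h3 : g (𝕢 1 (τ : ℂ)) = 𝕢 1 (τ : ℂ) ^ m * φ τ := (hnat τ).tsum_eq
    rw [h3, ← mul_assoc, cexp_neg_mul_qParam_pow, one_mul]
  -- the derivative of the right-hand side
  have hderiv : ∀ z : ℂ, 0 < z.im →
      HasDerivAt (fun w : ℂ => cexp (-(2 * π * I * m * w)) * g (𝕢 1 w))
        (cexp (-(2 * π * I * m * z)) * (-(2 * π * I * m)) * g (𝕢 1 z)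
          + cexp (-(2 * π * I * m * z)) * (deriv g (𝕢 1 z) * (2 * π * I * 𝕢 1 z))) z := by
    intro z hz
    have hqz : 𝕢 1 z ∈ Metric.ball (0 : ℂ) 1 := by
      rw [mem_ball_zero_iff]
      exact Periodic.norm_qParam_lt_one one_pos hz
    have h0 : HasDerivAt (fun w : ℂ => -(2 * π * I * m * w)) (-(2 * π * I * m)) z := by
      have h00 : HasDerivAt (fun w : ℂ => 2 * (π : ℂ) * I * m * w) (2 * (π : ℂ) * I * m) z := by
        simpa using (hasDerivAt_id z).const_mul (2 * (π : ℂ) * I * m)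
      exact h00.fun_neg
    have h1 : HasDerivAt (fun w : ℂ => cexp (-(2 * π * I * m * w)))
        (cexp (-(2 * π * I * m * z)) * (-(2 * π * I * m))) z := h0.cexp
    have h2 : HasDerivAt g (deriv g (𝕢 1 z)) (𝕢 1 z) :=
      (hdiff.differentiableAt (Metric.isOpen_ball.mem_nhds hqz)).hasDerivAt
    have h3 : HasDerivAt (fun w : ℂ => g (𝕢 1 w)) (deriv g (𝕢 1 z) * (2 * π * I * 𝕢 1 z)) z :=
      h2.comp z (Fermat.Agent.S24.JDeriv.hasDerivAt_qParam_one z)
    exact h1.mul h3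
  -- the power series of `q g' - m g`
  have hsub : HasQExp (PowerSeries.X * PowerSeries.derivative ℂ (PowerSeries.mk c)
      - PowerSeries.C (m : ℂ) * PowerSeries.mk c) (fun q => q * deriv g q - (m : ℂ) * g q) :=
    Fermat.Agent.S36.Coord.hasQExp_sub (Fermat.Agent.S36.Coord.hasQExp_qderiv hQ)
      ((Fermat.Agent.S36.Coord.hasQExp_C (m : ℂ)).mul hQ)
  have hcoeff : ∀ n : ℕ, PowerSeries.coeff n (PowerSeries.X * PowerSeries.derivative ℂ
      (PowerSeries.mk c) - PowerSeries.C (m : ℂ) * PowerSeries.mk c) = ((n : ℂ) - m) * c n := by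
    intro n
    rw [map_sub, PowerSeries.coeff_C_mul, PowerSeries.coeff_mk]
    cases n with
    | zero =>
      rw [PowerSeries.coeff_zero_X_mul]
      push_cast
      ring
    | succ k =>
      rw [PowerSeries.coeff_succ_X_mul, PowerSeries.coeff_derivative, PowerSeries.coeff_mk]
      push_cast
      ring
  intro τ
  have hq0 : 𝕢 1 (τ : ℂ) ≠ 0 := Periodic.qParam_ne_zero _
  have hqlt : ‖𝕢 1 (τ : ℂ)‖ < 1 := Periodic.norm_qParam_lt_one one_pos τ.im_pos
  have hev : (φ ∘ ofComplex) =ᶠ[𝓝 (τ : ℂ)]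
      fun w : ℂ => cexp (-(2 * π * I * m * w)) * g (𝕢 1 w) := by
    have hopen : IsOpen {z : ℂ | 0 < z.im} := isOpen_lt continuous_const Complex.continuous_im
    filter_upwards [hopen.mem_nhds τ.im_pos] with z hz
    have hz' : 0 < z.im := hz
    simp only [Function.comp_apply]
    rw [ofComplex_apply_of_im_pos hz']
    exact hφ ⟨z, hz'⟩
  have h2pi : (2 * (π : ℂ) * I) ≠ 0 := by
    simp [Real.pi_ne_zero]
  have hD : D φ τ = cexp (-(2 * π * I * m * (τ : ℂ)))
      * (𝕢 1 (τ : ℂ) * deriv g (𝕢 1 (τ : ℂ)) - (m : ℂ) * g (𝕢 1 (τ : ℂ))) := by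
    show (2 * π * I)⁻¹ * deriv (φ ∘ ofComplex) (τ : ℂ) = _
    rw [hev.deriv_eq, (hderiv (τ : ℂ) τ.im_pos).deriv]
    field_simp
    ring
  have hval : 𝕢 1 (τ : ℂ) ^ m * D φ τ
      = 𝕢 1 (τ : ℂ) * deriv g (𝕢 1 (τ : ℂ)) - (m : ℂ) * g (𝕢 1 (τ : ℂ)) := by
    rw [hD, ← mul_assoc, mul_comm (𝕢 1 (τ : ℂ) ^ m), cexp_neg_mul_qParam_pow, one_mul]
  have hs := hsub (𝕢 1 (τ : ℂ)) hqlt
  refine (hasLExp_def ι _ A' _).mp ((hasLExp_iff ι hq0 A' m hm' _).mpr ?_)
  unfold HasPExp
  rw [hval]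
  have hfun : (fun n : ℕ => ι (PowerSeries.coeff n (psPart A' m)) * 𝕢 1 (τ : ℂ) ^ n)
      = fun n : ℕ => PowerSeries.coeff n (PowerSeries.X * PowerSeries.derivative ℂ
        (PowerSeries.mk c) - PowerSeries.C (m : ℂ) * PowerSeries.mk c) * 𝕢 1 (τ : ℂ) ^ n := by
    funext n
    rw [hcoeff, coeff_psPart, hA', map_mul, map_intCast]
    push_cast
    rfl
  rw [hfun]
  exact hs

/-- Product form: `G · θ A` is the `q`-expansion of `ψ · D φ`. -/
theorem HasQ_D_mul (ι : K →+* ℂ) {G A A' : LaurentSeries K} {ψ φ : ℍ → ℂ}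
    (hG : HasQ ι G ψ) (h : HasQ ι A φ) (hA' : ∀ n : ℤ, A'.coeff n = (n : K) * A.coeff n) :
    HasQ ι (G * A') (ψ * D φ) :=
  hG.mul (HasQ_D ι h hA')

/-- `D jFun` has the `q`-expansion `θ j` (with `j = jqModC K`). -/
theorem hasQ_D_jqModC (ι : K →+* ℂ) {jθ : LaurentSeries K}
    (hjθ : ∀ n : ℤ, jθ.coeff n = (n : K) * (jqModC K).coeff n) : HasQ ι jθ (D jFun) :=
  HasQ_D ι (hasQ_jqModC ι) hjθ

end General

/-- `D jFun` has the `q`-expansion `θ j`, with `j` read as the element `jF N` of `F_N`. -/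
theorem hasQ_D_jF (ι : Kbar →+* ℂ) (N : ℕ) {jθ : LaurentSeries Kbar}
    (hjθ : ∀ n : ℤ, jθ.coeff n = (n : Kbar) * ((jF N : FN N) : LaurentSeries Kbar).coeff n) :
    HasQ ι jθ (D jFun) := by
  have h := hasQ_theta ι N (jA0 N)
  rw [theta_jA0] at h
  exact HasQ_D ι h hjθ

/-- `D jFun` has the `q`-expansion `θ j` (the literal consumed by `DictQ`). -/
theorem hasQ_D_jFun (ι : Kbar →+* ℂ) (N : ℕ) {jθ : LaurentSeries Kbar}
    (hjθ : ∀ n : ℤ, jθ.coeff n = (n : Kbar) * ((jF N : FN N) : LaurentSeries Kbar).coeff n) :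
    HasQ ι jθ (D jFun) :=
  hasQ_D_jF ι N hjθ

end Fermat.Agent.S44.D.DictDeriv
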