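import Fermat.Agent.S44.D.LiftBricks
import Fermat.Agent.S44.D.Dict0Inst
import Fermat.Agent.S44.D.DictDeriv

set_option autoImplicit false
set_option linter.style.haveILetI false

/-!
# PROGRAM MR (S44), strand D: the dictionary brick `DictStatement` is a theorem (helper29)

`dictStatement : DictStatement` (`S44/D/LiftBricks.lean`): a trace-dual regular function
`G : LE N' E` (`E ⊆ ℚ̄` a number field) gives a weight-2 cusp form `Φ` of level `Γ₀(N')` whose
`q`-expansion is `G · θ(j)`, read through any `ι : ℚ̄ → ℂ`.

Assembly of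
* `Dict0Inst.exists_cuspForm_qCoeff_of_traceDual` ((d0) place bounds from trace duality —
  helper145's `TameBound` / `Dict0` — and (d1) the cusp form `G · D j` — helper279's
  `DictHol` / `DictQ`), and
* `DictDeriv.hasQ_D_jqModC` (helper147: `D j` has the `q`-expansion `θ(j)`),

with the identifications `S18.K1Main.jE = S30.E2.Degree.jE` and
`K1Descent.upHom = Abs.rhoBC` (both definitional).
-/

noncomputable section

open CuspForm ModularFormClass UpperHalfPlane HahnSeries Polynomial IntermediateField

namespace Fermat.Agent.S44.D.DictProof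

open Fermat.Agent.S44.D Fermat.Agent.S18 Fermat.Agent.S18.K1Defs

local notation "Qb" => AlgebraicClosure ℚ

/-- `θ(j) = q dj/dq` in `K((q))`. -/
def thetaJ (K : Type*) [CommRing K] : LaurentSeries K where
  coeff n := (n : K) * (ModularCurve.jqModC K).coeff n
  isPWO_support' := (ModularCurve.jqModC K).isPWO_support.mono fun n hn => by
    rw [Function.mem_support] at hn
    exact fun h => hn (by rw [h, mul_zero])

theorem isThetaJ_thetaJ (K : Type*) [CommRing K] : IsThetaJ K (thetaJ K) := fun _ => rfl

/-- **The dictionary brick (D-I.2).** -/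
theorem dictStatement : DictStatement := by
  intro N' _ E _ G hG ι
  obtain ⟨Φ, hΦ⟩ := Dict0Inst.exists_cuspForm_qCoeff_of_traceDual N' E ι G hG.1 hG.2
    (thetaJ Qb) (DictDeriv.hasQ_D_jqModC ι (isThetaJ_thetaJ Qb))
  exact ⟨Φ, thetaJ Qb, isThetaJ_thetaJ Qb, hΦ⟩

end Fermat.Agent.S44.D.DictProof

end
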