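/-
PROGRAM MR (S44), strand D, the EXIT (helper263): from a cusp form of level `N` with
`A`-integral `q`-coefficients whose reduction modulo the maximal ideal of `A` is a nonzero
eigen-series of the weight-2 Hecke operators `T_ℓ` (`ℓ ∈ S`, `ℓ ∤ N p`), to a normalised
eigenform of level `N` and a maximal ideal of `ℤ̄ ⊆ ℂ` over `p` with congruent eigenvalues
(Deligne–Serre lifting, `S48/ModEigen.exists_eigen_lift`, + `S22` + `S35/EigenNormalize`).

No geometry: Mathlib + the landed closures of S22, S35/EigenNormalize, S48/ModEigen, S49/PartB.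

* `mem_valuationSubring_of_isIntegral` : algebraic integers of `ℚ̄` lie in every valuation
  subring.
* `exists_eq_of_isIntegral` : every algebraic integer of `ℂ` is `iota x` for an algebraic
  integer `x` of `ℚ̄` (`iota : ℚ̄ →+* ℂ` any embedding).
* `resHom A iota : integralClosure ℤ ℂ →+* ResidueField A`, with
  `resHom_eq : iota y = c → resHom A iota c = residue y` (`y : A`).
* `exit_core` : the exit, for coefficient data `c : ℕ → A`.
* `exit_of_series` : the same with the reduction given as a Laurent series `φ` over the residue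
  field of `A` satisfying the Hecke clause of `Contract.RegLog` literally (indices in `ℤ`).
-/
import Mathlib
import Fermat.Prelude.Def_FLTPrelim_Ramification
import Fermat.Agent.S22
import Fermat.Agent.S35.EigenNormalize
import Fermat.Agent.S48.ModEigen
import Fermat.Agent.S49.PartB

set_option autoImplicit false
set_option linter.style.haveILetI false
set_option linter.dupNamespace false
set_option linter.unusedSectionVars false
set_option linter.unusedVariables false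

open Polynomial CongruenceSubgroup

noncomputable section

namespace Fermat.Agent.S44.D.ExitRed

local notation "Qb" => AlgebraicClosure ℚ
local notation "Zc" => integralClosure ℤ ℂ

/-! ### Algebraic integers -/

/-- Algebraic integers of `ℚ̄` lie in every valuation subring. -/
theorem mem_valuationSubring_of_isIntegral (A : ValuationSubring Qb) {x : Qb}
    (hx : IsIntegral ℤ x) : x ∈ A := by
  have h : IsIntegral A x := hx.tower_top
  obtain ⟨y, hy⟩ := (IsIntegrallyClosed.isIntegral_iff (R := A) (K := Qb)).mp h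
  rw [← hy]
  exact y.2

/-- Every algebraic integer of `ℂ` is the image of an algebraic integer of `ℚ̄`. -/
theorem exists_eq_of_isIntegral (iota : Qb →+* ℂ) {z : ℂ} (hz : IsIntegral ℤ z) :
    ∃ x : Qb, IsIntegral ℤ x ∧ iota x = z := by
  obtain ⟨f, hf, hfz⟩ := hz
  set P : Qb[X] := f.map (algebraMap ℤ Qb) with hP
  have hPmon : P.Monic := hf.map _
  have hcard : P.roots.card = P.natDegree := IsAlgClosed.card_roots_eq_natDegree
  have hmap : P.map iota = f.map (algebraMap ℤ ℂ) := by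
    rw [hP, Polynomial.map_map]
    congr 1
    exact RingHom.ext_int _ _
  have hroots := roots_map_of_injective_of_card_eq_natDegree iota.injective hcard
  have hz' : z ∈ (P.map iota).roots := by
    rw [hmap, mem_roots (hf.map _).ne_zero, IsRoot.def, eval_map]
    exact hfz
  rw [← hroots, Multiset.mem_map] at hz'
  obtain ⟨x, hx, rfl⟩ := hz'
  refine ⟨x, ⟨f, hf, ?_⟩, rfl⟩
  have := (mem_roots hPmon.ne_zero).mp hx
  rw [IsRoot.def, hP, eval_map] at this
  exact this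

/-- The restriction of an embedding `ℚ̄ → ℂ` to the algebraic integers. -/
def intMap (iota : Qb →+* ℂ) : integralClosure ℤ Qb →+* Zc where
  toFun x := ⟨iota x.1, map_isIntegral_int iota x.2⟩
  map_one' := Subtype.ext (map_one iota)
  map_mul' x y := Subtype.ext (map_mul iota x.1 y.1)
  map_zero' := Subtype.ext (map_zero iota)
  map_add' x y := Subtype.ext (map_add iota x.1 y.1)

theorem intMap_bijective (iota : Qb →+* ℂ) : Function.Bijective (intMap iota) := by
  constructor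
  · intro x y h
    have h1 : iota x.1 = iota y.1 := congrArg Subtype.val h
    exact Subtype.ext (iota.injective h1)
  · intro z
    obtain ⟨x, hx, hxz⟩ := exists_eq_of_isIntegral iota z.2
    exact ⟨⟨x, hx⟩, Subtype.ext hxz⟩

/-- The inclusion of the algebraic integers of `ℚ̄` into a valuation subring. -/
def inclA (A : ValuationSubring Qb) : integralClosure ℤ Qb →+* A where
  toFun x := ⟨x.1, mem_valuationSubring_of_isIntegral A x.2⟩
  map_one' := rfl
  map_mul' _ _ := rfl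
  map_zero' := rfl
  map_add' _ _ := rfl

/-- **The residue map of `ℤ̄ ⊆ ℂ`** attached to a valuation subring `A` of `ℚ̄` and an
embedding `iota : ℚ̄ → ℂ`. -/
def resHom (A : ValuationSubring Qb) (iota : Qb →+* ℂ) : Zc →+* IsLocalRing.ResidueField A :=
  (IsLocalRing.residue A).comp
    ((inclA A).comp (RingEquiv.ofBijective (intMap iota) (intMap_bijective iota)).symm.toRingHom)

theorem resHom_eq (A : ValuationSubring Qb) (iota : Qb →+* ℂ) (c : Zc) (y : A)
    (h : iota (y : Qb) = (c : ℂ)) : resHom A iota c = IsLocalRing.residue A y := by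
  set e := RingEquiv.ofBijective (intMap iota) (intMap_bijective iota) with he
  have h1 : e (e.symm c) = c := e.apply_symm_apply c
  have h2 : iota (e.symm c).1 = (c : ℂ) := congrArg Subtype.val h1
  have h3 : (e.symm c).1 = (y : Qb) := iota.injective (h2.trans h.symm)
  have h4 : inclA A (e.symm c) = y := Subtype.ext h3
  show IsLocalRing.residue A (inclA A (e.symm c)) = IsLocalRing.residue A y
  rw [h4]

/-- Every algebraic integer of `ℂ` is `iota y` for some `y ∈ A`. -/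
theorem exists_mem_eq (A : ValuationSubring Qb) (iota : Qb →+* ℂ) (c : Zc) :
    ∃ y : A, iota (y : Qb) = (c : ℂ) := by
  obtain ⟨x, hx, hxz⟩ := exists_eq_of_isIntegral iota c.2
  exact ⟨⟨x, mem_valuationSubring_of_isIntegral A hx⟩, hxz⟩

/-! ### The exit -/

section Exit

variable {N : ℕ} [NeZero N]

/-- The subgroup of cusp forms whose `q`-coefficients lie in `iota (𝔪_A)`. -/
def redZero (N : ℕ) (A : ValuationSubring Qb) (iota : Qb →+* ℂ) :
    AddSubgroup (CuspForm (Gamma0 N) 2) where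
  carrier := {v | ∀ n : ℕ, ∃ y : A, y ∈ IsLocalRing.maximalIdeal A ∧
    ModularFormClass.qCoeff v n = iota (y : Qb)}
  add_mem' := by
    intro v w hv hw n
    obtain ⟨y, hy, e⟩ := hv n
    obtain ⟨y', hy', e'⟩ := hw n
    refine ⟨y + y', Ideal.add_mem _ hy hy', ?_⟩
    rw [Fermat.Agent.S49.PartB.qCoeff_add, e, e']
    simp
  zero_mem' := by
    intro n
    refine ⟨0, Ideal.zero_mem _, ?_⟩
    rw [Fermat.Agent.S49.PartB.qCoeff_zero_form]
    simp
  neg_mem' := by
    intro v hv n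
    obtain ⟨y, hy, e⟩ := hv n
    refine ⟨-y, Ideal.neg_mem_iff _ |>.mpr hy, ?_⟩
    rw [Fermat.Agent.S49.PartB.qCoeff_neg, e]
    simp

theorem mem_redZero {A : ValuationSubring Qb} {iota : Qb →+* ℂ} {v : CuspForm (Gamma0 N) 2} :
    v ∈ redZero N A iota ↔ ∀ n : ℕ, ∃ y : A, y ∈ IsLocalRing.maximalIdeal A ∧
      ModularFormClass.qCoeff v n = iota (y : Qb) := Iff.rfl

/-- **The exit of strand D.**  A cusp form `F` of level `N` whose `q`-coefficients are
`iota (c n)` with `c n ∈ A`, not all in the maximal ideal, and whose reduction is an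
eigen-series of the weight-2 operators `T_ℓ` (`ℓ ∈ S` prime, `ℓ ∤ N p`) with eigenvalues `a ℓ`,
gives a normalised eigenform of level `N` and a maximal ideal over `p` with
`a_ℓ(g) ≡ a ℓ`. -/
theorem exit_core {p : ℕ} (hp : p.Prime) (A : ValuationSubring Qb) (hA : A.LiesOverPrime p)
    (iota : Qb →+* ℂ) (S : Set ℕ) (a : ℕ → ℤ)
    (F : CuspForm (Gamma0 N) 2) (c : ℕ → A)
    (hc : ∀ n : ℕ, ModularFormClass.qCoeff F n = iota (c n : Qb))
    (hne : ∃ n : ℕ, IsLocalRing.residue A (c n) ≠ 0)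
    (hH : ∀ ℓ : ℕ, ℓ.Prime → ℓ ∈ S → ¬ ℓ ∣ N * p → ∀ n : ℕ,
      IsLocalRing.residue A (c (ℓ * n))
          + (ℓ : IsLocalRing.ResidueField A) *
            (if ℓ ∣ n then IsLocalRing.residue A (c (n / ℓ)) else 0)
        = ((a ℓ : ℤ) : IsLocalRing.ResidueField A) * IsLocalRing.residue A (c n)) :
    ∃ (g : CuspForm (Gamma0 N) 2) (𝔪 : Ideal Zc),
      g.IsNormalizedEigenform ∧ 𝔪.IsMaximal ∧ (p : Zc) ∈ 𝔪 ∧
      ∀ ℓ : ℕ, ℓ.Prime → ℓ ∈ S → ¬ ℓ ∣ N → ℓ ≠ p →
        ∃ x : Zc, (x : ℂ) = ModularFormClass.qCoeff g ℓ ∧ x - ((a ℓ : ℤ) : Zc) ∈ 𝔪 := by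
  classical
  haveI : FiniteDimensional ℂ (CuspForm (Gamma0 N) 2) :=
    Fermat.Agent.S23.FinDim.finiteDimensional_cuspForm N 2
  -- the residue field, its algebraic closure, the residue map of `ℤ̄`
  let κ := IsLocalRing.ResidueField A
  let k := AlgebraicClosure κ
  let r : Zc →+* k := (algebraMap κ k).comp (resHom A iota)
  -- the index set and the Hecke family
  let ι := {ℓ : ℕ // ℓ.Prime ∧ ¬ ℓ ∣ N ∧ ℓ ≠ p ∧ ℓ ∈ S}
  let T : ι → Module.End ℂ (CuspForm (Gamma0 N) 2) :=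
    fun i => CuspForm.heckeTLin 2 i.2.1 i.2.2.1
  have hcomm : ∀ i j, T i * T j = T j * T i := fun i j =>
    (CuspForm.heckeTLin_comm 2 i.2.1 i.2.2.1 j.2.1 j.2.2.1).eq
  have hfg : (Subalgebra.toSubmodule (Algebra.adjoin ℤ (Set.range T))).FG := by
    have hle : Algebra.adjoin ℤ (Set.range T) ≤ CuspForm.heckeAlgebra N 2 (∅ : Set ℕ) := by
      apply Algebra.adjoin_mono
      rintro _ ⟨i, rfl⟩
      exact CuspForm.heckeTLin_mem_heckeGenerators i.2.1 i.2.2.1 (Set.notMem_empty _)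
    haveI : Module.Finite ℤ (CuspForm.heckeAlgebra N 2 (∅ : Set ℕ)) :=
      Fermat.Agent.S22.result N 2 ∅
    haveI : IsNoetherian ℤ (Subalgebra.toSubmodule (CuspForm.heckeAlgebra N 2 (∅ : Set ℕ))) :=
      isNoetherian_of_isNoetherianRing_of_finite ℤ _
    have hle' : Subalgebra.toSubmodule (Algebra.adjoin ℤ (Set.range T)) ≤
        Subalgebra.toSubmodule (CuspForm.heckeAlgebra N 2 (∅ : Set ℕ)) := hle
    haveI := isNoetherian_of_le hle'
    exact Module.Finite.iff_fg.mp inferInstance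
  -- `p` dies in the residue field
  obtain ⟨hpA, hpm⟩ := ValuationSubring.mem_nonunits_iff_exists_mem_maximalIdeal.mp hA
  -- the subgroup of forms `≡ 0`
  let M := redZero N A iota
  have hMA : ∀ (x : Zc) (v : CuspForm (Gamma0 N) 2), v ∈ M → (x : ℂ) • v ∈ M := by
    intro x v hv n
    obtain ⟨y, hy, e⟩ := hv n
    obtain ⟨z, hz⟩ := exists_mem_eq A iota x
    refine ⟨z * y, Ideal.mul_mem_left _ z hy, ?_⟩
    rw [Fermat.Agent.S49.PartB.qCoeff_smul, e, ← hz]
    simp
  have hMT : ∀ i, ∀ v ∈ M, T i v ∈ M := by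
    intro i v hv n
    obtain ⟨y1, hy1, e1⟩ := hv (n * i.1)
    show ∃ y : A, y ∈ IsLocalRing.maximalIdeal A ∧
      ModularFormClass.qCoeff (⇑(CuspForm.heckeTLin 2 i.2.1 i.2.2.1 v)) n = iota (y : Qb)
    by_cases hd : i.1 ∣ n
    · obtain ⟨y2, hy2, e2⟩ := hv (n / i.1)
      refine ⟨y1 + (i.1 : A) * y2, Ideal.add_mem _ hy1 (Ideal.mul_mem_left _ _ hy2), ?_⟩
      rw [Fermat.Agent.S49.PartB.qCoeff_heckeTLin, if_pos hd, e1, e2]
      simp
    · refine ⟨y1, hy1, ?_⟩
      rw [Fermat.Agent.S49.PartB.qCoeff_heckeTLin, if_neg hd, e1, add_zero]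
  let α : ι → Zc := fun i => ((a i.1 : ℤ) : Zc)
  have hg : ∀ i, T i F - (α i : ℂ) • F ∈ M := by
    intro i n
    have hiNp : ¬ i.1 ∣ N * p := by
      intro hd
      rcases (Nat.Prime.dvd_mul i.2.1).mp hd with h | h
      · exact i.2.2.1 h
      · exact i.2.2.2.1 ((Nat.prime_dvd_prime_iff_eq i.2.1 hp).mp h)
    have hH' := hH i.1 i.2.1 i.2.2.2.2 hiNp n
    show ∃ y : A, y ∈ IsLocalRing.maximalIdeal A ∧
      ModularFormClass.qCoeff (⇑(CuspForm.heckeTLin 2 i.2.1 i.2.2.1 F - (α i : ℂ) • F)) n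
        = iota (y : Qb)
    rw [Fermat.Agent.S49.PartB.qCoeff_sub, Fermat.Agent.S49.PartB.qCoeff_smul,
      Fermat.Agent.S49.PartB.qCoeff_heckeTLin]
    simp only [hc]
    by_cases hd : i.1 ∣ n
    · rw [if_pos hd] at hH' ⊢
      refine ⟨c (n * i.1) + (i.1 : A) * c (n / i.1) - ((a i.1 : ℤ) : A) * c n, ?_, ?_⟩
      · rw [← IsLocalRing.residue_eq_zero_iff, map_sub, map_add, map_mul, map_mul, map_natCast,
          map_intCast, mul_comm n i.1, hH', sub_self]
      · simp [α]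
    · rw [if_neg hd] at hH' ⊢
      refine ⟨c (n * i.1) - ((a i.1 : ℤ) : A) * c n, ?_, ?_⟩
      · rw [mul_zero, add_zero] at hH'
        rw [← IsLocalRing.residue_eq_zero_iff, map_sub, map_mul, map_intCast, mul_comm n i.1,
          hH', sub_self]
      · simp [α]
  have hg1 : ∀ x : Zc, (x : ℂ) • F ∈ M → r x = 0 := by
    intro x hx
    obtain ⟨n, hn⟩ := hne
    obtain ⟨y, hy, e⟩ := hx n
    obtain ⟨z, hz⟩ := exists_mem_eq A iota x
    rw [Fermat.Agent.S49.PartB.qCoeff_smul, hc, ← hz, ← map_mul] at e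
    have e' : (z : Qb) * (c n : Qb) = (y : Qb) := iota.injective e
    have e'' : z * c n = y := Subtype.ext e'
    have h0 : IsLocalRing.residue A z * IsLocalRing.residue A (c n) = 0 := by
      rw [← map_mul, e'']
      exact (IsLocalRing.residue_eq_zero_iff _).mpr hy
    have hz0 : IsLocalRing.residue A z = 0 := (mul_eq_zero.mp h0).resolve_right hn
    show algebraMap κ k (resHom A iota x) = 0
    rw [resHom_eq A iota x z hz, hz0, map_zero]
  obtain ⟨a', v, φ, hv, heig, hφ⟩ :=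
    Fermat.Agent.S48.ModEigen.exists_eigen_lift T hcomm hfg r M hMA hMT F α hg hg1
  -- the maximal ideal
  have hφp : φ (p : Zc) = 0 := by
    rw [map_natCast]
    have h1 : (p : k) = algebraMap κ k (IsLocalRing.residue A (⟨(p : Qb), hpA⟩ : A)) := by
      have h2 : (⟨(p : Qb), hpA⟩ : A) = (p : A) := Subtype.ext (by simp)
      rw [h2, map_natCast, map_natCast]
    rw [h1, (IsLocalRing.residue_eq_zero_iff _).mpr hpm, map_zero]
  haveI hprime : (RingHom.ker φ).IsPrime := RingHom.ker_isPrime φ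
  have hmax : (RingHom.ker φ).IsMaximal := by
    have hpmax : (Ideal.span {(p : ℤ)}).IsMaximal :=
      PrincipalIdealRing.isMaximal_of_irreducible (Nat.prime_iff_prime_int.mp hp).irreducible
    have hle : Ideal.span {(p : ℤ)} ≤ (RingHom.ker φ).comap (algebraMap ℤ Zc) := by
      rw [Ideal.span_singleton_le_iff_mem, Ideal.mem_comap, RingHom.mem_ker]
      simpa using hφp
    have hne' : (RingHom.ker φ).comap (algebraMap ℤ Zc) ≠ ⊤ := Ideal.IsPrime.ne_top inferInstance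
    have heq := hpmax.eq_of_le hne' hle
    exact Ideal.isMaximal_of_isIntegral_of_isMaximal_comap (R := ℤ) (RingHom.ker φ) (heq ▸ hpmax)
  -- the normalised eigenform
  let P : Set ℕ := {ℓ | ℓ ≠ p ∧ ℓ ∈ S}
  let cc : ℕ → ℂ := fun ℓ =>
    if h : ℓ.Prime ∧ ¬ ℓ ∣ N ∧ ℓ ≠ p ∧ ℓ ∈ S then ((a' ⟨ℓ, h⟩ : Zc) : ℂ) else 0
  obtain ⟨g, hgn, hgc⟩ := Fermat.Agent.S35.EigenNormalize.exists_isNormalizedEigenform P cc v hv
    (by
      intro ℓ hℓ hℓN hℓP
      have h : ℓ.Prime ∧ ¬ ℓ ∣ N ∧ ℓ ≠ p ∧ ℓ ∈ S := ⟨hℓ, hℓN, hℓP.1, hℓP.2⟩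
      have h1 := heig ⟨ℓ, h⟩
      simp only [cc, dif_pos h]
      exact h1)
  refine ⟨g, RingHom.ker φ, hgn, hmax, RingHom.mem_ker.mpr hφp, fun ℓ hℓ hℓS hℓN hℓp => ?_⟩
  have h : ℓ.Prime ∧ ¬ ℓ ∣ N ∧ ℓ ≠ p ∧ ℓ ∈ S := ⟨hℓ, hℓN, hℓp, hℓS⟩
  refine ⟨a' ⟨ℓ, h⟩, ?_, ?_⟩
  · rw [hgc ℓ hℓ hℓN ⟨hℓp, hℓS⟩]
    simp only [cc, dif_pos h]
  · have e1 : r (α ⟨ℓ, h⟩) = ((a ℓ : ℤ) : k) := map_intCast r (a ℓ)
    have e2 : φ (((a ℓ : ℤ)) : Zc) = ((a ℓ : ℤ) : k) := map_intCast φ (a ℓ)
    rw [RingHom.mem_ker, map_sub, hφ ⟨ℓ, h⟩, e1, e2, sub_self]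

/-- **The exit of strand D, series form.**  As `exit_core`, with the reduction of `F` given as
a Laurent series `φ ≠ 0` over the residue field of `A` (`φ.coeff n = residue (c n)` for
`n : ℕ`, no negative coefficients) satisfying the Hecke clause of `Contract.RegLog`
literally. -/
theorem exit_of_series {p : ℕ} (hp : p.Prime) (A : ValuationSubring Qb)
    (hA : A.LiesOverPrime p) (iota : Qb →+* ℂ) (S : Set ℕ) (a : ℕ → ℤ)
    (F : CuspForm (Gamma0 N) 2) (φ : LaurentSeries (IsLocalRing.ResidueField A)) (c : ℕ → A)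
    (hc : ∀ n : ℕ, ModularFormClass.qCoeff F n = iota (c n : Qb))
    (hφ : ∀ n : ℕ, φ.coeff (n : ℤ) = IsLocalRing.residue A (c n))
    (hneg : ∀ n : ℤ, n < 0 → φ.coeff n = 0) (hφ0 : φ ≠ 0)
    (hH : ∀ ℓ : ℕ, ℓ.Prime → ℓ ∈ S → ¬ ℓ ∣ N * p → ∀ n : ℤ,
      φ.coeff (ℓ * n)
          + (ℓ : IsLocalRing.ResidueField A) * (if (ℓ : ℤ) ∣ n then φ.coeff (n / ℓ) else 0)
        = ((a ℓ : ℤ) : IsLocalRing.ResidueField A) * φ.coeff n) :
    ∃ (g : CuspForm (Gamma0 N) 2) (𝔪 : Ideal Zc),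
      g.IsNormalizedEigenform ∧ 𝔪.IsMaximal ∧ (p : Zc) ∈ 𝔪 ∧
      ∀ ℓ : ℕ, ℓ.Prime → ℓ ∈ S → ¬ ℓ ∣ N → ℓ ≠ p →
        ∃ x : Zc, (x : ℂ) = ModularFormClass.qCoeff g ℓ ∧ x - ((a ℓ : ℤ) : Zc) ∈ 𝔪 := by
  refine exit_core hp A hA iota S a F c hc ?_ ?_
  · by_contra hall'
    have hall : ∀ n : ℕ, IsLocalRing.residue A (c n) = 0 := fun n =>
      by_contra fun h => hall' ⟨n, h⟩
    apply hφ0
    ext n
    rw [HahnSeries.coeff_zero]
    rcases lt_or_ge n 0 with hn | hn
    · exact hneg n hn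
    · obtain ⟨m, rfl⟩ := Int.eq_ofNat_of_zero_le hn
      rw [hφ m]
      exact hall m
  · intro ℓ hℓ hℓS hℓNp n
    have h := hH ℓ hℓ hℓS hℓNp (n : ℤ)
    have e1 : ((ℓ : ℤ) * (n : ℤ)) = ((ℓ * n : ℕ) : ℤ) := by push_cast; ring
    have e2 : ((n : ℤ) / (ℓ : ℤ)) = ((n / ℓ : ℕ) : ℤ) := (Int.natCast_div n ℓ).symm
    rw [e1, e2, hφ, hφ, hφ] at h
    by_cases hd : ℓ ∣ n
    · rw [if_pos (Int.natCast_dvd_natCast.mpr hd)] at h
      rw [if_pos hd]
      exact h
    · rw [if_neg (fun hd' => hd (Int.natCast_dvd_natCast.mp hd'))] at h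
      rw [if_neg hd]
      exact h

end Exit

end Fermat.Agent.S44.D.ExitRed
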