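/-
PROGRAM MR (S44), strand D: the brick D-II `ExitStatement` of `S44/D/Bricks.lean` PROVED
(helper263), from `S44/D/ExitRed.exit_of_series` (Deligne–Serre lifting on the concrete residue
map of `A`).  Consequently strand D is reduced to the lifting brick alone:

* `exitStatement : D.ExitStatement`;
* `dStatement_of_lift : D.LiftStatement → Contract.DStatement`.
-/
import Mathlib
import Fermat.Agent.S44.D.Bricks
import Fermat.Agent.S44.D.ExitRed

set_option autoImplicit false
set_option linter.style.haveILetI false
set_option linter.dupNamespace false

namespace Fermat.Agent.S44.D.ExitProof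

open Fermat.Agent.S44.Contract Fermat.Agent.S44.D

/-- **Brick D-II (exit) of strand D.** -/
theorem exitStatement : ExitStatement := by
  intro p N' hp hN' hpN' A hA S a ι F φ hF hφ hheck
  haveI : NeZero N' := ⟨hN'.ne'⟩
  obtain ⟨c, hc, hφc, hneg⟩ := hF
  exact Fermat.Agent.S44.D.ExitRed.exit_of_series hp A hA ι S a F φ c hc hφc hneg hφ hheck

/-- **Strand D from the lifting brick alone.** -/
theorem dStatement_of_lift (hLift : LiftStatement) : DStatement :=
  DStatement_of_bricks hLift exitStatement

end Fermat.Agent.S44.D.ExitProof
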