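/-
PROGRAM MR (S44), strand D (helper279): THE INTEGRALITY DEBT of the dictionary.

The dictionary (`DictHol` / `DictQ`) produces a cusp form `F` whose `q`-expansion is `C = G · θ j`
with `G` only GAUSS-integral (`V · C = U` with `U`, `V` integral and `V ≢ 0` modulo the maximal
ideal).  Gauss-integrality alone does not give coefficientwise integrality; the missing input is
"cusp forms have bounded denominators", which is the landed S23 (`CuspForm.HasIntegralStructure`).

* `exists_finset_int_span` : every `q`-coefficient of a weight-2 cusp form on `Γ₀(N)` is a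
  `ℤ`-linear combination of FINITELY MANY of its `q`-coefficients.
* `coeff_mem_of_gauss` : for a valuation subring `A` of `ℚ̄`, if `V · C = U` with `U`, `V`
  integral and `V ≢ 0`, then `C` is integral and `red C · red V = red U`.
* `hasRedQExp_of_gauss` : the same in the shape of `D.HasRedQExp`.
-/
import Mathlib
import Fermat.Agent.S23
import Fermat.Agent.S30.Congr
import Fermat.Agent.S49.PartB
import Fermat.Agent.S44.D.Bricks

set_option autoImplicit false
set_option linter.unusedSectionVars false

open CuspForm ModularFormClass CongruenceSubgroup UpperHalfPlane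

noncomputable section

namespace Fermat.Agent.S44.D.DictInt

open Fermat.Agent.S30

local notation "Qb" => AlgebraicClosure ℚ

/-! ### Bounded denominators -/

/-- The `n`-th `q`-coefficient as a `ℂ`-linear form on weight-2 cusp forms. -/
def qL (N : ℕ) (n : ℕ) : CuspForm (Gamma0 N) 2 →ₗ[ℂ] ℂ where
  toFun f := ModularFormClass.qCoeff f n
  map_add' f g := Fermat.Agent.S49.PartB.qCoeff_add f g n
  map_smul' c f := by
    simpa using Fermat.Agent.S49.PartB.qCoeff_smul c f n

theorem qL_apply (N : ℕ) (n : ℕ) (f : CuspForm (Gamma0 N) 2) :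
    qL N n f = ModularFormClass.qCoeff f n := rfl

/-- **Bounded denominators.**  Every `q`-coefficient of a weight-2 cusp form on `Γ₀(N)` is a
`ℤ`-linear combination of finitely many of its `q`-coefficients. -/
theorem exists_finset_int_span (N : ℕ) [NeZero N] (F : CuspForm (Gamma0 N) 2) :
    ∃ T : Finset ℕ, ∀ n : ℕ, ∃ z : ℕ → ℤ,
      ModularFormClass.qCoeff F n = ∑ t ∈ T, (z t : ℂ) * ModularFormClass.qCoeff F t := by
  classical
  have hS : F ∈ Submodule.span ℂ
      ((CuspForm.intLattice N 2 : Submodule ℤ (CuspForm (Gamma0 N) 2)) :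
        Set (CuspForm (Gamma0 N) 2)) := by
    have h := Fermat.Agent.S23.result N
    unfold CuspForm.HasIntegralStructure at h
    rw [h]
    exact Submodule.mem_top
  obtain ⟨w, s, hs, -, hF⟩ := Submodule.mem_span_iff_exists_finset_subset.mp hS
  -- the integer coefficients of the generators
  have hint : ∀ (g : s) (n : ℕ), ∃ m : ℤ, ModularFormClass.qCoeff (g : CuspForm (Gamma0 N) 2) n
      = (m : ℂ) := fun g n =>
    Fermat.Agent.S49.PartB.qCoeff_int_of_mem_intLattice (hs g.2) n
  choose R hR using hint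
  -- rows `R' n : s → ℤ`
  let R' : ℕ → (s → ℤ) := fun n g => R g n
  have hfg : (Submodule.span ℤ (Set.range R')).FG := IsNoetherian.noetherian _
  obtain ⟨s', hs', hspan⟩ := (Submodule.fg_span_iff_fg_span_finset_subset _).mp hfg
  -- choose preimages
  have hpre : ∀ x : s', ∃ t : ℕ, R' t = (x : s → ℤ) := fun x => hs' x.2
  choose τ hτ using hpre
  let T : Finset ℕ := Finset.univ.image τ
  have hsub : ((s' : Set (s → ℤ))) ⊆ R' '' (T : Set ℕ) := by
    intro x hx
    refine ⟨τ ⟨x, hx⟩, ?_, hτ ⟨x, hx⟩⟩
    simp [T]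
  -- the expansion of `qCoeff F n`
  have hexp : ∀ n : ℕ, ModularFormClass.qCoeff F n
      = ∑ g : s, w (g : CuspForm (Gamma0 N) 2) * (R g n : ℂ) := by
    intro n
    rw [← qL_apply, ← hF, map_sum, ← Finset.sum_coe_sort s]
    refine Finset.sum_congr rfl (fun g _ => ?_)
    rw [map_smul, smul_eq_mul, qL_apply, hR]
  refine ⟨T, fun n => ?_⟩
  have hmem : R' n ∈ Submodule.span ℤ (R' '' (T : Set ℕ)) := by
    have h1 : R' n ∈ Submodule.span ℤ (Set.range R') := Submodule.subset_span ⟨n, rfl⟩
    rw [hspan] at h1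
    exact Submodule.span_mono hsub h1
  obtain ⟨c, hc⟩ := (Submodule.mem_span_image_finset_iff_exists_fun' ℤ).mp hmem
  refine ⟨c, ?_⟩
  have hc' : ∀ g : s, (R g n : ℂ) = ∑ t ∈ T, (c t : ℂ) * (R g t : ℂ) := by
    intro g
    have h2 := congrFun hc g
    rw [Finset.sum_apply] at h2
    have h3 : R g n = ∑ t ∈ T, c t * R g t := by
      show R' n g = _
      rw [← h2]
      refine Finset.sum_congr rfl (fun t _ => ?_)
      simp [R']
    rw [h3]
    push_cast
    rfl
  rw [hexp n]
  simp_rw [hexp, hc', Finset.mul_sum]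
  rw [Finset.sum_comm]
  refine Finset.sum_congr rfl (fun t _ => Finset.sum_congr rfl (fun g _ => ?_))
  ring

/-! ### Gauss-integral with bounded denominators is integral -/

theorem coeff_C_mul' {R : Type*} [CommRing R] (r : R) (x : LaurentSeries R) (k : ℤ) :
    (HahnSeries.C r * x).coeff k = r * x.coeff k := by
  rw [HahnSeries.C_mul_eq_smul, HahnSeries.coeff_smul, smul_eq_mul]

/-- **Gauss-integral + cusp form ⟹ integral.**  Let `A` be a valuation subring of `ℚ̄`, `C` a
Laurent series over `ℚ̄` without negative coefficients whose coefficients are (through `ι`) the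
`q`-coefficients of a weight-2 cusp form on `Γ₀(N)`.  If `V · C = U` with `U`, `V` integral and
`V ≢ 0` modulo the maximal ideal, then `C` is integral and `red C · red V = red U`. -/
theorem coeff_mem_of_gauss (N : ℕ) [NeZero N] (A : ValuationSubring Qb) (ι : Qb →+* ℂ)
    (F : CuspForm (Gamma0 N) 2) (C : LaurentSeries Qb)
    (hC : ∀ n : ℕ, ModularFormClass.qCoeff F n = ι (C.coeff n))
    (hneg : ∀ n : ℤ, n < 0 → C.coeff n = 0)
    (U V : LaurentSeries A) (hVC : Congr.incl A V * C = Congr.incl A U)
    (hV : Congr.red A V ≠ 0) :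
    ∃ c : LaurentSeries A, Congr.incl A c = C ∧
      Congr.red A c * Congr.red A V = Congr.red A U := by
  classical
  obtain ⟨T, hT⟩ := exists_finset_int_span N F
  -- pull the relations back to `Qb`
  have hT' : ∀ n : ℕ, ∃ z : ℕ → ℤ,
      C.coeff (n : ℤ) = ∑ t ∈ T, (z t : Qb) * C.coeff (t : ℤ) := by
    intro n
    obtain ⟨z, hz⟩ := hT n
    refine ⟨z, ι.injective ?_⟩
    rw [← hC, hz, map_sum]
    refine Finset.sum_congr rfl (fun t _ => ?_)
    rw [map_mul, hC, map_intCast]
  -- all coefficients of `C` are in `A`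
  have key : ∀ n : ℤ, C.coeff n ∈ A := by
    by_cases hT0 : ∀ t ∈ T, C.coeff (t : ℤ) = 0
    · intro n
      rcases lt_or_ge n 0 with hn | hn
      · rw [hneg n hn]
        exact A.zero_mem
      · obtain ⟨m, rfl⟩ := Int.eq_ofNat_of_zero_le hn
        obtain ⟨z, hz⟩ := hT' m
        rw [hz, Finset.sum_eq_zero (fun t ht => by rw [hT0 t ht, mul_zero])]
        exact A.zero_mem
    · push Not at hT0
      obtain ⟨t₁, ht₁, ht₁0⟩ := hT0
      obtain ⟨t₀, ht₀, hmax⟩ :=
        Finset.exists_max_image T (fun t => A.valuation (C.coeff (t : ℤ))) ⟨t₁, ht₁⟩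
      have he0 : C.coeff (t₀ : ℤ) ≠ 0 := by
        intro h0
        have h1 := hmax t₁ ht₁
        simp only [h0, map_zero] at h1
        exact ht₁0 ((map_eq_zero _).mp (le_antisymm h1 zero_le))
      have hv0 : 0 < A.valuation (C.coeff (t₀ : ℤ)) :=
        zero_lt_iff.mpr ((map_ne_zero _).mpr he0)
      -- all coefficients of `e⁻¹ C` are in `A`
      have hD : ∀ n : ℤ, (C.coeff (t₀ : ℤ))⁻¹ * C.coeff n ∈ A := by
        intro n
        rcases lt_or_ge n 0 with hn | hn
        · rw [hneg n hn, mul_zero]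
          exact A.zero_mem
        · obtain ⟨m, rfl⟩ := Int.eq_ofNat_of_zero_le hn
          obtain ⟨z, hz⟩ := hT' m
          rw [hz, Finset.mul_sum]
          refine sum_mem (fun t ht => ?_)
          have h1 : (C.coeff (t₀ : ℤ))⁻¹ * ((z t : Qb) * C.coeff (t : ℤ))
              = (z t : Qb) * ((C.coeff (t₀ : ℤ))⁻¹ * C.coeff (t : ℤ)) := by ring
          rw [h1]
          refine A.mul_mem _ _ (intCast_mem A (z t)) ?_
          rw [← A.valuation_le_one_iff, map_mul, map_inv₀, inv_mul_le_iff₀ hv0, mul_one]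
          exact hmax t ht
      by_cases heA : C.coeff (t₀ : ℤ) ∈ A
      · intro n
        have h1 : C.coeff n = C.coeff (t₀ : ℤ) * ((C.coeff (t₀ : ℤ))⁻¹ * C.coeff n) := by
          field_simp
        rw [h1]
        exact A.mul_mem _ _ heA (hD n)
      · exfalso
        have hei : (C.coeff (t₀ : ℤ))⁻¹ ∈ A := (A.mem_or_inv_mem _).resolve_left heA
        obtain ⟨d, hd⟩ := Congr.exists_incl_eq A (HahnSeries.C (C.coeff (t₀ : ℤ))⁻¹ * C)
          (fun n => by rw [coeff_C_mul']; exact hD n)
        have hinclC : Congr.incl A (HahnSeries.C (⟨(C.coeff (t₀ : ℤ))⁻¹, hei⟩ : A))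
            = HahnSeries.C (C.coeff (t₀ : ℤ))⁻¹ := by
          rw [HahnSeries.C_apply, HahnSeries.C_apply, Congr.incl, ModularCurve.coeffMap_single]
          rfl
        have h2 : V * d = HahnSeries.C (⟨(C.coeff (t₀ : ℤ))⁻¹, hei⟩ : A) * U := by
          apply Congr.incl_injective A
          rw [map_mul, map_mul, hd, ← hVC, hinclC]
          ring
        have hres : IsLocalRing.residue A (⟨(C.coeff (t₀ : ℤ))⁻¹, hei⟩ : A) = 0 := by
          rw [IsLocalRing.residue_eq_zero_iff, A.valuation_lt_one_iff]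
          show A.valuation (C.coeff (t₀ : ℤ))⁻¹ < 1
          rw [map_inv₀, inv_lt_one₀ hv0]
          rw [← not_le, A.valuation_le_one_iff]
          exact heA
        have hredC : Congr.red A (HahnSeries.C (⟨(C.coeff (t₀ : ℤ))⁻¹, hei⟩ : A)) = 0 := by
          rw [HahnSeries.C_apply, Congr.red, ModularCurve.coeffMap_single, hres]
          simp
        have h3 : Congr.red A V * Congr.red A d = 0 := by
          rw [← map_mul, h2, map_mul, hredC, zero_mul]
        have h4 : Congr.red A d = 0 := (mul_eq_zero.mp h3).resolve_left hV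
        have h5 := congrArg (fun x : LaurentSeries (IsLocalRing.ResidueField A) =>
          x.coeff (t₀ : ℤ)) h4
        simp only [Congr.coeff_red, HahnSeries.coeff_zero] at h5
        have h6 : d.coeff (t₀ : ℤ) = 1 := by
          apply Subtype.ext
          have h7 := congrArg (fun x : LaurentSeries Qb => x.coeff (t₀ : ℤ)) hd
          simp only [Congr.coeff_incl] at h7
          rw [h7, coeff_C_mul']
          exact inv_mul_cancel₀ he0
        rw [h6, map_one] at h5
        exact one_ne_zero h5
  obtain ⟨c, hc⟩ := Congr.exists_incl_eq A C key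
  refine ⟨c, hc, ?_⟩
  have h1 : V * c = U := by
    apply Congr.incl_injective A
    rw [map_mul, hc, hVC]
  rw [mul_comm, ← map_mul, h1]

/-- **The integrality debt in the shape of `HasRedQExp`.** -/
theorem hasRedQExp_of_gauss (N : ℕ) [NeZero N] (A : ValuationSubring Qb) (ι : Qb →+* ℂ)
    (F : CuspForm (Gamma0 N) 2) (C : LaurentSeries Qb)
    (hC : ∀ n : ℕ, ModularFormClass.qCoeff F n = ι (C.coeff n))
    (hneg : ∀ n : ℤ, n < 0 → C.coeff n = 0)
    (U V : LaurentSeries A) (hVC : Congr.incl A V * C = Congr.incl A U)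
    (hV : Congr.red A V ≠ 0)
    (φ : LaurentSeries (IsLocalRing.ResidueField A))
    (hφ : φ * Congr.red A V = Congr.red A U) :
    Fermat.Agent.S44.D.HasRedQExp N A ι F φ := by
  obtain ⟨c, hc, hred⟩ := coeff_mem_of_gauss N A ι F C hC hneg U V hVC hV
  have hφc : φ = Congr.red A c := by
    apply mul_right_cancel₀ hV
    rw [hφ, hred]
  have hcoeff : ∀ n : ℤ, ((c.coeff n : A) : Qb) = C.coeff n := by
    intro n
    rw [← hc]
    rfl
  refine ⟨fun n => c.coeff (n : ℤ), fun n => ?_, fun n => ?_, fun n hn => ?_⟩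
  · rw [hC, hcoeff]
  · rw [hφc]
    rfl
  · rw [hφc, Congr.coeff_red]
    have h0 : c.coeff n = 0 := Subtype.ext (by rw [hcoeff, hneg n hn]; rfl)
    rw [h0, map_zero]

end Fermat.Agent.S44.D.DictInt
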