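import Mathlib
import Fermat.Prelude.Def_ModularCurve_X0ModL
import Fermat.Agent.S30.Congr

/-!
# Strand D of S44: level-free core of `LiftBricks.IntCoeffStatement`

`A` a valuation subring of `ℚ̄`, `incl : A((q)) → ℚ̄((q))`, `red : A((q)) → k((q))` the maps of
`S30/Congr`.

* `coeff_mem_of_gauss` (**Gauss lemma with finitely generated coefficients**): if all
  coefficients of `C ∈ ℚ̄((q))` are `ℤ`-linear combinations of the coefficients at a FINITE set
  of exponents and `V · C = U` with `U`, `V` integral, `V ≢ 0` modulo the maximal ideal, then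
  all coefficients of `C` lie in `A`.  (No rank-one / discreteness hypothesis on `A`; the
  finiteness hypothesis cannot be dropped: `π / (π - q)`.)  This is the argument of
  `DictInt.coeff_mem_of_gauss` (helper279) with the spanning set indexed by `ℤ`, so that the
  finitely many coefficients of NEGATIVE degree need no hypothesis.
* `exists_coeff_of_gauss` (**the core of `IntCoeffStatement`**): `x = P / Q` Gauss-integral
  with reduction `xb`, `jθ = θ(j)`, `jθb = θ(j̄)`, and the coefficients of `x · jθ` in degrees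
  `n ≥ 0` are (through `ι`) a sequence `a n` all of whose terms are `ℤ`-combinations of finitely
  many of them (the `q`-coefficients of a cusp form, by `DictInt.exists_finset_int_span`).  Then
  `x · jθ` has coefficients `c n ∈ A` in degrees `n ≥ 0`, and `(xb · jθb).coeff n = c n mod 𝔪`.
-/

set_option autoImplicit false

noncomputable section

namespace Fermat.Agent.S44.D.IntCoeffCore

open Fermat.Agent.S30

local notation "Qb" => AlgebraicClosure ℚ

theorem coeff_C_mul {R : Type*} [CommRing R] (r : R) (x : LaurentSeries R) (k : ℤ) :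
    (HahnSeries.C r * x).coeff k = r * x.coeff k := by
  rw [HahnSeries.C_mul_eq_smul, HahnSeries.coeff_smul, smul_eq_mul]

/-- If every coefficient of `C` is a `ℤ`-combination of the coefficients at the exponents of a
finite set `S`, an additive subgroup containing these contains every coefficient. -/
theorem coeff_mem_addSubgroup (C : LaurentSeries Qb) (S : Finset ℤ)
    (hS : ∀ n : ℤ, ∃ z : ℤ → ℤ, C.coeff n = ∑ s ∈ S, (z s : Qb) * C.coeff s)
    (H : AddSubgroup Qb) (hH : ∀ s ∈ S, C.coeff s ∈ H) (n : ℤ) : C.coeff n ∈ H := by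
  obtain ⟨z, hz⟩ := hS n
  rw [hz]
  refine H.sum_mem fun s hs => ?_
  have h1 : (z s : Qb) * C.coeff s = z s • C.coeff s := by rw [zsmul_eq_mul]
  rw [h1]
  exact H.zsmul_mem (hH s hs) _

/-- **Gauss lemma with finitely generated coefficients.**  If every coefficient of `C` is a
`ℤ`-combination of the coefficients at a finite set `S` of exponents, and `V · C = U` with `U`,
`V` integral and `V ≢ 0` modulo the maximal ideal, then `C` is integral. -/
theorem coeff_mem_of_gauss (A : ValuationSubring Qb) (C : LaurentSeries Qb) (S : Finset ℤ)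
    (hS : ∀ n : ℤ, ∃ z : ℤ → ℤ, C.coeff n = ∑ s ∈ S, (z s : Qb) * C.coeff s)
    (U V : LaurentSeries A) (hVC : Congr.incl A V * C = Congr.incl A U)
    (hV : Congr.red A V ≠ 0) : ∀ n : ℤ, C.coeff n ∈ A := by
  classical
  by_cases hT0 : ∀ t ∈ S, C.coeff t = 0
  · intro n
    have h := coeff_mem_addSubgroup C S hS ⊥
      (fun s hs => by rw [AddSubgroup.mem_bot]; exact hT0 s hs) n
    rw [AddSubgroup.mem_bot] at h
    rw [h]
    exact A.zero_mem
  · push Not at hT0
    obtain ⟨t₁, ht₁, ht₁0⟩ := hT0
    obtain ⟨t₀, ht₀, hmax⟩ :=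
      Finset.exists_max_image S (fun t => A.valuation (C.coeff t)) ⟨t₁, ht₁⟩
    have he0 : C.coeff t₀ ≠ 0 := by
      intro h0
      have h1 := hmax t₁ ht₁
      simp only [h0, map_zero] at h1
      exact ht₁0 ((map_eq_zero _).mp (le_antisymm h1 zero_le))
    have hv0 : 0 < A.valuation (C.coeff t₀) :=
      zero_lt_iff.mpr ((map_ne_zero _).mpr he0)
    -- all coefficients of `e⁻¹ C` are in `A`
    have hD : ∀ n : ℤ, (C.coeff t₀)⁻¹ * C.coeff n ∈ A := by
      intro n
      have h := coeff_mem_addSubgroup C S hS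
        (A.toSubring.toAddSubgroup.comap (AddMonoidHom.mulLeft (C.coeff t₀)⁻¹))
        (fun s hs => by
          show (C.coeff t₀)⁻¹ * C.coeff s ∈ A
          rw [← A.valuation_le_one_iff, map_mul, map_inv₀, inv_mul_le_iff₀ hv0, mul_one]
          exact hmax s hs) n
      exact h
    by_cases heA : C.coeff t₀ ∈ A
    · intro n
      have h1 : C.coeff n = C.coeff t₀ * ((C.coeff t₀)⁻¹ * C.coeff n) := by
        field_simp
      rw [h1]
      exact A.mul_mem _ _ heA (hD n)
    · exfalso
      have hei : (C.coeff t₀)⁻¹ ∈ A := (A.mem_or_inv_mem _).resolve_left heA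
      obtain ⟨d, hd⟩ := Congr.exists_incl_eq A (HahnSeries.C (C.coeff t₀)⁻¹ * C)
        (fun n => by rw [coeff_C_mul]; exact hD n)
      have hinclC : Congr.incl A (HahnSeries.C (⟨(C.coeff t₀)⁻¹, hei⟩ : A))
          = HahnSeries.C (C.coeff t₀)⁻¹ := by
        rw [HahnSeries.C_apply, HahnSeries.C_apply, Congr.incl, ModularCurve.coeffMap_single]
        rfl
      have h2 : V * d = HahnSeries.C (⟨(C.coeff t₀)⁻¹, hei⟩ : A) * U := by
        apply Congr.incl_injective A
        rw [map_mul, map_mul, hd, ← hVC, hinclC]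
        ring
      have hres : IsLocalRing.residue A (⟨(C.coeff t₀)⁻¹, hei⟩ : A) = 0 := by
        rw [IsLocalRing.residue_eq_zero_iff, A.valuation_lt_one_iff]
        show A.valuation (C.coeff t₀)⁻¹ < 1
        rw [map_inv₀, inv_lt_one₀ hv0]
        rw [← not_le, A.valuation_le_one_iff]
        exact heA
      have hredC : Congr.red A (HahnSeries.C (⟨(C.coeff t₀)⁻¹, hei⟩ : A)) = 0 := by
        rw [HahnSeries.C_apply, Congr.red, ModularCurve.coeffMap_single, hres]
        simp
      have h3 : Congr.red A V * Congr.red A d = 0 := by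
        rw [← map_mul, h2, map_mul, hredC, zero_mul]
      have h4 : Congr.red A d = 0 := (mul_eq_zero.mp h3).resolve_left hV
      have h5 := congrArg (fun x : LaurentSeries (IsLocalRing.ResidueField A) =>
        x.coeff t₀) h4
      simp only [Congr.coeff_red, HahnSeries.coeff_zero] at h5
      have h6 : d.coeff t₀ = 1 := by
        apply Subtype.ext
        have h7 := congrArg (fun x : LaurentSeries Qb => x.coeff t₀) hd
        simp only [Congr.coeff_incl] at h7
        rw [h7, coeff_C_mul]
        exact inv_mul_cancel₀ he0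
      rw [h6, map_one] at h5
      exact one_ne_zero h5

/-- **The core of `LiftBricks.IntCoeffStatement`.**  `x = P / Q` with `P`, `Q` integral and
`Q ≢ 0` (so `x` is Gauss-integral with reduction `xb`), `jθ = θ(j)` and `jθb = θ(j̄)`
coefficientwise.  If the coefficients of `x · jθ` in degrees `n ≥ 0` are (through `ι`) a
sequence `a` all of whose terms are `ℤ`-combinations of finitely many of them, then they are
elements `c n` of `A`, and the coefficients of `xb · jθb` are their residues.  Nothing is
assumed about the coefficients of `x · jθ` in negative degrees. -/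
theorem exists_coeff_of_gauss (A : ValuationSubring Qb)
    (x : LaurentSeries Qb) (xb : LaurentSeries (IsLocalRing.ResidueField A))
    (P Q : LaurentSeries A) (hQ : Congr.red A Q ≠ 0)
    (hxQ : x * Congr.incl A Q = Congr.incl A P)
    (hPQ : Congr.red A P = xb * Congr.red A Q)
    (jθ : LaurentSeries Qb) (jθb : LaurentSeries (IsLocalRing.ResidueField A))
    (hjθ : ∀ n : ℤ, jθ.coeff n = (n : Qb) * (ModularCurve.jqModC Qb).coeff n)
    (hjθb : ∀ n : ℤ, jθb.coeff n = (n : IsLocalRing.ResidueField A) *
      (ModularCurve.jqModC (IsLocalRing.ResidueField A)).coeff n)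
    (ι : Qb →+* ℂ) (a : ℕ → ℂ) (ha : ∀ n : ℕ, a n = ι ((x * jθ).coeff n))
    (hT : ∃ T : Finset ℕ, ∀ n : ℕ, ∃ z : ℕ → ℤ, a n = ∑ t ∈ T, (z t : ℂ) * a t) :
    ∃ c : ℕ → A, (∀ n : ℕ, (x * jθ).coeff n = (c n : Qb)) ∧
      ∀ n : ℕ, (xb * jθb).coeff (n : ℤ) = IsLocalRing.residue A (c n) := by
  classical
  -- the integral theta series
  have hjA : ∀ n : ℤ, jθ.coeff n ∈ A := by
    intro n
    rw [hjθ, ModularCurve.coeff_jqModC_eq_intCast]
    exact A.mul_mem _ _ (intCast_mem A n) (intCast_mem A _)
  obtain ⟨J, hJ⟩ := Congr.exists_incl_eq A jθ hjA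
  have hJred : Congr.red A J = jθb := by
    ext n
    rw [Congr.coeff_red, hjθb, ModularCurve.coeff_jqModC_eq_intCast]
    have h1 : J.coeff n = ((n : ℤ) : A) * (((ModularCurve.jqModC ℤ).coeff n : ℤ) : A) := by
      apply Subtype.ext
      have h2 := congrArg (fun y : LaurentSeries Qb => y.coeff n) hJ
      simp only [Congr.coeff_incl] at h2
      rw [h2, hjθ, ModularCurve.coeff_jqModC_eq_intCast]
      push_cast
      rfl
    rw [h1, map_mul, map_intCast, map_intCast]
  have hVC : Congr.incl A Q * (x * jθ) = Congr.incl A (P * J) := by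
    rw [map_mul, ← hxQ, hJ]
    ring
  -- the finite spanning set of exponents
  obtain ⟨T, hT⟩ := hT
  have hT' : ∀ n : ℕ, ∃ z : ℕ → ℤ,
      (x * jθ).coeff (n : ℤ) = ∑ t ∈ T, (z t : Qb) * (x * jθ).coeff (t : ℤ) := by
    intro n
    obtain ⟨z, hz⟩ := hT n
    refine ⟨z, ι.injective ?_⟩
    rw [← ha, hz, map_sum]
    refine Finset.sum_congr rfl (fun t _ => ?_)
    rw [map_mul, ha, map_intCast]
  have hS : ∀ n : ℤ, ∃ z : ℤ → ℤ, (x * jθ).coeff n
      = ∑ s ∈ T.image (fun t : ℕ => (t : ℤ)) ∪ Finset.Ico (x * jθ).order 0,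
          (z s : Qb) * (x * jθ).coeff s := by
    intro n
    rcases lt_or_ge n 0 with hn | hn
    · refine ⟨fun s => if s = n then 1 else 0, ?_⟩
      by_cases hmem : n ∈ T.image (fun t : ℕ => (t : ℤ)) ∪ Finset.Ico (x * jθ).order 0
      · rw [Finset.sum_eq_single_of_mem n hmem (fun b _ hb => by simp [hb])]
        simp
      · have h0 : (x * jθ).coeff n = 0 := by
          apply HahnSeries.coeff_eq_zero_of_lt_order
          by_contra hlt
          exact hmem (Finset.mem_union_right _ (Finset.mem_Ico.mpr ⟨not_lt.mp hlt, hn⟩))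
        rw [h0]
        symm
        apply Finset.sum_eq_zero
        intro s hs
        have hsn : s ≠ n := fun h => hmem (h ▸ hs)
        simp [hsn]
    · obtain ⟨m, rfl⟩ := Int.eq_ofNat_of_zero_le hn
      obtain ⟨z, hz⟩ := hT' m
      refine ⟨fun s => if s ∈ T.image (fun t : ℕ => (t : ℤ)) then z s.toNat else 0, ?_⟩
      rw [← Finset.sum_subset (Finset.subset_union_left (s₂ := Finset.Ico (x * jθ).order 0))
        (fun s _ hs => by simp [hs])]
      rw [Finset.sum_image (fun a _ b _ h => Nat.cast_injective h), hz]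
      refine Finset.sum_congr rfl (fun t ht => ?_)
      have hmem : ((t : ℕ) : ℤ) ∈ T.image (fun t : ℕ => (t : ℤ)) :=
        Finset.mem_image_of_mem _ ht
      beta_reduce
      rw [if_pos hmem, Int.toNat_natCast]
  have key := coeff_mem_of_gauss A (x * jθ) _ hS (P * J) Q hVC hQ
  obtain ⟨c, hc⟩ := Congr.exists_incl_eq A (x * jθ) key
  have h1 : Q * c = P * J := by
    apply Congr.incl_injective A
    rw [map_mul, hc, hVC]
  have hredc : Congr.red A c = xb * jθb := by
    apply mul_right_cancel₀ hQ
    rw [mul_comm, ← map_mul, h1, map_mul, hPQ, hJred]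
    ring
  refine ⟨fun n => c.coeff (n : ℤ), fun n => ?_, fun n => ?_⟩
  · rw [← hc]
    rfl
  · rw [← hredc]
    rfl

end Fermat.Agent.S44.D.IntCoeffCore
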