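import Mathlib
import Fermat.Agent.S44.D.LiftBricks
import Fermat.Agent.S44.D.DictInt
import Fermat.Agent.S44.D.IntCoeffCore

/-!
# PROGRAM MR (S44), strand D: the integrality brick `IntCoeffStatement` is a theorem

`intCoeffStatement : IntCoeffStatement` (third brick of `S44/D/LiftBricks.lean`), assembled from
`IntCoeffCore.exists_coeff_of_gauss` (helper126: Gauss lemma with finitely generated
coefficients) and `DictInt.exists_finset_int_span` (helper279: bounded denominators of weight-2
cusp forms from the landed S23).  Wrapper written by helper126, compiled and landed by helper279.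
-/

set_option autoImplicit false

namespace Fermat.Agent.S44.D.IntCoeffProof

open Fermat.Agent.S44.D

/-- **Brick D-I.3 (integrality of the coefficients).** -/
theorem intCoeffStatement : IntCoeffStatement := by
  intro p N' _ _ A _ x xb hred jθ jθb hjθ hjθb ι Φ hΦ
  obtain ⟨P, Q, -, hQ, hxQ, hPQ⟩ := hred
  exact IntCoeffCore.exists_coeff_of_gauss A (x : LaurentSeries (AlgebraicClosure ℚ)) xb P Q hQ
    hxQ hPQ jθ jθb hjθ hjθb ι (fun n => ModularFormClass.qCoeff Φ n) hΦ
    (DictInt.exists_finset_int_span N' Φ)

end Fermat.Agent.S44.D.IntCoeffProof
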