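import Mathlib
import Fermat.Agent.S44.D.LiftBricks
import Fermat.Agent.S44.D.ExitProof
import Fermat.Agent.S44.D.DictProof
import Fermat.Agent.S44.D.IntCoeffProof

/-!
# PROGRAM MR (S44), strand D: the whole strand from `TraceLiftStatement` alone

With the exit brick (`ExitProof.exitStatement`), the dictionary brick
(`DictProof.dictStatement`) and the integrality brick (`IntCoeffProof.intCoeffStatement`) proved,
strand D of the S44 contract is reduced to the single open statement `TraceLiftStatement` of
`S44/D/LiftBricks.lean`.
-/

set_option autoImplicit false

namespace Fermat.Agent.S44.D

open Fermat.Agent.S44.Contract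

/-- **Brick D-I (lifting) from `TraceLiftStatement` alone.** -/
theorem liftStatement_of_traceLift (h : TraceLiftStatement) : LiftStatement :=
  liftStatement_of_bricks h DictProof.dictStatement IntCoeffProof.intCoeffStatement

/-- **Strand D from `TraceLiftStatement` alone.** -/
theorem dStatement_of_traceLift (h : TraceLiftStatement) : DStatement :=
  ExitProof.dStatement_of_lift (liftStatement_of_traceLift h)

end Fermat.Agent.S44.D
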