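import Mathlib
import Fermat.Agent.S44.D.TraceDual

/-!
# Trace duality over the `j`-line: the lattice form (S44, strand D, seams of step (c))

`R` a domain with fraction field `k`, `K / k⟮j⟯` finite separable.  A functional given only on an
`R`-lattice `M ⊆ K` (e.g. the Čech chart `C₀₁`, integral closure of `R[j, j⁻¹]`), `R`-linear and
vanishing on the elements integral over `R[j]` and over `R[j⁻¹]`, extends to a `k`-linear
functional on `K` to which `TraceDual.exists_traceDual` applies
(`exists_traceDual_lattice`).  So the coefficients of `Tr (G b)` are values of the given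
functional: if it is `R`-valued, `Tr (G b) ∈ R[j]` for `b` integral over `R[j]`.

Generic seams:
* `exists_linear_extension`: an `R`-linear map `M → k` on an `R`-submodule of a `k`-vector space
  extends to a `k`-linear functional;
* `exists_smul_isIntegral`: an element integral over `k[j]` has a nonzero `R`-multiple integral
  over `R[j]`;
* `isIntegral_adjoin_of_isIntegral_adjoin`: integral over `R[j]` ⇒ integral over `k[j]`.
-/

set_option autoImplicit false

open IntermediateField Polynomial

namespace Fermat.Agent.S44.D.TraceDualInt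

open Fermat.Agent.S44.D.TraceDual

/-! ### Integrality from a monic polynomial with coefficients in a subalgebra -/

/-- A root of a monic polynomial over `K` whose coefficients lie in a subalgebra `S` is integral
over `S`. -/
theorem isIntegral_of_monic_of_coeff_mem {R K : Type*} [CommRing R] [Field K] [Algebra R K]
    (S : Subalgebra R K) {x : K} (Q : K[X]) (hQ : Q.Monic) (hcoef : ∀ i, Q.coeff i ∈ S)
    (hroot : Q.eval x = 0) : IsIntegral S x := by
  have hlift : Q ∈ lifts (algebraMap S K) := by
    rw [lifts_iff_coeff_lifts]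
    exact fun i => ⟨⟨_, hcoef i⟩, rfl⟩
  obtain ⟨q, hq, -, hqm⟩ := lifts_and_natDegree_eq_and_monic hlift hQ
  refine ⟨q, hqm, ?_⟩
  rw [← eval_map, hq]
  exact hroot

section Denominators

variable {R k K : Type*} [CommRing R] [Field k] [Algebra R k] [IsFractionRing R k]
  [Field K] [Algebra k K] [Algebra R K] [IsScalarTower R k K]

omit [IsFractionRing R k] in
/-- `R[j] ⊆ k[j]` inside `K`. -/
theorem mem_adjoin_of_mem_adjoin (j : K) {a : K} (ha : a ∈ Algebra.adjoin R {j}) :
    a ∈ Algebra.adjoin k {j} := by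
  rw [Algebra.adjoin_singleton_eq_range_aeval] at ha ⊢
  obtain ⟨q, rfl⟩ := ha
  exact ⟨q.map (algebraMap R k), aeval_map_algebraMap _ _ _⟩

omit [IsFractionRing R k] in
/-- Integral over `R[j]` implies integral over `k[j]`. -/
theorem isIntegral_adjoin_of_isIntegral_adjoin (j : K) {b : K}
    (hb : IsIntegral (Algebra.adjoin R {j}) b) : IsIntegral (Algebra.adjoin k {j}) b := by
  obtain ⟨P, hP, hPb⟩ := hb
  refine isIntegral_of_monic_of_coeff_mem (Algebra.adjoin k {j})
    (P.map (algebraMap (Algebra.adjoin R {j}) K)) (hP.map _) (fun i => ?_) ?_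
  · rw [coeff_map]
    exact mem_adjoin_of_mem_adjoin j (P.coeff i).2
  · rw [eval_map]; exact hPb

/-- Every element of `k[j]` has a nonzero `R`-multiple in `R[j]`. -/
theorem exists_smul_mem_adjoin (j : K) {a : K} (ha : a ∈ Algebra.adjoin k {j}) :
    ∃ c : R, c ≠ 0 ∧ algebraMap R K c * a ∈ Algebra.adjoin R {j} := by
  have : Nontrivial R := (algebraMap R k).domain_nontrivial
  rw [Algebra.adjoin_singleton_eq_range_aeval, AlgHom.mem_range] at ha
  obtain ⟨p, rfl⟩ := ha
  obtain ⟨c, hcM, hc⟩ := IsLocalization.integerNormalization_spec (nonZeroDivisors R) p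
  refine ⟨c, nonZeroDivisors.ne_zero hcM, ?_⟩
  have h2 : aeval j (IsLocalization.integerNormalization (nonZeroDivisors R) p)
      = aeval j (c • p) := by
    rw [← hc, aeval_map_algebraMap]
  have h1 : algebraMap R K c * aeval j p
      = aeval j (IsLocalization.integerNormalization (nonZeroDivisors R) p) := by
    rw [h2, ← algebraMap_smul k c p, map_smul, Algebra.smul_def,
      ← IsScalarTower.algebraMap_apply]
  rw [h1, Algebra.adjoin_singleton_eq_range_aeval]
  exact ⟨_, rfl⟩

/-- **(E2)** An element integral over `k[j]` has a nonzero `R`-multiple integral over `R[j]`. -/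
theorem exists_smul_isIntegral (j : K) {x : K} (hx : IsIntegral (Algebra.adjoin k {j}) x) :
    ∃ c : R, c ≠ 0 ∧ IsIntegral (Algebra.adjoin R {j}) (algebraMap R K c * x) := by
  have : Nontrivial R := (algebraMap R k).domain_nontrivial
  have : NoZeroDivisors R :=
    (FaithfulSMul.algebraMap_injective R k).noZeroDivisors _ (map_zero _) (map_mul _)
  obtain ⟨P, hP, hPx⟩ := hx
  have hcoeff : ∀ i : ℕ, ∃ c : R, c ≠ 0 ∧
      algebraMap R K c * ((P.coeff i : Algebra.adjoin k {j}) : K) ∈ Algebra.adjoin R {j} :=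
    fun i => exists_smul_mem_adjoin j (P.coeff i).2
  choose cc hcc0 hcc using hcoeff
  set c : R := ∏ i ∈ Finset.range (P.natDegree + 1), cc i with hc
  have hc0 : c ≠ 0 := Finset.prod_ne_zero_iff.mpr fun i _ => hcc0 i
  have hcmem : ∀ t : ℕ, (algebraMap R K c) ^ t ∈ Algebra.adjoin R {j} :=
    fun t => Subalgebra.pow_mem _ (Subalgebra.algebraMap_mem _ c) t
  refine ⟨c, hc0, ?_⟩
  set PK : K[X] := P.map (algebraMap (Algebra.adjoin k {j}) K) with hPK
  have hPKm : PK.Monic := hP.map _
  have hdeg : PK.natDegree = P.natDegree := hP.natDegree_map _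
  refine isIntegral_of_monic_of_coeff_mem (Algebra.adjoin R {j})
    (scaleRoots PK (algebraMap R K c)) ((monic_scaleRoots_iff _).mpr hPKm) (fun i => ?_) ?_
  · rw [coeff_scaleRoots, hdeg]
    rcases lt_trichotomy i P.natDegree with hi | hi | hi
    · -- `c = cc i * c'`
      have hdvd : cc i ∣ c := Finset.dvd_prod_of_mem cc (Finset.mem_range.mpr (by omega))
      obtain ⟨c', hc'⟩ := hdvd
      obtain ⟨t, ht⟩ : ∃ t, P.natDegree - i = t + 1 := ⟨P.natDegree - i - 1, by omega⟩
      have h3 : PK.coeff i * algebraMap R K c ^ (P.natDegree - i)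
          = (algebraMap R K (cc i) * ((P.coeff i : Algebra.adjoin k {j}) : K))
              * (algebraMap R K c' * algebraMap R K c ^ t) := by
        have e1 : PK.coeff i = ((P.coeff i : Algebra.adjoin k {j}) : K) := by
          rw [hPK, coeff_map]; rfl
        have e2 : algebraMap R K c = algebraMap R K (cc i) * algebraMap R K c' := by
          rw [hc', map_mul]
        have e3 : ∀ X A B y : K, X = A * B → y * (X ^ t * X) = A * y * (B * X ^ t) := by
          intro X A B y h
          rw [h]; ring
        rw [ht, pow_succ, e1]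
        exact e3 _ _ _ _ e2
      rw [h3]
      exact Subalgebra.mul_mem _ (hcc i)
        (Subalgebra.mul_mem _ (Subalgebra.algebraMap_mem _ c') (hcmem t))
    · subst hi
      rw [Nat.sub_self, pow_zero, mul_one, ← hdeg, hPKm.coeff_natDegree]
      exact Subalgebra.one_mem _
    · rw [hPK, coeff_map, coeff_eq_zero_of_natDegree_lt hi, map_zero, zero_mul]
      exact Subalgebra.zero_mem _
  · have h0 : PK.eval x = 0 := by
      rw [hPK, eval_map]; exact hPx
    have := scaleRoots_eval₂_mul (p := PK) (f := RingHom.id K) (r := x) (s := algebraMap R K c)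
    simp only [eval₂_id, RingHom.id_apply] at this
    rw [this, h0, mul_zero]

end Denominators

/-! ### Extending a functional from a lattice -/

/-- **(E1)** `R` with fraction field `k`, `L` a `k`-vector space, `M` an `R`-submodule of `L`:
every `R`-linear map `M → k` extends to a `k`-linear functional on `L`. -/
theorem exists_linear_extension {R k L : Type*} [CommRing R] [Field k] [Algebra R k]
    [IsFractionRing R k] [AddCommGroup L] [Module k L] [Module R L] [IsScalarTower R k L]
    (M : Submodule R L) (lam0 : M →ₗ[R] k) :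
    ∃ lam : L →ₗ[k] k, ∀ m : M, lam (m : L) = lam0 m := by
  classical
  have : Nontrivial R := (algebraMap R k).domain_nontrivial
  obtain ⟨b, hbM, hspan, hli⟩ := exists_linearIndependent k (M : Set L)
  have hli' : LinearIndepOn k id b := hli
  -- a basis of `L` extending `b`, and the functional defined on it
  let B := Module.Basis.extend hli'
  let g : L → k := fun x => if hx : x ∈ b then lam0 ⟨x, hbM hx⟩ else 0
  let lam : L →ₗ[k] k := B.constr k fun i => g (i : L)
  have hlamb : ∀ x (hx : x ∈ b), lam x = lam0 ⟨x, hbM hx⟩ := by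
    intro x hx
    have hxe : x ∈ hli'.extend (Set.subset_univ b) := Module.Basis.subset_extend hli' hx
    have h1 : B ⟨x, hxe⟩ = x := Module.Basis.extend_apply_self hli' ⟨x, hxe⟩
    have h2 : lam (B ⟨x, hxe⟩) = g x := by
      simp only [lam, Module.Basis.constr_basis]
    rw [h1] at h2
    rw [h2]
    simp only [g, dif_pos hx]
  refine ⟨lam, fun m => ?_⟩
  have hm : (m : L) ∈ Submodule.span k b := by
    rw [hspan]; exact Submodule.subset_span m.2
  obtain ⟨f, t, htb, -, hsum⟩ := Submodule.mem_span_iff_exists_finset_subset.mp hm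
  -- a common denominator
  obtain ⟨c, hc⟩ := IsLocalization.exist_integer_multiples_of_finset
    (nonZeroDivisors R) (t.image f)
  have hc' : ∀ x ∈ t, ∃ a : R, algebraMap R k a = algebraMap R k (c : R) * f x := by
    intro x hx
    obtain ⟨a, ha⟩ := hc (f x) (Finset.mem_image_of_mem f hx)
    exact ⟨a, by rw [ha, Algebra.smul_def]⟩
  choose! a ha using hc'
  have hcne : algebraMap R k (c : R) ≠ 0 := by
    have h1 : (c : R) ≠ 0 := nonZeroDivisors.coe_ne_zero c
    exact fun h => h1 ((map_eq_zero_iff _ (IsFractionRing.injective R k)).mp h)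
  -- `c • m = ∑ a x • x` inside `M`
  have hterm : ∀ x ∈ t, a x • x = (c : R) • (f x • x) := by
    intro x hx
    rw [← algebraMap_smul k (a x) x, ha x hx, mul_smul, algebraMap_smul]
  have hsumM : (c : R) • m = ∑ x ∈ t.attach, a x • (⟨x, hbM (htb x.2)⟩ : M) := by
    apply Subtype.ext
    rw [Submodule.coe_smul, Submodule.coe_sum, ← hsum, Finset.smul_sum, ← Finset.sum_attach]
    exact Finset.sum_congr rfl fun x _ => (hterm x x.2).symm
  -- compare the two values
  have h1 : algebraMap R k (c : R) * lam0 m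
      = ∑ x ∈ t.attach, algebraMap R k (a x) * lam (x : L) := by
    have := congrArg lam0 hsumM
    rw [map_smul, map_sum, Algebra.smul_def] at this
    rw [this]
    refine Finset.sum_congr rfl fun x _ => ?_
    rw [map_smul, Algebra.smul_def, hlamb x (htb x.2)]
  have h2 : algebraMap R k (c : R) * lam (m : L)
      = ∑ x ∈ t.attach, algebraMap R k (a x) * lam (x : L) := by
    rw [← hsum, map_sum, Finset.mul_sum, ← Finset.sum_attach t]
    refine Finset.sum_congr rfl fun x _ => ?_
    rw [map_smul, smul_eq_mul, ha x x.2, mul_assoc]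
  exact mul_left_cancel₀ hcne (h2.trans h1.symm)

/-! ### The lattice form of `exists_traceDual` -/

section Lattice

variable {R k K : Type*} [CommRing R] [Field k] [Algebra R k] [IsFractionRing R k]
  [Field K] [Algebra k K] [Algebra R K] [IsScalarTower R k K]

/-- **Lattice form of (DW-b).**  `M` an `R`-submodule of `K` containing the elements integral
over `R[j]` and over `R[j⁻¹]`; `lam0 : M → k` an `R`-linear map vanishing on both.  Then there
are a `k`-linear extension `lam` of `lam0` and `G : K` with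

* (F0) `Tr (G b) = ∑ₘ lam (j⁻¹ ^ (m + 1) b) j ^ m` for `b` integral over `k[j]`
  (in particular over `R[j]`: `isIntegral_adjoin_of_isIntegral_adjoin`);
* (F∞) `Tr (G j² c) = ∑ₘ lam (j ^ (m + 1) c) j⁻¹ ^ m` for `c` integral over `k[j⁻¹]`.

If `M` is stable under `j⁻¹` (resp. `j`), the coefficients are the values
`lam0 ⟨j⁻¹ ^ (m + 1) b, _⟩` of the given functional. -/
theorem exists_traceDual_lattice (j : K) [FiniteDimensional k⟮j⟯ K] [Algebra.IsSeparable k⟮j⟯ K]
    (hj : j ≠ 0) (M : Submodule R K)
    (hM0 : ∀ b : K, IsIntegral (Algebra.adjoin R {j}) b → b ∈ M)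
    (hMinf : ∀ c : K, IsIntegral (Algebra.adjoin R {j⁻¹}) c → c ∈ M)
    (lam0 : M →ₗ[R] k)
    (h0 : ∀ (b : K) (hb : IsIntegral (Algebra.adjoin R {j}) b), lam0 ⟨b, hM0 b hb⟩ = 0)
    (hinf : ∀ (c : K) (hc : IsIntegral (Algebra.adjoin R {j⁻¹}) c), lam0 ⟨c, hMinf c hc⟩ = 0) :
    ∃ (lam : K →ₗ[k] k) (G : K),
      (∀ m : M, lam (m : K) = lam0 m) ∧
      (∀ b : K, IsIntegral (Algebra.adjoin k {j}) b → ∃ n : ℕ,
        (∀ m, n ≤ m → lam (j⁻¹ ^ (m + 1) * b) = 0) ∧
        ((Algebra.trace k⟮j⟯ K (G * b) : k⟮j⟯) : K) =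
          ∑ m ∈ Finset.range n, algebraMap k K (lam (j⁻¹ ^ (m + 1) * b)) * j ^ m) ∧
      (∀ c : K, IsIntegral (Algebra.adjoin k {j⁻¹}) c → ∃ n : ℕ,
        (∀ m, n ≤ m → lam (j ^ (m + 1) * c) = 0) ∧
        ((Algebra.trace k⟮j⟯ K (G * j ^ 2 * c) : k⟮j⟯) : K) =
          ∑ m ∈ Finset.range n, algebraMap k K (lam (j ^ (m + 1) * c)) * j⁻¹ ^ m) := by
  obtain ⟨lam, hlam⟩ := exists_linear_extension M lam0
  have hvan : ∀ (j' : K) (hM' : ∀ b : K, IsIntegral (Algebra.adjoin R {j'}) b → b ∈ M),
      (∀ (b : K) (hb : IsIntegral (Algebra.adjoin R {j'}) b), lam0 ⟨b, hM' b hb⟩ = 0) →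
      ∀ x : K, IsIntegral (Algebra.adjoin k {j'}) x → lam x = 0 := by
    intro j' hM' h' x hx
    obtain ⟨c, hc0, hcx⟩ := exists_smul_isIntegral (R := R) j' hx
    have h1 : lam (algebraMap R K c * x) = 0 := by
      have := hlam ⟨_, hM' _ hcx⟩
      rw [h' _ hcx] at this
      exact this
    have h2 : algebraMap R K c * x = algebraMap R k c • x := by
      rw [Algebra.smul_def, ← IsScalarTower.algebraMap_apply]
    rw [h2, map_smul, smul_eq_mul] at h1
    have hcne : algebraMap R k c ≠ 0 :=
      fun h => hc0 ((map_eq_zero_iff _ (IsFractionRing.injective R k)).mp h)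
    exact (mul_eq_zero.mp h1).resolve_left hcne
  obtain ⟨G, hG0, hGinf⟩ := exists_traceDual j hj lam (hvan j hM0 h0) (hvan j⁻¹ hMinf hinf)
  exact ⟨lam, G, hlam, hG0, hGinf⟩

end Lattice

end Fermat.Agent.S44.D.TraceDualInt
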