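import Mathlib
import Fermat.Agent.S44.D.TraceLiftX
import Fermat.Agent.S44.D.CechInst
import Fermat.Agent.S44.D.LiftCoreBridge
import Fermat.Agent.S44.D.TraceDualInt
import Fermat.Agent.S30.GaussDescent

/-!
# PROGRAM MR (S44), strand D, route X: the assembly `RedFracDual ⟹ TraceLift`

`traceLiftStatement_of_redFracDual : RedFracDualStatement → LiftBricks.TraceLiftStatement`:
for `E ⊇ S₀ ∪ {ζ_{N'}}` the trace-dual regular element `Gbar` of the `E`-level special fibre is
lifted by `LiftRedGauss.exists_lift_red_gauss` at `O = OE A E`, `L = LE N' E`, `u = j`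
(`ModelInst.chartModel_j`, `finGaussC_OE` for the hypotheses) to a Gauss-integral `G : LE N' E`
with reduction `Gbar`, `Tr(G C0) ⊆ O[j]`, `Tr(G j² C1) ⊆ O[1/j]`; clearing denominators gives
`IsTraceDualReg` over `E`, and `LiftCoreBridge.isRed_of_mem_V` gives `IsRed (upHom G) (kmap Gbar)`.
-/

set_option autoImplicit false
set_option linter.unusedSectionVars false
set_option linter.style.haveILetI false
set_option synthInstance.maxHeartbeats 400000
set_option maxHeartbeats 1000000

open ModularCurve AlgebraicCurve Polynomial IntermediateField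

noncomputable section

namespace Fermat.Agent.S44.D.TraceLiftX

open Fermat.Agent.S44.Contract Fermat.Agent.S37.Fn
open Fermat.Agent.S18 Fermat.Agent.S18.K1Defs Fermat.Agent.S18.K1Main
open Fermat.Agent.S30 Fermat.Agent.S30.Model Fermat.Agent.S30.Model.CechP1
open Fermat.Agent.S44.D Fermat.Agent.S44.D.CechAdapter Fermat.Agent.S44.D.RedDatum
open Fermat.Agent.S44.D.LiftRedGauss Fermat.Agent.S44.L

local notation "Qb" => AlgebraicClosure ℚ

/-! ### Chart form ⟹ field form of trace duality (level-free) -/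

section Generic

variable {O E L : Type*} [CommRing O] [Field E] [Algebra O E] [IsFractionRing O E]
  [Field L] [Algebra E L] [Algebra O L] [IsScalarTower O E L]

/-- If `Tr_{L/K} (H b)` is a polynomial over `O` in `t` for every `b` of the chart
`CechP1.chart O {t}`, then `Tr_{L/K} (H y)` is a polynomial over `E = Frac O` in `t` for every `y`
integral over `E[t]`. -/
theorem traceDual_field_of_chart (K : IntermediateField E L) (t : L) (H : L)
    (hO : ∀ b : L, b ∈ chart O ({t} : Set L) →
      ∃ p : O[X], ((Algebra.trace K L (H * b) : K) : L) = aeval t p) :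
    ∀ y : L, IsIntegral (Algebra.adjoin E {t}) y →
      ∃ w : E[X], ((Algebra.trace K L (H * y) : K) : L) = aeval t w := by
  intro y hy
  obtain ⟨d, hd, hdy⟩ := TraceDualInt.exists_smul_isIntegral (R := O) t hy
  obtain ⟨p, hp⟩ := hO _ (mem_chart.mpr hdy)
  have hdE : algebraMap O E d ≠ 0 := by
    intro h0
    exact hd (IsFractionRing.injective O E (by rw [h0, map_zero]))
  have h1 : H * (algebraMap O L d * y) = (algebraMap E K (algebraMap O E d)) • (H * y) := by
    rw [Algebra.smul_def, ← IsScalarTower.algebraMap_apply E K L,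
      ← IsScalarTower.algebraMap_apply O E L]
    ring
  rw [h1, map_smul, smul_eq_mul, MulMemClass.coe_mul, IntermediateField.coe_algebraMap_apply] at hp
  refine ⟨C (algebraMap O E d)⁻¹ * p.map (algebraMap O E), ?_⟩
  have e2 : aeval t (C (algebraMap O E d)⁻¹ * p.map (algebraMap O E)) =
      algebraMap E L (algebraMap O E d)⁻¹ * aeval t p := by
    rw [map_mul (aeval t), aeval_C, aeval_map_algebraMap]
  rw [e2, ← hp, ← mul_assoc, ← map_mul (algebraMap E L), inv_mul_cancel₀ hdE, map_one, one_mul]

end Generic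

/-! ### The assembly -/

/-- **Route X, row (X-b).**  The junction statement on the special fibre gives
`TraceLiftStatement`. -/
theorem traceLiftStatement_of_redFracDual (hX : RedFracDualStatement) : TraceLiftStatement := by
  intro p N' _ hp hp5 hpN' A hA f g φ hf hw hg hφf
  obtain ⟨S₁, h1⟩ := hX p N' hp hp5 hpN' A hA f g φ hf hw hg hφf
  haveI : Fact p.Prime := ⟨hp⟩
  obtain ⟨z, hz⟩ := ModelInst.exists_primitiveRoot_Qb N'
  classical
  let E : IntermediateField ℚ Qb :=
    IntermediateField.adjoin ℚ ((insert z S₁ : Finset Qb) : Set Qb)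
  haveI hfd : FiniteDimensional ℚ E :=
    IntermediateField.finiteDimensional_adjoin
      (fun x _ => (AlgebraicClosure.isAlgebraic ℚ).isIntegral.isIntegral x)
  haveI : IsDiscreteValuationRing (OE A E) := GaussDescent.isDiscreteValuationRing_OE A E hp hA
  have hS₁ : ∀ s ∈ S₁, s ∈ E := fun s hs =>
    IntermediateField.subset_adjoin ℚ _ (by
      rw [Finset.coe_insert]; exact Or.inr (Finset.mem_coe.mpr hs))
  have hzE : z ∈ E :=
    IntermediateField.subset_adjoin ℚ _ (by rw [Finset.coe_insert]; exact Or.inl rfl)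
  have hCMC : ModelInst.ChartModelC N' (OE A E) E (jE N' E) :=
    ModelInst.chartModel_j A N' hpN' hA (by omega) hz E hzE
  have hFG : FinGaussC N' (OE A E) E := ModelInst.finGaussC_OE A N' hpN' hA hz E hzE
  letI := algebraOL (OE A E) E (LE N' E)
  haveI := isScalarTower_OL (OE A E) E (LE N' E)
  have hCM : ModelInst.ChartModel N' (OE A E) E (jE N' E) := hCMC
  obtain ⟨hfin, hG⟩ := hFG
  haveI := hfin
  obtain ⟨π, hπ⟩ := IsDiscreteValuationRing.exists_irreducible (OE A E)
  obtain ⟨uO, hu, hpole⟩ := hCM.model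
  have hu' : (LE N' E).val (jE N' E) = GaussDVR.iota (OE A E) E uO := hu
  have huG : jE N' E ∈ gaussSub (OE A E) (LE N' E).val :=
    mem_gaussSub_of_int (LE N' E).val (jE N' E) uO hu'
  obtain ⟨Gbar, jθb, hθ, hGφ, hG0, hGinf⟩ := h1 E hS₁ huG
  obtain ⟨G, hGred, hC0, hC1⟩ := exists_lift_red_gauss (O := OE A E) (E := E) (L := LE N' E)
    (LE N' E).val (fun x => E2G1.mem_fracField_of_mem_LE N' A E x.2) π hπ (jE N' E) uO hu' hpole
    (hCM.prime_zero π hπ) (hG π hπ) huG Gbar hG0 hGinf
  refine ⟨E, hfd, (G : LE N' E),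
    RedTransfer.kmap A E (Gbar : LaurentSeries (IsLocalRing.ResidueField (OE A E))), jθb,
    ⟨?_, ?_⟩, ?_, hθ, hGφ⟩
  · exact traceDual_field_of_chart (O := OE A E) E⟮jE N' E⟯ (jE N' E) (G : LE N' E) hC0
  · exact traceDual_field_of_chart (O := OE A E) E⟮jE N' E⟯ (jE N' E)⁻¹ ((G : LE N' E) * jE N' E ^ 2)
      (fun b hb => by
        obtain ⟨q, hq⟩ := hC1 b hb
        exact ⟨q, by rw [mul_assoc]; exact hq⟩)
  · have hx : (((G : LE N' E) : LE N' E) : LaurentSeries E) ∈ GaussDVR.V (OE A E) E := G.2
    have h := LiftCoreBridge.isRed_of_mem_V A E N' p hA (G : LE N' E) hx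
    have e : GaussDVR.red (OE A E) E ⟨(((G : LE N' E) : LE N' E) : LaurentSeries E), hx⟩ =
        (Gbar : LaurentSeries (IsLocalRing.ResidueField (OE A E))) := hGred
    rw [e] at h
    exact h

end Fermat.Agent.S44.D.TraceLiftX
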