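import Mathlib
import Fermat.Agent.S44.D.LiftOfTrace
import Fermat.Agent.S44.D.TraceLiftXProof
import Fermat.Agent.S44.D.BaseChange.RedFracDual

set_option autoImplicit false

namespace Fermat.Agent.S44.D.Final

open Fermat.Agent.S44.Contract Fermat.Agent.S44.D

theorem traceLiftStatement : TraceLiftStatement :=
  TraceLiftX.traceLiftStatement_of_redFracDual BaseChange.RedFracDual.redFracDualStatement

theorem liftStatement : LiftStatement :=
  liftStatement_of_traceLift traceLiftStatement

theorem dStatement : DStatement :=
  dStatement_of_traceLift traceLiftStatement

end Fermat.Agent.S44.D.Final
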