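import Fermat.Agent.S44.D.TameBound
import Fermat.Agent.S24.FibreCount
import Fermat.Agent.S24.FF.Shift

set_option autoImplicit false
set_option linter.unusedSectionVars false
set_option linter.style.haveILetI false

/-!
# PROGRAM MR (S44), strand D, row (d0) = MR.D.Dict0: trace-dual ⟹ place bounds

Level-free.  `E ⊆ Kb` fields of characteristic zero, `L / E` a field with `u : L` transcendental
and `L / E(u)` finite, `F / Kb` any field and `emb : L →+* F` a ring homomorphism which is the
inclusion `E → Kb` on constants (in the application `L = LE N E`, `F = FN N`, `emb` = extension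
of the coefficient field, `u = j`).

If `G : L` is trace-dual to the integral closure of `E[u]` (`h0`), then for every place `v` of
`F / Kb` over a finite point `u = c`

  `1 - v.ord (emb u - c) ≤ v.ord (emb G)`                      (`fin_bound`),

and if `G ≠ 0` and `G u²` is trace-dual to the integral closure of `E[u⁻¹]` (`hoo`), then at
every pole `v` of `emb u` (the junk value `v.ord 0 = 0` makes `G ≠ 0` necessary here)

  `1 - v.ord (emb u) ≤ v.ord (emb G)`                          (`inf_bound`).

No base change of integral closures is needed: a place of `F / Kb` restricts to a positive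
multiple of a place of `L / E` (`exists_place_restrict`), and the tame bound
`TameBound.one_sub_ord_le_ord` holds over any constant field of characteristic zero at the closed
point `minpoly E c`.
-/

namespace Fermat.Agent.S44.D.Dict0

open AlgebraicCurve IntermediateField Polynomial
open Fermat.Agent.S24 Fermat.Agent.S24.FibreCount

section Generic

variable {E L Kb F : Type*} [Field E] [Field L] [Algebra E L] [Field Kb] [Field F] [Algebra Kb F]
  [Algebra E Kb] (emb : L →+* F)
  (hemb : ∀ c : E, emb (algebraMap E L c) = algebraMap Kb F (algebraMap E Kb c))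

/-- The trace to an intermediate field only depends on the field. -/
theorem coe_trace_congr {K₁ K₂ : IntermediateField E L} (h : K₁ = K₂) (x : L) :
    ((Algebra.trace K₁ L x : K₁) : L) = ((Algebra.trace K₂ L x : K₂) : L) := by
  subst h
  rfl

/-- Polynomials in an element of the valuation ring of a place lie in the valuation ring. -/
theorem aeval_mem_of_mem (v : Place Kb F) {U : F} (hU : U ∈ v.toValuationSubring) (p : Kb[X]) :
    aeval U p ∈ v.toValuationSubring := by
  induction p using Polynomial.induction_on' with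
  | add p q hp hq =>
    rw [map_add]
    exact add_mem hp hq
  | monomial n a =>
    rw [aeval_monomial]
    exact mul_mem (v.algebraMap_mem' a) (pow_mem hU n)

include hemb in
/-- **Restriction of a place.**  A place of `F / Kb` which is positive at `emb t` restricts to a
positive multiple of a place of `L / E`. -/
theorem exists_place_restrict (v : Place Kb F) (t : L) (ht : 0 < v.ord (emb t)) :
    ∃ (P : Place E L) (κ : ℤ), 0 < κ ∧ ∀ x : L, x ≠ 0 → v.ord (emb x) = κ * P.ord x := by
  have hu : IsOrd (fun x : L => v.ord (emb x)) := (isOrd_place v).comp emb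
  have hK : ∀ c : E, c ≠ 0 → v.ord (emb (algebraMap E L c)) = 0 := by
    intro c _
    rw [hemb]
    exact FF.ord_algebraMap v _
  have ht0 : t ≠ 0 := by
    rintro rfl
    rw [map_zero, v.ord_zero] at ht
    exact lt_irrefl _ ht
  have hnt : ∃ f : L, f ≠ 0 ∧ v.ord (emb f) < 0 := by
    refine ⟨t⁻¹, inv_ne_zero ht0, ?_⟩
    rw [map_inv₀, v.ord_inv]
    omega
  obtain ⟨κ, hκ, -, h⟩ := exists_placeOfOrd_ord _ hu hK hnt
  exact ⟨placeOfOrd _ hu hK hnt, κ, hκ, h⟩

variable [CharZero E] (u : L) (hu : Transcendental E u) [FiniteDimensional E⟮u⟯ L]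

include hemb hu in
/-- **Finite places.**  A trace-dual element has a pole of order at most `e - 1` over `u = c`. -/
theorem fin_bound (G : L)
    (h0 : ∀ y : L, IsIntegral (Algebra.adjoin E {u}) y →
      ∃ w : E[X], ((Algebra.trace E⟮u⟯ L (G * y) : E⟮u⟯) : L) = aeval u w)
    (v : Place Kb F) (c : Kb) (hc : IsIntegral E c)
    (hv : 0 < v.ord (emb u - algebraMap Kb F c)) :
    1 - v.ord (emb u - algebraMap Kb F c) ≤ v.ord (emb G) := by
  classical
  rcases eq_or_ne G 0 with rfl | hG
  · rw [map_zero, v.ord_zero]; omega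
  have hinj : Function.Injective emb := emb.injective
  set U : F := emb u with hU
  have hhom : emb.comp (algebraMap E L) = (algebraMap Kb F).comp (algebraMap E Kb) :=
    RingHom.ext hemb
  have hembp : ∀ p : E[X], emb (aeval u p) = aeval U (p.map (algebraMap E Kb)) := by
    intro p
    rw [aeval_def, hom_eval₂, hhom, aeval_def, eval₂_map]
  -- `U` is regular at `v`
  have hUc : U - algebraMap Kb F c ∈ v.toValuationSubring := FF.mem_of_ord_pos v hv
  have hUmem : U ∈ v.toValuationSubring := by
    have := add_mem hUc (v.algebraMap_mem' c)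
    simpa using this
  have hUc0 : U - algebraMap Kb F c ≠ 0 := by
    intro h
    rw [h, v.ord_zero] at hv
    exact lt_irrefl _ hv
  -- the closed point
  set f : E[X] := minpoly E c with hf
  have hfirr : Irreducible f := minpoly.irreducible hc
  have hf0 : f ≠ 0 := minpoly.ne_zero hc
  have hroot : (f.map (algebraMap E Kb)).IsRoot c := by
    rw [IsRoot.def, eval_map, ← aeval_def]
    exact minpoly.aeval E c
  obtain ⟨g, hg⟩ : (X - C c) ∣ f.map (algebraMap E Kb) := dvd_iff_isRoot.mpr hroot
  have hsep : (f.map (algebraMap E Kb)).Separable := hfirr.separable.map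
  have hgc : g.eval c ≠ 0 := by
    intro h0'
    obtain ⟨g', rfl⟩ : (X - C c) ∣ g := dvd_iff_isRoot.mpr h0'
    have h2 : (X - C c) * (X - C c) ∣ f.map (algebraMap E Kb) := ⟨g', by rw [hg]; ring⟩
    exact not_isUnit_X_sub_C c (hsep.squarefree _ h2)
  -- `g(U)` is a unit at `v`
  obtain ⟨g₁, hg₁⟩ : (X - C c) ∣ g - C (g.eval c) :=
    dvd_iff_isRoot.mpr (by simp)
  have hgU : aeval U g = algebraMap Kb F (g.eval c) + (U - algebraMap Kb F c) * aeval U g₁ := by
    have h1 : g = C (g.eval c) + (X - C c) * g₁ := by rw [← hg₁]; ring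
    conv_lhs => rw [h1]
    simp [aeval_C]
  have hordg : v.ord (aeval U g) = 0 := by
    have ha0 : algebraMap Kb F (g.eval c) ≠ 0 := (_root_.map_ne_zero _).mpr hgc
    have ha : v.ord (algebraMap Kb F (g.eval c)) = 0 := FF.ord_algebraMap v _
    rw [hgU]
    rcases eq_or_ne ((U - algebraMap Kb F c) * aeval U g₁) 0 with hb | hb
    · rw [hb, add_zero, ha]
    · have hg₁0 : aeval U g₁ ≠ 0 := right_ne_zero_of_mul hb
      have hb1 : 0 ≤ v.ord (aeval U g₁) := FF.ord_nonneg_of_mem v (aeval_mem_of_mem v hUmem g₁)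
      have hb2 : v.ord ((U - algebraMap Kb F c) * aeval U g₁)
          = v.ord (U - algebraMap Kb F c) + v.ord (aeval U g₁) := v.ord_mul hUc0 hg₁0
      rw [FF.ord_add_eq_of_lt v (by rw [ha, hb2]; omega) ha0 hb, ha]
  have hgU0 : aeval U g ≠ 0 := by
    intro h
    have h1 : algebraMap Kb F (g.eval c) ≠ 0 := (_root_.map_ne_zero _).mpr hgc
    rw [hgU] at h
    rcases eq_or_ne ((U - algebraMap Kb F c) * aeval U g₁) 0 with hb | hb
    · rw [hb, add_zero] at h
      exact h1 h
    · have hg₁0 : aeval U g₁ ≠ 0 := right_ne_zero_of_mul hb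
      have hb1 : 0 ≤ v.ord (aeval U g₁) := FF.ord_nonneg_of_mem v (aeval_mem_of_mem v hUmem g₁)
      have hb2 : v.ord ((U - algebraMap Kb F c) * aeval U g₁)
          = v.ord (U - algebraMap Kb F c) + v.ord (aeval U g₁) := v.ord_mul hUc0 hg₁0
      have h3 : (U - algebraMap Kb F c) * aeval U g₁ = -algebraMap Kb F (g.eval c) := by
        linear_combination h
      rw [h3, FF.ord_neg, FF.ord_algebraMap] at hb2
      omega
  have hfU : emb (aeval u f) = (U - algebraMap Kb F c) * aeval U g := by
    rw [hembp, hg]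
    simp [aeval_C]
  have hordf : v.ord (emb (aeval u f)) = v.ord (U - algebraMap Kb F c) := by
    rw [hfU, v.ord_mul hUc0 hgU0, hordg, add_zero]
  -- restrict the place
  have hfu0 : aeval u f ≠ 0 := fun h => hu ⟨f, hf0, h⟩
  obtain ⟨P, κ, hκ, hP⟩ := exists_place_restrict emb hemb v (aeval u f) (by rw [hordf]; exact hv)
  have hu0 : u ≠ 0 := fun h => hu (h ▸ isAlgebraic_zero)
  have hPu : 0 ≤ P.ord u := by
    have h1 : 0 ≤ κ * P.ord u := by
      rw [← hP u hu0]
      exact FF.ord_nonneg_of_mem v hUmem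
    exact nonneg_of_mul_nonneg_right h1 hκ
  have hPf : 0 < P.ord (aeval u f) := by
    have h1 : 0 < κ * P.ord (aeval u f) := by
      rw [← hP _ hfu0, hordf]
      exact hv
    by_contra hle
    rw [not_lt] at hle
    have : κ * P.ord (aeval u f) ≤ 0 := mul_nonpos_of_nonneg_of_nonpos hκ.le hle
    omega
  have hb := TameBound.one_sub_ord_le_ord E u hu f hfirr G h0 P hPu hPf
  have h1 : κ * (1 - P.ord (aeval u f)) ≤ κ * P.ord G := mul_le_mul_of_nonneg_left hb hκ.le
  rw [hP G hG]
  have h2 : κ * P.ord (aeval u f) = v.ord (U - algebraMap Kb F c) := by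
    rw [← hP _ hfu0, hordf]
  nlinarith

include hemb hu in
/-- **Poles of `u`.**  If `G u²` is trace-dual over `E[u⁻¹]`, then `G` vanishes to order at
least `e + 1` at every pole of `u` of order `e`. -/
theorem inf_bound (G : L) (hG : G ≠ 0)
    (hoo : ∀ y : L, IsIntegral (Algebra.adjoin E {u⁻¹}) y →
      ∃ w : E[X], ((Algebra.trace E⟮u⟯ L (G * u ^ 2 * y) : E⟮u⟯) : L) = aeval u⁻¹ w)
    (v : Place Kb F) (hv : v.ord (emb u) < 0) :
    1 - v.ord (emb u) ≤ v.ord (emb G) := by
  classical
  have hu0 : u ≠ 0 := fun h => hu (h ▸ isAlgebraic_zero)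
  have hu' : Transcendental E u⁻¹ := FF.transcendental_inv hu
  haveI hfin' : FiniteDimensional E⟮u⁻¹⟯ L := FF.finiteDimensional_adjoin_inv u inferInstance
  have hpos : 0 < v.ord (emb u⁻¹) := by
    rw [map_inv₀, v.ord_inv]
    omega
  obtain ⟨P, κ, hκ, hP⟩ := exists_place_restrict emb hemb v u⁻¹ hpos
  have hPinv : 0 < P.ord u⁻¹ := by
    have h1 : 0 < κ * P.ord u⁻¹ := by
      rw [← hP _ (inv_ne_zero hu0)]
      exact hpos
    by_contra hle
    rw [not_lt] at hle
    have : κ * P.ord u⁻¹ ≤ 0 := mul_nonpos_of_nonneg_of_nonpos hκ.le hle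
    omega
  have htr' : ∀ y : L, IsIntegral (Algebra.adjoin E {u⁻¹}) y →
      ∃ w : E[X], ((Algebra.trace E⟮u⁻¹⟯ L (G * u ^ 2 * y) : E⟮u⁻¹⟯) : L) = aeval u⁻¹ w := by
    intro y hy
    obtain ⟨w, hw⟩ := hoo y hy
    exact ⟨w, (coe_trace_congr (FF.adjoin_inv u) _).trans hw⟩
  have hb := TameBound.one_sub_ord_le_ord E u⁻¹ hu' X irreducible_X (G * u ^ 2) htr' P hPinv.le
    (by rw [aeval_X]; exact hPinv)
  rw [aeval_X, P.ord_mul hG (pow_ne_zero 2 hu0), ← zpow_natCast, P.ord_zpow, P.ord_inv] at hb
  push_cast at hb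
  have h1 : κ * (1 - P.ord u) ≤ κ * P.ord G := mul_le_mul_of_nonneg_left (by omega) hκ.le
  rw [hP G hG, hP u hu0]
  nlinarith

end Generic

end Fermat.Agent.S44.D.Dict0
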