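import Fermat.Agent.S44.D.Dict0Inst
import Fermat.Agent.S44.D.TraceDualInt
import Fermat.Agent.S30.Model.CechP1

set_option autoImplicit false
set_option linter.style.haveILetI false

/-!
# PROGRAM MR (S44), strand D: from the chart form of trace duality to the dictionary (helper29)

The exit of step (c) (`IntLiftChart.exists_dual_cechH(_quot)`) is an element `G : L` with

* `Tr (G b) ∈ O[u]`       for `b` in the chart `C0 = CechP1.chart O {u}`   (integral over `O[u]`),
* `Tr (G (u² b)) ∈ O[u⁻¹]` for `b` in the chart `C1 = CechP1.chart O {u⁻¹}` (integral over `O[u⁻¹]`),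

`O` a domain with fraction field `E`.  The entrance of (d0) (`Dict0.fin_bound` / `inf_bound`,
`Dict0Inst`) is the same with `E` in place of `O`:

* `Tr (G y) ∈ E[u]` for `y` integral over `E[u]`, `Tr (G u² y) ∈ E[u⁻¹]` for `y` integral over
  `E[u⁻¹]`.

Level-free adapters (`traceDual_of_chart`, `traceDual_inf_of_chart`: an element integral over
`E[t]` has a nonzero `O`-multiple integral over `O[t]`, `TraceDualInt.exists_smul_isIntegral`),
and the modular instance `exists_cuspForm_qCoeff_of_chartDual`: the cusp form attached to an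
`E`-level function `G` of level `N` which is trace-dual on the two `O`-charts of the `j`-line.
-/

noncomputable section

open Polynomial IntermediateField AlgebraicCurve ModularCurve UpperHalfPlane CongruenceSubgroup
open Fermat.Agent.S30.E2.Degree Fermat.Agent.S24.Modular Fermat.Agent.S24.Theta
open Fermat.Agent.S24.JFun Fermat.Agent.S30.Model.CechP1

namespace Fermat.Agent.S44.D.Dict0Chart

section Generic

variable {O E L : Type*} [CommRing O] [Field E] [Algebra O E] [IsFractionRing O E]
  [Field L] [Algebra E L] [Algebra O L] [IsScalarTower O E L]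

/-- A polynomial expression over `O` divided by a nonzero constant of `O` is a polynomial
expression over `E = Frac O`. -/
theorem exists_aeval_eq_of_mul_eq (t : L) {d : O} (hd : d ≠ 0) {z : L} (p : O[X])
    (h : algebraMap O L d * z = aeval t p) : ∃ w : E[X], z = aeval t w := by
  have hdE : algebraMap O E d ≠ 0 := by
    intro h0
    exact hd (IsFractionRing.injective O E (by rw [h0, map_zero]))
  have hdL : algebraMap O L d ≠ 0 := by
    rw [IsScalarTower.algebraMap_apply O E L]
    exact (_root_.map_ne_zero _).mpr hdE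
  refine ⟨C (algebraMap O E d)⁻¹ * p.map (algebraMap O E), ?_⟩
  rw [map_mul, aeval_C, aeval_map_algebraMap, ← h, IsScalarTower.algebraMap_apply O E L d,
    ← mul_assoc, ← map_mul, inv_mul_cancel₀ hdE, map_one, one_mul]

omit [IsFractionRing O E] in
/-- The trace to an intermediate field `K` of `L / E` is linear over the constants of `O`. -/
theorem coe_trace_algebraMap_mul (K : IntermediateField E L) (d : O) (x : L) :
    ((Algebra.trace K L (algebraMap O L d * x) : K) : L)
      = algebraMap O L d * ((Algebra.trace K L x : K) : L) := by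
  have h1 : algebraMap O L d * x = (algebraMap E K (algebraMap O E d)) • x := by
    rw [Algebra.smul_def, ← IsScalarTower.algebraMap_apply E K L,
      ← IsScalarTower.algebraMap_apply O E L]
  rw [h1, map_smul, smul_eq_mul, MulMemClass.coe_mul, IntermediateField.coe_algebraMap_apply,
    ← IsScalarTower.algebraMap_apply O E L]

/-- **Chart form ⟹ field form of trace duality (level-free).**  If `Tr_{L/K} (H b)` is a
polynomial over `O` in `t` for every `b` of the chart `CechP1.chart O {t}` (integral over
`O[t]`), then `Tr_{L/K} (H y)` is a polynomial over `E = Frac O` in `t` for every `y` integral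
over `E[t]`. -/
theorem traceDual_of_chart (K : IntermediateField E L) (t : L) (H : L)
    (hO : ∀ b : L, b ∈ chart O ({t} : Set L) →
      ∃ p : O[X], ((Algebra.trace K L (H * b) : K) : L) = aeval t p) :
    ∀ y : L, IsIntegral (Algebra.adjoin E {t}) y →
      ∃ w : E[X], ((Algebra.trace K L (H * y) : K) : L) = aeval t w := by
  intro y hy
  obtain ⟨d, hd, hdy⟩ := Fermat.Agent.S44.D.TraceDualInt.exists_smul_isIntegral (R := O) t hy
  obtain ⟨p, hp⟩ := hO _ (mem_chart.mpr hdy)
  refine exists_aeval_eq_of_mul_eq t hd p ?_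
  have e : algebraMap O L d * (H * y) = H * (algebraMap O L d * y) := by ring
  rw [← coe_trace_algebraMap_mul K d (H * y), ← hp, e]

end Generic

section Modular

variable (N : ℕ) (E : Type*) [Field E] [Algebra ℚ E] [Algebra E Kbar]
  (O : Type*) [CommRing O] [Algebra O E] [IsFractionRing O E]
  [Algebra O (Dict0Inst.LEv N E)] [IsScalarTower O E (Dict0Inst.LEv N E)]

/-- **(c) ⟹ (d), `E`-level**: an `E`-level function `G` of level `N` which is trace-dual on the
two `O`-charts of the `j`-line (`O` a domain with fraction field `E`; the literal of the exit of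
`IntLiftChart.exists_dual_cechH` at `u := jE N E`) gives the weight-2 cusp form `Φ` of level
`Γ₀(N)` with `q`-expansion `G · jθ` (`jθ` the `q`-expansion of `D j`). -/
theorem exists_cuspForm_qCoeff_of_chartDual (ι : Kbar →+* ℂ) [NeZero N]
    (G : Dict0Inst.LEv N E)
    (h0 : ∀ b : Dict0Inst.LEv N E, b ∈ chart O ({jE N E} : Set (Dict0Inst.LEv N E)) →
      ∃ p : O[X], ((Algebra.trace E⟮jE N E⟯ (Dict0Inst.LEv N E) (G * b) : E⟮jE N E⟯) :
        Dict0Inst.LEv N E) = aeval (jE N E) p)
    (hoo : ∀ b : Dict0Inst.LEv N E, b ∈ chart O ({(jE N E)⁻¹} : Set (Dict0Inst.LEv N E)) →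
      ∃ p : O[X], ((Algebra.trace E⟮jE N E⟯ (Dict0Inst.LEv N E) (G * (jE N E ^ 2 * b)) :
        E⟮jE N E⟯) : Dict0Inst.LEv N E) = aeval (jE N E)⁻¹ p)
    (jθ : LaurentSeries Kbar) (hD : HasQ ι jθ (Derivative.normalizedDerivOfComplex jFun)) :
    ∃ Φ : CuspForm (Gamma0 N) 2, ∀ n : ℕ,
      ModularFormClass.qCoeff Φ n
        = ι ((Abs.iota (Ω := Kbar) (G : LaurentSeries E) * jθ).coeff n) := by
  refine Dict0Inst.exists_cuspForm_qCoeff_of_traceDual N E ι G
    (traceDual_of_chart (O := O) E⟮jE N E⟯ (jE N E) G h0) ?_ jθ hD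
  have h := traceDual_of_chart (O := O) E⟮jE N E⟯ (jE N E)⁻¹ (G * jE N E ^ 2)
    (fun b hb => by
      obtain ⟨p, hp⟩ := hoo b hb
      exact ⟨p, by rw [mul_assoc]; exact hp⟩)
  exact h

end Modular

end Fermat.Agent.S44.D.Dict0Chart

end
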