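/-
PROGRAM MR (S44), strand D, row (d1) (helper279): THE DICTIONARY, final `E`-level exit.

`exists_cuspForm_E` : for `G` in the level-`N` modular function field over `E` (any field of
characteristic zero inside `ℚ̄`), trace-dual to the integral closure of `E[j]` (`h0`) and - after
multiplication by `j²` - of `E[1/j]` (`hoo`), there is a weight-2 cusp form `Φ` on `Γ₀(N)` whose
`q`-expansion is the series `x = G · θ j ∈ E((q))` itself:

* `qCoeff Φ n = ι (x.coeff n)` for `n : ℕ` (coefficients read in `ℂ` through `E → ℚ̄ → ℂ`), and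
* `x.coeff k = 0` for all `k ≤ 0` (no polar part, no constant term).

This is the literal consumed by `IntCoeff.exists_coeff_of_mem_V` (`hF`, `hneg`).
The `FN N`-level form is `laurent_eq` / `coeff_eq_zero_of_nonpos`.
-/
import Mathlib
import Fermat.Agent.S44.D.Dict0Inst
import Fermat.Agent.S44.D.DictDeriv

set_option autoImplicit false
set_option linter.dupNamespace false
set_option linter.unusedSectionVars false
set_option linter.style.haveILetI false

open scoped Manifold MatrixGroups Topology Real ModularForm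
open UpperHalfPlane Filter AlgebraicCurve ModularCurve CongruenceSubgroup Polynomial
open IntermediateField
open ModularForm Derivative
open Fermat.Agent.S24.HolH Fermat.Agent.S24.JHol Fermat.Agent.S24.JFun Fermat.Agent.S24.Theta
open Fermat.Agent.S24.Modular Fermat.Agent.S24.QB Fermat.Agent.S30.E2.Degree

noncomputable section

namespace Fermat.Agent.S44.D.DictMain

open Fermat.Agent.S44.D

/-- **The full Laurent identity.**  If `Φ · θ b = θ a · D j` with `G = a / b` and `D j` has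
`q`-expansion `jθ`, then the `q`-expansion of the cusp form `Φ`, as a Laurent series, is
`G · jθ` read in `ℂ`. -/
theorem laurent_eq (ι : Kbar →+* ℂ) (N : ℕ) [NeZero N] (G : FN N) (Φ : CuspForm (Gamma0 N) 2)
    (a b : A0 N) (hb : b ≠ 0) (hab : G * (b : FN N) = (a : FN N))
    (hΦ : ∀ τ : ℍ, Φ τ * (theta ι N b : ℍ → ℂ) τ = (theta ι N a : ℍ → ℂ) τ * D jFun τ)
    (jθ : LaurentSeries Kbar) (hD : HasQ ι jθ (D jFun)) :
    HahnSeries.ofPowerSeries ℤ ℂ (qExpansion 1 (Φ : ℍ → ℂ))
      = coeffMap ι ((G : LaurentSeries Kbar) * jθ) := by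
  have hper : Function.Periodic ((Φ : ℍ → ℂ) ∘ ofComplex) 1 :=
    SlashInvariantFormClass.periodic_comp_ofComplex Φ (one_mem_strictPeriods_Gamma0 N)
  have hbdd : IsBoundedAtImInfty (Φ : ℍ → ℂ) :=
    have : Fact (IsCusp OnePoint.infty ((Gamma0 N).map (Matrix.SpecialLinearGroup.mapGL ℝ))) :=
      ⟨Subgroup.isCusp_of_mem_strictPeriods one_pos (one_mem_strictPeriods_Gamma0 N)⟩
    ModularFormClass.bdd_at_infty Φ
  have h1 := DictQ.hasQ_ofPowerSeries hper (ModularFormClass.holo Φ) hbdd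
  have h2 := h1.mul (DictQ.hasQ_coeffMap (hasQ_theta ι N b))
  have h3 := DictQ.hasQ_coeffMap ((hasQ_theta ι N a).mul hD)
  have hfun : (Φ : ℍ → ℂ) * (theta ι N b : ℍ → ℂ) = (theta ι N a : ℍ → ℂ) * D jFun :=
    funext hΦ
  rw [hfun] at h2
  have h4 := h2.unique h3
  have hab' : (G : LaurentSeries Kbar) * ((b : FN N) : LaurentSeries Kbar)
      = ((a : FN N) : LaurentSeries Kbar) := by
    have := congrArg (fun x : FN N => (x : LaurentSeries Kbar)) hab
    simpa using this
  have hb0 : coeffMap ι ((b : FN N) : LaurentSeries Kbar) ≠ 0 := by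
    intro h0
    have h5 : ((b : FN N) : LaurentSeries Kbar) = 0 :=
      DictQ.coeffMap_injective ι (by rw [h0, map_zero])
    exact hb (Subtype.ext (Subtype.ext h5))
  apply mul_right_cancel₀ hb0
  rw [h4, ← map_mul, ← hab']
  congr 1
  ring

/-- The series `G · jθ` of the dictionary has no polar part and no constant term. -/
theorem coeff_eq_zero_of_nonpos (ι : Kbar →+* ℂ) (N : ℕ) [NeZero N] (G : FN N)
    (Φ : CuspForm (Gamma0 N) 2)
    (a b : A0 N) (hb : b ≠ 0) (hab : G * (b : FN N) = (a : FN N))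
    (hΦ : ∀ τ : ℍ, Φ τ * (theta ι N b : ℍ → ℂ) τ = (theta ι N a : ℍ → ℂ) τ * D jFun τ)
    (jθ : LaurentSeries Kbar) (hD : HasQ ι jθ (D jFun)) (k : ℤ) (hk : k ≤ 0) :
    ((G : LaurentSeries Kbar) * jθ).coeff k = 0 := by
  have h := congrArg (fun X : LaurentSeries ℂ => X.coeff k)
    (laurent_eq ι N G Φ a b hb hab hΦ jθ hD)
  simp only [coeffMap_coeff] at h
  apply ι.injective
  rw [map_zero, ← h]
  rcases hk.lt_or_eq with hlt | rfl
  · exact ModularCurve.ofPowerSeries_coeff_of_neg _ hlt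
  · have h0 : (qExpansion 1 (Φ : ℍ → ℂ)).coeff 0 = 0 :=
      CuspFormClass.qExpansion_coeff_zero Φ one_pos (one_mem_strictPeriods_Gamma0 N)
    have h1 := HahnSeries.ofPowerSeries_apply_coeff (Γ := ℤ) (qExpansion 1 (Φ : ℍ → ℂ)) 0
    rw [Nat.cast_zero] at h1
    rw [h1, h0]

variable (N : ℕ) (E : Type*) [Field E] [Algebra ℚ E] [Algebra E Kbar]

/-- **(d0) + (d1) + (Q1), `E`-level, with the vanishing of the non-positive coefficients.**
The cusp form attached to a trace-dual `G` has `q`-expansion `x = G · θ j ∈ E((q))`. -/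
theorem exists_cuspForm_E (ι : Kbar →+* ℂ) [NeZero N] (G : Dict0Inst.LEv N E)
    (h0 : ∀ y : Dict0Inst.LEv N E, IsIntegral (Algebra.adjoin E {jE N E}) y →
      ∃ w : E[X], ((Algebra.trace E⟮jE N E⟯ (Dict0Inst.LEv N E) (G * y) : E⟮jE N E⟯) :
        Dict0Inst.LEv N E) = aeval (jE N E) w)
    (hoo : ∀ y : Dict0Inst.LEv N E, IsIntegral (Algebra.adjoin E {(jE N E)⁻¹}) y →
      ∃ w : E[X], ((Algebra.trace E⟮jE N E⟯ (Dict0Inst.LEv N E) (G * jE N E ^ 2 * y) :
        E⟮jE N E⟯) : Dict0Inst.LEv N E) = aeval (jE N E)⁻¹ w)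
    (jθE : LaurentSeries E)
    (hjθE : ∀ n : ℤ, jθE.coeff n
      = (n : E) * ((jE N E : Dict0Inst.LEv N E) : LaurentSeries E).coeff n) :
    ∃ Φ : CuspForm (Gamma0 N) 2,
      (∀ n : ℕ, ModularFormClass.qCoeff Φ n
        = ι (algebraMap E Kbar (((G : LaurentSeries E) * jθE).coeff n))) ∧
      ∀ k : ℤ, k ≤ 0 → ((G : LaurentSeries E) * jθE).coeff k = 0 := by
  -- the derivative series over `ℚ̄`
  have hjθ : ∀ n : ℤ, (Abs.iota (Ω := Kbar) jθE).coeff n
      = (n : Kbar) * ((jF N : FN N) : LaurentSeries Kbar).coeff n := by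
    intro n
    rw [← Dict0Inst.rhoE_jE N E, Dict0Inst.coe_rhoE]
    show algebraMap E Kbar (jθE.coeff n)
      = (n : Kbar) * algebraMap E Kbar (((jE N E : Dict0Inst.LEv N E) : LaurentSeries E).coeff n)
    rw [hjθE, map_mul, map_intCast]
  have hD : HasQ ι (Abs.iota (Ω := Kbar) jθE) (D jFun) := DictDeriv.hasQ_D_jFun ι N hjθ
  obtain ⟨Φ, hΦ⟩ := Dict0Inst.exists_cuspForm_of_traceDual N E ι G h0 hoo
  obtain ⟨a, b, hb', hab⟩ := exists_mul_eq (Dict0Inst.rhoE N E G)
  have hb : b ≠ 0 := fun h => hb' (by rw [h]; rfl)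
  have hmul : ∀ k : ℤ, (((Dict0Inst.rhoE N E G : FN N) : LaurentSeries Kbar)
      * Abs.iota (Ω := Kbar) jθE).coeff k
      = algebraMap E Kbar (((G : LaurentSeries E) * jθE).coeff k) := by
    intro k
    rw [Dict0Inst.coe_rhoE, ← map_mul]
    rfl
  refine ⟨Φ, fun n => ?_, fun k hk => ?_⟩
  · rw [DictQ.qCoeff_eq ι N (Dict0Inst.rhoE N E G) Φ a b hb hab (hΦ a b hab) _ hD n, hmul]
  · have h1 := coeff_eq_zero_of_nonpos ι N (Dict0Inst.rhoE N E G) Φ a b hb hab (hΦ a b hab) _ hD
      k hk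
    rw [hmul] at h1
    exact (algebraMap E Kbar).injective (by rw [h1, map_zero])

end Fermat.Agent.S44.D.DictMain
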