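import Mathlib
import Fermat.Agent.S30.GaussDVR

/-!
# Strand D of S44: Gauss-integral series with bounded denominators are integral

Level-free (`S30/GaussDVR` only).  `O` a discrete valuation ring with uniformiser `π`, `E` a
field containing `O`, `V = GaussDVR.V O E ⊆ E((q))` the Gauss ring (fractions of integral series
with denominator nonzero modulo `π`) and `red : V → k((q))` its reduction.

The Gauss ring contains series with UNBOUNDED denominators (`π / (π - q) = ∑ π⁻ⁿ qⁿ`), so
"`x ∈ V`" does not mean "the coefficients of `x` lie in `O`".  But: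

* `exists_int_of_mem_V_of_pow_mul` : if `x ∈ V` and `π ^ m * x` has coefficients in `O` for some
  `m`, then `x` has coefficients in `O` and `red x` is the coefficientwise reduction.
* `exists_int_of_mem_V_of_mul` : the same with any nonzero multiplier `d : O`.
* `exists_int_of_mem_V_of_coeff` : coefficient form (for each `n`, `d * x.coeff n ∈ O`).
-/

set_option autoImplicit false

open ModularCurve

namespace Fermat.Agent.S44.D.GaussBdd

open Fermat.Agent.S30

variable {O E : Type*} [CommRing O] [IsDomain O] [IsDiscreteValuationRing O] [Field E]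
  [Algebra O E] [FaithfulSMul O E]

/-- **(V), power form.**  A series of the Gauss ring which becomes integral after multiplication
by a power of the uniformiser is integral, and its reduction is the coefficientwise one. -/
theorem exists_int_of_mem_V_of_pow_mul (π : O) (hπ : Irreducible π) (m : ℕ) :
    ∀ (x : LaurentSeries E) (hxV : x ∈ GaussDVR.V O E) (y : LaurentSeries O),
      HahnSeries.C (algebraMap O E π) ^ m * x = GaussDVR.iota O E y →
      ∃ z : LaurentSeries O, x = GaussDVR.iota O E z ∧
        GaussDVR.red O E ⟨x, hxV⟩ = GaussDVR.rho O z := by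
  induction m with
  | zero =>
    intro x hxV y hy
    rw [pow_zero, one_mul] at hy
    refine ⟨y, hy, ?_⟩
    have h : (⟨x, hxV⟩ : GaussDVR.V O E) = GaussDVR.ofInt O E y := Subtype.ext hy
    rw [h, GaussDVR.red_ofInt]
  | succ m ih =>
    intro x hxV y hy
    set x' : GaussDVR.V O E := GaussDVR.unif E π ^ m * ⟨x, hxV⟩ with hx'
    have h1 : GaussDVR.unif E π * x' = GaussDVR.ofInt O E y := by
      apply Subtype.ext
      rw [Subring.coe_mul, hx', Subring.coe_mul, Subring.coe_pow, GaussDVR.coe_unif,
        GaussDVR.coe_ofInt, ← hy, pow_succ]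
      ring
    have h2 := congrArg (GaussDVR.red O E) h1
    rw [map_mul, GaussDVR.red_unif E π hπ, zero_mul, GaussDVR.red_ofInt] at h2
    obtain ⟨y1, hy1⟩ := GaussDVR.exists_eq_unif_mul_of_rho_eq_zero π hπ y h2.symm
    have hC0 : (HahnSeries.C (algebraMap O E π) : LaurentSeries E) ≠ 0 := by
      rw [← GaussDVR.coe_unif]
      exact GaussDVR.coe_unif_ne_zero E π hπ
    have h3 : HahnSeries.C (algebraMap O E π) ^ m * x = GaussDVR.iota O E y1 := by
      apply mul_left_cancel₀ hC0
      rw [← mul_assoc, ← pow_succ', hy, hy1, map_mul, GaussDVR.iota_C]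
    exact ih x hxV y1 h3

/-- **(V), multiplier form.**  The same with an arbitrary nonzero multiplier `d : O`. -/
theorem exists_int_of_mem_V_of_mul (π : O) (hπ : Irreducible π)
    (x : LaurentSeries E) (hxV : x ∈ GaussDVR.V O E) (d : O) (hd : d ≠ 0)
    (y : LaurentSeries O)
    (hy : HahnSeries.C (algebraMap O E d) * x = GaussDVR.iota O E y) :
    ∃ z : LaurentSeries O, x = GaussDVR.iota O E z ∧
      GaussDVR.red O E ⟨x, hxV⟩ = GaussDVR.rho O z := by
  obtain ⟨m, w, hw⟩ := IsDiscreteValuationRing.eq_unit_mul_pow_irreducible hd hπ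
  refine exists_int_of_mem_V_of_pow_mul π hπ m x hxV
    (HahnSeries.C ((w⁻¹ : Oˣ) : O) * y) ?_
  rw [map_mul, GaussDVR.iota_C, ← hy, ← mul_assoc, ← map_mul, ← map_pow, ← map_pow, ← map_mul,
    hw]
  congr 2
  rw [← mul_assoc, Units.inv_mul, one_mul]

open Classical in
/-- A zero-preserving section of `algebraMap O E` (junk value `0` outside the range). -/
noncomputable def sect (O E : Type*) [CommRing O] [Field E] [Algebra O E] [FaithfulSMul O E] :
    ZeroHom E O where
  toFun e := if h : ∃ a : O, algebraMap O E a = e then Classical.choose h else 0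
  map_zero' := by
    have h : ∃ a : O, algebraMap O E a = 0 := ⟨0, map_zero _⟩
    rw [dif_pos h]
    exact FaithfulSMul.algebraMap_injective O E
      ((Classical.choose_spec h).trans (map_zero _).symm)

theorem algebraMap_sect {e : E} (h : ∃ a : O, algebraMap O E a = e) :
    algebraMap O E (sect O E e) = e := by
  classical
  show algebraMap O E (if h : ∃ a : O, algebraMap O E a = e then Classical.choose h else 0) = e
  rw [dif_pos h]
  exact Classical.choose_spec h

/-- **(V), coefficient form.**  If `x` lies in the Gauss ring and `d * x.coeff n ∈ O` for all `n`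
(one nonzero `d : O`), then there are `c n : O` with `x.coeff n = c n` and
`(red x).coeff n = c n mod π` for all `n`. -/
theorem exists_int_of_mem_V_of_coeff (π : O) (hπ : Irreducible π)
    (x : LaurentSeries E) (hxV : x ∈ GaussDVR.V O E) (d : O) (hd : d ≠ 0)
    (hbdd : ∀ n : ℤ, ∃ a : O, algebraMap O E a = algebraMap O E d * x.coeff n) :
    ∃ z : LaurentSeries O, x = GaussDVR.iota O E z ∧
      GaussDVR.red O E ⟨x, hxV⟩ = GaussDVR.rho O z := by
  refine exists_int_of_mem_V_of_mul π hπ x hxV d hd
    ((HahnSeries.C (algebraMap O E d) * x).map (sect O E)) ?_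
  ext n
  rw [coeffMap_coeff, HahnSeries.map_coeff, GaussDVR.coeff_C_mul]
  exact (algebraMap_sect (hbdd n)).symm

/-- Coefficients of a series `x = ι z`: `x.coeff n = z.coeff n` and
`(ρ z).coeff n = z.coeff n mod π`. -/
theorem coeff_of_eq_iota (x : LaurentSeries E) (z : LaurentSeries O)
    (hx : x = GaussDVR.iota O E z) (n : ℤ) :
    x.coeff n = algebraMap O E (z.coeff n) ∧
      (GaussDVR.rho O z).coeff n = IsLocalRing.residue O (z.coeff n) := by
  subst hx
  exact ⟨rfl, rfl⟩

end Fermat.Agent.S44.D.GaussBdd
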