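import Mathlib
import Fermat.Prelude.Def_CuspForm_IntegralStructure
import Fermat.Agent.S49.PartB
import Fermat.Agent.S44.D.GaussBdd

/-!
# Strand D of S44: integrality of the `q`-coefficients of the lifted cusp form

The lifting step of strand D produces a function `G` with Gauss-integral `q`-expansion and a
weight-2 cusp form `F` of level `N` whose `q`-expansion is the series `x = G · θ(j) ∈ E((q))`.
"Gauss-integral" (`x ∈ GaussDVR.V O E`) does NOT mean that the coefficients of `x` lie in `O`
(the Gauss ring contains series with unbounded denominators).  This file supplies the missing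
step:

* `exists_rational_structure` (**BD**): a cusp form whose `q`-coefficients lie in the image of a
  field `K` is a `K`-linear combination (coefficientwise) of cusp forms with INTEGER
  `q`-coefficients (from `CuspForm.HasIntegralStructure N 2`, i.e. the landed S23).
* `exists_bdd_denominators` : hence, over a discrete valuation ring `O` with fraction field
  `E = K`, the coefficients have a common denominator.
* `exists_coeff_of_mem_V` (**the exit**): if moreover the `q`-expansion `x` lies in the Gauss
  ring, the coefficients of `F` are the images of elements `c n : O`, and the reduction of `x`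
  in the Gauss ring is the series `∑ (c n mod π) qⁿ`.
-/

set_option autoImplicit false

open CongruenceSubgroup ModularFormClass ModularCurve

namespace Fermat.Agent.S44.D.IntCoeff

open Fermat.Agent.S30 Fermat.Agent.S49.PartB

/-! ### (BD) the rational structure -/

section Rational

variable {N : ℕ}

/-- `q`-coefficients of a finite linear combination of cusp forms. -/
theorem qCoeff_sum_smul {d : ℕ} (c : Fin d → ℂ) (G : Fin d → CuspForm (Gamma0 N) 2) (n : ℕ) :
    qCoeff (⇑(∑ i, c i • G i)) n = ∑ i, c i * qCoeff (G i) n := by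
  classical
  have key : ∀ s : Finset (Fin d),
      qCoeff (⇑(∑ i ∈ s, c i • G i)) n = ∑ i ∈ s, c i * qCoeff (G i) n := by
    intro s
    induction s using Finset.induction_on with
    | empty =>
      rw [Finset.sum_empty, Finset.sum_empty]
      exact qCoeff_zero_form n
    | insert a s ha ih =>
      rw [Finset.sum_insert ha, Finset.sum_insert ha, qCoeff_add, qCoeff_smul, ih]
  exact key Finset.univ

/-- **(BD)** A cusp form of weight 2 and level `N` whose `q`-coefficients lie in the image of a
field `K` is, coefficientwise, a `K`-linear combination of cusp forms with integer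
`q`-coefficients. -/
theorem exists_rational_structure (hint : CuspForm.HasIntegralStructure N 2)
    {K : Type*} [Field K] (ι : K →+* ℂ) (F : CuspForm (Gamma0 N) 2)
    (hF : ∀ n : ℕ, ∃ y : K, qCoeff F n = ι y) :
    ∃ (d : ℕ) (e : Fin d → K) (G : Fin d → CuspForm (Gamma0 N) 2),
      (∀ i n, ∃ z : ℤ, qCoeff (G i) n = (z : ℂ)) ∧
      ∀ n : ℕ, qCoeff F n = ∑ i, ι (e i) * qCoeff (G i) n := by
  classical
  -- `F` is a complex combination of integer-coefficient forms
  set W : Set (CuspForm (Gamma0 N) 2) := {f | ∀ n : ℕ, ∃ m : ℤ, qCoeff f n = (m : ℂ)} with hW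
  have hspan : Submodule.span ℂ W = ⊤ := by
    have h := hint
    unfold CuspForm.HasIntegralStructure CuspForm.intLattice at h
    rwa [Submodule.span_span_of_tower] at h
  have hFmem : F ∈ Submodule.span ℂ W := by rw [hspan]; exact Submodule.mem_top
  obtain ⟨d, c, g, hsum⟩ := Submodule.mem_span_set'.mp hFmem
  -- a `K`-linear retraction of `ι`
  letI : Algebra K ℂ := ι.toAlgebra
  have hker : LinearMap.ker (Algebra.linearMap K ℂ) = ⊥ := by
    rw [LinearMap.ker_eq_bot]
    exact ι.injective
  obtain ⟨P, hP⟩ := LinearMap.exists_leftInverse_of_injective (Algebra.linearMap K ℂ) hker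
  have hPι : ∀ y : K, P (ι y) = y := fun y => by
    have h := LinearMap.congr_fun hP y
    simp only [LinearMap.comp_apply, Algebra.linearMap_apply, LinearMap.id_apply] at h
    exact h
  have hgint : ∀ i n, ∃ z : ℤ, qCoeff ((g i : CuspForm (Gamma0 N) 2)) n = (z : ℂ) :=
    fun i n => (g i).2 n
  choose z hz using hgint
  refine ⟨d, fun i => P (c i), fun i => (g i : CuspForm (Gamma0 N) 2), fun i n => ⟨z i n, hz i n⟩,
    fun n => ?_⟩
  obtain ⟨y, hy⟩ := hF n
  have h1 : qCoeff F n = ∑ i, c i * (z i n : ℂ) := by
    rw [← hsum, qCoeff_sum_smul]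
    exact Finset.sum_congr rfl fun i _ => by rw [hz]
  -- apply `P`
  have hzK : ∀ i, ((z i n : ℤ) : ℂ) = ι ((z i n : ℤ) : K) := fun i => (map_intCast ι _).symm
  have h2 : y = ∑ i, P (c i) * ((z i n : ℤ) : K) := by
    have h3 : P (qCoeff F n) = ∑ i, P (c i * (z i n : ℂ)) := by
      rw [h1, map_sum]
    rw [hy, hPι] at h3
    rw [h3]
    refine Finset.sum_congr rfl fun i _ => ?_
    have h4 : c i * ((z i n : ℤ) : ℂ) = ((z i n : ℤ) : K) • c i := by
      rw [Algebra.smul_def, mul_comm]
      congr 1
      exact hzK i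
    rw [h4, map_smul, smul_eq_mul, mul_comm]
  rw [hy, h2, map_sum]
  refine Finset.sum_congr rfl fun i _ => ?_
  rw [map_mul, hz, hzK]

end Rational

/-! ### Bounded denominators over a discrete valuation ring -/

section DVR

variable {O E : Type*} [CommRing O] [IsDomain O] [IsDiscreteValuationRing O] [Field E]
  [Algebra O E] [IsFractionRing O E]

/-- Finitely many elements of the fraction field have a common denominator. -/
theorem exists_common_denominator {d : ℕ} (e : Fin d → E) :
    ∃ D : O, D ≠ 0 ∧ ∀ i, ∃ a : O, algebraMap O E a = algebraMap O E D * e i := by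
  classical
  have h : ∀ i, ∃ b : O, b ≠ 0 ∧ ∃ a : O, algebraMap O E a = algebraMap O E b * e i := by
    intro i
    obtain ⟨a, b, hb, hab⟩ := IsFractionRing.div_surjective (A := O) (e i)
    have hb0 : b ≠ 0 := nonZeroDivisors.ne_zero hb
    have hbE : algebraMap O E b ≠ 0 := by
      rw [Ne, FaithfulSMul.algebraMap_eq_zero_iff]
      exact hb0
    refine ⟨b, hb0, a, ?_⟩
    rw [← hab, mul_div_cancel₀ _ hbE]
  choose b hb0 a ha using h
  refine ⟨∏ i, b i, Finset.prod_ne_zero_iff.mpr fun i _ => hb0 i, fun i => ?_⟩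
  refine ⟨(∏ j ∈ Finset.univ.erase i, b j) * a i, ?_⟩
  rw [map_mul, ha i, ← mul_assoc, ← map_mul, Finset.prod_erase_mul _ _ (Finset.mem_univ i)]

variable {N : ℕ}

/-- **Bounded denominators.**  A cusp form of weight 2 and level `N` whose `q`-coefficients are
the images of elements `x n` of the fraction field `E` of a discrete valuation ring `O` has a
common denominator: one nonzero `D : O` with `D * x n ∈ O` for all `n`. -/
theorem exists_bdd_denominators (hint : CuspForm.HasIntegralStructure N 2)
    (ι : E →+* ℂ) (F : CuspForm (Gamma0 N) 2) (x : ℕ → E)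
    (hF : ∀ n : ℕ, qCoeff F n = ι (x n)) :
    ∃ D : O, D ≠ 0 ∧ ∀ n : ℕ, ∃ a : O, algebraMap O E a = algebraMap O E D * x n := by
  classical
  obtain ⟨d, e, G, hG, hsum⟩ := exists_rational_structure hint ι F fun n => ⟨x n, hF n⟩
  obtain ⟨D, hD, hDe⟩ := exists_common_denominator (O := O) e
  choose a ha using hDe
  choose z hz using hG
  refine ⟨D, hD, fun n => ⟨∑ i, a i * ((z i n : ℤ) : O), ?_⟩⟩
  have hx : x n = ∑ i, e i * ((z i n : ℤ) : E) := by
    apply ι.injective
    rw [← hF n, hsum n, map_sum]
    refine Finset.sum_congr rfl fun i _ => ?_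
    rw [map_mul, hz, map_intCast]
  rw [hx, Finset.mul_sum, map_sum]
  refine Finset.sum_congr rfl fun i _ => ?_
  rw [map_mul, ha i, map_intCast, mul_assoc]

/-- **The exit (integrality of the coefficients of the lifted form).**  Let `F` be a cusp form
of weight 2 and level `N` whose `q`-expansion is the series `x ∈ E((q))` (read through
`ι : E → ℂ`), and suppose `x` lies in the Gauss ring of `O`.  Then there are `c n : O` with
`qCoeff F n = ι (c n)`, and the reduction of `x` in the Gauss ring is `∑ (c n mod π) qⁿ`. -/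
theorem exists_coeff_of_mem_V (hint : CuspForm.HasIntegralStructure N 2)
    (π : O) (hπ : Irreducible π) (ι : E →+* ℂ) (F : CuspForm (Gamma0 N) 2)
    (x : LaurentSeries E) (hxV : x ∈ GaussDVR.V O E)
    (hF : ∀ n : ℕ, qCoeff F n = ι (x.coeff (n : ℤ)))
    (hneg : ∀ n : ℤ, n < 0 → x.coeff n = 0) :
    ∃ c : ℕ → O, (∀ n : ℕ, qCoeff F n = ι (algebraMap O E (c n))) ∧
      (∀ n : ℕ, (GaussDVR.red O E ⟨x, hxV⟩).coeff (n : ℤ) = IsLocalRing.residue O (c n)) ∧
      ∀ n : ℤ, n < 0 → (GaussDVR.red O E ⟨x, hxV⟩).coeff n = 0 := by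
  obtain ⟨D, hD, hbdd⟩ := exists_bdd_denominators (O := O) hint ι F
    (fun n => x.coeff (n : ℤ)) hF
  have hbdd' : ∀ n : ℤ, ∃ a : O, algebraMap O E a = algebraMap O E D * x.coeff n := by
    intro n
    rcases lt_or_ge n 0 with hn | hn
    · exact ⟨0, by rw [hneg n hn, mul_zero, map_zero]⟩
    · obtain ⟨k, rfl⟩ := Int.eq_ofNat_of_zero_le hn
      exact hbdd k
  obtain ⟨z, hxz, hred⟩ := GaussBdd.exists_int_of_mem_V_of_coeff π hπ x hxV D hD hbdd'
  refine ⟨fun n => z.coeff (n : ℤ), fun n => ?_, fun n => ?_, fun n hn => ?_⟩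
  · rw [hF n, (GaussBdd.coeff_of_eq_iota x z hxz n).1]
  · rw [hred, (GaussBdd.coeff_of_eq_iota x z hxz n).2]
  · rw [hred, (GaussBdd.coeff_of_eq_iota x z hxz n).2]
    have h0 : algebraMap O E (z.coeff n) = 0 := by
      rw [← (GaussBdd.coeff_of_eq_iota x z hxz n).1, hneg n hn]
    rw [(FaithfulSMul.algebraMap_eq_zero_iff O E).mp h0, map_zero]

end DVR

end Fermat.Agent.S44.D.IntCoeff
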