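/-
PROGRAM MR (S44), strand D (helper279): DICTIONARY + INTEGRALITY in one call, `E`-level.

`exists_cuspForm_coeff` : `O` a discrete valuation ring with fraction field `E ⊆ ℚ̄`, `G` in the
level-`N` modular function field over `E`, trace-dual (`h0`, `hoo` as in `Dict0Inst`), and such
that the series `x = G · θ j` lies in the Gauss ring `GaussDVR.V O E`.  Then there are a weight-2
cusp form `Φ` on `Γ₀(N)` and `c n : O` with `qCoeff Φ n = ι (c n)`, and the reduction of `x` in
the Gauss ring is `∑_{n ≥ 0} (c n mod π) qⁿ`.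

= `DictMain.exists_cuspForm_E` (helper279; on `Dict0Inst` of helper29 / helper145 and `DictDeriv`
of helper147) + `IntCoeff.exists_coeff_of_mem_V` (helper126) + the landed S23.
-/
import Mathlib
import Fermat.Agent.S23
import Fermat.Agent.S44.D.DictMain
import Fermat.Agent.S44.D.IntCoeff

set_option autoImplicit false
set_option linter.dupNamespace false
set_option linter.unusedSectionVars false

open UpperHalfPlane AlgebraicCurve ModularCurve CongruenceSubgroup Polynomial IntermediateField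
open Fermat.Agent.S24.Modular Fermat.Agent.S30.E2.Degree Fermat.Agent.S30

noncomputable section

namespace Fermat.Agent.S44.D.DictExit

open Fermat.Agent.S44.D

variable (N : ℕ) (E : Type*) [Field E] [Algebra ℚ E] [Algebra E Kbar]
  {O : Type*} [CommRing O] [IsDomain O] [IsDiscreteValuationRing O] [Algebra O E]
  [IsFractionRing O E]

/-- **Dictionary + integrality, `E`-level.** -/
theorem exists_cuspForm_coeff (π : O) (hπ : Irreducible π) (ι : Kbar →+* ℂ) [NeZero N]
    (G : Dict0Inst.LEv N E)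
    (h0 : ∀ y : Dict0Inst.LEv N E, IsIntegral (Algebra.adjoin E {jE N E}) y →
      ∃ w : E[X], ((Algebra.trace E⟮jE N E⟯ (Dict0Inst.LEv N E) (G * y) : E⟮jE N E⟯) :
        Dict0Inst.LEv N E) = aeval (jE N E) w)
    (hoo : ∀ y : Dict0Inst.LEv N E, IsIntegral (Algebra.adjoin E {(jE N E)⁻¹}) y →
      ∃ w : E[X], ((Algebra.trace E⟮jE N E⟯ (Dict0Inst.LEv N E) (G * jE N E ^ 2 * y) :
        E⟮jE N E⟯) : Dict0Inst.LEv N E) = aeval (jE N E)⁻¹ w)
    (jθE : LaurentSeries E)
    (hjθE : ∀ n : ℤ, jθE.coeff n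
      = (n : E) * ((jE N E : Dict0Inst.LEv N E) : LaurentSeries E).coeff n)
    (hxV : (G : LaurentSeries E) * jθE ∈ GaussDVR.V O E) :
    ∃ (Φ : CuspForm (Gamma0 N) 2) (c : ℕ → O),
      (∀ n : ℕ, ModularFormClass.qCoeff Φ n = ι (algebraMap E Kbar (algebraMap O E (c n)))) ∧
      (∀ n : ℕ, (GaussDVR.red O E ⟨(G : LaurentSeries E) * jθE, hxV⟩).coeff (n : ℤ)
        = IsLocalRing.residue O (c n)) ∧
      ∀ n : ℤ, n < 0 → (GaussDVR.red O E ⟨(G : LaurentSeries E) * jθE, hxV⟩).coeff n = 0 := by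
  obtain ⟨Φ, hΦ, hneg⟩ := DictMain.exists_cuspForm_E N E ι G h0 hoo jθE hjθE
  obtain ⟨c, hc1, hc2, hc3⟩ := IntCoeff.exists_coeff_of_mem_V (O := O)
    (Fermat.Agent.S23.result N) π hπ (ι.comp (algebraMap E Kbar)) Φ
    ((G : LaurentSeries E) * jθE) hxV (fun n => hΦ n) (fun n hn => hneg n hn.le)
  exact ⟨Φ, c, fun n => hc1 n, hc2, hc3⟩

end Fermat.Agent.S44.D.DictExit
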