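/-
PROGRAM MR (S44), strand D, brick (d1) (helper279): THE DICTIONARY, analytic half.

`G ∈ F_N = ℚ̄(X₀(N))` whose orders at the places of `F_N` satisfy the "regular differential
`G dj`" bounds

* `ord_v G ≥ 1 - ord_v (j - c)` at every zero `v` of `j - c` (finite places), and
* `ord_v G ≥ 1 - ord_v j` at every pole `v` of `j` (cusps),

is turned into a weight-2 cusp form `Φ = G · D j` on `Γ₀(N)` (`D = (2πi)⁻¹ d/dτ`).

The proof is uniform in the point of `ℍ` (no case distinction at the elliptic points, no Taylor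
embeddings): for `τ ∈ ℍ` the map `x ↦ ord_τ (θ x)` is an order function on `A₀(N)`, hence a
positive multiple `κ` of the order at a place `v` (`S24.FibreCount.exists_placeOfOrd_ord`); with
`s = ord_τ (j - j(τ)) = κ · ord_v (j - c)` one has `ord_τ (D j) = s - 1`, so the quotient
`θ a · D j / θ b` (`G = a / b`) has order `≥ κ - 1 ≥ 0` at `τ`.  The cusps are treated in the same
way with the order functions `x ↦ ord_∞ (θ x ∘ g)`, `g ∈ SL(2, ℤ)`.
-/
import Mathlib
import Fermat.Agent.S24.Theta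
import Fermat.Agent.S24.HolHOrd
import Fermat.Agent.S24.JHol
import Fermat.Agent.S24.CuspOrd
import Fermat.Agent.S24.CuspFibre
import Fermat.Agent.S24.FF.Residue
import Fermat.Agent.S24.Modular.M0
import Fermat.Agent.S30.KummerChar.Basic
import Fermat.Agent.S30.KummerChar.Cusp
import Fermat.Agent.Lib.Ramanujan

set_option autoImplicit false
set_option linter.dupNamespace false
set_option linter.unusedSectionVars false
set_option linter.style.haveILetI false

open scoped Manifold MatrixGroups Topology Real ModularForm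
open UpperHalfPlane Filter AlgebraicCurve ModularCurve CongruenceSubgroup
open ModularForm EisensteinSeries Derivative
open Fermat.Agent.S24.HolH Fermat.Agent.S24.JHol Fermat.Agent.S24.JFun Fermat.Agent.S24.Theta
open Fermat.Agent.S24.Modular Fermat.Agent.S24.CuspOrd Fermat.Agent.S24.CuspFibre
open Fermat.Agent.S24.FibreCount Fermat.Agent.S24.Generic.G3Adapter
open Fermat.Agent.S30.KummerChar

noncomputable section

namespace Fermat.Agent.S44.D.DictHol

local notation "Δ" => ModularForm.discriminant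
local notation "𝕢" => Function.Periodic.qParam

/-! ### Division in `HolH` -/

/-- **Division in `HolH`**: if `ord_τ B ≤ ord_τ A` at every point, `A / B` is holomorphic. -/
theorem exists_mul_eq_of_ordAt_le {A B : HolH} (hB : B ≠ 0)
    (h : ∀ τ : ℍ, ordAt τ B ≤ ordAt τ A) : ∃ Φ : HolH, Φ * B = A := by
  classical
  have key : ∀ τ : ℍ, ∃ (n : ℕ) (a1 b1 : ℂ → ℂ), AnalyticAt ℂ a1 (τ : ℂ) ∧
      AnalyticAt ℂ b1 (τ : ℂ) ∧ b1 (τ : ℂ) ≠ 0 ∧
      (∀ᶠ z in 𝓝 (τ : ℂ), toC A z = (z - (τ : ℂ)) ^ n • a1 z) ∧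
      (∀ᶠ z in 𝓝 (τ : ℂ), toC B z = (z - (τ : ℂ)) ^ n • b1 z) := by
    intro τ
    obtain ⟨n, hn⟩ := ENat.ne_top_iff_exists.mp (ordAt_ne_top (τ0 := τ) hB)
    have hBn : analyticOrderAt (toC B) (τ : ℂ) = n := hn.symm
    obtain ⟨b1, hb1, hb10, hb⟩ := ((toC_analyticAt B τ).analyticOrderAt_eq_natCast).mp hBn
    have hAn : (n : ℕ∞) ≤ analyticOrderAt (toC A) (τ : ℂ) := by
      have h1 := h τ
      unfold ordAt at h1
      rwa [hBn] at h1
    obtain ⟨a1, ha1, ha⟩ := (natCast_le_analyticOrderAt (toC_analyticAt A τ)).mp hAn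
    exact ⟨n, a1, b1, ha1, hb1, hb10, ha, hb⟩
  choose n a1 b1 ha1 hb1 hb10 ha hb using key
  let φ : ℍ → ℂ := fun τ => a1 τ (τ : ℂ) / b1 τ (τ : ℂ)
  have hval : ∀ τ : ℍ, (B : ℍ → ℂ) τ ≠ 0 → φ τ = (A : ℍ → ℂ) τ / (B : ℍ → ℂ) τ := by
    intro τ hτ
    have hb' := (hb τ).self_of_nhds
    have ha' := (ha τ).self_of_nhds
    rw [toC_apply] at hb' ha'
    have hn0 : n τ = 0 := by
      by_contra hne
      rw [sub_self, zero_pow hne, zero_smul] at hb'
      exact hτ hb'
    rw [hn0, pow_zero, one_smul] at hb' ha'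
    show a1 τ (τ : ℂ) / b1 τ (τ : ℂ) = _
    rw [ha', hb']
  have hmul : ∀ τ : ℍ, φ τ * (B : ℍ → ℂ) τ = (A : ℍ → ℂ) τ := by
    intro τ
    by_cases hτ : (B : ℍ → ℂ) τ = 0
    · have hb' := (hb τ).self_of_nhds
      have ha' := (ha τ).self_of_nhds
      rw [toC_apply] at hb' ha'
      have hn0 : n τ ≠ 0 := by
        intro h0
        rw [h0, pow_zero, one_smul] at hb'
        exact hb10 τ (hb'.symm.trans hτ)
      rw [sub_self, zero_pow hn0, zero_smul] at ha'
      rw [hτ, ha', mul_zero]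
    · rw [hval τ hτ, div_mul_cancel₀ _ hτ]
  have hφ : φ ∈ HolH := by
    rw [mem_HolH_iff_differentiableOn]
    intro z hz
    have hz' : 0 < z.im := hz
    set τ : ℍ := ⟨z, hz'⟩ with hτdef
    have hτz : (τ : ℂ) = z := rfl
    refine DifferentiableAt.differentiableWithinAt ?_
    have hg : AnalyticAt ℂ (fun w => a1 τ w / b1 τ w) z := (ha1 τ).div (hb1 τ) (hb10 τ)
    refine (hg.differentiableAt).congr_of_eventuallyEq ?_
    have hb1ne : ∀ᶠ w in 𝓝 z, b1 τ w ≠ 0 := (hb1 τ).continuousAt.eventually_ne (hb10 τ)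
    have hopen : ∀ᶠ w in 𝓝 z, 0 < w.im := isOpen_upperHalfPlaneSet.mem_nhds hz'
    filter_upwards [ha τ, hb τ, hb1ne, hopen] with w haw hbw hb1w hw
    show φ (ofComplex w) = a1 τ w / b1 τ w
    set σ : ℍ := ⟨w, hw⟩ with hσdef
    have hσ : ofComplex w = σ := ofComplex_apply_of_im_pos hw
    rw [hσ]
    by_cases hwz : w = z
    · have : σ = τ := by
        apply UpperHalfPlane.ext
        exact hwz
      rw [this]
      show a1 τ (τ : ℂ) / b1 τ (τ : ℂ) = _
      rw [hτz, hwz]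
    · have hsub : w - (τ : ℂ) ≠ 0 := by
        rw [hτz]
        exact sub_ne_zero.mpr hwz
      have hAσ : (A : ℍ → ℂ) σ = (w - (τ : ℂ)) ^ n τ • a1 τ w := by
        rw [← haw, ← toC_apply]
      have hBσ : (B : ℍ → ℂ) σ = (w - (τ : ℂ)) ^ n τ • b1 τ w := by
        rw [← hbw, ← toC_apply]
      have hBσ0 : (B : ℍ → ℂ) σ ≠ 0 := by
        rw [hBσ, smul_eq_mul]
        exact mul_ne_zero (pow_ne_zero _ hsub) hb1w
      rw [hval σ hBσ0, hAσ, hBσ, smul_eq_mul, smul_eq_mul]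
      rw [mul_div_mul_left _ _ (pow_ne_zero _ hsub)]
  exact ⟨⟨φ, hφ⟩, Subtype.ext (funext hmul)⟩

theorem ordAt_le_of_ordZ_le {τ : ℍ} {A B : HolH} (hA : A ≠ 0) (hB : B ≠ 0)
    (h : ordZ τ B ≤ ordZ τ A) : ordAt τ B ≤ ordAt τ A := by
  obtain ⟨m, hm⟩ := ENat.ne_top_iff_exists.mp (ordAt_ne_top (τ0 := τ) hA)
  obtain ⟨n, hn⟩ := ENat.ne_top_iff_exists.mp (ordAt_ne_top (τ0 := τ) hB)
  unfold ordZ at h
  rw [← hm, ← hn] at h ⊢
  rw [ENat.toNat_natCast, ENat.toNat_natCast] at h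
  exact_mod_cast h

/-! ### The derivative of `j` -/

/-- `D j = (2πi)⁻¹ dj/dτ` as an element of `HolH`. -/
def DjHol : HolH := ⟨D jFun, normalizedDerivOfComplex_mdifferentiable jFun_mdiff⟩

theorem DjHol_apply (τ : ℍ) : (DjHol : ℍ → ℂ) τ = D jFun τ := rfl

theorem D_jFun_eq (τ : ℍ) : D jFun τ = - E₄ τ ^ 2 * E₆ τ / Δ τ :=
  Fermat.Agent.Lib.Ramanujan.D_j τ

/-- `D j` has weight `2` for `SL(2, ℤ)`. -/
theorem D_jFun_smul (γ : SL(2, ℤ)) (τ : ℍ) : D jFun (γ • τ) = denom γ τ ^ 2 * D jFun τ := by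
  have hd : denom γ τ ≠ 0 := denom_ne_zero γ τ
  have hΔ : Δ τ ≠ 0 := discriminant_ne_zero τ
  rw [D_jFun_eq, D_jFun_eq, E4_smul, E6_smul, disc_smul]
  field_simp

theorem tendsto_D_jFun_mul_qParam :
    Tendsto (fun τ : ℍ => D jFun τ * 𝕢 1 τ) atImInfty (𝓝 (-1)) := by
  have h1 : Tendsto (fun τ : ℍ => - E₄ τ ^ 2 * E₆ τ) atImInfty (𝓝 (-1)) := by
    have := ((tendsto_E4.pow 2).neg).mul tendsto_E6
    simpa using this
  have h2 := tendsto_atImInfty_tprod_one_sub_eta_q_pow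
  have h3 := h1.div h2 one_ne_zero
  rw [div_one] at h3
  refine h3.congr' ?_
  have hne : ∀ᶠ τ : ℍ in atImInfty, ∏' (n : ℕ), (1 - eta_q n τ) ^ 24 ≠ 0 :=
    h2.eventually_ne one_ne_zero
  filter_upwards [hne] with τ hτ
  have hq0 : 𝕢 1 (τ : ℂ) ≠ 0 := Function.Periodic.qParam_ne_zero _
  simp only [Pi.div_apply]
  rw [D_jFun_eq, discriminant_eq_q_prod]
  field_simp

theorem hasOrd_D_jFun (N : ℕ) [NeZero N] : HasOrd N (D jFun) (-(N : ℤ)) (-1) := by
  unfold HasOrd
  refine tendsto_D_jFun_mul_qParam.congr fun τ => ?_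
  rw [neg_neg, zpow_natCast, Fermat.Agent.S24.CuspFibre.sPar_pow_natCast]

theorem DjHol_ne_zero : DjHol ≠ 0 := by
  intro h0
  have h1 : Tendsto (fun τ : ℍ => D jFun τ * 𝕢 1 τ) atImInfty (𝓝 0) := by
    have : (fun τ : ℍ => D jFun τ * 𝕢 1 τ) = fun _ => 0 := by
      funext τ
      have := congrArg (fun f : HolH => (f : ℍ → ℂ) τ) h0
      simp only [DjHol_apply] at this
      rw [this]
      simp
    rw [this]
    exact tendsto_const_nhds
  have := tendsto_nhds_unique h1 tendsto_D_jFun_mul_qParam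
  norm_num at this

/-- The order of `D j` at a zero of `j - c`. -/
theorem ordAt_DjHol {τ : ℍ} {c : ℂ} {n : ℕ}
    (h : ordAt τ (jHol - algebraMap ℂ HolH c) = ((n + 1 : ℕ) : ℕ∞)) :
    ordAt τ DjHol = (n : ℕ∞) := by
  unfold ordAt at h ⊢
  set g := toC (jHol - algebraMap ℂ HolH c) with hg
  have hgan : AnalyticAt ℂ g (τ : ℂ) := toC_analyticAt _ τ
  have h1 : analyticOrderAt (deriv g) (τ : ℂ) = n :=
    analyticOrderAt_deriv_of_pos hgan (by exact_mod_cast h)
  have hgeq : g = fun w => (jFun ∘ ofComplex) w - c := toC_jHol_sub c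
  have hev : toC DjHol =ᶠ[𝓝 (τ : ℂ)]
      (fun _ : ℂ => (2 * π * Complex.I : ℂ)⁻¹) • deriv g := by
    filter_upwards [isOpen_upperHalfPlaneSet.mem_nhds τ.im_pos] with z hz
    have hz' : 0 < z.im := hz
    show D jFun (ofComplex z) = (2 * π * Complex.I : ℂ)⁻¹ • deriv g z
    rw [ofComplex_apply_of_im_pos hz', smul_eq_mul, hgeq, deriv_sub_const]
    rfl
  rw [analyticOrderAt_congr hev]
  have hc : (2 * π * Complex.I : ℂ)⁻¹ ≠ 0 := by
    simp [Real.pi_ne_zero, Complex.I_ne_zero]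
  have h2 : analyticOrderAt (fun _ : ℂ => (2 * π * Complex.I : ℂ)⁻¹) (τ : ℂ) = 0 := by
    rw [analyticOrderAt_eq_zero]
    exact Or.inr hc
  rw [analyticOrderAt_smul analyticAt_const hgan.deriv, h2, h1, zero_add]

theorem ordZ_DjHol {τ : ℍ} {c : ℂ} (h : 0 < ordZ τ (jHol - algebraMap ℂ HolH c)) :
    ordZ τ DjHol = ordZ τ (jHol - algebraMap ℂ HolH c) - 1 := by
  have hne := jHol_sub_ne_zero c
  obtain ⟨m, hm⟩ := ENat.ne_top_iff_exists.mp (ordAt_ne_top (τ0 := τ) hne)
  have hz : ordZ τ (jHol - algebraMap ℂ HolH c) = m := by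
    unfold ordZ
    rw [← hm, ENat.toNat_natCast]
  rw [hz] at h ⊢
  obtain ⟨n, rfl⟩ : ∃ n, m = n + 1 := ⟨m - 1, by omega⟩
  have h3 := ordAt_DjHol (τ := τ) (c := c) (n := n) hm.symm
  unfold ordZ
  rw [h3, ENat.toNat_natCast]
  push_cast
  ring

/-! ### Order functions are multiples of places -/

section Abstract

variable {K F A : Type*} [Field K] [Field F] [Algebra K F] [CommRing A] [IsDomain A]
  [Algebra K A] [Algebra A F] [IsScalarTower K A F] [IsFractionRing A F]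

/-- A nontrivial order function on `A` (trivial on the constants) is a positive multiple of the
order at a place of `Frac A`. -/
theorem exists_place_of_ord (o : A → ℤ)
    (hmul : ∀ x y : A, x ≠ 0 → y ≠ 0 → o (x * y) = o x + o y)
    (hadd : ∀ x y : A, x ≠ 0 → y ≠ 0 → x + y ≠ 0 → min (o x) (o y) ≤ o (x + y))
    (hK : ∀ c : K, c ≠ 0 → o (algebraMap K A c) = 0)
    (hnt : ∃ x : A, x ≠ 0 ∧ o x ≠ 0) :
    ∃ (v : Place K F) (κ : ℤ), 0 < κ ∧
      ∀ x : A, x ≠ 0 → o x = κ * v.ord (algebraMap A F x) := by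
  have hinjA : Function.Injective (algebraMap A F) := IsFractionRing.injective A F
  let e : F →+* FractionRing A := ((FractionRing.algEquiv A F).symm : F →+* FractionRing A)
  have he : ∀ x : A, e (algebraMap A F x) = algebraMap A (FractionRing A) x := fun x =>
    (FractionRing.algEquiv A F).symm.commutes x
  let u : F → ℤ := fun f => ordFrac o (e f)
  have hu : IsOrd u := (isOrd_ordFrac hmul hadd).comp e
  have hux : ∀ x : A, x ≠ 0 → u (algebraMap A F x) = o x := by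
    intro x hx
    show ordFrac o (e (algebraMap A F x)) = o x
    rw [he, ordFrac_algebraMap hmul hx]
  have hne : ∀ x : A, x ≠ 0 → algebraMap A F x ≠ 0 := fun x hx =>
    (map_ne_zero_iff _ hinjA).mpr hx
  have huK : ∀ c : K, c ≠ 0 → u (algebraMap K F c) = 0 := by
    intro c hc
    have hc' : algebraMap K A c ≠ 0 := by
      intro h0
      have h1 : algebraMap K F c = 0 := by
        rw [IsScalarTower.algebraMap_apply K A F, h0, map_zero]
      exact hc ((map_eq_zero _).mp h1)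
    rw [IsScalarTower.algebraMap_apply K A F, hux _ hc']
    exact hK c hc
  have hnt' : ∃ f : F, f ≠ 0 ∧ u f < 0 := by
    obtain ⟨x, hx, hox⟩ := hnt
    rcases lt_or_gt_of_ne hox with hlt | hgt
    · exact ⟨algebraMap A F x, hne x hx, by rw [hux x hx]; exact hlt⟩
    · refine ⟨(algebraMap A F x)⁻¹, inv_ne_zero (hne x hx), ?_⟩
      rw [hu.map_inv (hne x hx), hux x hx]
      omega
  obtain ⟨κ, hκ, -, hκu⟩ := exists_placeOfOrd_ord u hu huK hnt'
  refine ⟨placeOfOrd u hu huK hnt', κ, hκ, fun x hx => ?_⟩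
  rw [← hux x hx]
  exact hκu _ (hne x hx)

end Abstract

/-! ### The order functions of `A₀(N)` at the points and the cusps -/

variable {ι : Kbar →+* ℂ} {N : ℕ}

theorem coe_ne_zero_A0 {x : A0 N} (hx : x ≠ 0) : (x : FN N) ≠ 0 := fun h => hx (Subtype.ext h)

theorem jA0_ne_zero : jA0 N ≠ 0 := by
  intro h
  have h1 : jF N = 0 := by
    have := congrArg (fun x : A0 N => (x : FN N)) h
    simpa using this
  exact transcendental_jF N (h1 ▸ isAlgebraic_zero)

theorem theta_jA0_eq : theta ι N (jA0 N) = jHol := Subtype.ext (theta_jA0 ι N)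

theorem theta_jA0_sub (c : Kbar) :
    theta ι N (jA0 N - algebraMap Kbar (A0 N) c) = jHol - algebraMap ℂ HolH (ι c) := by
  rw [map_sub, theta_algebraMap, theta_jA0_eq]

theorem ord_eq_of_mul_eq (v : Place Kbar (FN N)) {G : FN N} {a b : A0 N} (ha : a ≠ 0)
    (hb : b ≠ 0) (hab : G * (b : FN N) = (a : FN N)) :
    v.ord (a : FN N) = v.ord G + v.ord (b : FN N) := by
  have hG0 : G ≠ 0 := by
    rintro rfl
    rw [zero_mul] at hab
    exact coe_ne_zero_A0 ha hab.symm
  rw [← hab, v.ord_mul hG0 (coe_ne_zero_A0 hb)]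

/-- **Finite points.**  Under the finite place bounds, `θ a · D j / θ b` has nonnegative order at
every point of `ℍ` (`G = a / b`). -/
theorem ordZ_theta_le [NeZero N] (G : FN N)
    (hfin : ∀ (v : Place Kbar (FN N)) (c : Kbar), 0 < v.ord (jF N - algebraMap Kbar (FN N) c) →
        1 - v.ord (jF N - algebraMap Kbar (FN N) c) ≤ v.ord G)
    {a b : A0 N} (ha : a ≠ 0) (hb : b ≠ 0) (hab : G * (b : FN N) = (a : FN N)) (τ : ℍ) :
    ordZ τ (theta ι N b) ≤ ordZ τ (theta ι N a * DjHol) := by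
  let o : A0 N → ℤ := fun x => ordZ τ (theta ι N x)
  have hmul : ∀ x y : A0 N, x ≠ 0 → y ≠ 0 → o (x * y) = o x + o y := by
    intro x y hx hy
    show ordZ τ (theta ι N (x * y)) = _
    rw [map_mul, ordZ_mul τ (theta_ne_zero (ι := ι) hx) (theta_ne_zero (ι := ι) hy)]
  have hadd : ∀ x y : A0 N, x ≠ 0 → y ≠ 0 → x + y ≠ 0 → min (o x) (o y) ≤ o (x + y) := by
    intro x y hx hy hxy
    show _ ≤ ordZ τ (theta ι N (x + y))
    rw [map_add]
    refine min_le_ordZ_add τ (theta_ne_zero (ι := ι) hx) (theta_ne_zero (ι := ι) hy) ?_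
    rw [← map_add]
    exact theta_ne_zero (ι := ι) hxy
  have hK : ∀ c : Kbar, c ≠ 0 → o (algebraMap Kbar (A0 N) c) = 0 := by
    intro c hc
    show ordZ τ (theta ι N (algebraMap Kbar (A0 N) c)) = 0
    rw [theta_algebraMap]
    exact ordZ_algebraMap ((map_ne_zero ι).mpr hc)
  rw [ordZ_mul τ (theta_ne_zero (ι := ι) ha) DjHol_ne_zero]
  by_cases hb0 : o b = 0
  · have h0 : ordZ τ (theta ι N b) = 0 := hb0
    rw [h0]
    exact add_nonneg (ordZ_nonneg _ _) (ordZ_nonneg _ _)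
  · obtain ⟨v, κ, hκ, hv⟩ :=
      exists_place_of_ord (K := Kbar) (F := FN N) o hmul hadd hK ⟨b, hb, hb0⟩
    have hx0 := transcendental_jF N
    have hjF0 : jF N ≠ 0 := fun h => hx0 (h ▸ isAlgebraic_zero)
    have hvj : 0 ≤ v.ord (jF N) := by
      have h1 : o (jA0 N) = κ * v.ord (jF N) := hv (jA0 N) jA0_ne_zero
      have h2 : 0 ≤ o (jA0 N) := ordZ_nonneg _ _
      by_contra hneg
      have h3 : κ * v.ord (jF N) < 0 := mul_neg_of_pos_of_neg hκ (not_le.mp hneg)
      omega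
    have hmem : jF N ∈ v.toValuationSubring := (Fermat.Agent.S24.FF.ord_nonneg_iff v hjF0).mp hvj
    obtain ⟨c, hc⟩ := Fermat.Agent.S24.FF.exists_residue (trdeg_FN N) v hmem
    have hvc : 0 < v.ord (jF N - algebraMap Kbar (FN N) c) := by
      rcases hc with hc | hc
      · exfalso
        apply hx0
        rw [hc]
        exact isAlgebraic_algebraMap c
      · exact hc
    have hG := hfin v c hvc
    have ht0 : jA0 N - algebraMap Kbar (A0 N) c ≠ 0 := by
      intro h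
      have h1 := congrArg (fun f : A0 N => (f : FN N)) h
      have h2 : jF N - algebraMap Kbar (FN N) c = 0 := by simpa using h1
      rw [h2, v.ord_zero] at hvc
      exact lt_irrefl _ hvc
    have hot : o (jA0 N - algebraMap Kbar (A0 N) c)
        = κ * v.ord (jF N - algebraMap Kbar (FN N) c) := hv _ ht0
    have hoa : o a = κ * v.ord (a : FN N) := hv a ha
    have hob : o b = κ * v.ord (b : FN N) := hv b hb
    have hordG := ord_eq_of_mul_eq v ha hb hab
    have hspos : 0 < ordZ τ (jHol - algebraMap ℂ HolH (ι c)) := by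
      rw [← theta_jA0_sub (N := N)]
      show 0 < o (jA0 N - algebraMap Kbar (A0 N) c)
      rw [hot]
      exact mul_pos hκ hvc
    have hD := ordZ_DjHol hspos
    rw [hD, ← theta_jA0_sub (N := N)]
    show o b ≤ o a + (o (jA0 N - algebraMap Kbar (A0 N) c) - 1)
    rw [hoa, hob, hot, hordG]
    have h5 := mul_le_mul_of_nonneg_left hG hκ.le
    nlinarith

/-- The translate `θ x ∘ g` as an element of `MerInf N`. -/
def cuspMap (ι : Kbar →+* ℂ) (N : ℕ) [NeZero N] (g : SL(2, ℤ)) (x : A0 N) : MerInf N :=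
  ⟨compSL g (theta ι N x), compSL_theta_mem_MerInf g x dvd_rfl⟩

theorem cuspMap_ne_zero [NeZero N] (g : SL(2, ℤ)) {x : A0 N} (hx : x ≠ 0) :
    cuspMap ι N g x ≠ 0 := by
  intro h
  have h1 : compSL g (theta ι N x) = 0 := congrArg (fun f : MerInf N => (f : HolH)) h
  have h2 : compSL g (theta ι N x) = compSL g 0 := by rw [h1, map_zero]
  exact theta_ne_zero (ι := ι) hx (compSL_injective g h2)

/-- **Cusps.**  Under the bounds at the poles of `j`, the orders at `i∞` of the translates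
`θ a ∘ g`, `θ b ∘ g` (`G = a / b`) differ by at least `N + 1`. -/
theorem exists_hasOrd_cusp [NeZero N] (G : FN N)
    (hinf : ∀ v : Place Kbar (FN N), v.ord (jF N) < 0 → 1 - v.ord (jF N) ≤ v.ord G)
    {a b : A0 N} (ha : a ≠ 0) (hb : b ≠ 0) (hab : G * (b : FN N) = (a : FN N)) (g : SL(2, ℤ)) :
    ∃ (ka kb : ℤ) (ca cb : ℂ), cb ≠ 0 ∧
      HasOrd N ((compSL g (theta ι N a) : HolH) : ℍ → ℂ) ka ca ∧
      HasOrd N ((compSL g (theta ι N b) : HolH) : ℍ → ℂ) kb cb ∧ kb + N + 1 ≤ ka := by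
  let o : A0 N → ℤ := fun x => ordR (cuspMap ι N g x)
  have hmul : ∀ x y : A0 N, x ≠ 0 → y ≠ 0 → o (x * y) = o x + o y := by
    intro x y hx hy
    have e : cuspMap ι N g (x * y) = cuspMap ι N g x * cuspMap ι N g y := by
      apply Subtype.ext
      show compSL g (theta ι N (x * y)) = compSL g (theta ι N x) * compSL g (theta ι N y)
      rw [map_mul, map_mul]
    show ordR (cuspMap ι N g (x * y)) = _
    rw [e, ordR_mul _ _ (cuspMap_ne_zero g hx) (cuspMap_ne_zero g hy)]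
  have hadd : ∀ x y : A0 N, x ≠ 0 → y ≠ 0 → x + y ≠ 0 → min (o x) (o y) ≤ o (x + y) := by
    intro x y hx hy hxy
    have e : cuspMap ι N g (x + y) = cuspMap ι N g x + cuspMap ι N g y := by
      apply Subtype.ext
      show compSL g (theta ι N (x + y)) = compSL g (theta ι N x) + compSL g (theta ι N y)
      rw [map_add, map_add]
    show _ ≤ ordR (cuspMap ι N g (x + y))
    rw [e]
    refine ordR_add _ _ (cuspMap_ne_zero g hx) (cuspMap_ne_zero g hy) ?_
    rw [← e]
    exact cuspMap_ne_zero g hxy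
  have hK : ∀ c : Kbar, c ≠ 0 → o (algebraMap Kbar (A0 N) c) = 0 := by
    intro c hc
    have e : cuspMap ι N g (algebraMap Kbar (A0 N) c) = algebraMap ℂ (MerInf N) (ι c) := by
      apply Subtype.ext
      show compSL g (theta ι N (algebraMap Kbar (A0 N) c)) = algebraMap ℂ HolH (ι c)
      rw [theta_algebraMap, AlgHom.commutes]
    show ordR (cuspMap ι N g (algebraMap Kbar (A0 N) c)) = 0
    rw [e]
    exact ordR_algebraMap ((map_ne_zero ι).mpr hc)
  have hoj : o (jA0 N) = -(N : ℤ) := by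
    refine ordR_eq_of_hasOrd _ one_ne_zero ?_
    have e : ((cuspMap ι N g (jA0 N) : MerInf N) : HolH) = jHol := by
      show compSL g (theta ι N (jA0 N)) = jHol
      rw [theta_jA0_eq, compSL_jHol]
    rw [e]
    exact hasOrd_jFun N
  have hNpos : (0 : ℤ) < N := by exact_mod_cast Nat.pos_of_ne_zero (NeZero.ne N)
  obtain ⟨v, κ, hκ, hv⟩ := exists_place_of_ord (K := Kbar) (F := FN N) o hmul hadd hK
    ⟨jA0 N, jA0_ne_zero, by rw [hoj]; omega⟩
  have hvj : κ * v.ord (jF N) = -(N : ℤ) := by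
    rw [← hoj]
    exact (hv (jA0 N) jA0_ne_zero).symm
  have hvjneg : v.ord (jF N) < 0 := by
    by_contra hnn
    have : 0 ≤ κ * v.ord (jF N) := mul_nonneg hκ.le (not_lt.mp hnn)
    omega
  have hG := hinf v hvjneg
  have hoa : o a = κ * v.ord (a : FN N) := hv a ha
  have hob : o b = κ * v.ord (b : FN N) := hv b hb
  have hordG := ord_eq_of_mul_eq v ha hb hab
  obtain ⟨ca, -, hca⟩ := exists_hasOrd_ordR (cuspMap ι N g a) (cuspMap_ne_zero g ha)
  obtain ⟨cb, hcb0, hcb⟩ := exists_hasOrd_ordR (cuspMap ι N g b) (cuspMap_ne_zero g hb)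
  refine ⟨o a, o b, ca, cb, hcb0, hca, hcb, ?_⟩
  rw [hoa, hob, hordG]
  have h5 := mul_le_mul_of_nonneg_left hG hκ.le
  nlinarith

/-! ### The cusp form -/

/-- **(d1) The dictionary, analytic half.**  If `G ∈ F_N` satisfies the place bounds of a regular
differential `G dj`, there is a weight-2 cusp form `Φ` on `Γ₀(N)` with `Φ = G · D j`, i.e.
`Φ · θ b = θ a · D j` whenever `G = a / b` with `a, b ∈ A₀(N)`. -/
theorem exists_cuspForm_of_place_bounds (ι : Kbar →+* ℂ) (N : ℕ) [NeZero N] (G : FN N)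
    (hfin : ∀ (v : Place Kbar (FN N)) (c : Kbar), 0 < v.ord (jF N - algebraMap Kbar (FN N) c) →
        1 - v.ord (jF N - algebraMap Kbar (FN N) c) ≤ v.ord G)
    (hinf : ∀ v : Place Kbar (FN N), v.ord (jF N) < 0 → 1 - v.ord (jF N) ≤ v.ord G) :
    ∃ Φ : CuspForm (Gamma0 N) 2,
      ∀ a b : A0 N, G * (b : FN N) = (a : FN N) → ∀ τ : ℍ,
        Φ τ * (theta ι N b : ℍ → ℂ) τ = (theta ι N a : ℍ → ℂ) τ * D jFun τ := by
  by_cases hG0 : G = 0
  · refine ⟨0, fun a b hab τ => ?_⟩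
    have ha : a = 0 := by
      apply Subtype.ext
      rw [← hab, hG0, zero_mul]
      rfl
    rw [ha, map_zero]
    simp
  · obtain ⟨a, b, hb', hab⟩ := exists_mul_eq G
    have hb : b ≠ 0 := fun h => hb' (by rw [h]; rfl)
    have ha : a ≠ 0 := by
      rintro rfl
      have h0 : G * (b : FN N) = 0 := hab
      rcases mul_eq_zero.mp h0 with h | h
      · exact hG0 h
      · exact hb' h
    have hθa := theta_ne_zero (ι := ι) ha
    have hθb := theta_ne_zero (ι := ι) hb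
    obtain ⟨Φ0, hΦ0⟩ := exists_mul_eq_of_ordAt_le hθb (fun τ =>
      ordAt_le_of_ordZ_le (mul_ne_zero hθa DjHol_ne_zero) hθb
        (ordZ_theta_le G hfin ha hb hab τ))
    have hgen : ∀ a' b' : A0 N, G * (b' : FN N) = (a' : FN N) →
        Φ0 * theta ι N b' = theta ι N a' * DjHol := by
      intro a' b' hab'
      have hcross : a * b' = a' * b := by
        apply Subtype.ext
        show (a : FN N) * (b' : FN N) = (a' : FN N) * (b : FN N)
        rw [← hab, ← hab']
        ring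
      apply mul_right_cancel₀ hθb
      calc Φ0 * theta ι N b' * theta ι N b = (Φ0 * theta ι N b) * theta ι N b' := by ring
        _ = theta ι N a * DjHol * theta ι N b' := by rw [hΦ0]
        _ = theta ι N (a * b') * DjHol := by rw [map_mul]; ring
        _ = theta ι N a' * DjHol * theta ι N b := by rw [hcross, map_mul]; ring
    have hpt : ∀ τ : ℍ, (Φ0 : ℍ → ℂ) τ * (theta ι N b : ℍ → ℂ) τ
        = (theta ι N a : ℍ → ℂ) τ * D jFun τ := fun τ =>
      congrArg (fun f : HolH => (f : ℍ → ℂ) τ) hΦ0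
    -- invariance under `Γ₀(N)`
    have hinv : ∀ γ ∈ Gamma0 N, (Φ0 : ℍ → ℂ) ∣[(2 : ℤ)] γ = (Φ0 : ℍ → ℂ) := by
      intro γ hγ
      have hmd : MDiff ((Φ0 : ℍ → ℂ) ∣[(2 : ℤ)] γ) := Φ0.2.slash 2 (Matrix.SpecialLinearGroup.mapGL ℝ γ)
      let Ψ : HolH := ⟨(Φ0 : ℍ → ℂ) ∣[(2 : ℤ)] γ, hmd⟩
      have hΨ : Ψ * theta ι N b = Φ0 * theta ι N b := by
        apply Subtype.ext
        funext τ
        show ((Φ0 : ℍ → ℂ) ∣[(2 : ℤ)] γ) τ * (theta ι N b : ℍ → ℂ) τ
          = (Φ0 : ℍ → ℂ) τ * (theta ι N b : ℍ → ℂ) τ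
        rw [SL_slash_apply, hpt τ]
        have h1 := hpt (γ • τ)
        rw [theta_smul_of_mem_Gamma0 hγ, theta_smul_of_mem_Gamma0 hγ, D_jFun_smul] at h1
        have hd : denom γ τ ≠ 0 := denom_ne_zero γ τ
        have e : (Φ0 : ℍ → ℂ) (γ • τ) * denom γ τ ^ (-(2 : ℤ)) * (theta ι N b : ℍ → ℂ) τ
            = ((Φ0 : ℍ → ℂ) (γ • τ) * (theta ι N b : ℍ → ℂ) τ) * denom γ τ ^ (-(2 : ℤ)) := by
          ring
        rw [e, h1, zpow_neg, zpow_ofNat]
        field_simp
      have h2 := mul_right_cancel₀ hθb hΨ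
      exact congrArg (fun f : HolH => (f : ℍ → ℂ)) h2
    -- vanishing at the cusps
    have hzero : ∀ g : SL(2, ℤ), IsZeroAtImInfty ((Φ0 : ℍ → ℂ) ∣[(2 : ℤ)] g) := by
      intro g
      obtain ⟨ka, kb, ca, cb, hcb0, hA, hB, hk⟩ :=
        exists_hasOrd_cusp (ι := ι) G hinf ha hb hab g
      have hAD := hA.mul (hasOrd_D_jFun N)
      have hs : Tendsto (fun τ : ℍ => sPar N τ ^ (ka - N - kb)) atImInfty (𝓝 0) :=
        tendsto_sPar_zpow N (by omega)
      have hlim := (Filter.Tendsto.div hAD hB hcb0).mul hs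
      rw [mul_zero] at hlim
      have hBne := Filter.Tendsto.eventually_ne hB hcb0
      rw [IsZeroAtImInfty, ZeroAtFilter]
      refine hlim.congr' ?_
      filter_upwards [hBne] with τ hτ
      have hs0 := sPar_ne_zero N τ
      have hX : (theta ι N b : ℍ → ℂ) (g • τ) ≠ 0 := left_ne_zero_of_mul hτ
      have hd : denom g τ ≠ 0 := denom_ne_zero g τ
      have h1 := hpt (g • τ)
      rw [D_jFun_smul] at h1
      have hΦ : (Φ0 : ℍ → ℂ) (g • τ) = (theta ι N a : ℍ → ℂ) (g • τ)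
          * (denom g τ ^ 2 * D jFun τ) / (theta ι N b : ℍ → ℂ) (g • τ) := by
        rw [eq_div_iff hX]
        exact h1
      have hu : sPar N τ ^ (-(ka + -(N : ℤ))) * sPar N τ ^ (ka - N - kb)
          = sPar N τ ^ (-kb) := by
        rw [← zpow_add₀ hs0]
        congr 1
        ring
      have hub : sPar N τ ^ (-kb) ≠ 0 := zpow_ne_zero _ hs0
      rw [SL_slash_apply, hΦ]
      simp only [Pi.mul_apply, Pi.div_apply, compSL_apply]
      calc (theta ι N a : ℍ → ℂ) (g • τ) * D jFun τ * sPar N τ ^ (-(ka + -(N : ℤ)))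
            / ((theta ι N b : ℍ → ℂ) (g • τ) * sPar N τ ^ (-kb)) * sPar N τ ^ (ka - N - kb)
          = (theta ι N a : ℍ → ℂ) (g • τ) * D jFun τ
            * (sPar N τ ^ (-(ka + -(N : ℤ))) * sPar N τ ^ (ka - N - kb))
            / ((theta ι N b : ℍ → ℂ) (g • τ) * sPar N τ ^ (-kb)) := by ring
        _ = (theta ι N a : ℍ → ℂ) (g • τ) * D jFun τ * sPar N τ ^ (-kb)
            / ((theta ι N b : ℍ → ℂ) (g • τ) * sPar N τ ^ (-kb)) := by rw [hu]
        _ = (theta ι N a : ℍ → ℂ) (g • τ) * D jFun τ / (theta ι N b : ℍ → ℂ) (g • τ) := by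
            rw [mul_div_mul_right _ _ hub]
        _ = (theta ι N a : ℍ → ℂ) (g • τ) * (denom g τ ^ 2 * D jFun τ)
            / (theta ι N b : ℍ → ℂ) (g • τ) * denom g τ ^ (-(2 : ℤ)) := by
            rw [zpow_neg, zpow_ofNat]
            field_simp
    refine ⟨{ toFun := (Φ0 : ℍ → ℂ)
              slash_action_eq' := ?_
              holo' := Φ0.2
              zero_at_cusps' := ?_ }, fun a' b' hab' τ =>
      congrArg (fun f : HolH => (f : ℍ → ℂ) τ) (hgen a' b' hab')⟩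
    · rintro _ ⟨γ, hγ, rfl⟩
      exact hinv γ hγ
    · intro c hc
      rw [Subgroup.IsArithmetic.isCusp_iff_isCusp_SL2Z] at hc
      rw [OnePoint.isZeroAt_iff_forall_SL2Z hc]
      exact fun γ _ => hzero γ

end Fermat.Agent.S44.D.DictHol
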