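import Mathlib
import Fermat.Agent.S44.D.LiftRed

/-!
# Strand D of S44: the integral lift of an element trace-dual modulo the Gauss prime (level-free)

Setting of `S44/D/LiftRed.lean`: `O` a discrete valuation ring with fraction field `E`,
uniformiser `π`, residue field `𝔨`; `L / E(u)` finite separable, unramified at the Gauss prime
(`Model.GaussUnram π u`); the three charts `C0`, `C1`, `C01` with free Čech `H¹`; a reduction
datum `ρ : R → Λ` on a subring `R ⊇ C01` of `L` (`ρ` the residue map on constants, elements of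
nonzero reduction invertible in `R`, kernel of `ρ` equal to `π R`, `ρ u` transcendental).

* `exists_residue_functional_ext` : the "coefficient of `j⁻¹`" as a `𝔨`-linear functional on
  any field `Λ ∋ j` (`j` transcendental over `𝔨`).
* `exists_lift_core` : if `Gt : L` is trace-dual regular **modulo `π`** — `Tr (Gt x) ∈ R`
  reduces to a polynomial in `ρ u` for `x ∈ C0`, and `Tr (Gt u² x)` reduces to a polynomial in
  `(ρ u)⁻¹` for `x ∈ C1` — then there is `G : L` with `Tr (G C0) ⊆ O[u]`,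
  `Tr (G u² C1) ⊆ O[u⁻¹]` and `G - Gt ∈ π R`.
-/

set_option autoImplicit false

open Polynomial

namespace Fermat.Agent.S44.D.LiftCore

open Fermat.Agent.S30.Model Fermat.Agent.S30.Model.CechP1
open Fermat.Agent.S44.D.CechFree Fermat.Agent.S44.D.LiftRed

/-! ### The residue functional on an ambient field -/

section Residue

variable {k Λ : Type*} [Field k] [Field Λ] [Algebra k Λ]

/-- The coefficient of `j⁻¹`, extended to a `k`-linear functional on the ambient field. -/
theorem exists_residue_functional_ext (j : Λ) (hj : Transcendental k j) :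
    ∃ ψ : Λ →ₗ[k] k, ∀ (Q : k[X]) (m : ℕ), ψ (aeval j Q * j⁻¹ ^ (m + 1)) = Q.coeff m := by
  obtain ⟨ψ₀, hψ₀⟩ := TraceDualConv.exists_residue_functional j hj
  let p : Submodule k Λ := Subalgebra.toSubmodule (IntermediateField.adjoin k {j}).toSubalgebra
  let g : p →ₗ[k] k :=
    { toFun := fun x => ψ₀ ⟨x.1, x.2⟩
      map_add' := fun x y => map_add ψ₀ ⟨x.1, x.2⟩ ⟨y.1, y.2⟩
      map_smul' := fun c x => map_smul ψ₀ c ⟨x.1, x.2⟩ }
  obtain ⟨ψ, hψ⟩ := LinearMap.exists_extend g
  refine ⟨ψ, fun Q m => ?_⟩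
  have hmem : aeval j Q * j⁻¹ ^ (m + 1) ∈ p := by
    have h := (aeval (IntermediateField.AdjoinSimple.gen k j) Q *
      (IntermediateField.AdjoinSimple.gen k j)⁻¹ ^ (m + 1) : IntermediateField.adjoin k {j}).2
    have e : ((aeval (IntermediateField.AdjoinSimple.gen k j) Q *
        (IntermediateField.AdjoinSimple.gen k j)⁻¹ ^ (m + 1) : IntermediateField.adjoin k {j}) : Λ)
        = aeval j Q * j⁻¹ ^ (m + 1) := by
      push_cast
      rw [TraceDualConv.coe_aeval, IntermediateField.AdjoinSimple.coe_gen]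
    rw [← e]
    exact h
  have h1 : ψ (aeval j Q * j⁻¹ ^ (m + 1)) = g ⟨_, hmem⟩ :=
    LinearMap.congr_fun hψ ⟨_, hmem⟩
  rw [h1, ← hψ₀ Q m]
  show ψ₀ _ = ψ₀ _
  congr 1
  apply Subtype.ext
  push_cast
  rw [TraceDualConv.coe_aeval, IntermediateField.AdjoinSimple.coe_gen]

/-- The functional kills polynomials in `j`. -/
theorem psi_aeval (j : Λ) (hj0 : j ≠ 0) (ψ : Λ →ₗ[k] k)
    (hψ : ∀ (Q : k[X]) (m : ℕ), ψ (aeval j Q * j⁻¹ ^ (m + 1)) = Q.coeff m) (Q : k[X]) :
    ψ (aeval j Q) = 0 := by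
  have h := hψ (Q * X) 0
  have e : aeval j (Q * X) * j⁻¹ ^ (0 + 1) = aeval j Q := by
    rw [map_mul (aeval j), aeval_X, zero_add, pow_one, mul_assoc, mul_inv_cancel₀ hj0, mul_one]
  rw [e, coeff_mul_X_zero] at h
  exact h

/-- The functional kills `j⁻² ·` (polynomials in `j⁻¹`). -/
theorem psi_inv_sq_mul_aeval_inv (j : Λ) (ψ : Λ →ₗ[k] k)
    (hψ : ∀ (Q : k[X]) (m : ℕ), ψ (aeval j Q * j⁻¹ ^ (m + 1)) = Q.coeff m) (Q : k[X]) :
    ψ (j⁻¹ ^ 2 * aeval j⁻¹ Q) = 0 := by
  rw [aeval_eq_sum_range, Finset.mul_sum, map_sum]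
  refine Finset.sum_eq_zero fun i _ => ?_
  have e : j⁻¹ ^ 2 * Q.coeff i • j⁻¹ ^ i = Q.coeff i • (aeval j (1 : k[X]) * j⁻¹ ^ (i + 1 + 1)) := by
    rw [map_one, one_mul, mul_smul_comm, ← pow_add]
    congr 2
    omega
  rw [e, map_smul, hψ 1 (i + 1), coeff_one, if_neg (Nat.succ_ne_zero i), smul_zero]

end Residue

/-- The trace is linear over the base field, elementwise. -/
theorem coe_trace_mul_left {E L : Type*} [Field E] [Field L] [Algebra E L]
    (K : IntermediateField E L) (c : L) (hc : c ∈ K) (y : L) :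
    ((Algebra.trace K L (c * y) : K) : L) = c * ((Algebra.trace K L y : K) : L) := by
  have e : c * y = (⟨c, hc⟩ : K) • y := by
    rw [Algebra.smul_def]
    rfl
  rw [e, map_smul, smul_eq_mul]
  rfl

/-! ### The lift -/

section Main

variable {O E L : Type*} [CommRing O] [IsDomain O] [IsDiscreteValuationRing O]
  [Field E] [Algebra O E] [IsFractionRing O E]
  [Field L] [Algebra E L] [Algebra O L] [IsScalarTower O E L]
  {Λ : Type*} [Field Λ] [Algebra (IsLocalRing.ResidueField O) Λ]

/-- **The integral lift of an element trace-dual modulo the Gauss prime.** -/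
theorem exists_lift_core (π : O) (hπ : Irreducible π) (u : L) (hu : Transcendental E u)
    [FiniteDimensional (IntermediateField.adjoin E {u}) L]
    [Algebra.IsSeparable (IntermediateField.adjoin E {u}) L]
    (hunr : GaussUnram (E := E) π u)
    [Module.Free O (CechH (chart O ({u} : Set L)) (chart O ({u⁻¹} : Set L))
      (chart O ({u, u⁻¹} : Set L)))]
    (R : Subring L) (ρ : R →+* Λ)
    (hR : ∀ x : L, x ∈ chart O ({u, u⁻¹} : Set L) → x ∈ R)
    (hinv : ∀ x : R, ρ x ≠ 0 → (x : L)⁻¹ ∈ R)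
    (halg : ∀ (c : O) (x : R), (x : L) = algebraMap O L c →
      ρ x = algebraMap (IsLocalRing.ResidueField O) Λ (IsLocalRing.residue O c))
    (hkerR : ∀ x : R, ρ x = 0 → ∃ y : R, (x : L) = algebraMap O L π * (y : L))
    (ū : R) (hū : (ū : L) = u) (htrans : Transcendental (IsLocalRing.ResidueField O) (ρ ū))
    (Gt : L)
    (h0 : ∀ x : L, x ∈ chart O ({u} : Set L) →
      ∃ (T : R) (Q : (IsLocalRing.ResidueField O)[X]),
        (T : L) = ((Algebra.trace (IntermediateField.adjoin E {u}) L (Gt * x) :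
          IntermediateField.adjoin E {u}) : L) ∧ ρ T = aeval (ρ ū) Q)
    (h1 : ∀ x : L, x ∈ chart O ({u⁻¹} : Set L) →
      ∃ (T : R) (Q : (IsLocalRing.ResidueField O)[X]),
        (T : L) = ((Algebra.trace (IntermediateField.adjoin E {u}) L (Gt * u ^ 2 * x) :
          IntermediateField.adjoin E {u}) : L) ∧ ρ T = aeval (ρ ū)⁻¹ Q) :
    ∃ G : L,
      (∀ b : L, b ∈ chart O ({u} : Set L) → ∃ p : O[X],
        ((Algebra.trace (IntermediateField.adjoin E {u}) L (G * b) :
          IntermediateField.adjoin E {u}) : L) = aeval u p) ∧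
      (∀ b : L, b ∈ chart O ({u⁻¹} : Set L) → ∃ p : O[X],
        ((Algebra.trace (IntermediateField.adjoin E {u}) L (G * (u ^ 2 * b)) :
          IntermediateField.adjoin E {u}) : L) = aeval u⁻¹ p) ∧
      ∃ D : R, G - Gt = algebraMap O L π * (D : L) := by
  classical
  subst hū
  have hu0 : (ū : L) ≠ 0 := by
    intro h0
    rw [h0] at hu
    exact hu isAlgebraic_zero
  have hj0 : ρ ū ≠ 0 := by
    intro h0
    rw [h0] at htrans
    exact htrans isAlgebraic_zero
  have h0le : chart O ({(ū : L)} : Set L) ≤ chart O ({(ū : L), (ū : L)⁻¹} : Set L) :=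
    chart_mono (by simp)
  have h1le : chart O ({(ū : L)⁻¹} : Set L) ≤ chart O ({(ū : L), (ū : L)⁻¹} : Set L) :=
    chart_mono (by simp)
  have hu0mem : (ū : L) ∈ chart O ({(ū : L)} : Set L) :=
    isIntegral_adjoin_of_mem (Algebra.subset_adjoin (Set.mem_singleton _))
  have hu1mem : (ū : L)⁻¹ ∈ chart O ({(ū : L)⁻¹} : Set L) :=
    isIntegral_adjoin_of_mem (Algebra.subset_adjoin (Set.mem_singleton _))
  have huK : (ū : L) ∈ IntermediateField.adjoin E {(ū : L)} :=
    IntermediateField.mem_adjoin_simple_self E _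
  have hcK : ∀ c : O, algebraMap O L c ∈ IntermediateField.adjoin E {(ū : L)} := by
    intro c
    rw [IsScalarTower.algebraMap_apply O E L]
    exact (IntermediateField.adjoin E {(ū : L)}).algebraMap_mem _
  -- the structure map `O → R`
  let f : O →+* R := (algebraMap O L).codRestrict R
    (fun c => hR _ (Subalgebra.algebraMap_mem _ c))
  have hf : ∀ c, (f c : L) = algebraMap O L c := fun c => rfl
  have hρf : ∀ c, ρ (f c) =
      algebraMap (IsLocalRing.ResidueField O) Λ (IsLocalRing.residue O c) :=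
    fun c => halg c (f c) rfl
  -- the inverse coordinate
  let vR : R := ⟨(ū : L)⁻¹, hR _ (h1le hu1mem)⟩
  have huv : ū * vR = 1 := Subtype.ext (mul_inv_cancel₀ hu0)
  have hρv : ρ vR = (ρ ū)⁻¹ := by
    have h := congrArg ρ huv
    rw [map_mul, map_one] at h
    exact eq_inv_of_mul_eq_one_right h
  -- Step A: the traces `Tr (Gt x)`, `x ∈ C01`, lie in `R`
  have hT0 : ∀ x : L, x ∈ chart O ({(ū : L), (ū : L)⁻¹} : Set L) →
      ((Algebra.trace (IntermediateField.adjoin E {(ū : L)}) L (Gt * x) :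
        IntermediateField.adjoin E {(ū : L)}) : L) ∈ R := by
    intro x hx
    obtain ⟨n, hn⟩ := exists_pow_mul_isIntegral (ū : L) hu0 x hx
    obtain ⟨T, Q, hT, -⟩ := h0 _ hn
    have e1 : Gt * ((ū : L) ^ n * x) = (ū : L) ^ n * (Gt * x) := by ring
    rw [e1, coe_trace_mul_left _ _ (pow_mem huK n)] at hT
    have e2 : ((Algebra.trace (IntermediateField.adjoin E {(ū : L)}) L (Gt * x) :
        IntermediateField.adjoin E {(ū : L)}) : L) = ((vR ^ n * T : R) : L) := by
      show _ = (ū : L)⁻¹ ^ n * (T : L)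
      rw [hT, ← mul_assoc, ← mul_pow, inv_mul_cancel₀ hu0, one_pow, one_mul]
    rw [e2]
    exact (vR ^ n * T).2
  let τ : Subalgebra.toSubmodule (chart O ({(ū : L), (ū : L)⁻¹} : Set L)) → R := fun x =>
    ⟨_, hT0 (x : L) x.2⟩
  have hτ : ∀ x : Subalgebra.toSubmodule (chart O ({(ū : L), (ū : L)⁻¹} : Set L)),
      ((τ x : R) : L) = ((Algebra.trace (IntermediateField.adjoin E {(ū : L)}) L (Gt * (x : L)) :
        IntermediateField.adjoin E {(ū : L)}) : L) := fun _ => rfl
  have hτadd : ∀ x y, τ (x + y) = τ x + τ y := by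
    intro x y
    apply Subtype.ext
    show ((Algebra.trace (IntermediateField.adjoin E {(ū : L)}) L (Gt * ((x : L) + (y : L))) :
        IntermediateField.adjoin E {(ū : L)}) : L) = (τ x : L) + (τ y : L)
    rw [mul_add, map_add, hτ, hτ]
    rfl
  have hτmul : ∀ (c : L) (hc : c ∈ IntermediateField.adjoin E {(ū : L)}) (cR : R)
      (_ : (cR : L) = c) (x y : Subalgebra.toSubmodule (chart O ({(ū : L), (ū : L)⁻¹} : Set L))),
      (y : L) = c * (x : L) → τ y = cR * τ x := by
    intro c hc cR hcR x y hxy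
    apply Subtype.ext
    show ((Algebra.trace (IntermediateField.adjoin E {(ū : L)}) L (Gt * (y : L)) :
        IntermediateField.adjoin E {(ū : L)}) : L) = (cR : L) * (τ x : L)
    have e1 : Gt * (y : L) = c * (Gt * (x : L)) := by rw [hxy]; ring
    rw [e1, coe_trace_mul_left _ _ hc, hcR, hτ]
  -- the residue functional
  obtain ⟨ψ, hψ⟩ := exists_residue_functional_ext (ρ ū) htrans
  let μ : Subalgebra.toSubmodule (chart O ({(ū : L), (ū : L)⁻¹} : Set L)) →ₗ[O]
      IsLocalRing.ResidueField O :=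
    { toFun := fun x => ψ (ρ (τ x))
      map_add' := fun x y => by rw [hτadd, map_add, map_add]
      map_smul' := fun c x => by
        have e : τ (c • x) = f c * τ x :=
          hτmul (algebraMap O L c) (hcK c) (f c) rfl x (c • x) (Algebra.smul_def c (x : L))
        rw [e, map_mul, hρf, ← Algebra.smul_def, map_smul, RingHom.id_apply,
          Algebra.smul_def c, IsLocalRing.ResidueField.algebraMap_eq, smul_eq_mul] }
  have hμ : ∀ x, μ x = ψ (ρ (τ x)) := fun _ => rfl
  have hμ0 : ∀ x : Subalgebra.toSubmodule (chart O ({(ū : L), (ū : L)⁻¹} : Set L)),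
      (x : L) ∈ chart O ({(ū : L)} : Set L) → μ x = 0 := by
    intro x hx
    obtain ⟨T, Q, hT, hQ⟩ := h0 _ hx
    have e : τ x = T := Subtype.ext hT.symm
    rw [hμ, e, hQ]
    exact psi_aeval (ρ ū) hj0 ψ hψ Q
  have hμ1 : ∀ x : Subalgebra.toSubmodule (chart O ({(ū : L), (ū : L)⁻¹} : Set L)),
      (x : L) ∈ chart O ({(ū : L)⁻¹} : Set L) → μ x = 0 := by
    intro x hx
    obtain ⟨T, Q, hT, hQ⟩ := h1 _ hx
    have e : τ x = vR ^ 2 * T := by
      apply Subtype.ext
      show (τ x : L) = (ū : L)⁻¹ ^ 2 * (T : L)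
      have e1 : Gt * (ū : L) ^ 2 * (x : L) = (ū : L) ^ 2 * (Gt * (x : L)) := by ring
      rw [hT, e1, coe_trace_mul_left _ _ (pow_mem huK 2), ← mul_assoc, ← mul_pow,
        inv_mul_cancel₀ hu0, one_pow, one_mul, hτ]
    rw [hμ, e, map_mul, map_pow, hρv, hQ]
    exact psi_inv_sq_mul_aeval_inv (ρ ū) ψ hψ Q
  have hμker : (chartSum (chart O ({(ū : L)} : Set L)) (chart O ({(ū : L)⁻¹} : Set L))).comap
      (Subalgebra.toSubmodule (chart O ({(ū : L), (ū : L)⁻¹} : Set L))).subtype ≤
        LinearMap.ker μ := by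
    intro x hx
    rw [Submodule.mem_comap] at hx
    obtain ⟨a, ha, b, hb, hab⟩ := mem_chartSum_iff.mp hx
    rw [LinearMap.mem_ker]
    have e : x = (⟨a, h0le ha⟩ : Subalgebra.toSubmodule
        (chart O ({(ū : L), (ū : L)⁻¹} : Set L))) + ⟨b, h1le hb⟩ := Subtype.ext hab.symm
    rw [e, map_add, hμ0 _ ha, hμ1 _ hb, add_zero]
  let lamH : CechH (chart O ({(ū : L)} : Set L)) (chart O ({(ū : L)⁻¹} : Set L))
      (chart O ({(ū : L), (ū : L)⁻¹} : Set L)) →ₗ[O] IsLocalRing.ResidueField O :=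
    Submodule.liftQ _ μ hμker
  have hlamH : ∀ x, lamH (cechClass _ _ _ x) = μ x := fun x => Submodule.liftQ_apply _ _ _
  -- Step B: lift to an `O`-valued functional and take its dual element
  have hsurj : Function.Surjective (algebraMap O (IsLocalRing.ResidueField O)) :=
    IsLocalRing.residue_surjective
  obtain ⟨Lam, hLam⟩ := exists_lift_functional hsurj lamH
  obtain ⟨G, hGC0, hGC1, hGP⟩ := IntLiftChart.exists_dual_cechH (O := O) (ū : L) hu hu0 Lam
  -- the traces of `G` and `Gt` against `C0` agree modulo `π`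
  have hcong : ∀ (b : L) (_ : b ∈ chart O ({(ū : L)} : Set L)), ∃ y : R,
      ((Algebra.trace (IntermediateField.adjoin E {(ū : L)}) L (G * b) :
        IntermediateField.adjoin E {(ū : L)}) : L) -
      ((Algebra.trace (IntermediateField.adjoin E {(ū : L)}) L (Gt * b) :
        IntermediateField.adjoin E {(ū : L)}) : L) = algebraMap O L π * (y : L) := by
    intro b hb
    obtain ⟨P, hP, hc⟩ := hGP b (h0le hb)
    have hmem : ∀ m : ℤ, (ū : L) ^ m * b ∈ chart O ({(ū : L), (ū : L)⁻¹} : Set L) := fun m =>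
      IntLift.zpow_mul_mem _ (ū : L) (h0le hu0mem) (h1le hu1mem) (h0le hb) m
    have hneg : ∀ m : ℤ, m < 0 → P.coeff m = 0 := by
      intro m hm
      have hmem0 : (ū : L) ^ (-m - 1) * b ∈ chart O ({(ū : L)} : Set L) := by
        obtain ⟨n, hn⟩ := Int.eq_ofNat_of_zero_le (show 0 ≤ -m - 1 by omega)
        rw [hn, zpow_natCast]
        exact mul_mem (pow_mem hu0mem n) hb
      rw [hc m (h0le hmem0),
        (cechClass_eq_zero_iff _ _ _ _).mpr (mem_chartSum_of_mem_left hmem0), map_zero]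
    obtain ⟨p, hp⟩ := IntLiftChart.exists_toLaurent_eq P hneg
    have hGb : ((Algebra.trace (IntermediateField.adjoin E {(ū : L)}) L (G * b) :
        IntermediateField.adjoin E {(ū : L)}) : L) = aeval (ū : L) p := by
      rw [hP, ← hp, IntLift.lev_toLaurent]
    obtain ⟨T, Q, hT, hQ⟩ := h0 b hb
    have hτb : τ ⟨b, h0le hb⟩ = T := Subtype.ext hT.symm
    have hpQ : p.map (IsLocalRing.residue O) = Q := by
      ext m
      have hpm : p.coeff m = P.coeff (m : ℤ) := by
        rw [← hp]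
        exact (coeff_toLaurent_natCast p m).symm
      rw [coeff_map, hpm, hc (m : ℤ) (hmem _), ← IsLocalRing.ResidueField.algebraMap_eq, hLam,
        hlamH, hμ]
      have e : τ ⟨(ū : L) ^ (-(m : ℤ) - 1) * b, hmem _⟩ = vR ^ (m + 1) * τ ⟨b, h0le hb⟩ := by
        refine hτmul ((ū : L) ^ (-(m : ℤ) - 1)) (zpow_mem huK _) (vR ^ (m + 1)) ?_ _ _ rfl
        show (ū : L)⁻¹ ^ (m + 1) = (ū : L) ^ (-(m : ℤ) - 1)
        rw [inv_pow, ← zpow_natCast, ← zpow_neg]
        congr 1
        push_cast
        ring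
      rw [e, map_mul, map_pow, hρv, hτb, hQ, mul_comm]
      exact hψ Q m
    have hker0 : ρ (eval₂ f ū p - T) = 0 := by
      rw [map_sub, rho_eval₂ R ρ f hρf, eval₂_comp_residue, hpQ, hQ, sub_self]
    obtain ⟨y, hy⟩ := hkerR _ hker0
    refine ⟨y, ?_⟩
    rw [hGb, ← hT, ← coe_eval₂ R f hf ū p]
    exact hy
  -- Step C: `D' := (G - Gt) / π` has traces in `R` against `C0`; Cramer puts `D'` in `R`
  have hπL : algebraMap O L π ≠ 0 := IntLiftChart.algebraMap_ne_zero_of_ne_zero E hπ.ne_zero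
  have hD' : ∀ b : L, b ∈ chart O ({(ū : L)} : Set L) →
      ((Algebra.trace (IntermediateField.adjoin E {(ū : L)}) L
        ((algebraMap O L π)⁻¹ * (G - Gt) * b) : IntermediateField.adjoin E {(ū : L)}) : L) ∈ R := by
    intro b hb
    obtain ⟨y, hy⟩ := hcong b hb
    have e1 : (algebraMap O L π)⁻¹ * (G - Gt) * b = (algebraMap O L π)⁻¹ * ((G - Gt) * b) := by
      ring
    have e2 : (G - Gt) * b = G * b - Gt * b := by ring
    rw [e1, coe_trace_mul_left _ _ (inv_mem (hcK π)), e2, map_sub]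
    have e3 : (((Algebra.trace (IntermediateField.adjoin E {(ū : L)}) L (G * b) -
        Algebra.trace (IntermediateField.adjoin E {(ū : L)}) L (Gt * b) :
          IntermediateField.adjoin E {(ū : L)}) : L)) = algebraMap O L π * (y : L) := hy
    rw [e3, inv_mul_cancel_left₀ hπL]
    exact y.2
  -- transcendence of the reduced coordinate, in polynomial form
  have hinj : ∀ P : O[X],
      eval₂ ((algebraMap (IsLocalRing.ResidueField O) Λ).comp (IsLocalRing.residue O)) (ρ ū) P = 0 →
        P.map (IsLocalRing.residue O) = 0 := by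
    intro P hP
    rw [eval₂_comp_residue] at hP
    exact (injective_iff_map_eq_zero _).mp (transcendental_iff_injective.mp htrans) _ hP
  obtain ⟨bfam, hbint, d, hdmem, hdet, hdnd⟩ := hunr
  have hd0 : d ≠ 0 := by
    intro h0
    exact hdnd 0 (zero_mem _) (by rw [h0, mul_zero])
  have hdetK : (Algebra.traceMatrix (IntermediateField.adjoin E {(ū : L)}) bfam).det ≠ 0 := by
    intro h0
    rw [h0] at hdet
    exact hd0 hdet.symm
  have hli : LinearIndependent (IntermediateField.adjoin E {(ū : L)}) bfam :=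
    TraceRed.linearIndependent_of_det_traceMatrix_ne_zero bfam hdetK
  let bL : Module.Basis (Fin (Module.finrank (IntermediateField.adjoin E {(ū : L)}) L))
      (IntermediateField.adjoin E {(ū : L)}) L :=
    basisOfLinearIndependentOfCardEqFinrank' bfam hli (by simp)
  have hbL : ⇑bL = bfam := coe_basisOfLinearIndependentOfCardEqFinrank' bfam hli _
  have key := TraceRed.det_smul_eq_sum bL ((algebraMap O L π)⁻¹ * (G - Gt))
  rw [hbL] at key
  -- the subring of `E(u)` of elements lying in `R`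
  let S' : Subring (IntermediateField.adjoin E {(ū : L)}) :=
    R.comap (algebraMap (IntermediateField.adjoin E {(ū : L)}) L)
  have hS' : ∀ z : IntermediateField.adjoin E {(ū : L)}, z ∈ S' ↔ (z : L) ∈ R := fun _ => Iff.rfl
  have hTS : ∀ i l, Algebra.traceMatrix (IntermediateField.adjoin E {(ū : L)}) bfam i l ∈ S' := by
    intro i l
    rw [hS', Algebra.traceMatrix_apply, Algebra.traceForm_apply]
    obtain ⟨t, ht⟩ := exists_trace_eq_aeval (O := O) (ū : L) hu (bfam i * bfam l)
      ((hbint i).mul (hbint l))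
    rw [ht, ← coe_eval₂ R f hf ū t]
    exact (eval₂ f ū t).2
  have hadj : ∀ l i,
      (Algebra.traceMatrix (IntermediateField.adjoin E {(ū : L)}) bfam).adjugate l i ∈ S' := by
    intro l i
    let T₀ : Matrix (Fin (Module.finrank (IntermediateField.adjoin E {(ū : L)}) L))
        (Fin (Module.finrank (IntermediateField.adjoin E {(ū : L)}) L)) S' :=
      Matrix.of fun i l => ⟨_, hTS i l⟩
    have e : Algebra.traceMatrix (IntermediateField.adjoin E {(ū : L)}) bfam =
        S'.subtype.mapMatrix T₀ := by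
      ext i l
      rfl
    rw [e, ← RingHom.map_adjugate]
    exact ((T₀.adjugate l i : S')).2
  have hcoefS : ∀ i, Matrix.vecMul (fun l => Algebra.trace (IntermediateField.adjoin E {(ū : L)}) L
      ((algebraMap O L π)⁻¹ * (G - Gt) * bfam l))
        (Algebra.traceMatrix (IntermediateField.adjoin E {(ū : L)}) bfam).adjugate i ∈ S' := by
    intro i
    simp only [Matrix.vecMul, dotProduct]
    exact Subring.sum_mem _ fun l _ => mul_mem ((hS' _).mpr (hD' _ (hbint l))) (hadj l i)
  have hsumR : (Algebra.traceMatrix (IntermediateField.adjoin E {(ū : L)}) bfam).det •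
      ((algebraMap O L π)⁻¹ * (G - Gt)) ∈ R := by
    rw [key]
    refine Subring.sum_mem _ fun i _ => ?_
    rw [Algebra.smul_def]
    exact mul_mem ((hS' _).mp (hcoefS i)) (hR _ (h0le (hbint i)))
  rw [Algebra.smul_def] at hsumR
  have hdet' : algebraMap (IntermediateField.adjoin E {(ū : L)}) L
      (Algebra.traceMatrix (IntermediateField.adjoin E {(ū : L)}) bfam).det = d := hdet
  rw [hdet'] at hsumR
  -- `d` is a unit of `R`
  obtain ⟨dp, hdp⟩ : ∃ dp : O[X], aeval (ū : L) dp = d := by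
    have h : d ∈ (aeval (ū : L) : O[X] →ₐ[O] L).range := by
      rw [← Algebra.adjoin_singleton_eq_range_aeval]
      exact hdmem
    exact h
  have hdR : ((eval₂ f ū dp : R) : L) = d := (coe_eval₂ R f hf ū dp).trans hdp
  have hρd : ρ (eval₂ f ū dp) ≠ 0 := by
    intro h0
    rw [rho_eval₂ R ρ f hρf] at h0
    obtain ⟨c, hc, hcs⟩ := exists_eq_pi_mul_of_map_eq_zero π hπ (ū : L) dp (hinj dp h0)
    exact hdnd c hc (hdp.symm.trans hcs)
  have hdinv : d⁻¹ ∈ R := by
    rw [← hdR]
    exact hinv _ hρd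
  have hDR : (algebraMap O L π)⁻¹ * (G - Gt) ∈ R := by
    have e : (algebraMap O L π)⁻¹ * (G - Gt) = d⁻¹ * (d * ((algebraMap O L π)⁻¹ * (G - Gt))) := by
      rw [← mul_assoc, inv_mul_cancel₀ hd0, one_mul]
    rw [e]
    exact mul_mem hdinv hsumR
  refine ⟨G, hGC0, hGC1, ⟨_, hDR⟩, ?_⟩
  show G - Gt = algebraMap O L π * ((algebraMap O L π)⁻¹ * (G - Gt))
  rw [mul_inv_cancel_left₀ hπL]

end Main

end Fermat.Agent.S44.D.LiftCore
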