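import Mathlib
import Fermat.Agent.S44.D.LiftCore
import Fermat.Agent.S44.D.RedDatum

/-!
# Strand D of S44: the integral lift modulo the Gauss prime, in the Gauss block

`S44/D/LiftCore.exists_lift_core` at the reduction datum of `S44/D/CechAdapter.lean`:
`O` a discrete valuation ring with fraction field `E`, `L / E` with a `q`-expansion
`emb : L →ₐ[E] E((q))`, `u : L` with integral expansion `uO` having a pole modulo the maximal
ideal; `R = gaussSub O emb` (elements with Gauss-integral expansion), `ρ = redHom O emb` with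
values in `k((q))`, `ρ u = GaussDVR.rho O uO`.

* `exists_lift_core_gauss` : if `Tr (Gt x)` is Gauss-integral with reduction a polynomial in
  `ū` for `x ∈ C0`, and `Tr (Gt u² x)` is Gauss-integral with reduction a polynomial in `ū⁻¹`
  for `x ∈ C1`, then there is `G : L` with `Tr (G C0) ⊆ O[u]`, `Tr (G u² C1) ⊆ O[u⁻¹]` and
  `G - Gt = π D`, `D` Gauss-integral.
-/

set_option autoImplicit false
set_option linter.unusedSectionVars false

open Polynomial ModularCurve

noncomputable section

namespace Fermat.Agent.S44.D.LiftCoreGauss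

open Fermat.Agent.S30 Fermat.Agent.S30.Model Fermat.Agent.S48.G1.K1
open Fermat.Agent.S44.D.CechAdapter Fermat.Agent.S44.D.CechFree

variable {O E : Type*} [CommRing O] [IsDomain O] [IsDiscreteValuationRing O] [Field E]
  [Algebra O E] [IsFractionRing O E]
variable {L : Type*} [Field L] [Algebra E L] [Algebra O L] [IsScalarTower O E L]

/-- **The kernel of the reduction on the Gauss ring is `π · gaussSub`.** -/
theorem exists_eq_unif_mul_gaussSub (emb : L →ₐ[E] LaurentSeries E) (π : O) (hπ : Irreducible π)
    (x : gaussSub O emb) (hx : redHom O emb x = 0) :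
    ∃ y : gaussSub O emb, (x : L) = algebraMap O L π * (y : L) := by
  obtain ⟨Y, hY⟩ := GaussDVR.ker' E π hπ ⟨emb (x : L), x.2⟩ hx
  have hY' : emb (x : L) = HahnSeries.C (algebraMap O E π) * (Y : LaurentSeries E) := hY
  have hπL : algebraMap O L π ≠ 0 := fun h0 =>
    hπ.ne_zero (ChartProv.algebraMap_injective_base O E L (h0.trans (map_zero _).symm))
  have hCπ : (HahnSeries.C (algebraMap O E π) : LaurentSeries E) ≠ 0 := by
    rw [← GaussOne.emb_algebraMap emb π]
    exact fun h0 => hπL (emb.injective (h0.trans (map_zero _).symm))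
  have hyV : emb ((x : L) / algebraMap O L π) ∈ GaussDVR.V O E := by
    rw [map_div₀, hY', GaussOne.emb_algebraMap, mul_div_cancel_left₀ _ hCπ]
    exact Y.2
  exact ⟨⟨_, hyV⟩, (mul_div_cancel₀ _ hπL).symm⟩

/-- A Laurent series with a pole is transcendental over the constants. -/
theorem transcendental_of_order_neg {k : Type*} [Field k] (x : LaurentSeries k)
    (hx : x.order < 0) : Transcendental k x := by
  intro halg
  obtain ⟨c, hc⟩ := LaurentConst.exists_eq_algebraMap_of_isAlgebraic x halg
  rw [hc, algebraMap_laurentSeries_eq_single] at hx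
  have h0 : (HahnSeries.single (0 : ℤ) c : LaurentSeries k).order = 0 := HahnSeries.order_C
  rw [h0] at hx
  exact lt_irrefl _ hx

/-- **The integral lift of an element trace-dual modulo the Gauss prime** (Gauss block). -/
theorem exists_lift_core_gauss (emb : L →ₐ[E] LaurentSeries E)
    (hfrac : ∀ x : L, emb x ∈ GaussDVR.fracField O E) (π : O) (hπ : Irreducible π) (u : L)
    (uO : LaurentSeries O) (hu : emb u = GaussDVR.iota O E uO)
    (hpole : (GaussDVR.rho O uO).order < 0)
    [FiniteDimensional (IntermediateField.adjoin E {u}) L]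
    [Algebra.IsSeparable (IntermediateField.adjoin E {u}) L]
    (hunr : GaussUnram (E := E) π u)
    [Module.Free O (CechH (C0 (O := O) u) (C1 (O := O) u) (C01 (O := O) u))]
    (Gt : L)
    (h0 : ∀ x : L, x ∈ C0 (O := O) u →
      ∃ (T : gaussSub O emb) (Q : (IsLocalRing.ResidueField O)[X]),
        (T : L) = ((Algebra.trace (IntermediateField.adjoin E {u}) L (Gt * x) :
          IntermediateField.adjoin E {u}) : L) ∧
        redHom O emb T = aeval (GaussDVR.rho O uO) Q)
    (h1 : ∀ x : L, x ∈ C1 (O := O) u →
      ∃ (T : gaussSub O emb) (Q : (IsLocalRing.ResidueField O)[X]),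
        (T : L) = ((Algebra.trace (IntermediateField.adjoin E {u}) L (Gt * u ^ 2 * x) :
          IntermediateField.adjoin E {u}) : L) ∧
        redHom O emb T = aeval (GaussDVR.rho O uO)⁻¹ Q) :
    ∃ G : L,
      (∀ b : L, b ∈ C0 (O := O) u → ∃ p : O[X],
        ((Algebra.trace (IntermediateField.adjoin E {u}) L (G * b) :
          IntermediateField.adjoin E {u}) : L) = aeval u p) ∧
      (∀ b : L, b ∈ C1 (O := O) u → ∃ p : O[X],
        ((Algebra.trace (IntermediateField.adjoin E {u}) L (G * (u ^ 2 * b)) :
          IntermediateField.adjoin E {u}) : L) = aeval u⁻¹ p) ∧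
      ∃ D : gaussSub O emb, G - Gt = algebraMap O L π * (D : L) := by
  have hρu : redHom O emb ⟨u, mem_gaussSub_of_int emb u uO hu⟩ = GaussDVR.rho O uO :=
    redHom_of_int emb u uO hu
  refine LiftCore.exists_lift_core (E := E) (Λ := LaurentSeries (IsLocalRing.ResidueField O))
    π hπ u (transcendental_of_pole emb u uO hu hpole) hunr (gaussSub O emb) (redHom O emb)
    (fun x hx => mem_gaussSub_of_mem_C01 emb hfrac π hπ u uO hu hpole x hx)
    (fun x hx => RedDatum.inv_mem_gaussSub_of_redHom_ne_zero emb x hx)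
    (fun c x hx => ?_)
    (fun x hx => exists_eq_unif_mul_gaussSub emb π hπ x hx)
    ⟨u, mem_gaussSub_of_int emb u uO hu⟩ rfl ?_ Gt ?_ ?_
  · have e : x = ⟨algebraMap O L c, algebraMap_mem_gaussSub emb c⟩ := Subtype.ext hx
    rw [e, redHom_algebraMap, algebraMap_laurentSeries_eq_single, HahnSeries.C_apply]
  · rw [hρu]
    exact transcendental_of_order_neg _ hpole
  · intro x hx
    obtain ⟨T, Q, hT, hQ⟩ := h0 x hx
    exact ⟨T, Q, hT, by rw [hρu]; exact hQ⟩
  · intro x hx
    obtain ⟨T, Q, hT, hQ⟩ := h1 x hx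
    exact ⟨T, Q, hT, by rw [hρu]; exact hQ⟩

end Fermat.Agent.S44.D.LiftCoreGauss
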