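import Mathlib
import Fermat.Agent.S44.D.RegDual
import Fermat.Agent.S44.D.ConstTrace
import Fermat.Agent.S44.D.TraceDualConv

/-!
# Strand D of S44: the compiled level-free seam  Reg (b) → BaseChange → converse of (DW-b)

Two function fields of one variable: the SMALL one `K / k` (in the application the reduced
function field over the finite residue field `k_E`) and the BIG one `K' / k'` with `k'`
algebraically closed (the reduced field over `κ`), a pair of compatible ring homs
`i : k → k'`, `r : K → K'`, and a field `Ω ⊇ K'` with an additive Leibniz map `δ` killing `k'`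
(`Ω = κ((q))`, `δ = θ`).

`exists_functional_of_dlog` chains the three landed level-free theorems
`RegDual.traceDual_of_dlog_simple` (a regular logarithmic class is trace-dual over `k'`),
`ConstTrace.traceDual_descent_zero/_inf` (trace-duality descends to the small level) and
`TraceDualConv.exists_functional_roundtrip` (a trace-dual element is recovered from its
functional): if `G : K` maps to `δ f / (f δ j)`, there is a `k`-linear functional `lam` on `K`
killing the elements integral over `k[j]` and over `k[j⁻¹]` such that every element `G'`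
satisfying (F0) of `TraceDual.exists_traceDual` for `lam` equals `G`.
-/

set_option autoImplicit false

open IntermediateField Polynomial

namespace Fermat.Agent.S44.D.RegSeam

variable {k K k' K' Ω : Type*} [Field k] [Field K] [Algebra k K] [Field k'] [IsAlgClosed k']
  [Field K'] [Algebra k' K'] [Field Ω] [Algebra K' Ω]
  (i : k →+* k') (r : K →+* K')
  (hir : ∀ a : k, r (algebraMap k K a) = algebraMap k' K' (i a))

include hir

/-- **Trace-duality of the descended logarithmic class** (small level): the two hypotheses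
`hG0`, `hGinf` of `TraceDualConv.exists_functional_of_traceDual`. -/
theorem traceDual_of_dlog_descent (j : K) [FiniteDimensional k⟮j⟯ K]
    [FiniteDimensional k'⟮r j⟯ K'] [Algebra.IsSeparable k'⟮r j⟯ K']
    (hli : ∀ (n : ℕ) (v : Fin n → K), LinearIndependent k⟮j⟯ v →
      LinearIndependent k'⟮r j⟯ (r ∘ v))
    (hspan : ∀ w : K', w ∈ Submodule.span k'⟮r j⟯ (Set.range r))
    (δ : Ω → Ω) (hadd : ∀ x y, δ (x + y) = δ x + δ y)
    (hmul : ∀ x y, δ (x * y) = δ x * y + x * δ y)
    (hconst : ∀ a : k', δ (algebraMap K' Ω (algebraMap k' K' a)) = 0)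
    (hc : δ (algebraMap K' Ω (r j)) ≠ 0)
    (p : ℕ) [CharP Ω p] (f : K') (hf : f ≠ 0)
    (hU : ∀ w : ValuationSubring K', ∃ u h : K', f = u * h ^ p ∧ u ∈ w ∧ u⁻¹ ∈ w)
    (G : K) (hG : algebraMap K' Ω (r G) * algebraMap K' Ω f * δ (algebraMap K' Ω (r j)) =
      δ (algebraMap K' Ω f)) :
    (∀ b : K, IsIntegral (Algebra.adjoin k {j}) b →
      ((Algebra.trace k⟮j⟯ K (G * b) : k⟮j⟯) : K) ∈ Algebra.adjoin k {j}) ∧
    (∀ c : K, IsIntegral (Algebra.adjoin k {j⁻¹}) c →
      ((Algebra.trace k⟮j⟯ K (G * j ^ 2 * c) : k⟮j⟯) : K) ∈ Algebra.adjoin k {j⁻¹}) := by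
  obtain ⟨h0', hinf'⟩ := RegDual.traceDual_of_dlog_simple (k := k') (r j) δ hadd hmul hconst hc
    p f hf hU (r G) hG
  have hj' : Transcendental k' (r j) :=
    RegDual.transcendental_of_deriv_ne_zero (k := k') (r j) (fun x => δ (algebraMap K' Ω x))
      hconst hc
  exact ⟨ConstTrace.traceDual_descent_zero i r hir j hj' hli hspan G h0',
    ConstTrace.traceDual_descent_inf i r hir j hj' hli hspan G hinf'⟩

/-- **The compiled seam.**  The functional of the descended logarithmic class, with the
round-trip property. -/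
theorem exists_functional_of_dlog (j : K) (hj : Transcendental k j) [FiniteDimensional k⟮j⟯ K]
    [Algebra.IsSeparable k⟮j⟯ K]
    [FiniteDimensional k'⟮r j⟯ K'] [Algebra.IsSeparable k'⟮r j⟯ K']
    (hli : ∀ (n : ℕ) (v : Fin n → K), LinearIndependent k⟮j⟯ v →
      LinearIndependent k'⟮r j⟯ (r ∘ v))
    (hspan : ∀ w : K', w ∈ Submodule.span k'⟮r j⟯ (Set.range r))
    (δ : Ω → Ω) (hadd : ∀ x y, δ (x + y) = δ x + δ y)
    (hmul : ∀ x y, δ (x * y) = δ x * y + x * δ y)
    (hconst : ∀ a : k', δ (algebraMap K' Ω (algebraMap k' K' a)) = 0)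
    (hc : δ (algebraMap K' Ω (r j)) ≠ 0)
    (p : ℕ) [CharP Ω p] (f : K') (hf : f ≠ 0)
    (hU : ∀ w : ValuationSubring K', ∃ u h : K', f = u * h ^ p ∧ u ∈ w ∧ u⁻¹ ∈ w)
    (G : K) (hG : algebraMap K' Ω (r G) * algebraMap K' Ω f * δ (algebraMap K' Ω (r j)) =
      δ (algebraMap K' Ω f)) :
    ∃ lam : K →ₗ[k] k,
      (∀ b : K, IsIntegral (Algebra.adjoin k {j}) b → lam b = 0) ∧
      (∀ c : K, IsIntegral (Algebra.adjoin k {j⁻¹}) c → lam c = 0) ∧
      ∀ G' : K, (∀ b : K, IsIntegral (Algebra.adjoin k {j}) b → ∃ n : ℕ,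
          (∀ m, n ≤ m → lam (j⁻¹ ^ (m + 1) * b) = 0) ∧
          ((Algebra.trace k⟮j⟯ K (G' * b) : k⟮j⟯) : K) =
            ∑ m ∈ Finset.range n, algebraMap k K (lam (j⁻¹ ^ (m + 1) * b)) * j ^ m) →
        G' = G := by
  obtain ⟨h0, hinf⟩ := traceDual_of_dlog_descent i r hir j hli hspan δ hadd hmul hconst hc
    p f hf hU G hG
  exact TraceDualConv.exists_functional_roundtrip j hj G h0 hinf

end Fermat.Agent.S44.D.RegSeam
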