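import Mathlib
import Fermat.Agent.S44.D.LiftBricks
import Fermat.Agent.S30.GaussDescent

/-!
# PROGRAM MR (S44), strand D: third-level contract for `TraceLiftStatement`

`TraceLiftStatement` of `S44/D/LiftBricks.lean` is split at an element `Gt : LE N' E` which is
trace-dual regular **modulo the Gauss prime** (`IsTraceDualRed`): for `x` integral over
`O_E[j]` the trace `Tr_{L_E/E(j)}(Gt x)` is Gauss-integral with reduction in `κ[j̄]`, and for
`x` integral over `O_E[1/j]` the trace `Tr(Gt j² x)` is Gauss-integral with reduction in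
`κ[1/j̄]` (`O_E = A ∩ E`, `κ` the residue field of `A`).

* `SpecialStatement` (special fibre: `RegLog ⟹ trace-dual` over `κ`, plus base change):
  for all sufficiently large number fields `E` there is `Gt : LE N' E`, Gauss-integral with
  reduction `Gb`, `Gb · θ(j̄) = φ`, trace-dual regular modulo the Gauss prime.
* `LiftCoreStatement` (Čech `H¹` is free + integral lift + trace self-duality at the Gauss
  prime): for all sufficiently large `E`, every such `Gt` can be replaced by a genuinely
  trace-dual regular `G : LE N' E` with the same reduction.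
-/

set_option autoImplicit false

open CuspForm ModularFormClass UpperHalfPlane HahnSeries Polynomial IntermediateField

namespace Fermat.Agent.S44.D

open Fermat.Agent.S44.Contract Fermat.Agent.S37.Fn
open Fermat.Agent.S18 Fermat.Agent.S18.K1Defs Fermat.Agent.S18.K1Main
open Fermat.Agent.S30

local notation "Qb" => AlgebraicClosure ℚ

/-- `Gt : LE N' E` is **trace-dual regular modulo the Gauss prime** of `A`. -/
def IsTraceDualRed (N' : ℕ) [NeZero N'] (A : ValuationSubring Qb) (E : IntermediateField ℚ Qb)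
    (Gt : LE N' E) : Prop :=
  letI := algebraOL (OE A E) E (LE N' E)
  (∀ x : LE N' E, IsIntegral (Algebra.adjoin (OE A E) {jE N' E}) x →
      ∃ Q : (IsLocalRing.ResidueField A)[X],
        IsRed N' A (K1Descent.upHom N' E
            ((Algebra.trace E⟮jE N' E⟯ (LE N' E) (Gt * x) : E⟮jE N' E⟯) : LE N' E))
          (aeval (ModularCurve.jqModC (IsLocalRing.ResidueField A)) Q)) ∧
  (∀ x : LE N' E, IsIntegral (Algebra.adjoin (OE A E) {(jE N' E)⁻¹}) x →
      ∃ Q : (IsLocalRing.ResidueField A)[X],
        IsRed N' A (K1Descent.upHom N' E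
            ((Algebra.trace E⟮jE N' E⟯ (LE N' E) (Gt * jE N' E ^ 2 * x) : E⟮jE N' E⟯) :
              LE N' E))
          (aeval (ModularCurve.jqModC (IsLocalRing.ResidueField A))⁻¹ Q))

/-- **Brick D-I.1a (special fibre + base change).** -/
def SpecialStatement : Prop :=
  ∀ (p N' : ℕ) [NeZero N'], p.Prime → 5 ≤ p → ¬ p ∣ N' →
    ∀ A : ValuationSubring Qb, A.LiesOverPrime p →
    ∀ (f : redField N' A) (g φ : LaurentSeries (IsLocalRing.ResidueField A)),
      f ≠ 0 →
      (∀ w : ValuationSubring (redField N' A),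
        ∃ u h : redField N' A, f = u * h ^ p ∧ u ∈ w ∧ u⁻¹ ∈ w) →
      (∀ n : ℤ, g.coeff n = (n : IsLocalRing.ResidueField A) *
        (f : LaurentSeries (IsLocalRing.ResidueField A)).coeff n) →
      φ * (f : LaurentSeries (IsLocalRing.ResidueField A)) = g →
      ∃ S₀ : Finset Qb, ∀ (E : IntermediateField ℚ Qb) [FiniteDimensional ℚ E]
        [IsDiscreteValuationRing (OE A E)], (∀ s ∈ S₀, s ∈ E) →
        ∃ (Gt : LE N' E) (Gb jθb : LaurentSeries (IsLocalRing.ResidueField A)),
          IsRed N' A (K1Descent.upHom N' E Gt) Gb ∧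
          IsThetaJ (IsLocalRing.ResidueField A) jθb ∧ Gb * jθb = φ ∧
          IsTraceDualRed N' A E Gt

/-- **Brick D-I.1b (integral lift).** -/
def LiftCoreStatement : Prop :=
  ∀ (p N' : ℕ) [NeZero N'], p.Prime → 5 ≤ p → ¬ p ∣ N' →
    ∀ A : ValuationSubring Qb, A.LiesOverPrime p →
      ∃ S₀ : Finset Qb, ∀ (E : IntermediateField ℚ Qb) [FiniteDimensional ℚ E]
        [IsDiscreteValuationRing (OE A E)], (∀ s ∈ S₀, s ∈ E) →
        ∀ (Gt : LE N' E) (Gb : LaurentSeries (IsLocalRing.ResidueField A)),
          IsRed N' A (K1Descent.upHom N' E Gt) Gb → IsTraceDualRed N' A E Gt →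
          ∃ G : LE N' E, IsTraceDualReg (E := E) (jE N' E) G ∧
            IsRed N' A (K1Descent.upHom N' E G) Gb

/-- **`TraceLiftStatement` from its two third-level bricks.** -/
theorem traceLiftStatement_of_bricks (hS : SpecialStatement) (hC : LiftCoreStatement) :
    TraceLiftStatement := by
  intro p N' _ hp hp5 hpN' A hA f g φ hf hw hg hφf
  obtain ⟨S₁, h1⟩ := hS p N' hp hp5 hpN' A hA f g φ hf hw hg hφf
  obtain ⟨S₂, h2⟩ := hC p N' hp hp5 hpN' A hA
  classical
  let E : IntermediateField ℚ Qb := IntermediateField.adjoin ℚ ((S₁ ∪ S₂ : Finset Qb) : Set Qb)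
  haveI hfd : FiniteDimensional ℚ E :=
    IntermediateField.finiteDimensional_adjoin
      (fun x _ => (AlgebraicClosure.isAlgebraic ℚ).isIntegral.isIntegral x)
  haveI : IsDiscreteValuationRing (OE A E) := GaussDescent.isDiscreteValuationRing_OE A E hp hA
  have hS₁ : ∀ s ∈ S₁, s ∈ E := fun s hs =>
    IntermediateField.subset_adjoin ℚ _ (by
      rw [Finset.coe_union]; exact Or.inl (Finset.mem_coe.mpr hs))
  have hS₂ : ∀ s ∈ S₂, s ∈ E := fun s hs =>
    IntermediateField.subset_adjoin ℚ _ (by
      rw [Finset.coe_union]; exact Or.inr (Finset.mem_coe.mpr hs))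
  obtain ⟨Gt, Gb, jθb, hred, hθ, hGb, hdual⟩ := h1 E hS₁
  obtain ⟨G, hG, hredG⟩ := h2 E hS₂ Gt Gb hred hdual
  exact ⟨E, hfd, G, Gb, jθb, hG, hredG, hθ, hGb⟩

/-- **The lifting brick from the four open bricks of strand D.** -/
theorem liftStatement_of_four (hS : SpecialStatement) (hC : LiftCoreStatement)
    (hDict : DictStatement) (hInt : IntCoeffStatement) : LiftStatement :=
  liftStatement_of_bricks (traceLiftStatement_of_bricks hS hC) hDict hInt

end Fermat.Agent.S44.D
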