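import Mathlib
import Fermat.Agent.S44.D.TraceLiftBricks

/-!
# PROGRAM MR (S44), strand D: the split of `SpecialStatement`

`SpecialStatement` of `S44/D/TraceLiftBricks.lean` is split at an element `Gb` of the reduced
function field `redField N' A ⊆ κ((q))` which is trace-dual regular over the constants
(`IsTraceDualReg`, for the extension `redField N' A / κ₀(t)`; vocabulary of `S44/H/Bricks.lean`:
`κ₀` the subfield of constants of `redField N' A`, `t = j̄`).

* `RegStatement` (characteristic `p`, no lifting): for a `RegLog` datum `(f, g, φ)` the function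
  `Gb = φ / θ(j̄) = θ f / (f θ(j̄))` lies in `redField N' A` and is trace-dual regular
  ("`dlog f` is a regular differential when `p` divides every order of `f`").
* `BaseChangeStatement` (reduction commutes with traces): a trace-dual regular `Gb` of the
  reduced field has, for all sufficiently large number fields `E`, a lift `Gt : LE N' E` which is
  trace-dual regular modulo the Gauss prime.
-/

set_option autoImplicit false

open CuspForm ModularFormClass UpperHalfPlane HahnSeries Polynomial IntermediateField

namespace Fermat.Agent.S44.D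

open Fermat.Agent.S44.Contract Fermat.Agent.S37.Fn
open Fermat.Agent.S18 Fermat.Agent.S18.K1Defs Fermat.Agent.S18.K1Main
open Fermat.Agent.S30

local notation "Qb" => AlgebraicClosure ℚ

/-- **Brick D-I.1a.i (regularity on the special fibre).** -/
def RegStatement : Prop :=
  ∀ (p N' : ℕ) [NeZero N'], p.Prime → 5 ≤ p → ¬ p ∣ N' →
    ∀ A : ValuationSubring Qb, A.LiesOverPrime p →
    ∀ (f : redField N' A) (g φ : LaurentSeries (IsLocalRing.ResidueField A)),
      f ≠ 0 →
      (∀ w : ValuationSubring (redField N' A),
        ∃ u h : redField N' A, f = u * h ^ p ∧ u ∈ w ∧ u⁻¹ ∈ w) →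
      (∀ n : ℤ, g.coeff n = (n : IsLocalRing.ResidueField A) *
        (f : LaurentSeries (IsLocalRing.ResidueField A)).coeff n) →
      φ * (f : LaurentSeries (IsLocalRing.ResidueField A)) = g →
      ∃ (κ₀ : Subfield (redField N' A)) (t Gb : redField N' A)
        (jθb : LaurentSeries (IsLocalRing.ResidueField A)),
        (∀ x : redField N' A, x ∈ κ₀ ↔ ∃ c : IsLocalRing.ResidueField A,
          (x : LaurentSeries (IsLocalRing.ResidueField A)) = HahnSeries.C c) ∧
        (t : LaurentSeries (IsLocalRing.ResidueField A)) =
          ModularCurve.jqModC (IsLocalRing.ResidueField A) ∧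
        IsThetaJ (IsLocalRing.ResidueField A) jθb ∧
        (Gb : LaurentSeries (IsLocalRing.ResidueField A)) * jθb = φ ∧
        IsTraceDualReg (E := κ₀) t Gb

/-- **Brick D-I.1a.ii (base change: reduction commutes with traces).** -/
def BaseChangeStatement : Prop :=
  ∀ (p N' : ℕ) [NeZero N'], p.Prime → 5 ≤ p → ¬ p ∣ N' →
    ∀ A : ValuationSubring Qb, A.LiesOverPrime p →
    ∀ (κ₀ : Subfield (redField N' A)) (t Gb : redField N' A),
      (∀ x : redField N' A, x ∈ κ₀ ↔ ∃ c : IsLocalRing.ResidueField A,
        (x : LaurentSeries (IsLocalRing.ResidueField A)) = HahnSeries.C c) →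
      (t : LaurentSeries (IsLocalRing.ResidueField A)) =
        ModularCurve.jqModC (IsLocalRing.ResidueField A) →
      IsTraceDualReg (E := κ₀) t Gb →
      ∃ S₀ : Finset Qb, ∀ (E : IntermediateField ℚ Qb) [FiniteDimensional ℚ E]
        [IsDiscreteValuationRing (OE A E)], (∀ s ∈ S₀, s ∈ E) →
        ∃ Gt : LE N' E,
          IsRed N' A (K1Descent.upHom N' E Gt)
            (Gb : LaurentSeries (IsLocalRing.ResidueField A)) ∧
          IsTraceDualRed N' A E Gt

/-- **`SpecialStatement` from its two bricks.** -/
theorem specialStatement_of_bricks (hReg : RegStatement) (hBC : BaseChangeStatement) :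
    SpecialStatement := by
  intro p N' _ hp hp5 hpN' A hA f g φ hf hw hg hφf
  obtain ⟨κ₀, t, Gb, jθb, hκ₀, ht, hθ, hGb, hdual⟩ :=
    hReg p N' hp hp5 hpN' A hA f g φ hf hw hg hφf
  obtain ⟨S₀, h⟩ := hBC p N' hp hp5 hpN' A hA κ₀ t Gb hκ₀ ht hdual
  refine ⟨S₀, fun E _ _ hE => ?_⟩
  obtain ⟨Gt, hred, hd⟩ := h E hE
  exact ⟨Gt, (Gb : LaurentSeries (IsLocalRing.ResidueField A)), jθb, hred, hθ, hGb, hd⟩

/-- **Strand D from its five open bricks.** -/
theorem liftStatement_of_five (hReg : RegStatement) (hBC : BaseChangeStatement)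
    (hC : LiftCoreStatement) (hDict : DictStatement) (hInt : IntCoeffStatement) :
    LiftStatement :=
  liftStatement_of_four (specialStatement_of_bricks hReg hBC) hC hDict hInt

end Fermat.Agent.S44.D
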