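import Fermat.Agent.S30.Ramif.AdjoinDual
import Fermat.Agent.S30.Normal.TameDual

set_option autoImplicit false
set_option linter.unusedSectionVars false
set_option linter.style.haveILetI false

/-!
# PROGRAM MR (S44), strand D, row (d.1): the tame bound for trace-dual elements

`E` a field of characteristic zero, `L / E` a field, `u : L` transcendental over `E` with
`L / E(u)` finite, `f : E[X]` irreducible, `t = f(u)`.  If `G : L` is trace-dual to the integral
closure of `E[u]` in `L` (`Tr_{L/E(u)}(G y) ∈ E[u]` for all `y` integral over `E[u]`), then at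
every place `v` of `L / E` over the closed point `t = 0` of `Spec E[u]`

  `1 - v.ord t ≤ v.ord G`,

i.e. `G` has a pole of order at most `e_v - 1` (the different is tame in characteristic zero).

Proof: some `d • G` is integral, `d = t ^ m * d'` with `t ∤ d'`; `TameDual.dvd_of_sq_dvd_trace`
lowers `m` to `1`; `TameDual.exists_pow_dvd_of_trace_dvd` shows `t d' G` is nilpotent modulo `t`,
hence of positive order at `v`; `d'` is a unit at `v`.
-/

namespace Fermat.Agent.S44.D.TameBound

open AlgebraicCurve IsDedekindDomain IntermediateField Polynomial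
open Fermat.Agent.S30.Normal

section Core

variable {E A K L B : Type*} [Field E] [CommRing A] [Field K] [CommRing B] [Field L]
  [Algebra A K] [Algebra B L] [Algebra A B] [Algebra K L] [Algebra A L]
  [IsScalarTower A K L] [IsScalarTower A B L]
  [IsDomain A] [IsPrincipalIdealRing A] [IsDedekindDomain B]
  [Module.Free A B] [Module.Finite A B] [Algebra E L]

/-- **Tame bound, abstract form.** -/
theorem one_sub_ord_le_ord_core
    (hAK : Function.Injective (algebraMap A K))
    (htrace : ∀ b : B, Algebra.trace K L (algebraMap B L b) = algebraMap A K (Algebra.trace A B b))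
    (hden : ∀ x : L, ∃ d : A, d ≠ 0 ∧ ∃ b : B, algebraMap B L b = algebraMap A L d * x)
    (π : A) (hπ : Prime π) [CharZero (A ⧸ Ideal.span {π})] (G : L)
    (htr : ∀ y : B, ∃ w : A, Algebra.trace K L (G * algebraMap B L y) = algebraMap A K w)
    (v : Place E L) (hvB : ∀ c : B, algebraMap B L c ∈ v.toValuationSubring)
    (hpos : 0 < v.ord (algebraMap A L π)) :
    1 - v.ord (algebraMap A L π) ≤ v.ord G := by
  classical
  rcases eq_or_ne G 0 with rfl | hG
  · rw [v.ord_zero]; omega
  have hAL : ∀ a : A, algebraMap A L a = algebraMap B L (algebraMap A B a) :=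
    fun a => IsScalarTower.algebraMap_apply A B L a
  have hALK : ∀ a : A, algebraMap A L a = algebraMap K L (algebraMap A K a) :=
    fun a => IsScalarTower.algebraMap_apply A K L a
  have hALinj : Function.Injective (algebraMap A L) := by
    intro a b hab
    rw [hALK, hALK] at hab
    exact hAK ((algebraMap K L).injective hab)
  have hπ0 : π ≠ 0 := hπ.ne_zero
  have hπL : algebraMap A L π ≠ 0 := fun h => hπ0 (hALinj (by rw [h, map_zero]))
  -- the trace of `a • G • z`
  have htrG : ∀ (a : A) (b z : B), algebraMap B L b = algebraMap A L a * G →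
      ∃ w : A, Algebra.trace A B (b * z) = a * w := by
    intro a b z hb
    obtain ⟨w, hw⟩ := htr z
    refine ⟨w, hAK ?_⟩
    rw [← htrace, map_mul, hb, mul_assoc, hALK, ← Algebra.smul_def, map_smul, hw, smul_eq_mul,
      map_mul]
  -- clear denominators
  obtain ⟨d, hd0, b0, hb0⟩ := hden G
  obtain ⟨m, d', hd', rfl⟩ := WfDvdMonoid.max_power_factor hd0 hπ.irreducible
  have hd'0 : d' ≠ 0 := by
    rintro rfl
    exact hd0 (mul_zero _)
  have hd'L : algebraMap A L d' ≠ 0 := fun h => hd'0 (hALinj (by rw [h, map_zero]))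
  -- lower the exponent to one
  have hstep : ∀ k : ℕ, 1 ≤ k →
      (∃ b : B, algebraMap B L b = algebraMap A L (π ^ k * d') * G) →
      ∃ b : B, algebraMap B L b = algebraMap A L (π * d') * G := by
    intro k hk
    induction k, hk using Nat.le_induction with
    | base =>
      intro h
      simpa using h
    | succ k hk ih =>
      rintro ⟨b, hb⟩
      apply ih
      have hsq : ∀ z : B, π ^ 2 ∣ Algebra.trace A B (b * z) := by
        intro z
        obtain ⟨w, hw⟩ := htrG _ b z hb
        have hk2 : π ^ (k + 1) = π ^ 2 * π ^ (k - 1) := by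
          rw [← pow_add]; congr 1; omega
        rw [hw, hk2]
        exact ⟨π ^ (k - 1) * d' * w, by ring⟩
      obtain ⟨b', rfl⟩ := TameDual.dvd_of_sq_dvd_trace hπ b hsq
      refine ⟨b', ?_⟩
      have h1 : algebraMap A L π * algebraMap B L b'
          = algebraMap A L π * (algebraMap A L (π ^ k * d') * G) := by
        have h2 : algebraMap A L π * algebraMap B L b'
            = algebraMap B L (algebraMap A B π * b') := by
          rw [map_mul, ← hAL]
        rw [h2, hb, show π ^ (k + 1) * d' = π * (π ^ k * d') by ring, map_mul, mul_assoc]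
      exact mul_left_cancel₀ hπL h1
  obtain ⟨b1, hb1⟩ : ∃ b : B, algebraMap B L b = algebraMap A L (π * d') * G := by
    rcases Nat.eq_zero_or_pos m with rfl | hm
    · refine ⟨algebraMap A B π * b0, ?_⟩
      rw [map_mul, hb0, ← hAL]
      simp only [map_mul, pow_zero, one_mul]
      ring
    · exact hstep m hm ⟨b0, hb0⟩
  -- `b1` is nilpotent modulo `π`
  have hI : (Ideal.span {π} : Ideal A).IsPrime := (Ideal.span_singleton_prime hπ0).mpr hπ
  have hdvd : ∀ z : B, π ∣ Algebra.trace A B (b1 * z) := by
    intro z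
    obtain ⟨w, hw⟩ := htrG _ b1 z hb1
    rw [hw]
    exact ⟨d' * w, by ring⟩
  obtain ⟨n, c, hc⟩ := TameDual.exists_pow_dvd_of_trace_dvd (Module.Free.chooseBasis A B) hI b1 hdvd
  -- orders
  have hb1L : algebraMap B L b1 ≠ 0 := by
    rw [hb1, map_mul]
    exact mul_ne_zero (mul_ne_zero hπL hd'L) hG
  have hcL : algebraMap B L c ≠ 0 := by
    intro h0
    have h1 := congrArg (algebraMap B L) hc
    rw [map_pow, map_mul, h0, mul_zero] at h1
    exact pow_ne_zero n hb1L h1
  have hordc : 0 ≤ v.ord (algebraMap B L c) := Fermat.Agent.S24.FF.ord_nonneg_of_mem v (hvB c)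
  have hpow : (n : ℤ) * v.ord (algebraMap B L b1)
      = v.ord (algebraMap A L π) + v.ord (algebraMap B L c) := by
    have h1 := congrArg (algebraMap B L) hc
    rw [map_pow, map_mul, ← hAL] at h1
    rw [← v.ord_mul hπL hcL, ← h1, ← zpow_natCast, v.ord_zpow]
  have hb1pos : 1 ≤ v.ord (algebraMap B L b1) := by
    have h2 : 0 < (n : ℤ) * v.ord (algebraMap B L b1) := by rw [hpow]; omega
    have h3 : 0 < v.ord (algebraMap B L b1) := by
      by_contra hle
      rw [not_lt] at hle
      have : (n : ℤ) * v.ord (algebraMap B L b1) ≤ 0 :=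
        mul_nonpos_of_nonneg_of_nonpos (Int.natCast_nonneg n) hle
      omega
    omega
  -- `d'` is a unit at `v`
  have hordd' : v.ord (algebraMap A L d') = 0 := by
    have h0 : 0 ≤ v.ord (algebraMap A L d') := by
      rw [hAL]
      exact Fermat.Agent.S24.FF.ord_nonneg_of_mem v (hvB _)
    by_contra hne
    have hposd : 0 < v.ord (algebraMap A L d') := lt_of_le_of_ne h0 (Ne.symm hne)
    obtain ⟨r, s, hrs⟩ := (Irreducible.coprime_iff_not_dvd hπ.irreducible).mpr hd'
    have h1 : algebraMap A L r * algebraMap A L π + algebraMap A L s * algebraMap A L d' = 1 := by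
      rw [← map_mul, ← map_mul, ← map_add, hrs, map_one]
    have hmemr : algebraMap A L r ∈ v.toValuationSubring := by rw [hAL]; exact hvB _
    have hmems : algebraMap A L s ∈ v.toValuationSubring := by rw [hAL]; exact hvB _
    have hπm := Fermat.Agent.S24.FF.mem_maximalIdeal_of_ord_pos v hpos
    have hdm := Fermat.Agent.S24.FF.mem_maximalIdeal_of_ord_pos v hposd
    have hone : (1 : v.toValuationSubring) ∈ IsLocalRing.maximalIdeal v.toValuationSubring := by
      have h2 := Ideal.add_mem _
        (Ideal.mul_mem_left _ (⟨_, hmemr⟩ : v.toValuationSubring) hπm)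
        (Ideal.mul_mem_left _ (⟨_, hmems⟩ : v.toValuationSubring) hdm)
      convert h2 using 1
      exact Subtype.ext h1.symm
    exact (Ideal.ne_top_iff_one _).mp (IsLocalRing.maximalIdeal.isMaximal _).ne_top hone
  have hsplit : v.ord (algebraMap B L b1)
      = v.ord (algebraMap A L π) + v.ord (algebraMap A L d') + v.ord G := by
    rw [hb1, map_mul, v.ord_mul (mul_ne_zero hπL hd'L) hG, v.ord_mul hπL hd'L]
  omega

end Core

section Concrete

open scoped IntermediateField.algebraAdjoinAdjoin
open Fermat.Agent.S30.Ramif nonZeroDivisors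

variable (E : Type*) {L : Type*} [Field E] [Field L] [Algebra E L] (u : L)

/-- `E[u]` lies in the valuation ring of every place at which `u` is regular. -/
theorem adjoin_mem_of_ord_nonneg (hu0 : u ≠ 0) (v : Place E L) (hvu : 0 ≤ v.ord u)
    (r : Algebra.adjoin E {u}) :
    algebraMap (Algebra.adjoin E {u}) L r ∈ v.toValuationSubring := by
  have hu : u ∈ v.toValuationSubring := (Fermat.Agent.S24.FF.ord_nonneg_iff v hu0).mp hvu
  obtain ⟨r, hr⟩ := r
  show r ∈ v.toValuationSubring
  induction hr using Algebra.adjoin_induction with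
  | mem x hx =>
    rw [Set.mem_singleton_iff] at hx
    rw [hx]; exact hu
  | algebraMap c => exact v.algebraMap_mem' c
  | add x y _ _ hx hy => exact add_mem hx hy
  | mul x y _ _ hx hy => exact mul_mem hx hy

/-- **Tame bound (row (d.1)).**  A trace-dual element has a pole of order at most `e_v - 1` at
every place `v` over the closed point `f(u) = 0`. -/
theorem one_sub_ord_le_ord [CharZero E] (hu : Transcendental E u)
    [FiniteDimensional E⟮u⟯ L] (f : E[X]) (hf : Irreducible f) (G : L)
    (htr : ∀ y : L, IsIntegral (Algebra.adjoin E {u}) y →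
      ∃ w : E[X], ((Algebra.trace E⟮u⟯ L (G * y) : E⟮u⟯) : L) = aeval u w)
    (v : Place E L) (hvu : 0 ≤ v.ord u) (hvt : 0 < v.ord (aeval u f)) :
    1 - v.ord (aeval u f) ≤ v.ord G := by
  classical
  have hu0 : u ≠ 0 := fun h => hu (h ▸ isAlgebraic_zero)
  have hPID : IsPrincipalIdealRing (Algebra.adjoin E {u}) := adjoin_isPrincipalIdealRing E u hu
  have hDedB : IsDedekindDomain (integralClosure (Algebra.adjoin E {u}) L) :=
    integralClosure.isDedekindDomain (Algebra.adjoin E {u}) E⟮u⟯ L
  have hfin : Module.Finite (Algebra.adjoin E {u}) (integralClosure (Algebra.adjoin E {u}) L) :=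
    IsIntegralClosure.finite (Algebra.adjoin E {u}) E⟮u⟯ L _
  have hfree : Module.Free (Algebra.adjoin E {u}) (integralClosure (Algebra.adjoin E {u}) L) :=
    IsIntegralClosure.module_free (Algebra.adjoin E {u}) E⟮u⟯ L _
  have hloc : IsLocalization
      (Algebra.algebraMapSubmonoid (integralClosure (Algebra.adjoin E {u}) L)
        (Algebra.adjoin E {u})⁰) L :=
    IsIntegralClosure.isLocalization (Algebra.adjoin E {u}) E⟮u⟯ L _
  set π : Algebra.adjoin E {u} := polyGen E u f with hπdef
  have hπirr : Irreducible π := polyGen_irreducible E u hu hf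
  have hπ : Prime π := hπirr.prime
  have hne : (Ideal.span {π} : Ideal (Algebra.adjoin E {u})) ≠ ⊤ := by
    rw [Ne, Ideal.span_singleton_eq_top]
    exact hπirr.not_isUnit
  haveI : Nontrivial (Algebra.adjoin E {u} ⧸ Ideal.span {π}) :=
    Ideal.Quotient.nontrivial_iff.mpr hne
  haveI hchar : CharZero (Algebra.adjoin E {u} ⧸ Ideal.span {π}) :=
    charZero_of_injective_ringHom
      (f := (algebraMap (Algebra.adjoin E {u}) (Algebra.adjoin E {u} ⧸ Ideal.span {π})).comp
        (algebraMap E (Algebra.adjoin E {u}))) (RingHom.injective _)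
  have hπL : algebraMap (Algebra.adjoin E {u}) L π = aeval u f := rfl
  rw [← hπL] at hvt ⊢
  refine one_sub_ord_le_ord_core (E := E) (K := E⟮u⟯)
    (B := integralClosure (Algebra.adjoin E {u}) L)
    (IsFractionRing.injective (Algebra.adjoin E {u}) E⟮u⟯)
    (fun b => Algebra.trace_localization (Algebra.adjoin E {u}) (Algebra.adjoin E {u})⁰ b)
    ?_ π hπ G ?_ v ?_ hvt
  · intro x
    obtain ⟨⟨b, ⟨s, d, hd, hds⟩⟩, hb⟩ := IsLocalization.surj
      (Algebra.algebraMapSubmonoid (integralClosure (Algebra.adjoin E {u}) L)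
        (Algebra.adjoin E {u})⁰) x
    refine ⟨d, nonZeroDivisors.ne_zero hd, b, ?_⟩
    simp only at hb
    rw [← hb, ← hds, mul_comm]
    rfl
  · intro y
    obtain ⟨w, hw⟩ := htr (y : L) y.2
    exact ⟨polyGen E u w, Subtype.ext hw⟩
  · intro c
    exact Fermat.Agent.S24.FF.mem_of_isIntegral v (adjoin_mem_of_ord_nonneg E u hu0 v hvu) c.2

end Concrete

end Fermat.Agent.S44.D.TameBound
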