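import Mathlib
import Fermat.Agent.Lib.TameDual

/-!
# Tame trace duals, elementwise over a Noetherian domain: the nilpotent form

`A` a Noetherian domain, `s` a prime element with `A ⧸ s` of characteristic zero, `K = Frac A`,
`L / K` finite.  If `Tr_{L/K}(x y) ∈ A_(s)` for every `y ∈ L` integral over `A`, then for some
`w ∉ (s)` the element `W = w s x` is integral over `A` and `W ^ (n + 1) = s c` with `c` integral
over `A` (`tame_nil`).  Consequently, at every valuation ring `𝒪` of `L` containing `A` in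
which `s` is a non-unit and every `t ∉ (s)` is a unit, `s x` lies in the maximal ideal of `𝒪`
(`tame_nil_valuationSubring`): "`x` has a pole of order `< e` at every point above `s`".

This is `Lib/TameDual.tame_dual` (the different divides `∏ Q ^ (e_Q - 1)`) in the
localisation-free vocabulary of `Lib/TameCodiff.exists_isIntegral_smul_of_trace_mem`.
-/

set_option autoImplicit false

namespace Fermat.Agent.S44.D.TameNil

open IsLocalRing

variable {A K L : Type*} [CommRing A] [IsDomain A] [IsNoetherianRing A]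
  [Field K] [Algebra A K] [IsFractionRing A K] [Field L] [Algebra K L] [FiniteDimensional K L]
  [Algebra A L] [IsScalarTower A K L]

/-- **Tame trace dual, nilpotent form, elementwise.** -/
theorem tame_nil
    (s : A) (hs : Prime s) (hchar : ∀ n : ℕ, n ≠ 0 → ¬ s ∣ (n : A))
    (x : L)
    (hx : ∀ y : L, IsIntegral A y → ∃ a t : A, ¬ s ∣ t ∧
      Algebra.trace K L (x * y) * algebraMap A K t = algebraMap A K a) :
    ∃ (w : A) (n : ℕ) (c : L), ¬ s ∣ w ∧ IsIntegral A (algebraMap A L (w * s) * x) ∧
      IsIntegral A c ∧ (algebraMap A L (w * s) * x) ^ (n + 1) = algebraMap A L s * c := by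
  classical
  obtain ⟨P, hP⟩ : ∃ P : Ideal A, P = Ideal.span {s} := ⟨_, rfl⟩
  have hPprime : P.IsPrime := hP ▸ (Ideal.span_singleton_prime hs.ne_zero).mpr hs
  have hmemP : ∀ a : A, a ∈ P ↔ s ∣ a := fun a => hP ▸ Ideal.mem_span_singleton
  let A' := Localization.AtPrime P
  have hle : P.primeCompl ≤ nonZeroDivisors A := P.primeCompl_le_nonZeroDivisors
  let iA'K : Algebra A' K :=
    (IsLocalization.lift (M := P.primeCompl) (g := algebraMap A K) (fun y =>
      IsUnit.mk0 _ ((map_ne_zero_iff _ (IsFractionRing.injective A K)).mpr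
        (nonZeroDivisors.ne_zero (hle y.2))))).toAlgebra
  have hT1 : IsScalarTower A A' K := IsScalarTower.of_algebraMap_eq (fun a => by
    rw [RingHom.algebraMap_toAlgebra, IsLocalization.lift_eq])
  let iA'L : Algebra A' L := ((algebraMap K L).comp (algebraMap A' K)).toAlgebra
  have hT2 : IsScalarTower A' K L := IsScalarTower.of_algebraMap_eq (fun a => rfl)
  have hT3 : IsScalarTower A A' L := IsScalarTower.of_algebraMap_eq (fun a => by
    rw [IsScalarTower.algebraMap_apply A' K L, ← IsScalarTower.algebraMap_apply A A' K,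
      ← IsScalarTower.algebraMap_apply A K L])
  have hFrac : IsFractionRing A' K :=
    IsFractionRing.isFractionRing_of_isDomain_of_isLocalization P.primeCompl A' K
  have hNoeth : IsNoetherianRing A' := IsLocalization.isNoetherianRing P.primeCompl A' inferInstance
  -- `A'` is a DVR
  have hmax : maximalIdeal A' = Ideal.span {algebraMap A A' s} := by
    rw [← Localization.AtPrime.map_eq_maximalIdeal]
    have h1 : Ideal.map (algebraMap A A') P = Ideal.map (algebraMap A A') (Ideal.span {s}) :=
      congrArg (Ideal.map (algebraMap A A')) hP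
    rw [h1, Ideal.map_span, Set.image_singleton]
  have hsA'0 : algebraMap A A' s ≠ 0 :=
    (map_ne_zero_iff _ (IsLocalization.injective A' hle)).mpr hs.ne_zero
  have hprinc : (maximalIdeal A').IsPrincipal := ⟨⟨_, hmax⟩⟩
  have hnf : ¬ IsField A' := by
    intro hf
    have h0 : maximalIdeal A' = ⊥ := IsLocalRing.isField_iff_maximalIdeal_eq.mp hf
    rw [hmax, Ideal.span_singleton_eq_bot] at h0
    exact hsA'0 h0
  have hDVR : IsDiscreteValuationRing A' :=
    ((IsDiscreteValuationRing.TFAE A' hnf).out 0 4).mpr hprinc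
  have hirr : Irreducible (algebraMap A A' s) := by
    rw [IsDiscreteValuationRing.irreducible_iff_uniformizer, hmax]
  have hchar' : ∀ n : ℕ, n ≠ 0 → ¬ algebraMap A A' s ∣ (n : A') := by
    intro n hn0 hdvd
    have h2 : algebraMap A A' (n : A) ∈ maximalIdeal A' := by
      rw [map_natCast, hmax, Ideal.mem_span_singleton]
      exact hdvd
    rw [IsLocalization.AtPrime.to_map_mem_maximal_iff A' P] at h2
    exact hchar n hn0 ((hmemP _).mp h2)
  have hcA' : CharZero A' := by
    apply charZero_of_inj_zero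
    intro n hn
    by_contra hn0
    exact hchar' n hn0 (by rw [hn]; exact dvd_zero _)
  have hcK : CharZero K := charZero_of_injective_algebraMap (IsFractionRing.injective A' K)
  have hsepKL : Algebra.IsSeparable K L := Algebra.IsAlgebraic.isSeparable_of_perfectField
  -- the integral closure of `A'` in `L`
  let B' := integralClosure A' L
  -- the trace hypothesis over `A'`
  have hx' : ∀ y : B', Algebra.trace K L (x * algebraMap B' L y) ∈ (algebraMap A' K).range := by
    intro y
    have hy : IsIntegral A' (algebraMap B' L y) := y.2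
    obtain ⟨⟨t, ht⟩, hty⟩ :=
      IsIntegral.exists_multiple_integral_of_isLocalization P.primeCompl (algebraMap B' L y) hy
    have hty' : IsIntegral A (algebraMap A L t * algebraMap B' L y) := by
      have e : (⟨t, ht⟩ : P.primeCompl) • algebraMap B' L y
          = algebraMap A L t * algebraMap B' L y := by
        rw [Submonoid.smul_def, Algebra.smul_def]
      rwa [e] at hty
    obtain ⟨a, t', ht', hat'⟩ := hx _ hty'
    have htt' : t * t' ∈ P.primeCompl := by
      intro h
      rcases hPprime.mem_or_mem h with h | h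
      · exact ht h
      · exact ht' ((hmemP _).mp h)
    refine ⟨IsLocalization.mk' A' a ⟨t * t', htt'⟩, ?_⟩
    have h1 : Algebra.trace K L (x * (algebraMap A L t * algebraMap B' L y))
        = algebraMap A K t * Algebra.trace K L (x * algebraMap B' L y) := by
      rw [IsScalarTower.algebraMap_apply A K L, mul_left_comm, ← Algebra.smul_def, map_smul,
        smul_eq_mul]
    rw [h1] at hat'
    have htK : algebraMap A K (t * t') ≠ 0 :=
      (map_ne_zero_iff _ (IsFractionRing.injective A K)).mpr
        (nonZeroDivisors.ne_zero (hle htt'))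
    have h2 : algebraMap A' K (IsLocalization.mk' A' a ⟨t * t', htt'⟩) * algebraMap A K (t * t')
        = algebraMap A K a := by
      rw [IsScalarTower.algebraMap_apply A A' K (t * t'), ← map_mul,
        IsLocalization.mk'_spec, ← IsScalarTower.algebraMap_apply]
    apply mul_right_cancel₀ htK
    rw [h2, ← hat', (algebraMap A K).map_mul]
    ring
  obtain ⟨w', hw', n, hn⟩ := Fermat.Agent.Lib.TameDual.tame_dual (A := A') (K := K) (L := L)
    (B := B') (algebraMap A A' s) hirr hchar' x hx'
  -- `w' ^ (n + 1) = s * c'` in `B'`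
  have hn1 : w' ^ (n + 1) ∈ Ideal.span {algebraMap A' B' (algebraMap A A' s)} := by
    rw [pow_succ]
    exact Ideal.mul_mem_right _ _ hn
  obtain ⟨c', hc'⟩ := Ideal.mem_span_singleton.mp hn1
  -- clear the denominators
  obtain ⟨⟨w₁, hw₁⟩, hw₁int⟩ :=
    IsIntegral.exists_multiple_integral_of_isLocalization P.primeCompl (algebraMap B' L w') w'.2
  obtain ⟨⟨w₂, hw₂⟩, hw₂int⟩ :=
    IsIntegral.exists_multiple_integral_of_isLocalization P.primeCompl (algebraMap B' L c') c'.2
  have e₁ : (⟨w₁, hw₁⟩ : P.primeCompl) • algebraMap B' L w'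
      = algebraMap A L w₁ * algebraMap B' L w' := by
    rw [Submonoid.smul_def, Algebra.smul_def]
  have e₂ : (⟨w₂, hw₂⟩ : P.primeCompl) • algebraMap B' L c'
      = algebraMap A L w₂ * algebraMap B' L c' := by
    rw [Submonoid.smul_def, Algebra.smul_def]
  rw [e₁] at hw₁int
  rw [e₂] at hw₂int
  have hsx : algebraMap A L s * x = algebraMap B' L w' := by
    rw [← hw', ← IsScalarTower.algebraMap_apply A A' L]
  have hW : algebraMap A L (w₁ * w₂ * s) * x
      = algebraMap A L w₂ * (algebraMap A L w₁ * algebraMap B' L w') := by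
    rw [← hsx, map_mul, map_mul]
    ring
  have hpow : (algebraMap B' L w') ^ (n + 1) = algebraMap A L s * algebraMap B' L c' := by
    rw [← map_pow, hc', map_mul, ← IsScalarTower.algebraMap_apply A' B' L,
      ← IsScalarTower.algebraMap_apply A A' L]
  refine ⟨w₁ * w₂, n, algebraMap A L (w₁ ^ (n + 1) * w₂ ^ n) *
      (algebraMap A L w₂ * algebraMap B' L c'), ?_, ?_, ?_, ?_⟩
  · intro h
    rcases hs.dvd_or_dvd h with h | h
    · exact hw₁ ((hmemP _).mpr h)
    · exact hw₂ ((hmemP _).mpr h)
  · rw [hW]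
    exact isIntegral_algebraMap.mul hw₁int
  · exact isIntegral_algebraMap.mul hw₂int
  · rw [hW, mul_pow, mul_pow, hpow, map_mul, map_pow, map_pow]
    ring

/-- **Tame trace dual at a valuation ring.**  Under the hypotheses of `tame_nil`, let `𝒪` be a
valuation subring of `L` containing the image of `A`, in which every `t ∉ (s)` is a unit and `s`
is not a unit.  Then `s x` lies in `𝒪` and, if `x ≠ 0`, is not a unit of `𝒪`
(`v (s x) > 0` for the valuation `v` of `𝒪`). -/
theorem tame_nil_valuationSubring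
    (s : A) (hs : Prime s) (hchar : ∀ n : ℕ, n ≠ 0 → ¬ s ∣ (n : A))
    (x : L)
    (hx : ∀ y : L, IsIntegral A y → ∃ a t : A, ¬ s ∣ t ∧
      Algebra.trace K L (x * y) * algebraMap A K t = algebraMap A K a)
    (𝒪 : ValuationSubring L) (hA : ∀ a : A, algebraMap A L a ∈ 𝒪)
    (hunit : ∀ t : A, ¬ s ∣ t → (algebraMap A L t)⁻¹ ∈ 𝒪)
    (hsO : (algebraMap A L s)⁻¹ ∉ 𝒪) :
    algebraMap A L s * x ∈ 𝒪 ∧ (x ≠ 0 → (algebraMap A L s * x)⁻¹ ∉ 𝒪) := by
  obtain ⟨w, n, c, hw, hWint, hcint, hpow⟩ := tame_nil (K := K) s hs hchar x hx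
  have hinj : Function.Injective (algebraMap A L) := by
    rw [IsScalarTower.algebraMap_eq A K L]
    exact (algebraMap K L).injective.comp (IsFractionRing.injective A K)
  -- integral elements lie in `𝒪`
  have hint : ∀ y : L, IsIntegral A y → y ∈ 𝒪 := by
    intro y hy
    have h1 : IsIntegral 𝒪 y := by
      obtain ⟨p, hp, hpy⟩ := hy
      let φ : A →+* 𝒪 := (algebraMap A L).codRestrict 𝒪.toSubring hA
      refine ⟨p.map φ, hp.map φ, ?_⟩
      rw [Polynomial.eval₂_map]
      have : (algebraMap 𝒪 L).comp φ = algebraMap A L := RingHom.ext fun a => rfl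
      rw [this]
      exact hpy
    obtain ⟨z, hz⟩ := (IsIntegrallyClosed.isIntegral_iff (R := 𝒪) (K := L)).mp h1
    rw [← hz]
    exact z.2
  have hW : algebraMap A L (w * s) * x ∈ 𝒪 := hint _ hWint
  have hc : c ∈ 𝒪 := hint _ hcint
  have hwinv : (algebraMap A L w)⁻¹ ∈ 𝒪 := hunit w hw
  have hw0 : algebraMap A L w ≠ 0 := by
    intro h0
    have hw0' : w = 0 := hinj (by rw [h0, map_zero])
    exact hw (hw0' ▸ dvd_zero s)
  have hs0 : algebraMap A L s ≠ 0 := by
    intro h0
    exact hs.ne_zero (hinj (by rw [h0, map_zero]))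
  have hsx : algebraMap A L s * x = (algebraMap A L w)⁻¹ * (algebraMap A L (w * s) * x) := by
    rw [map_mul]
    field_simp
  refine ⟨hsx ▸ 𝒪.mul_mem _ _ hwinv hW, ?_⟩
  intro hx0 hinv
  -- then `W = w s x` is a unit of `𝒪`, so `s c = W ^ (n+1)` is a unit, so `s` is a unit
  have hWinv : (algebraMap A L (w * s) * x)⁻¹ ∈ 𝒪 := by
    have e : (algebraMap A L (w * s) * x)⁻¹ = (algebraMap A L w)⁻¹ * (algebraMap A L s * x)⁻¹ := by
      rw [map_mul, mul_assoc, mul_inv]
    rw [e]
    exact 𝒪.mul_mem _ _ hwinv hinv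
  have hpowinv : ((algebraMap A L (w * s) * x) ^ (n + 1))⁻¹ ∈ 𝒪 := by
    rw [← inv_pow]
    exact pow_mem hWinv _
  rw [hpow, mul_inv] at hpowinv
  have hc0 : c ≠ 0 := by
    intro hc0
    rw [hc0, mul_zero] at hpow
    have hW0 : algebraMap A L (w * s) * x = 0 := (pow_eq_zero_iff (Nat.succ_ne_zero n)).mp hpow
    rcases mul_eq_zero.mp hW0 with h | h
    · rw [map_mul] at h
      rcases mul_eq_zero.mp h with h | h
      · exact hw0 h
      · exact hs0 h
    · exact hx0 h
  apply hsO
  have e : (algebraMap A L s)⁻¹ = (algebraMap A L s)⁻¹ * c⁻¹ * c := by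
    field_simp
  rw [e]
  exact 𝒪.mul_mem _ _ hpowinv hc

/-- **Tame trace dual at a valuation ring, principal ideal domain form.**  If `A` is a PID the
unit hypothesis of `tame_nil_valuationSubring` is automatic: `s` is a non-unit of `𝒪 ⊇ A`, hence
every `t ∉ (s)` (coprime to `s`) is a unit of `𝒪`. -/
theorem tame_nil_center [IsPrincipalIdealRing A]
    (s : A) (hs : Prime s) (hchar : ∀ n : ℕ, n ≠ 0 → ¬ s ∣ (n : A))
    (x : L)
    (hx : ∀ y : L, IsIntegral A y → ∃ a t : A, ¬ s ∣ t ∧
      Algebra.trace K L (x * y) * algebraMap A K t = algebraMap A K a)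
    (𝒪 : ValuationSubring L) (hA : ∀ a : A, algebraMap A L a ∈ 𝒪)
    (hsO : (algebraMap A L s)⁻¹ ∉ 𝒪) :
    algebraMap A L s * x ∈ 𝒪 ∧ (x ≠ 0 → (algebraMap A L s * x)⁻¹ ∉ 𝒪) := by
  refine tame_nil_valuationSubring (K := K) s hs hchar x hx 𝒪 hA (fun t ht => ?_) hsO
  -- `s` and `t` are coprime
  have hcop : IsCoprime s t := (Irreducible.coprime_iff_not_dvd hs.irreducible).mpr ht
  obtain ⟨a, b, hab⟩ := hcop
  -- `1 = a s + b t` in `L`; if `t⁻¹ ∉ 𝒪` then `t` is in the maximal ideal, and so is `s`
  by_contra htO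
  have h1 : algebraMap A L a * algebraMap A L s + algebraMap A L b * algebraMap A L t = 1 := by
    rw [← map_mul, ← map_mul, ← map_add, hab, map_one]
  -- the valuation of `𝒪`
  have hval : ∀ y : L, y ∈ 𝒪 → y⁻¹ ∉ 𝒪 → 𝒪.valuation y < 1 := by
    intro y hy hyinv
    have h0 : 𝒪.valuation y ≤ 1 := (𝒪.valuation_le_one_iff y).mpr hy
    rcases lt_or_eq_of_le h0 with h | h
    · exact h
    · exfalso
      apply hyinv
      rw [← 𝒪.valuation_le_one_iff, map_inv₀, h, inv_one]
  have hs1 : 𝒪.valuation (algebraMap A L s) < 1 := hval _ (hA s) hsO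
  have ht1 : 𝒪.valuation (algebraMap A L t) < 1 := hval _ (hA t) htO
  have ha1 : 𝒪.valuation (algebraMap A L a) ≤ 1 := (𝒪.valuation_le_one_iff _).mpr (hA a)
  have hb1 : 𝒪.valuation (algebraMap A L b) ≤ 1 := (𝒪.valuation_le_one_iff _).mpr (hA b)
  have hlt : 𝒪.valuation (algebraMap A L a * algebraMap A L s +
      algebraMap A L b * algebraMap A L t) < 1 := by
    refine lt_of_le_of_lt (Valuation.map_add _ _ _) (max_lt ?_ ?_)
    · rw [map_mul]
      exact lt_of_le_of_lt (mul_le_of_le_one_left' ha1) hs1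
    · rw [map_mul]
      exact lt_of_le_of_lt (mul_le_of_le_one_left' hb1) ht1
  rw [h1, map_one] at hlt
  exact lt_irrefl _ hlt

/-- If every nonzero element of `A` is a unit of the valuation ring `𝒪 ⊇ A` of `L`
(`𝒪` has no centre on `A`), then `𝒪` is everything. -/
theorem mem_of_forall_inv_mem {A : Type*} (K : Type*) {L : Type*} [CommRing A] [IsDomain A]
    [Field K] [Algebra A K] [IsFractionRing A K] [Field L] [Algebra K L] [FiniteDimensional K L]
    [Algebra A L] [IsScalarTower A K L]
    (𝒪 : ValuationSubring L) (hA : ∀ a : A, algebraMap A L a ∈ 𝒪)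
    (hall : ∀ a : A, a ≠ 0 → (algebraMap A L a)⁻¹ ∈ 𝒪) (x : L) : x ∈ 𝒪 := by
  have hint : ∀ y : L, IsIntegral A y → y ∈ 𝒪 := by
    intro y hy
    have h1 : IsIntegral 𝒪 y := by
      obtain ⟨p, hp, hpy⟩ := hy
      let φ : A →+* 𝒪 := (algebraMap A L).codRestrict 𝒪.toSubring hA
      refine ⟨p.map φ, hp.map φ, ?_⟩
      rw [Polynomial.eval₂_map]
      have : (algebraMap 𝒪 L).comp φ = algebraMap A L := RingHom.ext fun a => rfl
      rw [this]
      exact hpy
    obtain ⟨z, hz⟩ := (IsIntegrallyClosed.isIntegral_iff (R := 𝒪) (K := L)).mp h1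
    rw [← hz]
    exact z.2
  have hinj : Function.Injective (algebraMap A L) := by
    rw [IsScalarTower.algebraMap_eq A K L]
    exact (algebraMap K L).injective.comp (IsFractionRing.injective A K)
  have halg : Algebra.IsAlgebraic A L := by
    have h1 : Algebra.IsAlgebraic K L := Algebra.IsAlgebraic.of_finite K L
    exact (IsFractionRing.comap_isAlgebraic_iff (A := A) (K := K) (C := L)).mpr h1
  obtain ⟨a, ha0, hay⟩ := (halg.isAlgebraic x).exists_integral_multiple
  have hax : algebraMap A L a * x ∈ 𝒪 := by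
    rw [← Algebra.smul_def]
    exact hint _ hay
  have ha0' : algebraMap A L a ≠ 0 := by
    intro h0
    exact ha0 (hinj (by rw [h0, map_zero]))
  have e : x = (algebraMap A L a)⁻¹ * (algebraMap A L a * x) := by
    field_simp
  rw [e]
  exact 𝒪.mul_mem _ _ (hall a ha0) hax

end Fermat.Agent.S44.D.TameNil
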